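import Fermat.Agent.LevelRaising.SymbolsIhara
import Fermat.Agent.Periods.Injective
import Fermat.Agent.Eigenforms.Character
import Fermat.Agent.Periods.EichlerShimura
import Fermat.Agent.MFIntegral.IntegralStructure

/-!
# Modular symbols of weight two cusp forms

The symbol `(x, y) ↦ ∫ₓʸ f` attached to a cusp form, its compatibility with the Hecke operators
and with complex conjugation, and the converse: a Hecke eigensymbol which is not Eisenstein gives
a normalised eigenform with the same eigenvalues.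
-/

set_option autoImplicit false

noncomputable section

open Matrix CongruenceSubgroup UpperHalfPlane Filter Topology
open scoped MatrixGroups ModularForm OnePoint

namespace FLTAgent.LevelRaising

/-- Chain rule for a matrix of positive determinant. -/
theorem isPrimitive_comp_gl {F f : ℍ → ℂ} (hF : Periods.IsPrimitive F f) {g : GL (Fin 2) ℝ}
    (hdet : 0 < g.val.det) : Periods.IsPrimitive (fun w => F (g • w)) (f ∣[(2 : ℤ)] g) := by
  intro τ
  have h1 := (hasStrictDerivAt_smul hdet τ).hasDerivAt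
  have h2 : HasDerivAt (F ∘ ofComplex) (f (g • τ))
      ((fun z ↦ ↑(g • ofComplex z) : ℂ → ℂ) τ) := by
    simpa using hF (g • τ)
  have h3 := h2.comp (τ : ℂ) h1
  have e : (f ∣[(2 : ℤ)] g) τ = f (g • τ) * ((g.val.det : ℂ) / denom g τ ^ 2) := by
    rw [ModularForm.slash_apply, UpperHalfPlane.σ, if_pos (by simpa using hdet)]
    simp [abs_of_pos hdet, _root_.zpow_neg, div_eq_mul_inv, mul_assoc,
      Matrix.GeneralLinearGroup.val_det_apply]
  rw [e]
  refine h3.congr_of_eventuallyEq (Eventually.of_forall fun z => ?_)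
  simp [Function.comp_apply]

theorem realGL_ofMat_det {A : M2} (hA : 0 < A.det) :
    0 < (realGL (ofMat A)).val.det := by
  have h : (realGL (ofMat A)).val.det = ((A.det : ℤ) : ℝ) := by
    simp [Matrix.det_fin_two, realGL_apply, ofMat_apply hA.ne']
  rw [h]; exact_mod_cast hA

theorem realGL_heckeFam_some {ℓ : ℕ} (hℓ : ℓ ≠ 0) (j : Fin ℓ) :
    realGL (ofMat (heckeFam ℓ (some j))) = ModularForm.heckeMatrix ℓ j := by
  ext a b
  rw [realGL_apply, ofMat_apply (heckeFam_det_ne_zero hℓ _), ModularForm.val_heckeMatrix hℓ]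
  fin_cases a <;> fin_cases b <;> simp

theorem realGL_heckeFam_none {ℓ : ℕ} (hℓ : ℓ ≠ 0) :
    realGL (ofMat (heckeFam ℓ none)) = ModularForm.heckeDiagMatrix ℓ := by
  ext a b
  rw [realGL_apply, ofMat_apply (heckeFam_det_ne_zero hℓ _), ModularForm.val_heckeDiagMatrix hℓ]
  fin_cases a <;> fin_cases b <;> simp

variable {L : ℕ} [NeZero L]

/-- The chosen primitive of a cusp form. -/
def prim (f : CuspForm (Gamma0 L) 2) : ℍ → ℂ :=
  (Periods.exists_hasEquivariantPrimitive f).choose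

theorem prim_spec (f : CuspForm (Gamma0 L) 2) :
    ModularCurve.HasEquivariantPrimitive L f (prim f) :=
  (Periods.exists_hasEquivariantPrimitive f).choose_spec

/-- The limit of the primitive at a cusp. -/
def cuspVal (f : CuspForm (Gamma0 L) 2) (x : Cusp) : ℂ :=
  limUnder atImInfty fun w : ℍ => prim f ((exists_glQ_infty x).choose • w)

/-- Limits of the primitive along any matrix of positive determinant. -/
theorem tendsto_cuspVal (f : CuspForm (Gamma0 L) 2) {A : M2} (hA : 0 < A.det) :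
    Tendsto (fun w => prim f (mact A w)) atImInfty (𝓝 (cuspVal f (ofMat A • (∞ : Cusp)))) := by
  set x := ofMat A • (∞ : Cusp) with hx
  set h := (exists_glQ_infty x).choose with hh
  have hhx : glQ h • (∞ : Cusp) = x := (exists_glQ_infty x).choose_spec
  obtain ⟨c, hc⟩ := (prim_spec f).2.2.2 h
  have hval : cuspVal f x = c := hc.limUnder_eq
  set B : M2 := ((h⁻¹ : SL(2, ℤ)) : M2) * A with hB
  have hBd : B.det ≠ 0 := by
    rw [hB, Matrix.det_mul, Matrix.SpecialLinearGroup.det_coe, one_mul]; exact hA.ne'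
  have hB10 : B 1 0 = 0 := by
    have e : ofMat B • (∞ : Cusp) = ∞ := by
      rw [hB, ofMat_mul (sl_det_ne_zero _) hA.ne', ofMat_coe, mul_smul, ← hx, ← hhx,
        ← mul_smul, ← map_mul, inv_mul_cancel, map_one, one_smul]
    rw [OnePoint.smul_infty_eq_ite] at e
    simp only [ofMat_apply hBd, Int.cast_eq_zero] at e
    by_contra hne
    rw [if_neg hne] at e
    exact OnePoint.coe_ne_infty _ e
  have hlim : Tendsto (fun w => mact B w) atImInfty atImInfty :=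
    UpperHalfPlane.tendsto_smul_atImInfty (by rw [realGL_apply, ofMat_apply hBd, hB10]; simp)
  rw [hval]
  refine (hc.comp hlim).congr fun w => ?_
  have e : mact A w = h • mact B w := by
    rw [← mact_sl, ← mact_mul (sl_det_ne_zero _) hBd, hB, ← mul_assoc,
      ← Matrix.SpecialLinearGroup.coe_mul, mul_inv_cancel, Matrix.SpecialLinearGroup.coe_one,
      one_mul]
  rw [Function.comp_apply, e]

theorem tendsto_cuspVal_sl (f : CuspForm (Gamma0 L) 2) (δ : SL(2, ℤ)) :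
    Tendsto (fun w => prim f (δ • w)) atImInfty (𝓝 (cuspVal f (glQ δ • (∞ : Cusp)))) := by
  have h := tendsto_cuspVal f (A := (δ : M2)) (by rw [δ.det_coe]; exact one_pos)
  rw [ofMat_coe] at h
  simpa only [mact_sl] using h

theorem cuspVal_smul (f : CuspForm (Gamma0 L) 2) (γ : Gamma0 L) (x : Cusp) :
    cuspVal f (glQ (γ : SL(2, ℤ)) • x) =
      cuspVal f x + ModularCurve.periodMap L f (Additive.ofMul γ) := by
  obtain ⟨h, rfl⟩ := exists_glQ_infty x
  rw [← glQ_mul_smul]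
  refine tendsto_nhds_unique (tendsto_cuspVal_sl f ((γ : SL(2, ℤ)) * h))
    (((tendsto_cuspVal_sl f h).add_const _).congr fun w => ?_)
  rw [mul_smul, Periods.periodMap_apply (prim_spec f) γ (h • w)]
  ring

variable (L) in
/-- The modular symbol of a cusp form. -/
def perSymb : CuspForm (Gamma0 L) 2 →ₗ[ℂ] (Cusp → Cusp → ℂ) where
  toFun f x y := cuspVal f y - cuspVal f x
  map_add' f g := by
    have key : ∀ x, cuspVal (f + g) x = cuspVal f x + cuspVal g x := fun x => by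
      obtain ⟨h, rfl⟩ := exists_glQ_infty x
      refine tendsto_nhds_unique (tendsto_cuspVal_sl (f + g) h)
        (((tendsto_cuspVal_sl f h).add (tendsto_cuspVal_sl g h)).congr fun w => ?_)
      rw [Periods.hasEquivariantPrimitive_unique (prim_spec (f + g))
        (Periods.hasEquivariantPrimitive_add (prim_spec f) (prim_spec g)), Pi.add_apply]
    funext x y
    simp only [key, Pi.add_apply]; ring
  map_smul' a f := by
    have key : ∀ x, cuspVal (a • f) x = a * cuspVal f x := fun x => by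
      obtain ⟨h, rfl⟩ := exists_glQ_infty x
      refine tendsto_nhds_unique (tendsto_cuspVal_sl (a • f) h)
        (((tendsto_cuspVal_sl f h).const_mul a).congr fun w => ?_)
      rw [Periods.hasEquivariantPrimitive_unique (prim_spec (a • f))
        (Periods.hasEquivariantPrimitive_smul a (prim_spec f)), Pi.smul_apply, smul_eq_mul]
    funext x y
    simp only [key, RingHom.id_apply, Pi.smul_apply, smul_eq_mul]; ring

theorem perSymb_apply (f : CuspForm (Gamma0 L) 2) (x y : Cusp) :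
    perSymb L f x y = cuspVal f y - cuspVal f x := rfl

theorem perSymb_mem (f : CuspForm (Gamma0 L) 2) : perSymb L f ∈ Lev ℂ L := by
  refine ⟨fun x y z => ?_, fun γ hγ x y => ?_⟩
  · simp only [perSymb_apply]; ring
  · simp only [perSymb_apply]
    rw [cuspVal_smul f ⟨γ, hγ⟩, cuspVal_smul f ⟨γ, hγ⟩]
    ring

theorem perSymb_period (f : CuspForm (Gamma0 L) 2) (γ : Gamma0 L) (x : Cusp) :
    perSymb L f x (glQ (γ : SL(2, ℤ)) • x) = ModularCurve.periodMap L f (Additive.ofMul γ) := by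
  rw [perSymb_apply, cuspVal_smul]; ring

theorem perSymb_ne_zero {f : CuspForm (Gamma0 L) 2} (hf : f ≠ 0) : perSymb L f ≠ 0 := by
  refine fun h => hf (Periods.eq_zero_of_re_periodMap_eq_zero f fun γ => ?_)
  rw [← perSymb_period f γ ∞, h]; simp

/-- A form given by a sum of slashes has the symbol given by the sum of pullbacks. -/
theorem perSymb_pullFam {ι : Type*} [Fintype ι] {A : ι → M2} (hA : ∀ i, 0 < (A i).det)
    (f g : CuspForm (Gamma0 L) 2) (hg : ⇑g = ∑ i, (⇑f) ∣[(2 : ℤ)] realGL (ofMat (A i))) :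
    perSymb L g = pullFam ℂ A (perSymb L f) := by
  set C : ℂ := ∑ i, cuspVal f (ofMat (A i) • (∞ : Cusp)) with hC
  let G : ℍ → ℂ := fun w => ∑ i, prim f (mact (A i) w) - C
  have hlim : ∀ δ : SL(2, ℤ), Tendsto (fun w : ℍ => G (δ • w)) atImInfty
      (𝓝 (∑ i, cuspVal f (ofMat (A i) • glQ δ • (∞ : Cusp)) - C)) := fun δ => by
    refine (tendsto_finsetSum _ fun i _ => ?_).sub_const C
    have h := tendsto_cuspVal f (A := A i * (δ : M2))
      (by rw [Matrix.det_mul, δ.det_coe, mul_one]; exact hA i)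
    rw [ofMat_mul (hA i).ne' (sl_det_ne_zero δ), ofMat_coe, mul_smul] at h
    refine h.congr fun w => ?_
    rw [mact_mul (hA i).ne' (sl_det_ne_zero δ), mact_sl]
  have hprim : Periods.IsPrimitive G g := fun τ => by
    have h : ∀ i, HasDerivAt ((fun w => prim f (mact (A i) w)) ∘ ofComplex)
        (((⇑f) ∣[(2 : ℤ)] realGL (ofMat (A i))) τ) τ :=
      fun i => isPrimitive_comp_gl (prim_spec f).1 (realGL_ofMat_det (hA i)) τ
    have h' := (HasDerivAt.fun_sum (u := Finset.univ) fun i _ => h i).sub_const C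
    rw [hg, Finset.sum_apply]
    exact h'
  have hG : ModularCurve.HasEquivariantPrimitive L g G := by
    refine ⟨hprim, ?_, fun γ => ?_, fun δ => ⟨_, hlim δ⟩⟩
    · have h := hlim 1
      simp only [map_one, one_smul] at h
      rwa [hC, sub_self] at h
    · have h1 := hprim.comp_smul (γ : SL(2, ℤ))
      rw [Periods.slash_eq_self] at h1
      obtain ⟨c, hc⟩ := h1.exists_eq_add hprim
      exact ⟨c, fun z => by rw [hc z]; ring⟩
  have key : ∀ x, cuspVal g x = ∑ i, cuspVal f (ofMat (A i) • x) - C := fun x => by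
    obtain ⟨h, rfl⟩ := exists_glQ_infty x
    refine tendsto_nhds_unique (tendsto_cuspVal_sl g h) ?_
    rw [Periods.hasEquivariantPrimitive_unique (prim_spec g) hG]
    exact hlim h
  funext x y
  rw [perSymb_apply, key, key, pullFam_apply, Finset.sum_apply, Finset.sum_apply]
  simp only [pull_apply, perSymb_apply, Finset.sum_sub_distrib]
  ring

theorem perSymb_heckeT {ℓ : ℕ} (hℓ : ℓ.Prime) (hℓL : ¬ ℓ ∣ L) (f : CuspForm (Gamma0 L) 2) :
    perSymb L (CuspForm.heckeTLin 2 hℓ hℓL f) = tOp ℂ ℓ (perSymb L f) := by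
  refine perSymb_pullFam (fun i => by rw [heckeFam_det]; exact_mod_cast hℓ.pos) f _ ?_
  rw [CuspForm.coe_heckeTLin_apply, ModularForm.heckeT_def, Fintype.sum_option,
    realGL_heckeFam_none hℓ.ne_zero, Finset.sum_range, add_comm]
  simp only [realGL_heckeFam_some hℓ.ne_zero]

theorem perSymb_heckeU {q : ℕ} (hq : q.Prime) (hqL : q ∣ L) (f : CuspForm (Gamma0 L) 2) :
    perSymb L (CuspForm.heckeULin 2 hqL f) = uOp ℂ q (perSymb L f) := by
  refine perSymb_pullFam (fun i => by rw [heckeFam_det]; exact_mod_cast hq.pos) f _ ?_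
  rw [CuspForm.coe_heckeULin_apply, ModularForm.heckeU_def, Finset.sum_range]
  simp only [realGL_heckeFam_some hq.ne_zero]

/-- The matrix of `τ ↦ -τ̄`. -/
def jMat : M2 := !![-1, 0; 0, 1]

theorem jMat_det : jMat.det = -1 := by simp [jMat, Matrix.det_fin_two]

theorem jMat_det_ne_zero : jMat.det ≠ 0 := by rw [jMat_det]; decide

theorem jMat_mul_sl (γ : SL(2, ℤ)) :
    jMat * (γ : M2) = (ModularCurve.Period.jConjSL γ : M2) * jMat := by
  ext a b
  fin_cases a <;> fin_cases b <;>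
    simp [jMat, Matrix.mul_apply, Fin.sum_univ_two, ModularCurve.Period.jConjMat]

variable (R : Type*) [CommRing R]

/-- The involution of modular symbols induced by `τ ↦ -τ̄`. -/
def jOp : (Cusp → Cusp → R) →ₗ[R] (Cusp → Cusp → R) := pull R (ofMat jMat)

variable {R}

omit [NeZero L] in
theorem jOp_mem {Φ : Cusp → Cusp → R} (hΦ : Φ ∈ Lev R L) : jOp R Φ ∈ Lev R L := by
  refine ⟨fun x y z => hΦ.1 _ _ _, fun γ hγ x y => ?_⟩
  show Φ (ofMat jMat • glQ γ • x) (ofMat jMat • glQ γ • y) = Φ (ofMat jMat • x) (ofMat jMat • y)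
  have e : ∀ z : Cusp, ofMat jMat • glQ γ • z =
      glQ (ModularCurve.Period.jConjSL γ) • ofMat jMat • z := fun z => by
    rw [← mul_smul, ← mul_smul, ← ofMat_coe, ← ofMat_coe,
      ← ofMat_mul jMat_det_ne_zero (sl_det_ne_zero _),
      ← ofMat_mul (sl_det_ne_zero _) jMat_det_ne_zero, jMat_mul_sl]
  rw [e, e, Symb.smul_cusps hΦ (ModularCurve.Period.jConjSL_mem_Gamma0 hγ)]

omit [NeZero L] in
theorem jOp_pullFam {Φ : Cusp → Cusp → R} (hΦ : Φ ∈ Lev R L) {ι : Type*} [Fintype ι] (A : ι → M2)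
    (hA : ∀ i, (A i).det ≠ 0) (σ : ι → ι) (hσ : Function.Bijective σ) (g : ι → Gamma0 L)
    (h : ∀ i, jMat * A i = ((g i : SL(2, ℤ)) : M2) * A (σ i) * jMat) :
    pullFam R A (jOp R Φ) = jOp R (pullFam R A Φ) := by
  rw [pullFam_apply, pullFam_apply, map_sum]
  refine Fintype.sum_bijective σ hσ _ _ fun i => ?_
  rw [jOp, ← pull_ofMat_mul jMat_det_ne_zero (hA i), h i,
    pull_ofMat_mul (by rw [Matrix.det_mul]; exact mul_ne_zero (sl_det_ne_zero _) (hA _))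
      jMat_det_ne_zero, pull_sl_mul hΦ (g i).2 (hA _)]

omit [NeZero L] in
theorem exists_jMat_mul_heckeFam_some {ℓ : ℕ} (j : Fin ℓ) :
    ∃ (k : Fin ℓ) (g : Gamma0 L), ((k : ℕ) + (j : ℕ)) % ℓ = 0 ∧
      jMat * heckeFam ℓ (some j) = ((g : SL(2, ℤ)) : M2) * heckeFam ℓ (some k) * jMat := by
  rcases eq_or_ne (j : ℕ) 0 with h | h
  · refine ⟨j, ⟨1, one_mem _⟩, by simp [h], ?_⟩
    ext a b
    fin_cases a <;> fin_cases b <;>
      simp [jMat, Matrix.mul_apply, Fin.sum_univ_two, h]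
  · refine ⟨⟨ℓ - j, by omega⟩, ⟨mT ^ (-1 : ℤ), mT_zpow_mem_Gamma0 L _⟩, ?_, ?_⟩
    · rw [show ℓ - (j : ℕ) + (j : ℕ) = ℓ by omega, Nat.mod_self]
    · rw [ModularGroup.coe_T_zpow]
      ext a b
      fin_cases a <;> fin_cases b <;>
        simp [jMat, Matrix.mul_apply, Fin.sum_univ_two, Nat.cast_sub j.2.le]
      ring

omit [NeZero L] in
theorem jOp_uOp {Φ : Cusp → Cusp → R} (hΦ : Φ ∈ Lev R L) {ℓ : ℕ} (hℓ : ℓ.Prime) :
    uOp R ℓ (jOp R Φ) = jOp R (uOp R ℓ Φ) := by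
  choose σ g hσ hg using exists_jMat_mul_heckeFam_some (L := L) (ℓ := ℓ)
  refine jOp_pullFam hΦ _ (fun i => heckeFam_det_ne_zero hℓ.ne_zero _) σ
    (Finite.injective_iff_bijective.mp fun i j hij => ?_) g hg
  have h1 := hσ i
  have h2 := hσ j
  rw [hij] at h1
  have := i.2; have := j.2; have := (σ j).2
  apply Fin.ext
  have e : ((i : ℕ) : ZMod ℓ) = (j : ℕ) := by
    have e1 : (((σ j : ℕ) + (i : ℕ) : ℕ) : ZMod ℓ) = 0 :=
      (ZMod.natCast_eq_zero_iff _ _).mpr (Nat.dvd_of_mod_eq_zero h1)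
    have e2 : (((σ j : ℕ) + (j : ℕ) : ℕ) : ZMod ℓ) = 0 :=
      (ZMod.natCast_eq_zero_iff _ _).mpr (Nat.dvd_of_mod_eq_zero h2)
    push_cast at e1 e2
    linear_combination e1 - e2
  simpa [Nat.mod_eq_of_lt i.2, Nat.mod_eq_of_lt j.2] using (ZMod.natCast_eq_natCast_iff' _ _ _).mp e

omit [NeZero L] in
theorem jOp_tOp {Φ : Cusp → Cusp → R} (hΦ : Φ ∈ Lev R L) {ℓ : ℕ} (hℓ : ℓ.Prime) :
    tOp R ℓ (jOp R Φ) = jOp R (tOp R ℓ Φ) := by
  have h0 : jMat * heckeFam ℓ none = heckeFam ℓ none * jMat := by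
    ext a b
    fin_cases a <;> fin_cases b <;> simp [jMat, Matrix.mul_apply, Fin.sum_univ_two]
  rw [tOp_eq, tOp_eq, map_add, jOp_uOp hΦ hℓ]
  congr 1
  rw [jOp, ← pull_ofMat_mul jMat_det_ne_zero (heckeFam_det_ne_zero hℓ.ne_zero _), h0,
    pull_ofMat_mul (heckeFam_det_ne_zero hℓ.ne_zero _) jMat_det_ne_zero]

theorem jOp_perSymb_period (f : CuspForm (Gamma0 L) 2) (γ : Gamma0 L) (x : Cusp) :
    jOp ℂ (perSymb L f) x (glQ (γ : SL(2, ℤ)) • x) =
      ModularCurve.periodMap L f (Additive.ofMul (ModularCurve.Period.jConjGamma0 L γ)) := by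
  rw [← perSymb_period f (ModularCurve.Period.jConjGamma0 L γ) (ofMat jMat • x)]
  show perSymb L f (ofMat jMat • x) (ofMat jMat • glQ (γ : SL(2, ℤ)) • x) = _
  rw [← mul_smul, ← mul_smul, ← ofMat_coe, ← ofMat_coe,
    ← ofMat_mul jMat_det_ne_zero (sl_det_ne_zero _),
    ← ofMat_mul (sl_det_ne_zero _) jMat_det_ne_zero, jMat_mul_sl,
    ModularCurve.Period.jConjGamma0_coe]

variable (L) in
/-- The sum of the symbol of `s` and the conjugate symbol of `t`. -/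
def pairSymb : CuspForm (Gamma0 L) 2 × CuspForm (Gamma0 L) 2 →ₗ[ℂ] (Cusp → Cusp → ℂ) :=
  LinearMap.coprod (perSymb L) (jOp ℂ ∘ₗ perSymb L)

theorem pairSymb_apply (s t : CuspForm (Gamma0 L) 2) :
    pairSymb L (s, t) = perSymb L s + jOp ℂ (perSymb L t) := rfl

theorem pairSymb_mem (st : CuspForm (Gamma0 L) 2 × CuspForm (Gamma0 L) 2) :
    pairSymb L st ∈ Lev ℂ L := by
  obtain ⟨s, t⟩ := st
  rw [pairSymb_apply]
  exact add_mem (perSymb_mem s) (jOp_mem (perSymb_mem t))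

theorem periodHomPair_eq_pairSymb (u v : CuspForm (Gamma0 L) 2) (γ : Gamma0 L) (x : Cusp) :
    ModularCurve.periodHomPair L (u, v) (Additive.ofMul γ) =
      pairSymb L (u + v, u - v) x (glQ (γ : SL(2, ℤ)) • x) := by
  rw [pairSymb_apply, Pi.add_apply, Pi.add_apply, perSymb_period, jOp_perSymb_period,
    Periods.periodHomPair_apply, ← Periods.periodMapLin_apply, ← Periods.periodMapLin_apply,
    ← Periods.periodMapLin_apply, ← Periods.periodMapLin_apply, map_add, map_sub]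
  simp only [AddMonoidHom.add_apply, AddMonoidHom.sub_apply,
    ModularCurve.Period.charInvolution_apply, toMul_ofMul]
  ring

theorem pairSymb_injective : Function.Injective (pairSymb L) := by
  rw [injective_iff_map_eq_zero]
  rintro ⟨s, t⟩ h
  have h0 : ModularCurve.periodHomPair L ((2 : ℂ)⁻¹ • (s + t), (2 : ℂ)⁻¹ • (s - t)) = 0 := by
    refine AddMonoidHom.ext fun γ => ?_
    induction γ using Additive.rec with
    | ofMul γ =>
      rw [periodHomPair_eq_pairSymb _ _ γ ∞,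
        show (2 : ℂ)⁻¹ • (s + t) + (2 : ℂ)⁻¹ • (s - t) = s by module,
        show (2 : ℂ)⁻¹ • (s + t) - (2 : ℂ)⁻¹ • (s - t) = t by module, h]
      simp
  have h1 := (injective_iff_map_eq_zero _).mp (Periods.injective_periodHomPair L) _ h0
  rw [Prod.mk_eq_zero] at h1
  have e1 : s + t = 0 := (smul_eq_zero.mp h1.1).resolve_left (by norm_num)
  have e2 : s - t = 0 := (smul_eq_zero.mp h1.2).resolve_left (by norm_num)
  rw [sub_eq_zero] at e2
  subst e2
  have : (2 : ℂ) • s = 0 := by rw [two_smul]; exact e1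
  have hs := (smul_eq_zero.mp this).resolve_left two_ne_zero
  simp [hs]

theorem tOp_pairSymb {ℓ : ℕ} (hℓ : ℓ.Prime) (hℓL : ¬ ℓ ∣ L)
    (st : CuspForm (Gamma0 L) 2 × CuspForm (Gamma0 L) 2) :
    tOp ℂ ℓ (pairSymb L st) =
      pairSymb L (CuspForm.heckeTLin 2 hℓ hℓL st.1, CuspForm.heckeTLin 2 hℓ hℓL st.2) := by
  obtain ⟨s, t⟩ := st
  rw [pairSymb_apply, pairSymb_apply, map_add, jOp_tOp (perSymb_mem t) hℓ, perSymb_heckeT hℓ hℓL,
    perSymb_heckeT hℓ hℓL]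

theorem uOp_pairSymb {q : ℕ} (hq : q.Prime) (hqL : q ∣ L)
    (st : CuspForm (Gamma0 L) 2 × CuspForm (Gamma0 L) 2) :
    uOp ℂ q (pairSymb L st) =
      pairSymb L (CuspForm.heckeULin 2 hqL st.1, CuspForm.heckeULin 2 hqL st.2) := by
  obtain ⟨s, t⟩ := st
  rw [pairSymb_apply, pairSymb_apply, map_add, jOp_uOp (perSymb_mem t) hq, perSymb_heckeU hq hqL,
    perSymb_heckeU hq hqL]

/-- For `ℓ ≡ 1`, the operator `T_ℓ - (1 + ℓ)` maps every symbol to a symbol of cusp forms. -/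
theorem exists_pairSymb_shift {Φ : Cusp → Cusp → ℂ} (hΦ : Φ ∈ Lev ℂ L) {ℓ : ℕ} (hℓ : ℓ.Prime)
    (hℓL : ¬ ℓ ∣ L) (h1 : ℓ ≡ 1 [MOD L]) :
    ∃ st, pairSymb L st = tOp ℂ ℓ Φ - ((1 : ℂ) + ℓ) • Φ := by
  let χ : Additive (Gamma0 L) →+ ℂ :=
    { toFun := fun g => Φ ∞ (glQ ((Additive.toMul g : Gamma0 L) : SL(2, ℤ)) • ∞)
      map_zero' := by simp [Symb.self_eq_zero hΦ]
      map_add' := fun a b => by
        rw [toMul_add, Subgroup.coe_mul, glQ_mul_smul,
          ← Symb.add_cusps hΦ ∞ (glQ ((Additive.toMul a : Gamma0 L) : SL(2, ℤ)) • ∞),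
          Symb.smul_cusps hΦ (Additive.toMul a : Gamma0 L).2] }
  have hper : ∀ (γ : Gamma0 L) (x : Cusp),
      Φ x (glQ (γ : SL(2, ℤ)) • x) = χ (Additive.ofMul γ) := fun γ x => by
    show _ = Φ ∞ (glQ (γ : SL(2, ℤ)) • ∞)
    rw [← Symb.add_cusps hΦ x ∞, ← Symb.add_cusps hΦ ∞ (glQ (γ : SL(2, ℤ)) • ∞),
      Symb.smul_cusps hΦ γ.2, Symb.swap hΦ x ∞]
    ring
  have hpar : χ ∈ ModularCurve.Period.parabolicHoms ℂ (Gamma0 L) ℂ := by
    rw [ModularCurve.Period.mem_parabolicHoms_iff]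
    intro γ hγ
    obtain ⟨δ, hδ⟩ := Periods.exists_conj_lowerLeft_eq_zero hγ
    have hfix : glQ (γ : SL(2, ℤ)) • glQ δ • (∞ : Cusp) = glQ δ • ∞ := by
      have h0 : glQ (δ⁻¹ * (γ : SL(2, ℤ)) * δ) • (∞ : Cusp) = ∞ := by
        rw [OnePoint.smul_infty_eq_ite, glQ_apply, hδ]; simp
      calc glQ (γ : SL(2, ℤ)) • glQ δ • (∞ : Cusp)
          = glQ δ • glQ (δ⁻¹ * (γ : SL(2, ℤ)) * δ) • (∞ : Cusp) := by
            rw [← glQ_mul_smul, ← glQ_mul_smul]; congr 2; group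
        _ = glQ δ • ∞ := by rw [h0]
    rw [← hper γ (glQ δ • ∞), hfix, Symb.self_eq_zero hΦ]
  rw [← (Periods.periodHomPair_eichlerShimura L).2] at hpar
  obtain ⟨⟨u, v⟩, huv⟩ := hpar
  set Ψ := Φ - pairSymb L (u + v, u - v) with hΨdef
  have hΨ : Ψ ∈ Lev ℂ L := sub_mem hΦ (pairSymb_mem _)
  have hΨ0 : ∀ γ ∈ CongruenceSubgroup.Gamma L, ∀ x, Ψ x (glQ γ • x) = 0 := by
    intro γ hγ x
    have hγ0 : γ ∈ Gamma0 L := Gamma0_mem.mpr ((CongruenceSubgroup.Gamma_mem.mp hγ).2.2.1)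
    rw [hΨdef, Pi.sub_apply, Pi.sub_apply, hper ⟨γ, hγ0⟩,
      ← periodHomPair_eq_pairSymb u v ⟨γ, hγ0⟩, huv, sub_self]
  have hT := tOp_eq_smul_of_periods hΨ hΨ0 hℓ h1
  rw [hΨdef, map_sub, tOp_pairSymb hℓ hℓL, smul_sub] at hT
  refine ⟨(CuspForm.heckeTLin 2 hℓ hℓL (u + v), CuspForm.heckeTLin 2 hℓ hℓL (u - v)) -
    ((1 : ℂ) + ℓ) • (u + v, u - v), ?_⟩
  rw [map_sub, map_smul]
  linear_combination (norm := module) -hT

/-- An eigensymbol for `T_ℓ`, `ℓ ≡ 1`, with eigenvalue other than `1 + ℓ` comes from cusp forms. -/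
theorem exists_pairSymb_eq {Φ : Cusp → Cusp → ℂ} (hΦ : Φ ∈ Lev ℂ L) {ℓ : ℕ} (hℓ : ℓ.Prime)
    (hℓL : ¬ ℓ ∣ L) (h1 : ℓ ≡ 1 [MOD L]) {a : ℂ} (ha : tOp ℂ ℓ Φ = a • Φ)
    (hne : a ≠ 1 + ℓ) : ∃ st, pairSymb L st = Φ := by
  obtain ⟨st, hst⟩ := exists_pairSymb_shift hΦ hℓ hℓL h1
  refine ⟨(a - (1 + ℓ))⁻¹ • st, ?_⟩
  rw [map_smul, hst, inv_smul_eq_iff₀ (sub_ne_zero.mpr hne), ha, sub_smul]

/-- A non-Eisenstein Hecke eigensymbol gives a normalised eigenform. -/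
theorem exists_eigenform_of_symb {q : ℕ} (hq : q.Prime) (hqL : q ∣ L) {Φ : Cusp → Cusp → ℂ}
    (hΦ : Φ ∈ Lev ℂ L) (hΦ0 : Φ ≠ 0) (a : ℕ → ℂ) {ε : ℂ}
    (ha : ∀ ℓ, ℓ.Prime → ¬ ℓ ∣ L → tOp ℂ ℓ Φ = a ℓ • Φ) (hε : uOp ℂ q Φ = ε • Φ)
    (hne : ∃ ℓ, ℓ.Prime ∧ ¬ ℓ ∣ L ∧ ℓ ≡ 1 [MOD L] ∧ a ℓ ≠ 1 + ℓ) :
    ∃ g : CuspForm (Gamma0 L) 2, g.IsNormalizedEigenform ∧ ModularFormClass.qCoeff g q = ε ∧
      ∀ ℓ, ℓ.Prime → ¬ ℓ ∣ L → ModularFormClass.qCoeff g ℓ = a ℓ := by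
  obtain ⟨ℓ₀, hℓ₀, hℓ₀L, hℓ₀1, hne'⟩ := hne
  obtain ⟨⟨s, t⟩, hst⟩ := exists_pairSymb_eq hΦ hℓ₀ hℓ₀L hℓ₀1 (ha ℓ₀ hℓ₀ hℓ₀L) hne'
  have heigT : ∀ (ℓ : ℕ) (hℓ : Nat.Prime ℓ) (hℓL : ¬ ℓ ∣ L),
      (CuspForm.heckeTLin 2 hℓ hℓL s, CuspForm.heckeTLin 2 hℓ hℓL t) = a ℓ • (s, t) := by
    intro ℓ hℓ hℓL
    apply pairSymb_injective
    rw [← tOp_pairSymb hℓ hℓL (s, t), map_smul, hst, ha ℓ hℓ hℓL]
  have heigU : (CuspForm.heckeULin 2 hqL s, CuspForm.heckeULin 2 hqL t) = ε • (s, t) := by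
    apply pairSymb_injective
    rw [← uOp_pairSymb hq hqL (s, t), map_smul, hst, hε]
  obtain ⟨h, h0, hT, hU⟩ : ∃ h : CuspForm (Gamma0 L) 2, h ≠ 0 ∧
      (∀ (ℓ : ℕ) (hℓ : Nat.Prime ℓ) (hℓL : ¬ ℓ ∣ L), CuspForm.heckeTLin 2 hℓ hℓL h = a ℓ • h) ∧
      CuspForm.heckeULin 2 hqL h = ε • h := by
    rcases eq_or_ne s 0 with hs | hs
    · refine ⟨t, fun ht => hΦ0 ?_, fun ℓ hℓ hℓL => congrArg Prod.snd (heigT ℓ hℓ hℓL),
        congrArg Prod.snd heigU⟩
      rw [← hst, hs, ht, Prod.mk_zero_zero, map_zero]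
    · exact ⟨s, hs, fun ℓ hℓ hℓL => congrArg Prod.fst (heigT ℓ hℓ hℓL), congrArg Prod.fst heigU⟩
  set S : Set ℕ := {r | r ∣ L ∧ r ≠ q}
  obtain ⟨g, hg, hgh⟩ := Eigenforms.exists_eigenform_of_eigenvector (S := S)
    (MFIntegral.hasIntegralStructure L 2) h0 (fun ℓ hℓ hℓL _ => ⟨_, hT ℓ hℓ hℓL⟩)
    (fun r hrL _ hrS => by
      obtain rfl : r = q := by
        by_contra hrq
        exact hrS ⟨hrL, hrq⟩
      exact ⟨_, hU⟩)
  refine ⟨g, hg, ?_, fun ℓ hℓ hℓL => ?_⟩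
  · have hqS : q ∉ S := fun h => h.2 rfl
    rw [← Eigenforms.eigenChar_U (S := S) hg hq hqL hqS]
    exact smul_left_injective ℂ h0 ((hgh _).symm.trans hU)
  · have hℓS : ℓ ∉ S := fun h => hℓL h.1
    rw [← Eigenforms.eigenChar_T (S := S) hg hℓ hℓL hℓS]
    exact smul_left_injective ℂ h0 ((hgh _).symm.trans (hT ℓ hℓ hℓL))

end FLTAgent.LevelRaising
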