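import Fermat.Agent.LevelRaising.Crossing
import Mathlib.Algebra.Field.ZMod
import Mathlib.LinearAlgebra.FreeModule.PID
import Mathlib.Tactic.FinCases

/-!
# Crossing symbols span the integral symbols modulo an odd prime

A functional modulo an odd prime `p` on integral symbols which kills every crossing symbol is
zero (`eq_zero_of_forall_crossSymb`).  Used in Ihara's lemma for modular symbols.
-/

set_option autoImplicit false

noncomputable section

open Matrix MulAction
open scoped MatrixGroups UpperHalfPlane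

namespace FLTAgent.LevelRaising

theorem sign_re_smul_I (u : SL(2, ℤ)) :
    (SignType.sign ((u • UpperHalfPlane.I : ℍ).re) : ℤ) =
      (SignType.sign (u 0 0 * u 1 0 + u 0 1 * u 1 1) : ℤ) := by
  have hre : (u • UpperHalfPlane.I : ℍ).re =
      ((u 0 0 * u 1 0 + u 0 1 * u 1 1 : ℤ) : ℝ) / ((u 1 0 : ℝ) ^ 2 + (u 1 1 : ℝ) ^ 2) := by
    rw [← UpperHalfPlane.coe_re, UpperHalfPlane.coe_specialLinearGroup_apply]
    simp only [algebraMap_int_eq, eq_intCast, UpperHalfPlane.coe_I]
    simp [Complex.div_re, Complex.normSq_apply]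
    ring
  have hpos : 0 < ((u 1 0 : ℝ) ^ 2 + (u 1 1 : ℝ) ^ 2) := by
    rcases eq_or_ne (u 1 0) 0 with h | h
    · have hd : u 1 1 ≠ 0 := fun h' => by
        have := u.det_coe
        rw [Matrix.det_fin_two, h, h'] at this
        simp at this
      have : (0 : ℝ) < (u 1 1 : ℝ) ^ 2 := by positivity
      nlinarith
    · have : (0 : ℝ) < (u 1 0 : ℝ) ^ 2 := by positivity
      nlinarith
  rw [hre, div_eq_mul_inv, sign_mul, sign_pos (inv_pos.mpr hpos), mul_one]
  congr 1
  rcases lt_trichotomy (u 0 0 * u 1 0 + u 0 1 * u 1 1) 0 with h | h | h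
  · rw [sign_neg h, sign_neg (by exact_mod_cast h)]
  · simp [h]
  · rw [sign_pos h, sign_pos (by exact_mod_cast h)]

theorem side_zero_infty (z : ℍ) :
    side ((0 : ℚ) : Cusp) OnePoint.infty z = (SignType.sign z.re : ℤ) := by
  rw [side_swap, side_infty_coe]
  simp [Left.sign_neg]

theorem mS_smul_I : mS • (UpperHalfPlane.I : ℍ) = UpperHalfPlane.I := by
  rw [UpperHalfPlane.modular_S_smul]
  ext
  simp [UpperHalfPlane.coe_I]

/-- The change of side along the basic segment. -/
def basicTerm (u : SL(2, ℤ)) : ℤ :=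
  side ((0 : ℚ) : Cusp) OnePoint.infty (u • (mS * mT) • (UpperHalfPlane.I : ℍ)) -
    side ((0 : ℚ) : Cusp) OnePoint.infty (u • (UpperHalfPlane.I : ℍ))

theorem basicTerm_eq (u : SL(2, ℤ)) :
    basicTerm u = (SignType.sign (u 0 0 * u 1 0 - (u 0 0 * u 1 1 + u 0 1 * u 1 0)
      + 2 * (u 0 1 * u 1 1)) : ℤ) -
      (SignType.sign (u 0 0 * u 1 0 + u 0 1 * u 1 1) : ℤ) := by
  rw [basicTerm, ← mul_smul, side_zero_infty, side_zero_infty, sign_re_smul_I, sign_re_smul_I]
  simp [mS, mT, ModularGroup.coe_S, ModularGroup.coe_T, Matrix.mul_apply, Fin.sum_univ_two]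
  congr 2
  ring

/-- The support of `basicTerm`, up to sign. -/
def basicList : Fin 4 → SL(2, ℤ) := ![1, mS, (mS * mT * mS)⁻¹, (mS * mT)⁻¹]

theorem basicTerm_eq_zero {u : SL(2, ℤ)} (h : ∀ i, u ≠ basicList i ∧ u ≠ -basicList i) :
    basicTerm u = 0 := by
  rw [basicTerm_eq]
  set a := u 0 0 with ha
  set b := u 0 1 with hb
  set c := u 1 0 with hc
  set d := u 1 1 with hd
  have hdet : a * d - b * c = 1 := by
    have h := u.det_coe
    rw [Matrix.det_fin_two] at h
    exact h
  have key : ∀ {P Q : ℤ}, (0 < P ∧ 0 < Q) ∨ (P < 0 ∧ Q < 0) →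
      (SignType.sign Q : ℤ) - (SignType.sign P : ℤ) = 0 := by
    rintro P Q (⟨h1, h2⟩ | ⟨h1, h2⟩)
    · rw [sign_pos h1, sign_pos h2, sub_self]
    · rw [sign_neg h1, sign_neg h2, sub_self]
  have hprod : a * c * (b * d) = b * c * (b * c + 1) := by linear_combination b * c * hdet
  rcases lt_trichotomy (a * c * (b * d)) 0 with hlt | heq | hgt
  · exfalso
    rcases le_or_gt 0 (b * c) with h1 | h1 <;> nlinarith
  · -- one of the entries vanishes
    have not_cases : ∀ i, ¬ (a = basicList i 0 0 ∧ b = basicList i 0 1 ∧ c = basicList i 1 0 ∧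
        d = basicList i 1 1) ∧ ¬ (a = -basicList i 0 0 ∧ b = -basicList i 0 1 ∧
        c = -basicList i 1 0 ∧ d = -basicList i 1 1) := fun i => by
      constructor <;> rintro ⟨e1, e2, e3, e4⟩
      · refine (h i).1 ?_
        ext x y; fin_cases x <;> fin_cases y <;> simp [← ha, ← hb, ← hc, ← hd, e1, e2, e3, e4]
      · refine (h i).2 ?_
        ext x y; fin_cases x <;> fin_cases y <;> simp [← ha, ← hb, ← hc, ← hd, e1, e2, e3, e4]
    obtain ⟨n0, m0⟩ := not_cases 0
    obtain ⟨n1, m1⟩ := not_cases 1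
    obtain ⟨n2, m2⟩ := not_cases 2
    obtain ⟨n3, m3⟩ := not_cases 3
    simp [basicList, mS, mT, ModularGroup.coe_S, ModularGroup.coe_T, Matrix.adjugate_fin_two]
      at n0 m0 n1 m1 n2 m2 n3 m3
    rcases mul_eq_zero.mp heq with hac | hbd
    · rcases mul_eq_zero.mp hac with h0 | h0
      · have hbc : b * c = -1 := by rw [h0] at hdet; linarith
        rcases Int.eq_one_or_neg_one_of_mul_eq_neg_one hbc with hb1 | hb1 <;>
          (rcases eq_or_ne d 0 with hd0 | hd0
           · exfalso; grind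
           · simp only [h0, hb1] at *
             apply key
             grind)
      · have had : a * d = 1 := by rw [h0] at hdet; linarith
        rcases Int.eq_one_or_neg_one_of_mul_eq_one' had with ⟨h1, h2⟩ | ⟨h1, h2⟩ <;>
          (rcases eq_or_ne b 0 with hb0 | hb0
           · exfalso; grind
           · apply key
             grind)
    · rcases mul_eq_zero.mp hbd with h0 | h0
      · have had : a * d = 1 := by rw [h0] at hdet; linarith
        rcases Int.eq_one_or_neg_one_of_mul_eq_one' had with ⟨h1, h2⟩ | ⟨h1, h2⟩ <;>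
          (rcases eq_or_ne c 0 with hc0 | hc0
           · exfalso; grind
           · apply key
             grind)
      · have hbc : b * c = -1 := by rw [h0] at hdet; linarith
        rcases Int.eq_one_or_neg_one_of_mul_eq_neg_one hbc with hb1 | hb1 <;>
          (rcases eq_or_ne a 0 with ha0 | ha0
           · exfalso; grind
           · apply key
             grind)
  · apply key
    have hQ : (a * c + 2 * (b * d)) ^ 2 > (a * d + b * c) ^ 2 := by
      have : a * d + b * c = 2 * (b * c) + 1 := by linarith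
      rw [this]
      nlinarith [mul_self_nonneg (a * c), mul_self_pos.mpr (right_ne_zero_of_mul hgt.ne')]
    rcases pos_and_pos_or_neg_and_neg_of_mul_pos hgt with ⟨h1, h2⟩ | ⟨h1, h2⟩
    · exact Or.inl ⟨by linarith, by nlinarith⟩
    · exact Or.inr ⟨by linarith, by nlinarith⟩

/-- The eight matrices supporting `basicTerm`. -/
def basicPM : Fin 8 → SL(2, ℤ) := Fin.append basicList (fun i => -basicList i)

theorem basicPM_injective : Function.Injective basicPM := by
  unfold Function.Injective; decide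

theorem basicTerm_basicPM : ∀ i, basicTerm (basicPM i) = ![-1, 1, -1, 1, -1, 1, -1, 1] i := by
  intro i
  rw [basicTerm_eq]
  fin_cases i <;>
    simp [basicPM, basicList, Fin.append, Fin.addCases, mS, mT, ModularGroup.coe_S,
      ModularGroup.coe_T, Matrix.adjugate_fin_two]

variable {Γ : Subgroup SL(2, ℤ)}

/-- A sum weighted by a function vanishes when every fibre sum does. -/
theorem sum_mul_eq_zero_of_fiber {K : Type*} [CommRing K] [DecidableEq K] {X : Type*} [Fintype X]
    (f H : X → K) (h : ∀ v : K, ∑ x ∈ Finset.univ.filter (fun x => H x = v), f x = 0) :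
    ∑ x, f x * H x = 0 := by
  rw [← Finset.sum_fiberwise_of_maps_to (t := Finset.univ.image H)
    (fun x _ => Finset.mem_image_of_mem H (Finset.mem_univ x)) fun x => f x * H x]
  refine Finset.sum_eq_zero fun v _ => ?_
  rw [Finset.sum_congr rfl fun x hx => by rw [(Finset.mem_filter.mp hx).2], ← Finset.sum_mul, h v,
    zero_mul]

theorem filter_sum_perm {X M K : Type*} [Fintype X] [AddCommMonoid M] [DecidableEq K] (f : X → M)
    (H : X → K) (π : Equiv.Perm X) (hH : ∀ x, H (π x) = H x) (v : K) :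
    ∑ x ∈ Finset.univ.filter (fun x => H x = v), f (π x) =
      ∑ x ∈ Finset.univ.filter (fun x => H x = v), f x :=
  Finset.sum_equiv π (fun x => by simp [hH]) fun _ _ => rfl

/-- The Manin relations, in terms of the action on cosets. -/
theorem maninSpace_smul {R : Type*} [CommRing R] {f : (SL(2, ℤ) ⧸ Γ) → R}
    (hf : f ∈ maninSpace Γ R) (x : SL(2, ℤ) ⧸ Γ) :
    f (mS⁻¹ • x) = -f x ∧
      f x + f ((mS * mT)⁻¹ • x) + f ((mS * mT)⁻¹ • (mS * mT)⁻¹ • x) = 0 := by
  have hfmk : ∀ a : SL(2, ℤ), f (a⁻¹ • x) = f ↑((x.out⁻¹ * a)⁻¹) := fun a => by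
    conv_lhs => rw [← QuotientGroup.out_eq' x, MulAction.Quotient.smul_coe, smul_eq_mul]
    congr 2
    group
  obtain ⟨h1, h2⟩ := hf x.out⁻¹
  rw [inv_inv, QuotientGroup.out_eq'] at h1 h2
  refine ⟨by rw [hfmk]; linear_combination h1, ?_⟩
  simp only [← mul_smul, ← _root_.mul_inv_rev, hfmk]
  simpa [mul_assoc] using h2

/-- Functions on `SL(2,ℤ)` invariant under `Γ`, read on cosets. -/
theorem apply_smul_out_inv {α : Type*} {L : SL(2, ℤ) → α} (hL : ∀ γ ∈ Γ, ∀ k, L (γ * k) = L k)
    (a : SL(2, ℤ)) (x : SL(2, ℤ) ⧸ Γ) : L ((a • x).out⁻¹) = L (x.out⁻¹ * a⁻¹) := by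
  conv_lhs => rw [← QuotientGroup.out_eq' x, MulAction.Quotient.smul_coe, smul_eq_mul]
  obtain ⟨⟨t, ht⟩, he⟩ := QuotientGroup.mk_out_eq_mul Γ (a * x.out)
  simp only at he
  rw [he, _root_.mul_inv_rev, _root_.mul_inv_rev, hL _ (inv_mem ht)]

/-- A weight `F` on cosets killing all crossing numbers is orthogonal to every `f` satisfying the
Manin relations, given through their consequences for fibre sums. -/
theorem sum_mul_eq_zero_of_crossing {K : Type*} [Field K] [DecidableEq K]
    [Fintype (SL(2, ℤ) ⧸ Γ)] (hneg : -1 ∈ Γ) (h2ne : (2 : K) ≠ 0)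
    (f F : (SL(2, ℤ) ⧸ Γ) → K)
    (hF : ∀ γ ∈ Γ, ∑ x, (crossing Γ (glQ x.out⁻¹ • ((0 : ℚ) : Cusp))
      (glQ x.out⁻¹ • OnePoint.infty) UpperHalfPlane.I (γ • UpperHalfPlane.I) : K) * F x = 0)
    (hfS : ∀ x, f (mS⁻¹ • x) = -f x)
    (hfR : ∀ H : (SL(2, ℤ) ⧸ Γ) → K, (∀ x, H ((mS * mT)⁻¹ • x) = H x) →
      ∀ v, ∑ x ∈ Finset.univ.filter (fun x => H x = v), f x = 0) :
    ∑ x, f x * F x = 0 := by
  classical
  let e : (SL(2, ℤ) ⧸ Γ) → SL(2, ℤ) := fun x => x.out⁻¹
  let C : (SL(2, ℤ) ⧸ Γ) → ℍ → ℍ → ℤ := fun x z w =>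
    crossing Γ (glQ (e x) • ((0 : ℚ) : Cusp)) (glQ (e x) • OnePoint.infty) z w
  let G : SL(2, ℤ) → K := fun k =>
    ∑ x, (C x UpperHalfPlane.I (k • UpperHalfPlane.I) : K) * F x
  have hGinv : ∀ γ ∈ Γ, ∀ k, G (γ * k) = G k := by
    intro γ hγ k
    have h0 : ∑ x, (C x UpperHalfPlane.I (γ • UpperHalfPlane.I) : K) * F x = 0 := hF γ hγ
    simp only [G]
    calc _ = ∑ x, ((C x UpperHalfPlane.I (γ • UpperHalfPlane.I) : K) * F x +
        (C x UpperHalfPlane.I (k • UpperHalfPlane.I) : K) * F x) := by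
          refine Finset.sum_congr rfl fun x _ => ?_
          simp only [C, crossing_mul Γ hγ]
          push_cast; ring
      _ = _ := by rw [Finset.sum_add_distrib, h0, zero_add]
  have hGS : ∀ k, G (k * mS) = G k := fun k => by simp only [G, mul_smul, mS_smul_I]
  let F' : SL(2, ℤ) → K := fun k => F ↑(k⁻¹)
  have hF'inv : ∀ γ ∈ Γ, ∀ k, F' (γ * k) = F' k := fun γ hγ k => by
    simp only [F']
    congr 1
    rw [QuotientGroup.eq]
    simpa [mul_assoc] using hγ
  have hF'neg : ∀ k, F' (-k) = F' k := fun k => by rw [← neg_one_mul k, hF'inv _ hneg]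
  let ψ' : SL(2, ℤ) → K := fun k => F' k - F' (k * mS)
  have hstep : ∀ k, G (k * (mS * mT)) - G k = 2 * (ψ' (k * (mS * mT)) - ψ' k) := by
    intro k
    have e1 : G (k * (mS * mT)) - G k =
        ∑ x, (C x (k • UpperHalfPlane.I) ((k * (mS * mT)) • UpperHalfPlane.I) : K) * F x := by
      simp only [G, ← Finset.sum_sub_distrib]
      refine Finset.sum_congr rfl fun x _ => ?_
      simp only [C]
      rw [← crossing_add_path Γ _ _ _ (k • UpperHalfPlane.I)]
      push_cast; ring
    let term : (SL(2, ℤ) ⧸ Γ) × Γ → K := fun xg =>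
      (basicTerm (xg.1.out * (xg.2 : SL(2, ℤ)) * k) : K) * F xg.1
    have hinj : Function.Injective fun xg : (SL(2, ℤ) ⧸ Γ) × Γ =>
        xg.1.out * (xg.2 : SL(2, ℤ)) * k := by
      rintro ⟨x, g⟩ ⟨y, g'⟩ he
      have he' := mul_right_cancel (he : x.out * (g : SL(2, ℤ)) * k = y.out * g' * k)
      have hxy : x = y := by
        have := congrArg (fun a : SL(2, ℤ) => (a : SL(2, ℤ) ⧸ Γ)) he'
        simpa [QuotientGroup.mk_mul_of_mem] using this
      subst hxy
      exact Prod.ext rfl (Subtype.ext (mul_left_cancel he'))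
    let pre : Fin 8 → (SL(2, ℤ) ⧸ Γ) × Γ := fun i =>
      ⟨↑(basicPM i * k⁻¹), ⟨(↑(basicPM i * k⁻¹) : SL(2, ℤ) ⧸ Γ).out⁻¹ * (basicPM i * k⁻¹), by
        rw [← QuotientGroup.eq, QuotientGroup.out_eq']⟩⟩
    have hpre : ∀ i, (pre i).1.out * ((pre i).2 : SL(2, ℤ)) * k = basicPM i := fun i => by
      simp [pre]
    have hsupp : ∀ xg, term xg ≠ 0 → ∃ i, xg = pre i := by
      intro xg hne
      by_contra hcon
      push Not at hcon
      refine hne ?_
      simp only [term]
      rw [basicTerm_eq_zero, Int.cast_zero, zero_mul]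
      intro i
      constructor <;> intro hi
      · exact hcon (Fin.castAdd 4 i) (hinj (by
          simp only [hpre, basicPM, Fin.append_left]; exact hi))
      · exact hcon (Fin.natAdd 4 i) (hinj (by
          simp only [hpre, basicPM, Fin.append_right]; exact hi))
    have e2 : (∑ x, (C x (k • UpperHalfPlane.I) ((k * (mS * mT)) • UpperHalfPlane.I) : K) * F x)
        = ∑ i : Fin 8, term (pre i) := by
      have hb : ∀ (x : SL(2, ℤ) ⧸ Γ) (g : Γ),
          crossTerm Γ (glQ (e x) • ((0 : ℚ) : Cusp)) (glQ (e x) • OnePoint.infty)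
            (k • UpperHalfPlane.I) ((k * (mS * mT)) • UpperHalfPlane.I) g =
          basicTerm (x.out * (g : SL(2, ℤ)) * k) := fun x g => by
        simp only [crossTerm, basicTerm, side_glQ_left, e, inv_inv, mul_smul]
      calc _ = ∑ x, ∑ᶠ g : Γ, term (x, g) := by
            refine Finset.sum_congr rfl fun x _ => ?_
            simp only [C, crossing, term]
            show Int.castAddHom K (∑ᶠ g : Γ, crossTerm Γ (glQ (e x) • ((0 : ℚ) : Cusp))
              (glQ (e x) • OnePoint.infty) (k • UpperHalfPlane.I)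
              ((k * (mS * mT)) • UpperHalfPlane.I) g) * F x = _
            rw [map_finsum (Int.castAddHom K) (finite_support_crossTerm Γ _ _ _ _),
              finsum_mul']
            · refine finsum_congr fun g => ?_
              show ((crossTerm Γ (glQ (e x) • ((0 : ℚ) : Cusp)) (glQ (e x) • OnePoint.infty)
                (k • UpperHalfPlane.I) ((k * (mS * mT)) • UpperHalfPlane.I) g : ℤ) : K) * F x
                = _
              rw [hb]
            · refine (finite_support_crossTerm Γ (glQ (e x) • ((0 : ℚ) : Cusp))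
                (glQ (e x) • OnePoint.infty) (k • UpperHalfPlane.I)
                ((k * (mS * mT)) • UpperHalfPlane.I)).subset fun g hg => ?_
              rw [Function.mem_support] at hg ⊢
              exact fun h0 => hg ((congrArg (Int.castAddHom K) h0).trans (map_zero _))
        _ = ∑ᶠ xg, term xg := by
            rw [finsum_curry _ ?_, finsum_eq_sum_of_fintype]
            exact ((Set.finite_range pre)).subset fun xg hxg => by
              obtain ⟨i, rfl⟩ := hsupp xg hxg; exact ⟨i, rfl⟩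
        _ = ∑ xg ∈ Finset.univ.image pre, term xg :=
            finsum_eq_finsetSum_of_support_subset _ fun xg hxg => by
              obtain ⟨i, rfl⟩ := hsupp xg hxg; simp
        _ = ∑ i : Fin 8, term (pre i) := Finset.sum_image fun i _ j _ hij =>
            basicPM_injective (by rw [← hpre i, ← hpre j, hij])
    have hval : ∀ i, term (pre i) = ((![-1, 1, -1, 1, -1, 1, -1, 1] i : ℤ) : K) *
        F' (k * (basicPM i)⁻¹) := fun i => by
      simp only [term, hpre, basicTerm_basicPM, pre, F', _root_.mul_inv_rev, inv_inv]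
    have hSinv : mS⁻¹ = -mS := by decide
    rw [e1, e2]
    simp only [hval, Fin.sum_univ_eight]
    simp [basicPM, basicList, Fin.append, Fin.addCases, hF'neg, ψ', mul_assoc, hSinv]
    ring
  let G₁ : (SL(2, ℤ) ⧸ Γ) → K := fun x => G x.out⁻¹
  let H₁ : (SL(2, ℤ) ⧸ Γ) → K := fun x => G x.out⁻¹ - 2 * ψ' x.out⁻¹
  have hψinv : ∀ γ ∈ Γ, ∀ k, ψ' (γ * k) = ψ' k := fun γ hγ k => by
    simp only [ψ', hF'inv γ hγ, mul_assoc]
  let πS : Equiv.Perm (SL(2, ℤ) ⧸ Γ) := MulAction.toPerm mS⁻¹
  have z1 := sum_mul_eq_zero_of_fiber f G₁ fun v => by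
    have h1 := filter_sum_perm f G₁ πS (fun x => by
      simp only [G₁, πS, MulAction.toPerm_apply, apply_smul_out_inv hGinv, inv_inv, hGS]) v
    simp only [πS, MulAction.toPerm_apply, hfS, Finset.sum_neg_distrib] at h1
    exact (mul_eq_zero.mp (show (2 : K) * _ = 0 by linear_combination -h1)).resolve_left h2ne
  have z2 := sum_mul_eq_zero_of_fiber f H₁ (hfR H₁ fun x => by
    simp only [H₁, apply_smul_out_inv hGinv, apply_smul_out_inv hψinv, inv_inv]
    linear_combination hstep x.out⁻¹)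
  have zψ : ∑ x, f x * ψ' x.out⁻¹ = 0 := by
    have : 2 * ∑ x, f x * ψ' x.out⁻¹ =
        (∑ x, f x * G₁ x) - ∑ x, f x * H₁ x := by
      rw [Finset.mul_sum, ← Finset.sum_sub_distrib]
      exact Finset.sum_congr rfl fun x _ => by simp only [G₁, H₁]; ring
    rw [z1, z2, sub_zero] at this
    exact (mul_eq_zero.mp this).resolve_left h2ne
  have hsum : ∑ x, f x * ψ' x.out⁻¹ = 2 * ∑ x, f x * F x := by
    have h5 : ∀ x, ψ' x.out⁻¹ = F x - F (πS x) := fun x => by
      simp only [ψ', F', πS, MulAction.toPerm_apply, inv_inv, QuotientGroup.out_eq',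
        _root_.mul_inv_rev]
      congr 1
      congr 1
      conv_rhs => rw [← QuotientGroup.out_eq' x, MulAction.Quotient.smul_coe, smul_eq_mul]
    have h6 : ∑ x, f x * F (πS x) = -∑ x, f x * F x := by
      rw [← Finset.sum_neg_distrib]
      refine Fintype.sum_equiv πS _ _ fun x => ?_
      have h7 : f (πS x) = -f x := hfS x
      rw [h7]; ring
    simp only [h5, mul_sub, Finset.sum_sub_distrib, h6]
    ring
  rw [hsum] at zψ
  exact (mul_eq_zero.mp zψ).resolve_left h2ne


variable [Γ.FiniteIndex] {p : ℕ} [Fact p.Prime]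

/-- A functional on integral symbols modulo `p` which kills every crossing symbol is zero. -/
theorem eq_zero_of_forall_crossSymb (hp2 : p ≠ 2) (hneg : -1 ∈ Γ)
    (φ : Symb Γ ℤ →+ ZMod p) (h : ∀ γ, φ (crossSymb Γ γ) = 0) : φ = 0 := by
  classical
  have : Fintype (SL(2, ℤ) ⧸ Γ) := Fintype.ofFinite _
  -- a projection onto the Manin space
  have : Module.IsTorsionFree ℤ (((SL(2, ℤ) ⧸ Γ) → ℤ) ⧸ maninSpace Γ ℤ) := by
    refine .of_smul_eq_zero fun n x hx => ?_
    obtain ⟨v, rfl⟩ := Submodule.Quotient.mk_surjective _ x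
    rw [or_iff_not_imp_left]
    intro hn
    rw [← Submodule.Quotient.mk_smul, Submodule.Quotient.mk_eq_zero] at hx
    rw [Submodule.Quotient.mk_eq_zero]
    intro g
    obtain ⟨h1, h2⟩ := hx g
    simp only [Pi.smul_apply, smul_eq_mul, ← mul_add] at h1 h2
    exact ⟨(mul_eq_zero.mp h1).resolve_left hn, (mul_eq_zero.mp h2).resolve_left hn⟩
  obtain ⟨s, hs⟩ := Module.projective_lifting_property (maninSpace Γ ℤ).mkQ LinearMap.id
    (maninSpace Γ ℤ).mkQ_surjective
  let P : ((SL(2, ℤ) ⧸ Γ) → ℤ) →ₗ[ℤ] maninSpace Γ ℤ :=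
    LinearMap.codRestrict _ (LinearMap.id - s ∘ₗ (maninSpace Γ ℤ).mkQ) fun v => by
      refine (Submodule.Quotient.mk_eq_zero _).mp ?_
      show (maninSpace Γ ℤ).mkQ (v - s ((maninSpace Γ ℤ).mkQ v)) = 0
      rw [map_sub, ← LinearMap.comp_apply, hs, LinearMap.id_apply, sub_self]
  let ψ : ((SL(2, ℤ) ⧸ Γ) → ℤ) →+ ZMod p :=
    (φ.comp (symbEquiv (R := ℤ) hneg).symm.toLinearMap.toAddMonoidHom).comp P.toAddMonoidHom
  let F : (SL(2, ℤ) ⧸ Γ) → ZMod p := fun x => ψ (Pi.single x 1)
  have hF : ∀ Φ : Symb Γ ℤ,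
      φ Φ = ∑ x, ((cosetFun (R := ℤ) Φ.1 x : ℤ) : ZMod p) * F x := by
    intro Φ
    have h1 : φ Φ = ψ (cosetFun Φ.1) := by
      have : P (cosetFun Φ.1) = symbEquiv hneg Φ := by
        refine Subtype.ext ?_
        simp only [P, LinearMap.codRestrict_apply, LinearMap.sub_apply, LinearMap.id_apply,
          LinearMap.comp_apply, symbEquiv_apply]
        rw [Submodule.mkQ_apply, (Submodule.Quotient.mk_eq_zero _).mpr (cosetFun_mem Φ.2)]
        simp
      simp [ψ, this]
    rw [h1]
    conv_lhs => rw [show cosetFun Φ.1 = ∑ x, cosetFun Φ.1 x •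
        (Pi.single x 1 : (SL(2, ℤ) ⧸ Γ) → ℤ) by funext y; simp [Finset.sum_apply, Pi.single_apply]]
    rw [map_sum]
    refine Finset.sum_congr rfl fun x _ => ?_
    rw [map_zsmul, zsmul_eq_mul]
  refine AddMonoidHom.ext fun Φ => ?_
  rw [hF Φ, AddMonoidHom.zero_apply]
  have hf := cosetFun_mem (Φ := Φ.1) Φ.2
  set f := cosetFun (Γ := Γ) Φ.1
  have h2ne : (2 : ZMod p) ≠ 0 := by
    intro h2
    have : (p : ℕ) ∣ 2 := (ZMod.natCast_eq_zero_iff 2 p).mp (by exact_mod_cast h2)
    exact hp2 ((Nat.prime_dvd_prime_iff_eq Fact.out Nat.prime_two).mp this)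
  refine sum_mul_eq_zero_of_crossing hneg h2ne _ F (fun γ hγ => ?_)
    (fun x => by rw [(maninSpace_smul hf x).1, Int.cast_neg]) fun H hH v => ?_
  · have := hF (crossSymb Γ (Additive.ofMul ⟨γ, hγ⟩))
    rw [h] at this
    exact this.symm
  · let πR : Equiv.Perm (SL(2, ℤ) ⧸ Γ) := MulAction.toPerm (mS * mT)⁻¹
    have h1 := filter_sum_perm f H πR hH v
    have h2 := filter_sum_perm f H (πR * πR) (fun x => (hH _).trans (hH x)) v
    have h4 : ∑ x ∈ Finset.univ.filter (fun x => H x = v),
        (f x + f (πR x) + f ((πR * πR) x)) = 0 :=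
      Finset.sum_eq_zero fun x _ => (maninSpace_smul hf x).2
    simp only [Finset.sum_add_distrib, h1, h2] at h4
    rw [← Int.cast_sum, show ∑ x ∈ Finset.univ.filter (fun x => H x = v), f x = 0 by linarith,
      Int.cast_zero]

end FLTAgent.LevelRaising
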