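import Fermat.Agent.GaloisImage.Rep
import Fermat.Agent.ECTorsion.GlobalTrace
import Fermat.Agent.Density.Chebotarev

/-!
# An irreducible mod `p` representation is not Eisenstein

For a Weierstrass model with irreducible mod `p` torsion there are good primes `ℓ ≡ 1 (mod m)`
with `a_ℓ ≢ 2 (mod p)`.
-/

set_option autoImplicit false

open Matrix WeierstrassCurve WeierstrassCurve.Affine WeierstrassCurve.Affine.Point
open scoped WeierstrassCurve.Affine

namespace FLTAgent.LevelRaising

section LinearAlgebra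

variable {k : Type} [Field k] {G : Type} [Group G] (R : G →* Matrix (Fin 2) (Fin 2) k)

/-- A representation trivial on commutators, with a reflection in its image, has a stable line. -/
theorem exists_stable_of_commute {c : G} (hc : R c * R c = 1) (hdet : (R c).det = -1)
    (h2 : (2 : k) ≠ 0) (hcomm : ∀ g, R g * R c = R c * R g) :
    ∃ v, GaloisImage.StableVec R ⊤ v := by
  have hne1 : R c ≠ 1 := fun h => h2 (by
    rw [h, det_one] at hdet; linear_combination hdet)
  obtain ⟨j, hj⟩ : ∃ j, (R c + 1) *ᵥ Pi.single j (1 : k) ≠ 0 := by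
    by_contra h
    push Not at h
    have h0 : R c + 1 = 0 := by
      ext i j
      simpa [Matrix.mulVec_single_one] using congrFun (h j) i
    have : R c = -1 := eq_neg_of_add_eq_zero_left h0
    rw [this, det_neg, det_one, Fintype.card_fin] at hdet
    exact h2 (by linear_combination hdet)
  set v := (R c + 1) *ᵥ Pi.single j (1 : k) with hv
  have hfix : R c *ᵥ v = v := by
    rw [hv, mulVec_mulVec, mul_add, mul_one, hc, add_comm]
  refine ⟨v, hj, fun g _ => ?_⟩
  set w := R g *ᵥ v with hw
  have hwfix : R c *ᵥ w = w := by rw [hw, mulVec_mulVec, ← hcomm, ← mulVec_mulVec, hfix]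
  -- two independent fixed vectors would force `R c = 1`
  have hD : v 0 * w 1 - v 1 * w 0 = 0 := by
    by_contra hD
    apply hne1
    have a0 := congrFun hfix 0
    have a1 := congrFun hfix 1
    have b0 := congrFun hwfix 0
    have b1 := congrFun hwfix 1
    simp [mulVec, dotProduct, Fin.sum_univ_two] at a0 a1 b0 b1
    have key : ∀ {x : k}, x * (v 0 * w 1 - v 1 * w 0) = 0 → x = 0 := fun h =>
      (mul_eq_zero.mp h).resolve_right hD
    ext i j
    fin_cases i <;> fin_cases j <;> simp [one_apply] <;> refine sub_eq_zero.mp (key ?_)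
    · linear_combination w 1 * a0 - v 1 * b0
    · linear_combination v 0 * b0 - w 0 * a0
    · linear_combination w 1 * a1 - v 1 * b1
    · linear_combination v 0 * b1 - w 0 * a1
  obtain ⟨i, hi⟩ := Function.ne_iff.mp hj
  simp only [Pi.zero_apply] at hi
  refine ⟨w i / v i, funext fun l => ?_⟩
  rw [Pi.smul_apply, smul_eq_mul, div_mul_eq_mul_div, eq_div_iff hi]
  fin_cases i <;> fin_cases l
  · show w 0 * v 0 = w 0 * v 0; rfl
  · show w 1 * v 0 = w 0 * v 1; linear_combination hD
  · show w 0 * v 1 = w 1 * v 0; linear_combination -hD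
  · show w 1 * v 1 = w 1 * v 1; rfl

/-- A representation, unipotent and nontrivial on a normal subgroup, has a stable line. -/
theorem exists_stable_of_unipotent {H : Subgroup G} [H.Normal]
    (htr : ∀ h ∈ H, (R h).trace = 2) (hdet : ∀ h ∈ H, (R h).det = 1) {h₀ : G} (hh₀ : h₀ ∈ H)
    (hne : R h₀ ≠ 1) : ∃ v, GaloisImage.StableVec R ⊤ v := by
  classical
  set a := R h₀ 0 0 - 1 with ha
  set b := R h₀ 0 1 with hb
  set c := R h₀ 1 0 with hc
  have hd : R h₀ 1 1 = 1 - a := by
    have := htr h₀ hh₀
    rw [trace_fin_two] at this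
    linear_combination this + ha
  have hnil : a * a + b * c = 0 := by
    have := hdet h₀ hh₀
    rw [det_fin_two, hd, show R h₀ 0 0 = 1 + a by rw [ha]; ring] at this
    linear_combination -this
  set v : Fin 2 → k := if b = 0 then ![0, 1] else ![b, -a] with hv
  have hv0 : v ≠ 0 := by
    by_cases h : b = 0
    · exact fun e => one_ne_zero (α := k) (by simpa [hv, h] using congrFun e 1)
    · exact fun e => h (by simpa [hv, h] using congrFun e 0)
  -- every element of `H` fixes `v`
  have hfix : ∀ h ∈ H, R h *ᵥ v = v := by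
    intro h hh
    set x := R h 0 0 - 1 with hx
    set y := R h 0 1 with hy
    set z := R h 1 0 with hz
    have hw : R h 1 1 = 1 - x := by
      have := htr h hh
      rw [trace_fin_two] at this
      linear_combination this + hx
    have hnil' : x * x + y * z = 0 := by
      have := hdet h hh
      rw [det_fin_two, hw, show R h 0 0 = 1 + x by rw [hx]; ring] at this
      linear_combination -this
    have htr' : 2 * a * x + b * z + c * y = 0 := by
      have := htr _ (H.mul_mem hh₀ hh)
      rw [map_mul, trace_fin_two, mul_apply, mul_apply, Fin.sum_univ_two, Fin.sum_univ_two, hd, hw,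
        show R h₀ 0 0 = 1 + a by rw [ha]; ring, show R h 0 0 = 1 + x by rw [hx]; ring,
        ← hb, ← hc, ← hy, ← hz] at this
      linear_combination this
    have h00 : R h 0 0 = 1 + x := by rw [hx]; ring
    by_cases hb0 : b = 0
    · have ha0 : a = 0 := mul_self_eq_zero.mp (by linear_combination hnil - c * hb0)
      have hc0 : c ≠ 0 := fun hc0 => hne (by
        ext i j
        fin_cases i <;> fin_cases j
        · show R h₀ 0 0 = 1; linear_combination ha0 - ha
        · show R h₀ 0 1 = 0; exact hb0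
        · show R h₀ 1 0 = 0; exact hc0
        · show R h₀ 1 1 = 1; linear_combination hd - ha0)
      have hy0 : y = 0 := (mul_eq_zero.mp
        (show c * y = 0 by linear_combination htr' - 2 * x * ha0 - z * hb0)).resolve_left hc0
      have hx0 : x = 0 := mul_self_eq_zero.mp (by linear_combination hnil' - z * hy0)
      ext i
      fin_cases i <;> simp [hv, hb0, mulVec, dotProduct, Fin.sum_univ_two, ← hy, hy0, hw, hx0]
    · have e0 : x * b - y * a = 0 := mul_self_eq_zero.mp (by
        linear_combination b * b * hnil' + y * y * hnil - b * y * htr')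
      have e1 : z * b + x * a = 0 := mul_self_eq_zero.mp (by
        linear_combination b * z * htr' + (a * a) * hnil' - y * z * hnil)
      ext i
      fin_cases i <;> simp [hv, hb0, mulVec, dotProduct, Fin.sum_univ_two, ← hy, ← hz, hw, h00]
      · linear_combination e0
      · linear_combination e1
  refine ⟨v, hv0, fun g _ => ?_⟩
  set w := R g *ᵥ v with hw'
  have hw0 : R h₀ *ᵥ w = w := by
    have e : h₀ * g = g * (g⁻¹ * h₀ * g) := by group
    rw [hw', mulVec_mulVec, ← map_mul, e, map_mul, ← mulVec_mulVec,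
      hfix _ (Subgroup.Normal.conj_mem' inferInstance h₀ hh₀ g)]
  have f0 := congrFun hw0 0
  have f1 := congrFun hw0 1
  simp [mulVec, dotProduct, Fin.sum_univ_two, ← hb, ← hc, hd,
    show R h₀ 0 0 = 1 + a by rw [ha]; ring] at f0 f1
  by_cases hb0 : b = 0
  · have ha0 : a = 0 := mul_self_eq_zero.mp (by linear_combination hnil - c * hb0)
    have hc0 : c ≠ 0 := fun hc0 => hne (by
      ext i j
      fin_cases i <;> fin_cases j
      · show R h₀ 0 0 = 1; linear_combination ha0 - ha
      · show R h₀ 0 1 = 0; exact hb0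
      · show R h₀ 1 0 = 0; exact hc0
      · show R h₀ 1 1 = 1; linear_combination hd - ha0)
    have : w 0 = 0 := (mul_eq_zero.mp
      (show c * w 0 = 0 by linear_combination f1 + w 1 * ha0)).resolve_left hc0
    refine ⟨w 1, funext fun i => ?_⟩
    fin_cases i <;> simp [hv, hb0, this]
  · refine ⟨w 0 / b, funext fun i => ?_⟩
    fin_cases i
    · simp [hv, hb0]
    · simp [hv, hb0]
      field_simp
      linear_combination f0

end LinearAlgebra

open FLTAgent.Density (Qbar GalQ)

/-- The stabiliser of a root of unity is normal, as all actions on it commute. -/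
theorem commute_on_rootOfUnity {n : ℕ} [NeZero n] {ζ : Qbar} (hζ : IsPrimitiveRoot ζ n) :
    (MulAction.stabilizer GalQ ζ).Normal ∧ ∀ g g' : GalQ, g (g' ζ) = g' (g ζ) := by
  have hroot : ∀ g : GalQ, ∃ i : ℕ, g ζ = ζ ^ i := fun g => by
    obtain ⟨i, -, hi⟩ := hζ.eq_pow_of_pow_eq_one
      (show (g ζ) ^ n = 1 by rw [← map_pow, hζ.pow_eq_one, _root_.map_one])
    exact ⟨i, hi.symm⟩
  have hcomm : ∀ g g' : GalQ, g (g' ζ) = g' (g ζ) := fun g g' => by
    obtain ⟨i, hi⟩ := hroot g
    obtain ⟨j, hj⟩ := hroot g'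
    rw [hi, hj, map_pow, map_pow, hi, hj, pow_right_comm]
  refine ⟨⟨fun g (hg : g ζ = ζ) g' => ?_⟩, hcomm⟩
  show g' (g (g'⁻¹ ζ)) = ζ
  rw [hcomm g, hg, ← AlgEquiv.mul_apply, mul_inv_cancel, AlgEquiv.one_apply]

/-- **Non-Eisenstein primes.** -/
theorem exists_prime_not_eisenstein {W : WeierstrassCurve ℤ} {p : ℕ} [Fact p.Prime] (hp2 : p ≠ 2)
    (hΔ : W.Δ ≠ 0) (hirr : W.ModRepIsIrreducible p) {m : ℕ} (hm : 0 < m) (S : Finset ℕ) :
    ∃ ℓ, ℓ.Prime ∧ ℓ ∉ S ∧ W.IsGoodPrimeFor ℓ ∧ ℓ ≠ p ∧ ℓ ≡ 1 [MOD m] ∧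
      ¬ (p : ℤ) ∣ W.apOfModel ℓ - 2 := by
  classical
  by_contra hall
  push Not at hall
  have hp : p.Prime := Fact.out
  have : NeZero (m * p) := ⟨(Nat.mul_pos hm hp.pos).ne'⟩
  have : NeZero ((m * p : ℕ) : Qbar) := ⟨Nat.cast_ne_zero.mpr (NeZero.ne _)⟩
  obtain ⟨ζ, hζ⟩ := (inferInstance : HasEnoughRootsOfUnity Qbar (m * p)).prim
  obtain ⟨b⟩ := GaloisImage.exists_basis (p := p) hΔ
  set R := GaloisImage.matRep W p b with hR
  let H : Subgroup GalQ := MulAction.stabilizer GalQ ζ
  obtain ⟨hHn, hcomm⟩ := commute_on_rootOfUnity hζ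
  -- trace and determinant on `H`
  have hdet : ∀ σ ∈ H, (R σ).det = 1 := by
    intro σ hσ
    have := GaloisImage.det_eq_of_apply_eq_pow b hΔ (σ := σ) (m := 1) (fun x hx => by
      obtain ⟨i, -, hi⟩ := hζ.eq_pow_of_pow_eq_one
        (show x ^ (m * p) = 1 by rw [mul_comm, pow_mul, hx, one_pow])
      rw [← hi, map_pow, show σ ζ = ζ from hσ, pow_one])
    simpa using this
  have htr : ∀ σ ∈ H, (R σ).trace = 2 := by
    intro σ hσ
    have hell := GaloisImage.isElliptic_qbar hΔ
    have := ECTorsion.finite_torsionBy (W.map (Int.castRingHom ℚ)).toAffine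
      (K := AlgebraicClosure ℚ) (n := p) (Nat.cast_ne_zero.mpr hp.ne_zero)
    obtain ⟨E, hE, hEfix⟩ := ECTorsion.exists_fixingSubgroup_smul_eq (S := ℚ)
      (K := AlgebraicClosure ℚ) (W.map (Int.castRingHom ℚ)).toAffine (n := p)
    set L₀ : IntermediateField ℚ Qbar := E ⊔ IntermediateField.adjoin ℚ {ζ}
    have : FiniteDimensional ℚ (IntermediateField.adjoin ℚ ({ζ} : Set Qbar)) :=
      IntermediateField.adjoin.finiteDimensional (Algebra.IsIntegral.isIntegral ζ)
    have : FiniteDimensional ℚ L₀ := IntermediateField.finiteDimensional_sup _ _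
    set L : IntermediateField ℚ Qbar := IntermediateField.normalClosure ℚ L₀ Qbar
    have : FiniteDimensional ℚ L := normalClosure.is_finiteDimensional ..
    have : Normal ℚ L := normalClosure.normal ..
    have : IsGalois ℚ L := {}
    obtain ⟨ℓ, hℓ, hℓS, A, hA, -, φ, hφ, hagree⟩ := Density.exists_frobenius_agree L σ
      (S ∪ (m * p).primeFactors ∪ W.Δ.natAbs.primeFactors)
    simp only [Finset.mem_union, not_or] at hℓS
    obtain ⟨⟨hℓS, hℓmp⟩, hℓΔ⟩ := hℓS
    have hℓmp' : ¬ ℓ ∣ m * p := fun h => hℓmp (Nat.mem_primeFactors.mpr ⟨hℓ, h, NeZero.ne _⟩)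
    have hgood : W.IsGoodPrimeFor ℓ := fun h => hℓΔ (Nat.mem_primeFactors.mpr
      ⟨hℓ, Int.natCast_dvd.mp h, Int.natAbs_ne_zero.mpr hΔ⟩)
    have hℓp : ℓ ≠ p := fun h => hℓmp' (h ▸ dvd_mul_left p m)
    have hL₀ : ∀ x ∈ L₀, σ x = φ x := fun x hx =>
      hagree x (IntermediateField.le_normalClosure _ hx)
    have hℓ1 : ℓ ≡ 1 [MOD m] := by
      have h1 : ζ ^ ℓ = ζ ^ 1 := by
        rw [← Density.isFrobeniusAt_apply_of_pow_eq_one hℓ hA hφ hℓmp' hζ.pow_eq_one,
          ← hL₀ ζ (SetLike.le_def.mp le_sup_right (IntermediateField.mem_adjoin_simple_self ℚ ζ)),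
          show σ ζ = ζ from hσ, pow_one]
      obtain ⟨u, rfl⟩ := hζ.isUnit (NeZero.ne _)
      rw [← Units.val_pow_eq_pow_val, ← Units.val_pow_eq_pow_val, Units.val_inj,
        pow_eq_pow_iff_modEq, ← orderOf_units, ← hζ.eq_orderOf] at h1
      exact h1.of_dvd (dvd_mul_right m p)
    have hσφ : R σ = R φ := by
      have h1 : σ⁻¹ * φ ∈ E.fixingSubgroup := (IntermediateField.mem_fixingSubgroup_iff _ _).mpr
        fun x hx => by
          rw [AlgEquiv.mul_apply, ← hL₀ x (SetLike.le_def.mp le_sup_left hx),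
            ← AlgEquiv.mul_apply, inv_mul_cancel, AlgEquiv.one_apply]
      have h2 : R (σ⁻¹ * φ) = 1 := by
        change LinearMap.toMatrix b b _ = 1
        rw [show galoisRepModuleEnd ℚ (W.map (Int.castRingHom ℚ)).toAffine p (σ⁻¹ * φ) = 1 from
          LinearMap.ext fun z => hEfix _ h1 z, LinearMap.toMatrix_one]
      calc R σ = R σ * R (σ⁻¹ * φ) := by rw [h2, mul_one]
        _ = R φ := by rw [← map_mul, mul_inv_cancel_left]
    obtain ⟨a2, ha2⟩ := hall ℓ hℓ hℓS hgood hℓp hℓ1
    have htrace : (R φ).trace = (W.apOfModel ℓ : ZMod p) := by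
      rw [← ECTorsion.galoisTrace_eq_apOfModel hℓ hgood hℓp hA hφ, galoisTrace_def,
        LinearMap.trace_eq_matrix_trace (ZMod p) b]
      rfl
    rw [hσφ, htrace, show W.apOfModel ℓ = (p : ℤ) * a2 + 2 by linarith, Int.cast_add,
      Int.cast_mul, Int.cast_natCast, ZMod.natCast_self, zero_mul, zero_add]
    norm_num
  have hns := GaloisImage.noStableLine_matRep b hirr
  by_cases hex : ∃ h ∈ H, R h ≠ 1
  · obtain ⟨h₀, hh₀, hne⟩ := hex
    obtain ⟨v, hv⟩ := exists_stable_of_unipotent R htr hdet hh₀ hne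
    exact hns v hv
  · push Not at hex
    have hcc : R complexConjugation * R complexConjugation = 1 := by
      rw [← _root_.map_mul, complexConjugation_mul_self, _root_.map_one]
    obtain ⟨v, hv⟩ := exists_stable_of_commute R hcc
      (GaloisImage.det_matRep_involution b hΔ complexConjugation_mul_self
        GaloisImage.complexConjugation_ne_one)
      (GaloisImage.two_ne_zero_of_ne_two hp2) (fun g => by
        have hmem : g * complexConjugation * g⁻¹ * complexConjugation⁻¹ ∈ H := by
          show g (complexConjugation (g⁻¹ (complexConjugation⁻¹ ζ))) = ζ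
          rw [hcomm g⁻¹, ← AlgEquiv.mul_apply complexConjugation, mul_inv_cancel,
            AlgEquiv.one_apply, ← AlgEquiv.mul_apply, mul_inv_cancel, AlgEquiv.one_apply]
        have h := hex _ hmem
        calc R g * R complexConjugation
            = R (g * complexConjugation * g⁻¹ * complexConjugation⁻¹) *
                R (complexConjugation * g) := by rw [← map_mul, ← map_mul]; congr 1; group
          _ = R complexConjugation * R g := by rw [h, one_mul, map_mul])
    exact hns v hv

end FLTAgent.LevelRaising
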