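import Fermat.Agent.LevelRaising.IharaHom
import Fermat.Agent.LevelRaising.CrossingSpan

/-!
# Ihara's lemma for modular symbols modulo `p`

The two degeneracy maps are injective, and dually jointly surjective, away from symbols on which
`T_ℓ` acts as `1 + ℓ` for all `ℓ ≡ 1` modulo some integer.
-/

set_option autoImplicit false

noncomputable section

open Matrix CongruenceSubgroup OnePoint
open scoped MatrixGroups

namespace FLTAgent.LevelRaising

/-- A prime `ℓ ≡ 1` modulo `M`: translates of the standard representatives congruent to `1`. -/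
theorem exists_translate_heckeFam {ℓ M : ℕ} (_hℓ : ℓ.Prime) (h1 : ℓ ≡ 1 [MOD M])
    (i : Option (Fin ℓ)) : ∃ x : ℤ, ∀ a b,
      (((mT ^ x : SL(2, ℤ)) : M2) * heckeFam ℓ i) a b ≡ (1 : M2) a b [ZMOD M] := by
  have hℓ1 : (ℓ : ℤ) ≡ 1 [ZMOD M] := by
    have := Int.natCast_modEq_iff.mpr h1
    simpa using this
  rcases i with _ | j
  · refine ⟨0, fun a b => ?_⟩
    rw [zpow_zero]
    fin_cases a <;> fin_cases b <;> simp [heckeFam]
    all_goals exact hℓ1
  · refine ⟨-((j : ℕ) : ℤ), fun a b => ?_⟩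
    rw [ModularGroup.coe_T_zpow]
    fin_cases a <;> fin_cases b <;>
      simp [heckeFam, Matrix.mul_apply, Fin.sum_univ_two]
    · calc ((j : ℕ) : ℤ) + -(((j : ℕ) : ℤ) * ℓ) ≡ ((j : ℕ) : ℤ) + -(((j : ℕ) : ℤ) * 1) [ZMOD M] :=
            ((hℓ1.mul_left _).neg).add_left _
        _ = 0 := by ring
    · exact hℓ1

/-- Matrices congruent to one of prime determinant move cusps within `Γ(M)`-orbits. -/
theorem exists_gamma_smul_eq {ℓ M : ℕ} (hℓ : ℓ.Prime) (h1 : ℓ ≡ 1 [MOD M]) {A : M2}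
    (hdet : A.det = ℓ) (hA : ∀ a b, A a b ≡ (1 : M2) a b [ZMOD M]) (x : Cusp) :
    ∃ γ ∈ CongruenceSubgroup.Gamma M, ofMat A • x = glQ γ • x := by
  obtain ⟨g, rfl⟩ := exists_glQ_infty x
  have hAd : A.det ≠ 0 := by rw [hdet]; exact_mod_cast hℓ.ne_zero
  set B : M2 := ((g⁻¹ : SL(2, ℤ)) : M2) * A * (g : M2) with hB
  have hBd : B.det ≠ 0 := by
    rw [hB, Matrix.det_mul, Matrix.det_mul, Matrix.SpecialLinearGroup.det_coe,
      Matrix.SpecialLinearGroup.det_coe, one_mul, mul_one]; exact hAd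
  have hmap : ((g⁻¹ * g : SL(2, ℤ)) : M2) = 1 := by simp
  have hBmod : ∀ a b, B a b ≡ (1 : M2) a b [ZMOD M] := by
    intro a b
    simp only [← ZMod.intCast_eq_intCast_iff] at hA ⊢
    have hA' : A.map (Int.cast : ℤ → ZMod M) = 1 := by
      ext a b
      rw [Matrix.map_apply, hA a b]
      by_cases hab : a = b <;> simp [Matrix.one_apply, hab]
    have hB' : B.map (Int.cast : ℤ → ZMod M) = 1 := by
      have key : B.map (Int.cast : ℤ → ZMod M) = (Int.castRingHom (ZMod M)).mapMatrix B := rfl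
      rw [key, hB, map_mul, map_mul,
        show (Int.castRingHom (ZMod M)).mapMatrix A = 1 from hA', mul_one, ← map_mul,
        ← Matrix.SpecialLinearGroup.coe_mul, hmap, map_one]
    have := congrFun (congrFun hB' a) b
    rw [Matrix.map_apply] at this
    rw [this]
    by_cases hab : a = b <;> simp [Matrix.one_apply, hab]
  have hB00 : B 0 0 ≡ 1 [ZMOD M] := by simpa using hBmod 0 0
  have hB10 : B 1 0 ≡ 0 [ZMOD M] := by simpa using hBmod 1 0
  set e : ℕ := Int.gcd (B 0 0) (B 1 0) with he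
  have hedvd : e ∣ ℓ := by
    have hBdet : B.det = ℓ := by
      rw [hB, Matrix.det_mul, Matrix.det_mul, Matrix.SpecialLinearGroup.det_coe,
        Matrix.SpecialLinearGroup.det_coe, one_mul, mul_one, hdet]
    rw [Matrix.det_fin_two] at hBdet
    rw [← Int.natCast_dvd_natCast, ← hBdet]
    exact dvd_sub ((Int.gcd_dvd_left _ _).mul_right _) ((Int.gcd_dvd_right _ _).mul_left _)
  have he1 : (e : ℤ) ≡ 1 [ZMOD M] := by
    rcases hℓ.eq_one_or_self_of_dvd e hedvd with h | h <;> rw [h]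
    · rfl
    · have := Int.natCast_modEq_iff.mpr h1
      simpa using this
  have he0 : (e : ℤ) ≠ 0 := by
    intro h
    rw [Int.natCast_eq_zero] at h
    rw [h, zero_dvd_iff] at hedvd
    exact hℓ.ne_zero hedvd
  obtain ⟨a, ha⟩ : (e : ℤ) ∣ B 0 0 := Int.gcd_dvd_left _ _
  obtain ⟨c, hc⟩ : (e : ℤ) ∣ B 1 0 := Int.gcd_dvd_right _ _
  have hco : IsCoprime a c := by
    obtain ⟨u, v, huv⟩ : ∃ u v : ℤ, u * B 0 0 + v * B 1 0 = e := by
      refine ⟨Int.gcdA (B 0 0) (B 1 0), Int.gcdB (B 0 0) (B 1 0), ?_⟩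
      rw [he, Int.gcd_eq_gcd_ab]; ring
    refine ⟨u, v, mul_left_cancel₀ he0 ?_⟩
    rw [mul_one]
    linear_combination huv - u * ha - v * hc
  have ha1 : a ≡ 1 [ZMOD M] := by
    have : 1 * a ≡ (e : ℤ) * a [ZMOD M] := (he1.symm).mul_right a
    rw [one_mul, ← ha] at this
    exact this.trans hB00
  have hc0 : c ≡ 0 [ZMOD M] := by
    have : 1 * c ≡ (e : ℤ) * c [ZMOD M] := (he1.symm).mul_right c
    rw [one_mul, ← hc] at this
    exact this.trans hB10
  obtain ⟨u, v, huv⟩ := hco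
  let h : SL(2, ℤ) := ⟨!![a, -v + v * a; c, u + v * c], by
    rw [Matrix.det_fin_two_of]; linear_combination huv⟩
  have hh : h ∈ CongruenceSubgroup.Gamma M := by
    rw [CongruenceSubgroup.Gamma_mem]
    have ea : (a : ZMod M) = 1 := by
      simpa using (ZMod.intCast_eq_intCast_iff _ _ _).mpr ha1
    have ec : (c : ZMod M) = 0 := by
      simpa using (ZMod.intCast_eq_intCast_iff _ _ _).mpr hc0
    have eh : (u : ZMod M) * a + (v : ZMod M) * c = 1 := by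
      rw [← Int.cast_mul, ← Int.cast_mul, ← Int.cast_add, huv, Int.cast_one]
    refine ⟨ea, ?_, ec, ?_⟩
    · show ((-v + v * a : ℤ) : ZMod M) = 0
      push_cast; rw [ea]; ring
    · show ((u + v * c : ℤ) : ZMod M) = 1
      push_cast
      rw [ec, mul_zero, add_zero]
      rwa [ea, ec, mul_zero, add_zero, mul_one] at eh
  refine ⟨g * h * g⁻¹, (CongruenceSubgroup.Gamma_normal M).conj_mem h hh g, ?_⟩
  have e1 : glQ h • (∞ : Cusp) = ofMat B • (∞ : Cusp) := by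
    rw [smul_infty_eq_ite, smul_infty_eq_ite]
    simp only [ofMat_apply hBd, glQ_apply]
    rw [show h 1 0 = c from rfl, show h 0 0 = a from rfl, ha, hc]
    push_cast
    have he' : ((e : ℤ) : ℚ) ≠ 0 := by exact_mod_cast he0
    simp only [mul_eq_zero, Nat.cast_eq_zero] at *
    split_ifs with h₁ h₂
    · rfl
    · exact absurd (Or.inr h₁) h₂
    · rename_i h₂
      rcases h₂ with h₂ | h₂
      · exact absurd (by exact_mod_cast h₂) he'
      · exact absurd h₂ h₁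
    · rw [mul_div_mul_left]
      exact_mod_cast he0
  rw [← glQ_mul_smul, inv_mul_cancel_right, glQ_mul_smul, e1, ← ofMat_coe g, ← mul_smul,
    ← mul_smul, ← ofMat_mul (sl_det_ne_zero g) hBd, ← ofMat_mul hAd (sl_det_ne_zero g)]
  congr 2
  rw [hB, ← mul_assoc, ← mul_assoc, ← Matrix.SpecialLinearGroup.coe_mul, mul_inv_cancel,
    Matrix.SpecialLinearGroup.coe_one, one_mul]

theorem mT_zpow_mem_Gamma0 (M : ℕ) (x : ℤ) : mT ^ x ∈ Gamma0 M := by
  rw [mem_Gamma0_iff_dvd, ModularGroup.coe_T_zpow]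
  simp

/-- Symbols with no periods on `Γ(M)` are multiplied by `1 + ℓ` for `ℓ ≡ 1 (mod M)`. -/
theorem tOp_eq_smul_of_periods {R : Type*} [CommRing R] {M₀ M : ℕ} {Φ : Cusp → Cusp → R}
    (hΦ : Φ ∈ Lev R M₀) (h : ∀ γ ∈ CongruenceSubgroup.Gamma M, ∀ x, Φ x (glQ γ • x) = 0)
    {ℓ : ℕ} (hℓ : ℓ.Prime) (h1 : ℓ ≡ 1 [MOD M]) : tOp R ℓ Φ = ((1 : R) + ℓ) • Φ := by
  have hnd : ∀ i, (heckeFam ℓ i).det ≠ 0 := heckeFam_det_ne_zero hℓ.ne_zero
  have key : ∀ i, pull R (ofMat (heckeFam ℓ i)) Φ = Φ := by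
    intro i
    obtain ⟨x, hx⟩ := exists_translate_heckeFam hℓ h1 i
    rw [← pull_sl_mul hΦ (mT_zpow_mem_Gamma0 M₀ x) (hnd i)]
    set A := ((mT ^ x : SL(2, ℤ)) : M2) * heckeFam ℓ i with hA
    have hdet : A.det = ℓ := by
      rw [hA, Matrix.det_mul, Matrix.SpecialLinearGroup.det_coe, one_mul, heckeFam_det]
    funext r s
    obtain ⟨γ, hγ, er⟩ := exists_gamma_smul_eq hℓ h1 hdet hx r
    obtain ⟨δ, hδ, es⟩ := exists_gamma_smul_eq hℓ h1 hdet hx s
    rw [pull_apply, er, es, ← Symb.add_cusps hΦ _ r, ← Symb.add_cusps hΦ r s,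
      Symb.swap hΦ r, h γ hγ, h δ hδ]
    simp
  rw [tOp, pullFam_apply, Finset.sum_congr rfl fun i _ => key i, Finset.sum_const,
    Finset.card_univ, Fintype.card_option, Fintype.card_fin, ← Nat.cast_smul_eq_nsmul R,
    Nat.cast_succ, add_comm]

/-- The action of `SL(2, ℚ)` on cusps. -/
abbrev glSL : SL(2, ℚ) →* GL (Fin 2) ℚ := Matrix.SpecialLinearGroup.toGL

theorem glSL_toQ (g : SL(2, ℤ)) : glSL (toQ g) = glQ g := by
  ext i j; rfl

theorem piMat_mul_piConj {q : ℕ} (hq : q ≠ 0) (a : SL(2, ℤ)) :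
    ofMat (heckeFam q none) * glSL (piConj hq a) = glQ a * ofMat (heckeFam q none) := by
  have hd := heckeFam_det_ne_zero hq none
  have hq' : (q : ℚ) ≠ 0 := Nat.cast_ne_zero.mpr hq
  obtain ⟨h1, h2, h3, h4⟩ := piConj_apply hq a
  refine Units.ext (Matrix.ext fun i j => ?_)
  rw [Units.val_mul, Units.val_mul, Matrix.mul_apply, Matrix.mul_apply, Fin.sum_univ_two,
    Fin.sum_univ_two]
  have hh : ∀ i j, (glSL (piConj hq a) : GL (Fin 2) ℚ) i j = piConj hq a i j := fun i j => rfl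
  simp only [ofMat_apply hd, glQ_apply, hh]
  fin_cases i <;> fin_cases j <;> simp [heckeFam, h1, h2, h3, h4] <;> field_simp

theorem gamma_toQ_mem {q M : ℕ} {γ : SL(2, ℤ)} (hγ : γ ∈ CongruenceSubgroup.Gamma M) :
    toQ γ ∈ qGamma q M := by
  rw [CongruenceSubgroup.Gamma_mem] at hγ
  obtain ⟨h1, h2, h3, h4⟩ := hγ
  have key : ∀ z : ℤ, (z : ZMod M) = 0 → (z : ℚ) ∈ qMul q M := fun z hz => by
    obtain ⟨c, rfl⟩ := (ZMod.intCast_zmod_eq_zero_iff_dvd z M).mp hz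
    push_cast; exact mul_natCast_mem_qMul (intCast_mem _ c)
  refine ⟨?_, ?_, ?_, ?_⟩ <;> rw [toQ_apply]
  · have := key (γ 0 0 - 1) (by push_cast; rw [h1, sub_self]); simpa using this
  · exact key _ h2
  · exact key _ h3
  · have := key (γ 1 1 - 1) (by push_cast; rw [h4, sub_self]); simpa using this

theorem piConj_mem_qGamma {q M : ℕ} (hq : q ≠ 0) {γ : SL(2, ℤ)}
    (hγ : γ ∈ CongruenceSubgroup.Gamma M) : piConj hq γ ∈ qGamma q M := by
  obtain ⟨h1, h2, h3, h4⟩ := piConj_apply hq γ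
  obtain ⟨m1, m2, m3, m4⟩ := gamma_toQ_mem (q := q) hγ
  rw [toQ_apply] at m1 m2 m3 m4
  refine ⟨by rw [h1]; exact m1, ?_, ?_, by rw [h4]; exact m4⟩
  · rw [h2, div_eq_mul_inv]; exact qMul_mul_right m2 (inv_mem_qInt hq)
  · rw [h3]; exact qMul_mul_left (natCast_mem _ _) m3

section Hom

variable {A : Type*} [AddCommGroup A] {N : ℕ} {χ : SL(2, ℤ) → A}
  (hadd : ∀ a ∈ Gamma0 N, ∀ b ∈ Gamma0 N, χ (a * b) = χ a + χ b)

include hadd

theorem hom_one : χ 1 = 0 := by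
  simpa using hadd 1 (one_mem _) 1 (one_mem _)

theorem hom_inv {a : SL(2, ℤ)} (ha : a ∈ Gamma0 N) : χ a⁻¹ = -χ a := by
  have := hadd a⁻¹ (inv_mem ha) a ha
  rw [inv_mul_cancel, hom_one hadd] at this
  exact eq_neg_of_add_eq_zero_left this.symm

theorem hom_conj {a g : SL(2, ℤ)} (ha : a ∈ Gamma0 N) (hg : g ∈ Gamma0 N) :
    χ (g * a * g⁻¹) = χ a := by
  rw [hadd _ (mul_mem hg ha) _ (inv_mem hg), hadd _ hg _ ha, hom_inv hadd hg]
  abel

end Hom

section Cross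

variable {p q N : ℕ}

open scoped Classical in
/-- The homomorphism on `Γ₀(N)` given by a functional on symbols. -/
def crossHom (φ : Lev ℤ N →+ ZMod p) (γ : SL(2, ℤ)) : ZMod p :=
  if hγ : γ ∈ Gamma0 N then φ (crossSymb (Gamma0 N) (Additive.ofMul ⟨γ, hγ⟩)) else 0

theorem crossHom_eq (φ : Lev ℤ N →+ ZMod p) (g : Gamma0 N) :
    φ (crossSymb (Gamma0 N) (Additive.ofMul g)) = crossHom φ g := by
  simp only [crossHom, dif_pos g.2]

theorem crossHom_add (φ : Lev ℤ N →+ ZMod p) :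
    ∀ a ∈ Gamma0 N, ∀ b ∈ Gamma0 N, crossHom φ (a * b) = crossHom φ a + crossHom φ b := by
  intro a ha b hb
  simp only [crossHom, dif_pos ha, dif_pos hb, dif_pos (mul_mem ha hb)]
  rw [← map_add, ← map_add, ← ofMul_mul]
  rfl

/-- The two homomorphisms of a functional killing the traces glue to `qZero q N`. -/
theorem exists_glue_hom (hq : q.Prime) (hN : 0 < N) (hqN : ¬ q ∣ N) (D : ALData N q)
    (φ₁ φ₂ : Lev ℤ N →+ ZMod p)
    (h : ∀ (Ψ : Cusp → Cusp → ℤ) (hΨ : Ψ ∈ Lev ℤ (N * q)),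
      φ₁ ⟨D.trOp ℤ Ψ, D.trOp_mem hq hqN hΨ⟩ +
        φ₂ ⟨D.trOp ℤ (D.wOp ℤ Ψ), D.trOp_mem hq hqN (D.wOp_mem hq hΨ)⟩ = 0) :
    ∃ f : SL(2, ℚ) → ZMod p, (∀ x ∈ qZero q N, ∀ y ∈ qZero q N, f (x * y) = f x + f y) ∧
      (∀ a ∈ Gamma0 N, f (toQ a) = crossHom φ₂ a) ∧
      ∀ a ∈ Gamma0 N, f (piConj hq.ne_zero a) = -crossHom φ₁ a := by
  have hNq : N.Coprime q := (hq.coprime_iff_not_dvd.mpr hqN).symm
  have hχ := fun φ : Lev ℤ N →+ ZMod p => crossHom_add φ
  have hcompat : ∀ a ∈ Gamma0 N, ∀ b ∈ Gamma0 N, toQ a = piConj hq.ne_zero b →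
      crossHom φ₂ a = -crossHom φ₁ b := by
    intro a ha b hb hab
    have hπ : heckeFam q none * (a : M2) = (b : M2) * heckeFam q none := by
      have h1 := piMat_mul_piConj hq.ne_zero b
      rw [← hab, glSL_toQ, ← ofMat_coe, ← ofMat_coe,
        ← ofMat_mul (heckeFam_det_ne_zero hq.ne_zero _) (sl_det_ne_zero _),
        ← ofMat_mul (sl_det_ne_zero _) (heckeFam_det_ne_zero hq.ne_zero _)] at h1
      have h2 := congrArg (fun u : GL (Fin 2) ℚ => (u : Matrix (Fin 2) (Fin 2) ℚ)) h1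
      simp only [val_ofMat (show (heckeFam q none * (a : M2)).det ≠ 0 by
          rw [Matrix.det_mul]
          exact mul_ne_zero (heckeFam_det_ne_zero hq.ne_zero _) (sl_det_ne_zero _)),
        val_ofMat (show ((b : M2) * heckeFam q none).det ≠ 0 by
          rw [Matrix.det_mul]
          exact mul_ne_zero (sl_det_ne_zero _) (heckeFam_det_ne_zero hq.ne_zero _))] at h2
      exact Matrix.map_injective Int.cast_injective h2
    have haq : a ∈ Gamma0 (N * q) := by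
      rw [mem_Gamma0_iff_dvd]
      have e := congrFun (congrFun hπ 1) 0
      simp [heckeFam, Matrix.mul_apply, Fin.sum_univ_two] at e
      rw [e, Nat.cast_mul]
      exact mul_dvd_mul_right (mem_Gamma0_iff_dvd.mp hb) _
    set a' : SL(2, ℤ) := D.g₀ * b * D.g₀⁻¹ with ha'
    have hW : (a' : M2) * D.mat = D.mat * (a : M2) := by
      rw [D.mat_eq, ha', mul_assoc (D.g₀ : M2), hπ, ← mul_assoc, ← mul_assoc,
        ← Matrix.SpecialLinearGroup.coe_mul, ← Matrix.SpecialLinearGroup.coe_mul,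
        inv_mul_cancel_right]
    have ha'q : a' ∈ Gamma0 (N * q) := by
      obtain ⟨γ', hγ', he⟩ := D.exists_sl_mat_mul haq
      have : (a' : M2) = (γ' : M2) :=
        right_cancel_of_det_ne_zero (D.mat_det_ne_zero hq) (hW.trans he)
      rwa [Subtype.ext this]
    have ha'N : a' ∈ Gamma0 N := mul_mem (mul_mem D.g₀_mem hb) (inv_mem D.g₀_mem)
    have h0 := h _ (crossSymb (Gamma0 (N * q)) (Additive.ofMul ⟨a', ha'q⟩)).2
    have e1 : (⟨D.trOp ℤ (crossSymb (Gamma0 (N * q)) (Additive.ofMul ⟨a', ha'q⟩) :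
        Cusp → Cusp → ℤ), D.trOp_mem hq hqN (Subtype.coe_prop _)⟩ : Lev ℤ N) =
        crossSymb (Gamma0 N) (Additive.ofMul ⟨a', ha'N⟩) :=
      Subtype.ext (D.trOp_crossSymb hq hqN ha'q ha'N)
    have e2 : (⟨D.trOp ℤ (D.wOp ℤ (crossSymb (Gamma0 (N * q)) (Additive.ofMul ⟨a', ha'q⟩) :
        Cusp → Cusp → ℤ)), D.trOp_mem hq hqN (D.wOp_mem hq (Subtype.coe_prop _))⟩ : Lev ℤ N) =
        crossSymb (Gamma0 N) (Additive.ofMul ⟨a, ha⟩) := by
      refine Subtype.ext ?_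
      show D.trOp ℤ (D.wOp ℤ _) = _
      rw [D.wOp_crossSymb hq ha'q haq hW, D.trOp_crossSymb hq hqN haq ha]
    rw [e1, e2] at h0
    have h1 : crossHom φ₁ a' + crossHom φ₂ a = 0 := by
      simpa only [crossHom, dif_pos ha'N, dif_pos ha] using h0
    rw [ha', hom_conj (hχ φ₁) hb D.g₀_mem] at h1
    exact eq_neg_of_add_eq_zero_right h1
  let data : GlueData q N hq.ne_zero (ZMod p) :=
    { left := crossHom φ₂
      right := fun b => -crossHom φ₁ b
      left_mul := hχ φ₂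
      right_mul := fun a ha b hb => by rw [hχ φ₁ a ha b hb]; ring
      compat := hcompat }
  exact data.exists_hom hq hN hNq

/-- A functional without values on crossing symbols of `Γ(M)` turns `T_ℓ` into `1 + ℓ`. -/
theorem map_tOp_eq_of_crossHom [Fact p.Prime] (hp2 : p ≠ 2) [NeZero N] {M : ℕ}
    (φ : Lev ℤ N →+ ZMod p) (hφ : ∀ γ ∈ CongruenceSubgroup.Gamma M, crossHom φ γ = 0)
    {ℓ : ℕ} (hℓ : ℓ.Prime) (hℓN : ¬ ℓ ∣ N) (hℓ1 : ℓ ≡ 1 [MOD M]) (Φ : Lev ℤ N) :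
    φ ⟨tOp ℤ ℓ Φ, tOp_mem hℓ hℓN Φ.2⟩ = ((1 : ZMod p) + ℓ) * φ Φ := by
  have hχ := crossHom_add φ
  let T : Lev ℤ N →ₗ[ℤ] Lev ℤ N := (tOp ℤ ℓ).restrict fun _ h => tOp_mem hℓ hℓN h
  let ψ : Lev ℤ N →+ ZMod p :=
    φ.comp T.toAddMonoidHom - (AddMonoidHom.mulLeft ((1 : ZMod p) + ℓ)).comp φ
  suffices hψ : ψ = 0 from sub_eq_zero.mp (DFunLike.congr_fun hψ Φ)
  refine eq_zero_of_forall_crossSymb hp2 (by rw [mem_Gamma0_iff_dvd]; simp) ψ fun γ => ?_
  induction γ using Additive.rec with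
  | ofMul γ =>
  have hex : ∀ i, ∃ j, ∃ g : Gamma0 N, heckeFam ℓ i * ((γ : SL(2, ℤ)) : M2) =
      ((g : SL(2, ℤ)) : M2) * heckeFam ℓ j := by
    intro i
    obtain ⟨j, g, hg, he⟩ := exists_gamma_mul_heckeFam hℓ hℓN
      (δ := heckeFam ℓ i * ((γ : SL(2, ℤ)) : M2))
      (by rw [Matrix.det_mul, heckeFam_det, Matrix.SpecialLinearGroup.det_coe, mul_one]) (by
        rw [Matrix.mul_apply, Fin.sum_univ_two, heckeFam_lower, zero_mul, zero_add]
        exact dvd_mul_of_dvd_right (mem_Gamma0_iff_dvd.mp γ.2) _)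
    exact ⟨j, ⟨g, hg⟩, he⟩
  choose σ g hg using hex
  choose x hx using exists_translate_heckeFam hℓ hℓ1
  have hσ : Function.Bijective σ := by
    refine Finite.injective_iff_bijective.mp fun i j hij => ?_
    have e : heckeFam ℓ i * ((γ : SL(2, ℤ)) : M2) =
        ((g i * (g j)⁻¹ : Gamma0 N) : SL(2, ℤ)) * heckeFam ℓ j * ((γ : SL(2, ℤ)) : M2) := by
      rw [mul_assoc, hg j, ← hij, hg i, ← mul_assoc, ← Matrix.SpecialLinearGroup.coe_mul,
        ← Subgroup.coe_mul, inv_mul_cancel_right]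
    exact heckeFam_right_unique hℓ (δ₁ := 1)
      (by rw [Matrix.det_one]; exact not_prime_dvd_one hℓ) (not_dvd_det_SL hℓ _)
      (by rw [one_mul]; exact mul_sl_inj e)
  have hval : ∀ i, crossHom φ (g i : SL(2, ℤ)) =
      crossHom φ (γ : SL(2, ℤ)) - crossHom φ (mT ^ x i) + crossHom φ (mT ^ x (σ i)) := by
    intro i
    set u := mT ^ x i with hu
    set v := mT ^ x (σ i) with hv
    have hu0 : u ∈ Gamma0 N := mT_zpow_mem_Gamma0 N _
    have hv0 : v ∈ Gamma0 N := mT_zpow_mem_Gamma0 N _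
    set c := u * (g i : SL(2, ℤ)) * v⁻¹ * (γ : SL(2, ℤ))⁻¹ with hc
    have hcM : c ∈ CongruenceSubgroup.Gamma M := by
      let ι := (Int.castRingHom (ZMod M)).mapMatrix (m := Fin 2)
      have hone : ∀ j, ι (((mT ^ x j : SL(2, ℤ)) : M2) * heckeFam ℓ j) = 1 := fun j => by
        ext a b
        simp only [ι, RingHom.mapMatrix_apply, Matrix.map_apply, Int.coe_castRingHom]
        rw [(ZMod.intCast_eq_intCast_iff _ _ _).mpr (hx j a b)]
        by_cases hab : a = b <;> simp [Matrix.one_apply, hab]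
      have e : ι ((u * (g i : SL(2, ℤ)) * v⁻¹ : SL(2, ℤ)) : M2) = ι ((γ : SL(2, ℤ)) : M2) := by
        calc ι ((u * (g i : SL(2, ℤ)) * v⁻¹ : SL(2, ℤ)) : M2)
            = ι (((u * (g i : SL(2, ℤ)) * v⁻¹ : SL(2, ℤ)) : M2) *
                ((v : M2) * heckeFam ℓ (σ i))) := by rw [map_mul, hone, mul_one]
          _ = ι (((u : M2) * heckeFam ℓ i) * ((γ : SL(2, ℤ)) : M2)) := by
              congr 1
              rw [← mul_assoc, ← Matrix.SpecialLinearGroup.coe_mul, inv_mul_cancel_right,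
                Matrix.SpecialLinearGroup.coe_mul, mul_assoc, ← hg i, mul_assoc]
          _ = ι ((γ : SL(2, ℤ)) : M2) := by rw [map_mul, hone, one_mul]
      show _ ∈ (SpecialLinearGroup.map (n := Fin 2) (Int.castRingHom (ZMod M))).ker
      rw [MonoidHom.mem_ker, hc, map_mul, map_inv, mul_inv_eq_one]
      exact Subtype.ext e
    have hcN : c ∈ Gamma0 N :=
      mul_mem (mul_mem (mul_mem hu0 (g i).2) (inv_mem hv0)) (inv_mem γ.2)
    have e : (g i : SL(2, ℤ)) = u⁻¹ * c * γ * v := by rw [hc]; group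
    rw [e, hχ _ (mul_mem (mul_mem (inv_mem hu0) hcN) γ.2) _ hv0,
      hχ _ (mul_mem (inv_mem hu0) hcN) _ γ.2, hχ _ (inv_mem hu0) _ hcN, hφ c hcM,
      hom_inv hχ hu0]
    ring
  show φ (T (crossSymb (Gamma0 N) (Additive.ofMul γ))) -
    ((1 : ZMod p) + ℓ) * φ (crossSymb (Gamma0 N) (Additive.ofMul γ)) = 0
  have e : T (crossSymb (Gamma0 N) (Additive.ofMul γ)) =
      ∑ i, crossSymb (Gamma0 N) (Additive.ofMul (g i)) := by
    refine Subtype.ext ?_
    rw [Submodule.coe_sum]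
    exact tOp_crossSymb hℓ hℓN γ σ g hg
  rw [e, map_sum, crossHom_eq, Finset.sum_congr rfl fun i _ => (crossHom_eq φ (g i)).trans (hval i),
    Finset.sum_add_distrib, Finset.sum_sub_distrib,
    hσ.sum_comp (fun i => crossHom φ (mT ^ x i)), Finset.sum_const, Finset.card_univ,
    Fintype.card_option, Fintype.card_fin, nsmul_eq_mul, Nat.cast_succ]
  ring

end Cross

variable {p q N : ℕ} [Fact p.Prime]

/-- Invariance under both copies of `Γ₀(N)` gives vanishing periods on a congruence subgroup. -/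
theorem periods_eq_zero_of_wOp (hp2 : p ≠ 2) (hq : q.Prime) (hN : 0 < N) (hqN : ¬ q ∣ N)
    (hpq : p ≠ q) (D : ALData N q) {Φ : Cusp → Cusp → ZMod p} (hΦ : Φ ∈ Lev (ZMod p) N)
    {ε : ZMod p} (hε : ε * ε = 1) (hw : D.wOp (ZMod p) Φ = ε • Φ) :
    ∀ γ ∈ CongruenceSubgroup.Gamma (N * p * (N * p)), ∀ x, Φ x (glQ γ • x) = 0 := by
  have hNq : N.Coprime q := (hq.coprime_iff_not_dvd.mpr hqN).symm
  have hpq' : p.Coprime q := (Nat.coprime_primes Fact.out hq).mpr hpq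
  have hπ : ∀ x y, Φ (ofMat (heckeFam q none) • x) (ofMat (heckeFam q none) • y) = ε * Φ x y := by
    intro x y
    have h : D.wOp (ZMod p) Φ = pull (ZMod p) (ofMat (heckeFam q none)) Φ := by
      rw [ALData.wOp, ALData.mat_eq,
        pull_ofMat_mul (sl_det_ne_zero _) (heckeFam_det_ne_zero hq.ne_zero _), ofMat_coe,
        pull_glQ_eq hΦ D.g₀_mem]
    exact congrFun (congrFun (h.symm.trans hw) x) y
  let H : Subgroup SL(2, ℚ) :=
    { carrier := {g | ∀ x y, Φ (glSL g • x) (glSL g • y) = Φ x y}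
      one_mem' := fun x y => by simp
      mul_mem' := fun {a b} ha hb x y => by rw [map_mul, mul_smul, mul_smul, ha, hb]
      inv_mem' := fun {a} ha x y => by
        conv_rhs => rw [← one_smul (GL (Fin 2) ℚ) x, ← one_smul (GL (Fin 2) ℚ) y, ← map_one glSL,
          ← mul_inv_cancel a, map_mul, mul_smul, mul_smul, ha] }
  have hG : qZero q N ≤ H := by
    refine qZero_le hq hN hNq (fun a ha x y => ?_) fun a ha x y => ?_
    · rw [glSL_toQ]; exact Symb.smul_cusps hΦ ha x y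
    · have e : ∀ z : Cusp, ofMat (heckeFam q none) • glSL (piConj hq.ne_zero a) • z =
          glQ a • ofMat (heckeFam q none) • z := fun z => by
        rw [← mul_smul, ← mul_smul, piMat_mul_piConj]
      calc Φ (glSL (piConj hq.ne_zero a) • x) (glSL (piConj hq.ne_zero a) • y)
          = ε * (ε * Φ (glSL (piConj hq.ne_zero a) • x) (glSL (piConj hq.ne_zero a) • y)) := by
            rw [← mul_assoc, hε, one_mul]
        _ = ε * Φ (ofMat (heckeFam q none) • x) (ofMat (heckeFam q none) • y) := by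
            rw [← hπ, e, e, Symb.smul_cusps hΦ ha]
        _ = Φ x y := by rw [hπ, ← mul_assoc, hε, one_mul]
  intro γ hγ x
  rw [← glSL_toQ]
  refine hom_qZero_eq_zero (f := fun g => Φ x (glSL g • x)) hp2 hq hN hNq hpq'
    (fun a ha b _ => ?_) (gamma_toQ_mem hγ)
  rw [map_mul, mul_smul, ← Symb.add_cusps hΦ x (glSL a • x), hG ha x (glSL b • x)]

/-- A functional on symbols modulo `p` killing the joint image of the two traces is zero once
some `T_ℓ`, `ℓ ≡ 1`, does not act as `1 + ℓ`. -/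
theorem functional_tOp_eq (hp2 : p ≠ 2) (hq : q.Prime) (hN : 0 < N) (hqN : ¬ q ∣ N)
    (hpq : p ≠ q) (D : ALData N q) (φ₁ φ₂ : Lev ℤ N →+ ZMod p)
    (h : ∀ (Ψ : Cusp → Cusp → ℤ) (hΨ : Ψ ∈ Lev ℤ (N * q)),
      φ₁ ⟨D.trOp ℤ Ψ, D.trOp_mem hq hqN hΨ⟩ +
        φ₂ ⟨D.trOp ℤ (D.wOp ℤ Ψ), D.trOp_mem hq hqN (D.wOp_mem hq hΨ)⟩ = 0)
    {ℓ : ℕ} (hℓ : ℓ.Prime) (hℓN : ¬ ℓ ∣ N) (hℓ1 : ℓ ≡ 1 [MOD N * p * (N * p)])
    (Φ : Lev ℤ N) :
    φ₁ ⟨tOp ℤ ℓ Φ, tOp_mem hℓ hℓN Φ.2⟩ = ((1 : ZMod p) + ℓ) * φ₁ Φ ∧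
      φ₂ ⟨tOp ℤ ℓ Φ, tOp_mem hℓ hℓN Φ.2⟩ = ((1 : ZMod p) + ℓ) * φ₂ Φ := by
  classical
  have : NeZero N := ⟨hN.ne'⟩
  have hNq : N.Coprime q := (hq.coprime_iff_not_dvd.mpr hqN).symm
  have hpq' : p.Coprime q := (Nat.coprime_primes Fact.out hq).mpr hpq
  set M := N * p * (N * p) with hM
  have hMq : M.Coprime q := (hNq.mul_left hpq').mul_left (hNq.mul_left hpq')
  obtain ⟨f, hadd, hfA, hfB⟩ := exists_glue_hom hq hN hqN D φ₁ φ₂ h
  have hzero : ∀ γ ∈ CongruenceSubgroup.Gamma M, crossHom φ₁ γ = 0 ∧ crossHom φ₂ γ = 0 := by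
    intro γ hγ
    have hγN : γ ∈ Gamma0 N := by
      rw [CongruenceSubgroup.Gamma_mem] at hγ
      rw [mem_Gamma0_iff_dvd]
      exact (Int.natCast_dvd_natCast.mpr (Dvd.intro (p * (N * p)) (by rw [hM]; ring))).trans
        ((ZMod.intCast_zmod_eq_zero_iff_dvd _ _).mp hγ.2.2.1)
    refine ⟨?_, ?_⟩
    · have := hom_qZero_eq_zero hp2 hq hN hNq hpq' hadd (piConj_mem_qGamma hq.ne_zero hγ)
      rw [hfB γ hγN] at this
      exact neg_eq_zero.mp this
    · have := hom_qZero_eq_zero hp2 hq hN hNq hpq' hadd (gamma_toQ_mem (q := q) hγ)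
      rwa [hfA γ hγN] at this
  exact ⟨map_tOp_eq_of_crossHom hp2 φ₁ (fun γ hγ => (hzero γ hγ).1) hℓ hℓN hℓ1 Φ,
    map_tOp_eq_of_crossHom hp2 φ₂ (fun γ hγ => (hzero γ hγ).2) hℓ hℓN hℓ1 Φ⟩

end FLTAgent.LevelRaising
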