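import Mathlib.RingTheory.Finiteness.Nakayama
import Mathlib.LinearAlgebra.Matrix.Charpoly.LinearMap
import Mathlib.LinearAlgebra.Eigenspace.Triangularizable
import Mathlib.Analysis.Complex.Polynomial.Basic
import Mathlib.LinearAlgebra.Dual.Lemmas
import Mathlib.Algebra.Module.ZMod
import Mathlib.Algebra.Field.ZMod
import Mathlib.LinearAlgebra.FreeModule.Basic
import Mathlib.LinearAlgebra.Basis.VectorSpace
import Mathlib.RingTheory.IntegralClosure.Algebra.Basic

/-!
# Lemmas on commutative rings of endomorphisms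

Socles, a form of Nakayama's lemma for cokernels and joint eigenvectors, all relative to a prime
ideal of a commutative ring acting on a module.
-/

set_option autoImplicit false

namespace FLTAgent.LevelRaising

variable {A : Type*} [CommRing A]

/-- A finite module supported at a prime `m` has a nonzero vector whose annihilator is `m`. -/
theorem exists_socle {V : Type*} [AddCommGroup V] [Finite V] (ρ : A →+* Module.End ℤ V)
    (m : Ideal A) [m.IsPrime] (h : ∀ s ∉ m, ∃ v, ρ s v ≠ 0) :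
    ∃ v : V, (∀ x ∈ m, ρ x v = 0) ∧ ∀ x ∉ m, ρ x v ≠ 0 := by
  classical
  obtain ⟨s₀, hs₀, hmin⟩ : ∃ s₀ ∉ m, ∀ t ∉ m,
      Nat.card (LinearMap.range (ρ s₀)) ≤ Nat.card (LinearMap.range (ρ t)) := by
    have hex : ∃ n, ∃ s ∉ m, Nat.card (LinearMap.range (ρ s)) = n :=
      ⟨_, 1, m.ne_top_iff_one.mp (Ideal.IsPrime.ne_top ‹_›), rfl⟩
    obtain ⟨s, hs, he⟩ := Nat.find_spec hex
    exact ⟨s, hs, fun t ht => he.symm ▸ Nat.find_min' hex ⟨t, ht, rfl⟩⟩
  set W := LinearMap.range (ρ s₀) with hW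
  have hinj : ∀ t ∉ m, ∀ w ∈ W, ρ t w = 0 → w = 0 := by
    intro t ht w hw hw0
    let f : W → W := fun w => ⟨ρ t w, by
      obtain ⟨u, hu⟩ := w.2
      exact ⟨ρ t u, by rw [← hu, ← Module.End.mul_apply, ← map_mul, mul_comm, map_mul,
        Module.End.mul_apply]⟩⟩
    have hsub : LinearMap.range (ρ (t * s₀)) = W := by
      refine Submodule.toAddSubgroup_injective (AddSubgroup.eq_of_le_of_card_ge ?_ ?_)
      · rintro _ ⟨u, rfl⟩
        exact ⟨ρ t u, by rw [← Module.End.mul_apply, ← map_mul, mul_comm]⟩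
      · exact hmin _ fun hts => (Ideal.IsPrime.mem_or_mem ‹_› hts).elim ht hs₀
    have hsurj : Function.Surjective f := fun y => by
      have hy := y.2
      simp only [← hsub] at hy
      obtain ⟨u, hu⟩ := hy
      exact ⟨⟨ρ s₀ u, u, rfl⟩, Subtype.ext (by rw [← hu, map_mul]; rfl)⟩
    have := (Finite.injective_iff_surjective.mpr hsurj) (a₁ := ⟨w, hw⟩) (a₂ := 0)
      (Subtype.ext (by simp [f, hw0]))
    exact congrArg Subtype.val this
  have hex : ∃ n, ∃ v ∈ W, v ≠ 0 ∧ Nat.card (Set.range fun a => ρ a v) = n := by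
    obtain ⟨u, hu⟩ := h s₀ hs₀
    exact ⟨_, _, ⟨u, rfl⟩, hu, rfl⟩
  obtain ⟨v, hvW, hv0, he⟩ := Nat.find_spec hex
  refine ⟨v, fun x hx => ?_, fun x hx hxv => hv0 (hinj x hx v hvW hxv)⟩
  by_contra hxv
  have hxW : ρ x v ∈ W := by
    obtain ⟨u, hu⟩ := hvW
    exact ⟨ρ x u, by rw [← hu, ← Module.End.mul_apply, ← map_mul, mul_comm, map_mul,
      Module.End.mul_apply]⟩
  have hsub : (Set.range fun a => ρ a (ρ x v)) ⊆ Set.range fun a => ρ a v := by
    rintro _ ⟨a, rfl⟩
    exact ⟨a * x, by show ρ (a * x) v = _; rw [map_mul]; rfl⟩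
  have heq := Set.Finite.eq_of_subset_of_card_le (Set.toFinite _) hsub
    (he.le.trans (Nat.find_min' hex ⟨_, hxW, hxv, rfl⟩))
  obtain ⟨a, ha⟩ : v ∈ Set.range fun a => ρ a (ρ x v) := by
    rw [heq]; exact ⟨1, by simp⟩
  refine hv0 (hinj (1 - a * x) (fun h1 => ?_) v hvW ?_)
  · refine (Ideal.IsPrime.ne_top ‹m.IsPrime›) (m.eq_top_iff_one.mpr ?_)
    simpa using m.add_mem h1 (m.mul_mem_left a hx)
  · rw [map_sub, map_one, map_mul, LinearMap.sub_apply, Module.End.one_apply,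
      Module.End.mul_apply]
    exact sub_eq_zero.mpr ha.symm

/-- If multiplication by elements outside `m ∋ p` is never divisible by `p`, the module is
supported at `m` modulo `p`. -/
theorem exists_not_mem_smul_top {L : Type*} [AddCommGroup L] [Module.Finite ℤ L]
    (ρ : A →+* Module.End ℤ L) (hρ : Function.Injective ρ) (m : Ideal A) [m.IsPrime] {p : ℕ}
    (hp : (p : A) ∈ m) {s : A} (hs : s ∉ m) :
    ∃ v, ρ s v ∉ (Ideal.span {(p : ℤ)} • ⊤ : Submodule ℤ L) := by
  by_contra hcon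
  push Not at hcon
  obtain ⟨P, hP, -, hcoeff, hev⟩ :=
    LinearMap.exists_monic_and_natDegree_eq_and_coeff_mem_pow_and_aeval_eq_zero ℤ (ρ s)
      (Ideal.span {(p : ℤ)}) (by rintro _ ⟨v, rfl⟩; exact hcon v)
  have hz : Polynomial.aeval s P = 0 := hρ (by
    rw [map_zero]
    exact (Polynomial.aeval_algHom_apply ρ.toIntAlgHom s P).symm.trans hev)
  rw [Polynomial.aeval_eq_sum_range, Finset.sum_range_succ, hP.coeff_natDegree, one_smul] at hz
  refine hs ((Ideal.IsPrime.mem_of_pow_mem ‹_›) P.natDegree ?_)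
  rw [eq_neg_of_add_eq_zero_right hz]
  refine m.neg_mem (m.sum_mem fun k hk => ?_)
  have hk' : P.coeff k ∈ Ideal.span {(p : ℤ)} := by
    refine Ideal.pow_le_self ?_ (hcoeff k)
    have := Finset.mem_range.mp hk
    omega
  obtain ⟨c, hc⟩ := Ideal.mem_span_singleton'.mp hk'
  rw [← hc, zsmul_eq_mul, Int.cast_mul, Int.cast_natCast]
  exact m.mul_mem_right _ (m.mul_mem_left _ hp)

/-- Nonzero elements of groups killed by `p` are detected by homomorphisms to `ZMod p`. -/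
theorem exists_addHom_ne_zero {Q : Type*} [AddCommGroup Q] {p : ℕ} [Fact p.Prime]
    (h : ∀ x : Q, p • x = 0) {z : Q} (hz : z ≠ 0) : ∃ f : Q →+ ZMod p, f z ≠ 0 := by
  let M0 : Module (ZMod p) Q := AddCommGroup.zmodModule h
  have := M0
  have : Module.Free (ZMod p) Q := Module.Free.of_divisionRing (ZMod p) Q
  obtain ⟨f, hf⟩ := Module.Projective.exists_dual_ne_zero (ZMod p) hz
  exact ⟨f.toAddMonoidHom, hf⟩

/-- A cokernel on which no nonzero functional modulo `p` is killed by `m` is killed by some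
element outside `m`. -/
theorem exists_not_mem_smul_range {M M' : Type*} [AddCommGroup M] [AddCommGroup M']
    [Module.Finite ℤ M'] (ρ : A →+* Module.End ℤ M) (ρ' : A →+* Module.End ℤ M')
    (β : M →ₗ[ℤ] M') (hβ : ∀ a x, β (ρ a x) = ρ' a (β x)) (m : Ideal A) [m.IsPrime] {p : ℕ}
    [Fact p.Prime] (hp : (p : A) ∈ m)
    (h : ∀ φ : M' →+ ZMod p, (∀ x, φ (β x) = 0) → (∀ a ∈ m, ∀ y, φ (ρ' a y) = 0) → φ = 0) :
    ∃ s ∉ m, ∀ y, ∃ x, β x = ρ' s y := by
  let : Module A M' := Module.compHom M' ρ'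
  have hsmul : ∀ (a : A) (y : M'), a • y = ρ' a y := fun _ _ => rfl
  have : IsScalarTower ℤ A M' := ⟨fun z a y => by
    rw [hsmul, hsmul, map_zsmul]; rfl⟩
  have : Module.Finite A M' := Module.Finite.of_restrictScalars_finite ℤ A M'
  let I : Submodule A M' :=
    { carrier := Set.range β
      zero_mem' := ⟨0, map_zero β⟩
      add_mem' := by
        rintro _ _ ⟨x, rfl⟩ ⟨y, rfl⟩
        exact ⟨x + y, map_add β x y⟩
      smul_mem' := by
        rintro a _ ⟨x, rfl⟩
        exact ⟨ρ a x, hβ a x⟩ }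
  by_cases htop : (⊤ : Submodule A (M' ⧸ I)) ≤ m • ⊤
  · obtain ⟨r, hr, hr0⟩ := Submodule.exists_sub_one_mem_and_smul_eq_zero_of_fg_of_le_smul m
      (⊤ : Submodule A (M' ⧸ I)) Module.Finite.fg_top htop
    refine ⟨r, fun hrm => (Ideal.IsPrime.ne_top ‹m.IsPrime›) (m.eq_top_iff_one.mpr ?_),
      fun y => ?_⟩
    · simpa using m.sub_mem hrm hr
    · have := hr0 (Submodule.Quotient.mk y) Submodule.mem_top
      rwa [← Submodule.Quotient.mk_smul, Submodule.Quotient.mk_eq_zero] at this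
  · exfalso
    set J : Submodule A (M' ⧸ I) := m • ⊤
    obtain ⟨z, -, hz⟩ := SetLike.not_le_iff_exists.mp htop
    have hkill : ∀ w : (M' ⧸ I) ⧸ J, p • w = 0 := fun w => by
      obtain ⟨w, rfl⟩ := Submodule.Quotient.mk_surjective J w
      rw [← Submodule.Quotient.mk_smul, Submodule.Quotient.mk_eq_zero, ← Nat.cast_smul_eq_nsmul A]
      exact Submodule.smul_mem_smul hp Submodule.mem_top
    have hz' : (Submodule.Quotient.mk z : (M' ⧸ I) ⧸ J) ≠ 0 := fun e =>
      hz ((Submodule.Quotient.mk_eq_zero J).mp e)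
    obtain ⟨f, hf⟩ := exists_addHom_ne_zero hkill hz'
    obtain ⟨y, rfl⟩ := Submodule.Quotient.mk_surjective I z
    let φ : M' →+ ZMod p :=
      f.comp (J.mkQ.toAddMonoidHom.comp I.mkQ.toAddMonoidHom)
    have hφ := h φ (fun x => ?_) fun a ha y' => ?_
    · exact hf (DFunLike.congr_fun hφ y)
    · show f (J.mkQ (I.mkQ (β x))) = 0
      rw [show I.mkQ (β x) = 0 from (Submodule.Quotient.mk_eq_zero I).mpr ⟨x, rfl⟩, map_zero,
        map_zero]
    · show f (J.mkQ (I.mkQ (a • y'))) = 0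
      rw [map_smul, show J.mkQ (a • I.mkQ y') = 0 from (Submodule.Quotient.mk_eq_zero J).mpr
        (Submodule.smul_mem_smul ha Submodule.mem_top), map_zero]

/-- A finite-dimensional complex representation supported at a prime has a joint eigenvector
whose character is nonzero outside that prime. -/
theorem exists_joint_eigen {W : Type*} [AddCommGroup W] [Module ℂ W] [FiniteDimensional ℂ W]
    (ρ : A →+* Module.End ℂ W) (m : Ideal A) [m.IsPrime] (h : ∀ s ∉ m, ρ s ≠ 0) :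
    ∃ (χ : A →+* ℂ) (w : W), w ≠ 0 ∧ (∀ a, ρ a w = χ a • w) ∧ RingHom.ker χ ≤ m := by
  classical
  have hcomm : ∀ (a b : A) (x : W), ρ a (ρ b x) = ρ b (ρ a x) := fun a b x => by
    rw [← Module.End.mul_apply, ← map_mul, mul_comm, map_mul, Module.End.mul_apply]
  obtain ⟨s₀, hs₀, hmin⟩ : ∃ s₀ ∉ m, ∀ t ∉ m,
      Module.finrank ℂ (LinearMap.range (ρ s₀)) ≤ Module.finrank ℂ (LinearMap.range (ρ t)) := by
    have hex : ∃ n, ∃ s ∉ m, Module.finrank ℂ (LinearMap.range (ρ s)) = n :=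
      ⟨_, 1, m.ne_top_iff_one.mp (Ideal.IsPrime.ne_top ‹_›), rfl⟩
    obtain ⟨s, hs, he⟩ := Nat.find_spec hex
    exact ⟨s, hs, fun t ht => he.symm ▸ Nat.find_min' hex ⟨t, ht, rfl⟩⟩
  have hstab₀ : ∀ a, ∀ x ∈ LinearMap.range (ρ s₀), ρ a x ∈ LinearMap.range (ρ s₀) := by
    rintro a _ ⟨u, rfl⟩
    exact ⟨ρ a u, hcomm _ _ u⟩
  have hinj : ∀ t ∉ m, ∀ w ∈ LinearMap.range (ρ s₀), ρ t w = 0 → w = 0 := by
    intro t ht w hw hw0
    let f := (ρ t).restrict (hstab₀ t)
    have hsub : LinearMap.range (ρ (t * s₀)) = LinearMap.range (ρ s₀) := by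
      refine Submodule.eq_of_le_of_finrank_le ?_
        (hmin _ fun hts => (Ideal.IsPrime.mem_or_mem ‹_› hts).elim ht hs₀)
      rintro _ ⟨u, rfl⟩
      exact ⟨ρ t u, by rw [hcomm, ← Module.End.mul_apply, ← map_mul]⟩
    have hsurj : Function.Surjective f := fun y => by
      have hy := y.2
      simp only [← hsub] at hy
      obtain ⟨u, hu⟩ := hy
      exact ⟨⟨ρ s₀ u, u, rfl⟩, Subtype.ext (by rw [← hu, map_mul]; rfl)⟩
    exact congrArg Subtype.val ((LinearMap.injective_iff_surjective.mpr hsurj)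
      (a₁ := ⟨w, hw⟩) (a₂ := 0) (Subtype.ext (by simp [f, hw0])))
  have hne : LinearMap.range (ρ s₀) ≠ ⊥ := fun e => h s₀ hs₀ (LinearMap.range_eq_bot.mp e)
  have hex : ∃ n, ∃ S : Submodule ℂ W, S ≠ ⊥ ∧ S ≤ LinearMap.range (ρ s₀) ∧
      (∀ a, ∀ x ∈ S, ρ a x ∈ S) ∧ Module.finrank ℂ S = n :=
    ⟨_, _, hne, le_rfl, hstab₀, rfl⟩
  obtain ⟨S, hS0, hSle, hSstab, hSn⟩ := Nat.find_spec hex
  obtain ⟨w, hwS, hw0⟩ := Submodule.exists_mem_ne_zero_of_ne_bot hS0
  have hscal : ∀ a, ∃ c : ℂ, ρ a w = c • w := by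
    intro a
    have : Nontrivial S := Submodule.nontrivial_iff_ne_bot.mpr hS0
    obtain ⟨c, hc⟩ := Module.End.exists_eigenvalue ((ρ a).restrict (hSstab a))
    obtain ⟨u, hu⟩ := hc.exists_hasEigenvector
    set T := S ⊓ Module.End.eigenspace (ρ a) c
    have hT0 : T ≠ ⊥ := by
      refine Submodule.ne_bot_iff _ |>.mpr ⟨(u : W), ⟨u.2, ?_⟩, fun e => hu.2 (Subtype.ext e)⟩
      exact Module.End.mem_eigenspace_iff.mpr (congrArg Subtype.val hu.apply_eq_smul)
    have hTstab : ∀ b, ∀ x ∈ T, ρ b x ∈ T := fun b x hx => ⟨hSstab b x hx.1, by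
      have h1 := Module.End.mem_eigenspace_iff.mp hx.2
      exact Module.End.mem_eigenspace_iff.mpr (by rw [hcomm, h1, map_smul])⟩
    have hTS : T = S := Submodule.eq_of_le_of_finrank_le inf_le_left
      (hSn.le.trans (Nat.find_min' hex ⟨T, hT0, inf_le_left.trans hSle, hTstab, rfl⟩))
    exact ⟨c, Module.End.mem_eigenspace_iff.mp (hTS.symm ▸ hwS : w ∈ T).2⟩
  choose c hc using hscal
  have huniq : ∀ x y : ℂ, x • w = y • w → x = y := fun x y e => smul_left_injective ℂ hw0 e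
  let χ : A →+* ℂ :=
    { toFun := c
      map_one' := huniq _ _ (by rw [← hc, map_one, Module.End.one_apply, one_smul])
      map_mul' := fun a b => huniq _ _ (by
        rw [← hc, map_mul, Module.End.mul_apply, hc b, map_smul, hc a, smul_smul, mul_comm])
      map_zero' := huniq _ _ (by rw [← hc, map_zero, LinearMap.zero_apply, zero_smul])
      map_add' := fun a b => huniq _ _ (by
        rw [← hc, map_add, LinearMap.add_apply, hc, hc, add_smul]) }
  refine ⟨χ, w, hw0, hc, fun t ht => ?_⟩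
  by_contra htm
  refine hw0 (hinj t htm w (hSle hwS) ?_)
  rw [hc t, show c t = 0 from ht, zero_smul]

end FLTAgent.LevelRaising
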