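import Mathlib.Topology.Compactification.OnePoint.ProjectiveLine
import Mathlib.NumberTheory.Modular
import Mathlib.NumberTheory.ModularForms.CongruenceSubgroups
import Mathlib.Tactic.LinearCombination

/-!
# Integer matrices acting on rational cusps

Basic API for the action of integral two by two matrices of nonzero determinant on `OnePoint ℚ`.
-/

set_option autoImplicit false

noncomputable section

open Matrix OnePoint
open scoped MatrixGroups

namespace FLTAgent.LevelRaising

/-- The cusps of the modular group. -/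
abbrev Cusp := OnePoint ℚ

/-- The coercion of `SL(2,ℤ)` to `GL(2,ℚ)`. -/
abbrev glQ : SL(2, ℤ) →* GL (Fin 2) ℚ := Matrix.SpecialLinearGroup.mapGL ℚ

/-- An integral matrix of nonzero determinant as an element of `GL(2,ℚ)` (junk value `1`). -/
def ofMat (A : Matrix (Fin 2) (Fin 2) ℤ) : GL (Fin 2) ℚ :=
  if h : A.det = 0 then 1 else
    GeneralLinearGroup.mkOfDetNeZero (A.map (Int.cast : ℤ → ℚ)) (by
      rw [show A.map (Int.cast : ℤ → ℚ) = (Int.castRingHom ℚ).mapMatrix A from rfl,
        ← RingHom.map_det]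
      simpa using h)

theorem val_ofMat {A : Matrix (Fin 2) (Fin 2) ℤ} (h : A.det ≠ 0) :
    (ofMat A : Matrix (Fin 2) (Fin 2) ℚ) = A.map (Int.cast : ℤ → ℚ) := by
  rw [ofMat, dif_neg h]; rfl

theorem ofMat_apply {A : Matrix (Fin 2) (Fin 2) ℤ} (h : A.det ≠ 0) (i j : Fin 2) :
    (ofMat A : GL (Fin 2) ℚ) i j = (A i j : ℚ) := by
  rw [val_ofMat h]; rfl

/-- The rational matrix of a product. -/
theorem ofMat_mul {A B : Matrix (Fin 2) (Fin 2) ℤ} (hA : A.det ≠ 0) (hB : B.det ≠ 0) :
    ofMat (A * B) = ofMat A * ofMat B := by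
  have hAB : (A * B).det ≠ 0 := by rw [det_mul]; exact mul_ne_zero hA hB
  refine Units.ext ?_
  rw [Units.val_mul, val_ofMat hAB, val_ofMat hA, val_ofMat hB]
  exact (Int.castRingHom ℚ).mapMatrix.map_mul A B

/-- The rational matrix of an element of `SL(2, ℤ)`. -/
theorem ofMat_coe (g : SL(2, ℤ)) : ofMat (g : Matrix (Fin 2) (Fin 2) ℤ) = glQ g := by
  refine Units.ext ?_
  rw [val_ofMat (by rw [g.det_coe]; exact one_ne_zero)]
  rfl

/-- The entries of the rational matrix. -/
theorem glQ_apply (g : SL(2, ℤ)) (i j : Fin 2) : (glQ g) i j = (g i j : ℚ) := rfl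

theorem det_smul_fin_two (n : ℤ) (A : Matrix (Fin 2) (Fin 2) ℤ) :
    (n • A).det = n * n * A.det := by
  rw [Matrix.det_fin_two, Matrix.det_fin_two]
  simp only [Matrix.smul_apply, smul_eq_mul]
  ring

/-- Scalar matrices act trivially on cusps. -/
theorem ofMat_smul_smul {n : ℤ} (hn : n ≠ 0) {A : Matrix (Fin 2) (Fin 2) ℤ} (hA : A.det ≠ 0)
    (x : Cusp) : ofMat (n • A) • x = ofMat A • x := by
  have hnA : (n • A).det ≠ 0 := by
    rw [det_smul_fin_two]; exact mul_ne_zero (mul_ne_zero hn hn) hA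
  have hn' : (n : ℚ) ≠ 0 := by exact_mod_cast hn
  induction x using OnePoint.rec with
  | infty =>
    rw [smul_infty_eq_ite, smul_infty_eq_ite]
    simp only [ofMat_apply hnA, ofMat_apply hA, Matrix.smul_apply, smul_eq_mul, Int.cast_mul,
      mul_eq_zero, hn', false_or]
    split_ifs with h
    · rfl
    · rw [mul_div_mul_left _ _ hn']
  | coe k =>
    rw [smul_some_eq_ite, smul_some_eq_ite]
    simp only [ofMat_apply hnA, ofMat_apply hA, Matrix.smul_apply, smul_eq_mul, Int.cast_mul]
    rw [mul_assoc, mul_assoc, ← mul_add, ← mul_add, mul_div_mul_left _ _ hn']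
    simp only [mul_eq_zero, hn', false_or]

theorem glQ_neg_smul (g : SL(2, ℤ)) (x : Cusp) : glQ (-g) • x = glQ g • x := by
  rw [← ofMat_coe, ← ofMat_coe, Matrix.SpecialLinearGroup.coe_neg, ← neg_one_smul ℤ
    (g : Matrix (Fin 2) (Fin 2) ℤ)]
  exact ofMat_smul_smul (by norm_num) (by simp [g.det_coe]) x

/-- The pullback of a two-cusp function along an element of `GL(2,ℚ)`. -/
def pull (R : Type*) [CommRing R] (g : GL (Fin 2) ℚ) :
    (Cusp → Cusp → R) →ₗ[R] (Cusp → Cusp → R) where
  toFun Φ x y := Φ (g • x) (g • y)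
  map_add' _ _ := rfl
  map_smul' _ _ := rfl

/-- The pullback of a symbol evaluated at two cusps. -/
@[simp] theorem pull_apply {R : Type*} [CommRing R] (g : GL (Fin 2) ℚ) (Φ : Cusp → Cusp → R)
    (x y : Cusp) : pull R g Φ x y = Φ (g • x) (g • y) := rfl

theorem pull_mul {R : Type*} [CommRing R] (g h : GL (Fin 2) ℚ) :
    pull R (g * h) = pull R h ∘ₗ pull R g := by
  refine LinearMap.ext fun Φ => funext fun x => funext fun y => ?_
  simp [mul_smul]

theorem pull_one (R : Type*) [CommRing R] : pull R (1 : GL (Fin 2) ℚ) = LinearMap.id := by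
  refine LinearMap.ext fun Φ => funext fun x => funext fun y => ?_
  simp

/-- Pullback is invariant under nonzero scalars. -/
theorem pull_ofMat_smul {R : Type*} [CommRing R] {n : ℤ} (hn : n ≠ 0)
    {A : Matrix (Fin 2) (Fin 2) ℤ} (hA : A.det ≠ 0) :
    pull R (ofMat (n • A)) = pull R (ofMat A) := by
  refine LinearMap.ext fun Φ => funext fun x => funext fun y => ?_
  rw [pull_apply, pull_apply, ofMat_smul_smul hn hA, ofMat_smul_smul hn hA]

end FLTAgent.LevelRaising
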