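import Fermat.Agent.LevelRaising.Basic
import Mathlib.LinearAlgebra.Matrix.FixedDetMatrices

/-!
# Modular symbols as functions on cosets

For `Γ ≤ SL(2,ℤ)` containing `-1`, additive `Γ`-invariant functions on pairs of cusps are the same
as `Γ`-invariant functions on `SL(2,ℤ)` satisfying the two Manin relations.
-/

set_option autoImplicit false

noncomputable section

open Matrix OnePoint
open scoped MatrixGroups

namespace FLTAgent.LevelRaising

/-- The element `S` of `SL(2,ℤ)`. -/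
abbrev mS : SL(2, ℤ) := ModularGroup.S

/-- The element `T` of `SL(2,ℤ)`. -/
abbrev mT : SL(2, ℤ) := ModularGroup.T

theorem mS_mul_mS : mS * mS = -1 := by decide

theorem mST_pow_three : mS * mT * (mS * mT) * (mS * mT) = -1 := by decide

theorem mTinv_mS_sq : mT⁻¹ * mS * (mT⁻¹ * mS) = -(mS * mT) := by decide

theorem mT_inv_eq : mT⁻¹ = -(mS * mT * (mS * mT) * mS) := by decide

theorem glQ_mS_apply (i j : Fin 2) : (glQ mS) i j = (!![0, -1; 1, 0] : Matrix _ _ ℚ) i j := by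
  rw [glQ_apply, ModularGroup.coe_S]; fin_cases i <;> fin_cases j <;> simp

theorem glQ_mS_infty : glQ mS • (∞ : Cusp) = ((0 : ℚ) : Cusp) := by
  rw [smul_infty_eq_ite]
  simp [glQ_mS_apply]

theorem glQ_mS_zero : glQ mS • ((0 : ℚ) : Cusp) = ∞ := by
  rw [smul_some_eq_ite]
  simp [glQ_mS_apply]

theorem glQ_mS_coe {x : ℚ} (hx : x ≠ 0) : glQ mS • (x : Cusp) = ((-1 / x : ℚ) : Cusp) := by
  rw [smul_some_eq_ite]
  simp [glQ_mS_apply, hx]

theorem glQ_mT_zpow_infty (n : ℤ) : glQ (mT ^ n) • (∞ : Cusp) = ∞ := by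
  rw [smul_infty_eq_self_iff]
  simp only [glQ_apply, ModularGroup.coe_T_zpow]
  simp

theorem glQ_mT_zpow_coe (n : ℤ) (x : ℚ) :
    glQ (mT ^ n) • (x : Cusp) = ((x + n : ℚ) : Cusp) := by
  rw [smul_some_eq_ite]
  simp only [glQ_apply, ModularGroup.coe_T_zpow]
  simp

/-- The action on cusps of a product. -/
theorem glQ_mul_smul (a b : SL(2, ℤ)) (x : Cusp) : glQ (a * b) • x = glQ a • glQ b • x := by
  rw [map_mul, mul_smul]

variable (Γ : Subgroup SL(2, ℤ)) (R : Type*) [CommRing R]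

/-- Additive `Γ`-invariant functions on pairs of cusps. -/
def Symb : Submodule R (Cusp → Cusp → R) where
  carrier := {Φ | (∀ x y z, Φ x y + Φ y z = Φ x z) ∧
    ∀ γ ∈ Γ, ∀ x y, Φ (glQ γ • x) (glQ γ • y) = Φ x y}
  zero_mem' := ⟨fun _ _ _ => add_zero 0, fun _ _ _ _ => rfl⟩
  add_mem' := by
    rintro Φ Ψ ⟨h1, h2⟩ ⟨h3, h4⟩
    refine ⟨fun x y z => ?_, fun γ hγ x y => ?_⟩
    · simp only [Pi.add_apply]; rw [← h1 x y z, ← h3 x y z]; ring
    · simp only [Pi.add_apply]; rw [h2 γ hγ, h4 γ hγ]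
  smul_mem' := by
    rintro c Φ ⟨h1, h2⟩
    refine ⟨fun x y z => ?_, fun γ hγ x y => ?_⟩
    · simp only [Pi.smul_apply, smul_eq_mul]; rw [← h1 x y z]; ring
    · simp only [Pi.smul_apply]; rw [h2 γ hγ]

/-- Functions on cosets satisfying the Manin relations; the value at the class of `g⁻¹` is the
value at the edge `g{0,∞}`. -/
def maninSpace : Submodule R ((SL(2, ℤ) ⧸ Γ) → R) where
  carrier := {f | ∀ g : SL(2, ℤ), f ↑(g⁻¹) + f ↑((g * mS)⁻¹) = 0 ∧
    f ↑(g⁻¹) + f ↑((g * (mS * mT))⁻¹) + f ↑((g * (mS * mT) * (mS * mT))⁻¹) = 0}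
  zero_mem' := fun _ => ⟨by simp, by simp⟩
  add_mem' := by
    intro a b ha hb g
    simp only [Pi.add_apply]
    exact ⟨by linear_combination (ha g).1 + (hb g).1, by linear_combination (ha g).2 + (hb g).2⟩
  smul_mem' := by
    intro c a ha g
    simp only [Pi.smul_apply, smul_eq_mul]
    exact ⟨by linear_combination c * (ha g).1, by linear_combination c * (ha g).2⟩

variable {Γ R}

theorem Symb.add_cusps {Φ : Cusp → Cusp → R} (hΦ : Φ ∈ Symb Γ R) (x y z : Cusp) :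
    Φ x y + Φ y z = Φ x z := hΦ.1 x y z

theorem Symb.smul_cusps {Φ : Cusp → Cusp → R} (hΦ : Φ ∈ Symb Γ R) {γ : SL(2, ℤ)} (hγ : γ ∈ Γ)
    (x y : Cusp) : Φ (glQ γ • x) (glQ γ • y) = Φ x y := hΦ.2 γ hγ x y

theorem Symb.self_eq_zero {Φ : Cusp → Cusp → R} (hΦ : Φ ∈ Symb Γ R) (x : Cusp) : Φ x x = 0 := by
  have := hΦ.1 x x x
  simpa using this

/-- Symbols are alternating. -/
theorem Symb.swap {Φ : Cusp → Cusp → R} (hΦ : Φ ∈ Symb Γ R) (x y : Cusp) : Φ y x = -Φ x y := by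
  have := hΦ.1 x y x
  rw [Symb.self_eq_zero hΦ] at this
  linear_combination this

/-- The value of a coset function at the edge `g{0,∞}`. -/
def edgeVal (f : (SL(2, ℤ) ⧸ Γ) → R) (g : SL(2, ℤ)) : R := f ↑(g⁻¹)

omit [CommRing R] in
theorem edgeVal_mul_left {γ : SL(2, ℤ)} (hγ : γ ∈ Γ) (f : (SL(2, ℤ) ⧸ Γ) → R) (g : SL(2, ℤ)) :
    edgeVal f (γ * g) = edgeVal f g := by
  have h : ((↑((γ * g)⁻¹) : SL(2, ℤ) ⧸ Γ)) = ↑(g⁻¹) := by
    rw [QuotientGroup.eq]
    simpa [mul_assoc] using hγ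
  rw [edgeVal, edgeVal, h]

omit [CommRing R] in
theorem edgeVal_neg (hneg : -1 ∈ Γ) (f : (SL(2, ℤ) ⧸ Γ) → R) (g : SL(2, ℤ)) :
    edgeVal f (-g) = edgeVal f g := by
  rw [← neg_one_mul g, edgeVal_mul_left hneg]

theorem edgeVal_S {f : (SL(2, ℤ) ⧸ Γ) → R} (hf : f ∈ maninSpace Γ R) (g : SL(2, ℤ)) :
    edgeVal f (g * mS) = -edgeVal f g := by
  have := (hf g).1
  rw [edgeVal, edgeVal]
  linear_combination this

theorem edgeVal_triangle (hneg : -1 ∈ Γ) {f : (SL(2, ℤ) ⧸ Γ) → R} (hf : f ∈ maninSpace Γ R)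
    (g : SL(2, ℤ)) :
    edgeVal f (g * mT⁻¹) = edgeVal f g + edgeVal f (g * (mS * mT)) := by
  have := (hf g).2
  rw [mT_inv_eq, mul_neg, edgeVal_neg hneg, ← mul_assoc, ← mul_assoc g (mS * mT), edgeVal_S hf]
  rw [edgeVal, edgeVal, edgeVal]
  linear_combination -this

/-- The value `Φ(g∞, g x)` of the symbol attached to a coset function, by continued fractions. -/
def cfracSum (f : (SL(2, ℤ) ⧸ Γ) → R) (g : SL(2, ℤ)) (x : ℚ) : R :=
  if _h : Int.fract x = 0 then -edgeVal f (g * mT ^ ⌊x⌋)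
  else -edgeVal f (g * mT ^ ⌊x⌋) + cfracSum f (g * mT ^ ⌊x⌋ * mS) (-1 / Int.fract x)
termination_by x.den
decreasing_by
  have h0 : 0 < Int.fract x := lt_of_le_of_ne (Int.fract_nonneg x) (Ne.symm _h)
  have h1 : Int.fract x < 1 := Int.fract_lt_one x
  have hden : (Int.fract x).den = x.den := by
    rw [Int.fract, sub_eq_add_neg, ← Int.cast_neg, Rat.add_intCast_den]
  have hnum : (Int.fract x).num < (Int.fract x).den := Rat.num_lt_denom_iff.mpr h1
  have hpos : 0 < (Int.fract x).num := Rat.num_pos.mpr h0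
  have : (-1 / Int.fract x).den = (Int.fract x).num.natAbs := by
    rw [neg_div, Rat.den_neg_eq_den, one_div, Rat.den_inv_of_ne_zero h0.ne']
  omega

/-- `cfracSum` extended to all cusps. -/
def cuspSum (f : (SL(2, ℤ) ⧸ Γ) → R) (g : SL(2, ℤ)) : Cusp → R
  | ∞ => 0
  | (x : ℚ) => cfracSum f g x

theorem cuspSum_infty (f : (SL(2, ℤ) ⧸ Γ) → R) (g : SL(2, ℤ)) : cuspSum f g ∞ = 0 := rfl

theorem cuspSum_coe (f : (SL(2, ℤ) ⧸ Γ) → R) (g : SL(2, ℤ)) (x : ℚ) :
    cuspSum f g (x : Cusp) = cfracSum f g x := rfl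

theorem cfracSum_eq (f : (SL(2, ℤ) ⧸ Γ) → R) (g : SL(2, ℤ)) (x : ℚ) :
    cfracSum f g x = if Int.fract x = 0 then -edgeVal f (g * mT ^ ⌊x⌋)
      else -edgeVal f (g * mT ^ ⌊x⌋) + cfracSum f (g * mT ^ ⌊x⌋ * mS) (-1 / Int.fract x) := by
  rw [cfracSum]
  simp only [dite_eq_ite]

theorem cfracSum_add_int (f : (SL(2, ℤ) ⧸ Γ) → R) (g : SL(2, ℤ)) (x : ℚ) (n : ℤ) :
    cfracSum f g (x + n) = cfracSum f (g * mT ^ n) x := by
  rw [cfracSum_eq f g (x + n), cfracSum_eq f (g * mT ^ n) x]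
  simp only [Int.floor_add_intCast, Int.fract_add_intCast, mul_assoc, ← zpow_add, add_comm n]

theorem cfracSum_mul_left {γ : SL(2, ℤ)} (hγ : γ ∈ Γ) (f : (SL(2, ℤ) ⧸ Γ) → R) (x : ℚ) :
    ∀ g : SL(2, ℤ), cfracSum f (γ * g) x = cfracSum f g x := by
  induction hd : x.den using Nat.strong_induction_on generalizing x with
  | _ d ih =>
    intro g
    rw [cfracSum_eq f (γ * g) x, cfracSum_eq f g x]
    simp only [mul_assoc γ, edgeVal_mul_left hγ]
    split_ifs with h
    · rfl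
    · congr 1
      refine ih (-1 / Int.fract x).den ?_ _ rfl _
      have h0 : 0 < Int.fract x := lt_of_le_of_ne (Int.fract_nonneg x) (Ne.symm h)
      have hden : (Int.fract x).den = x.den := by
        rw [Int.fract, sub_eq_add_neg, ← Int.cast_neg, Rat.add_intCast_den]
      have hnum : (Int.fract x).num < (Int.fract x).den :=
        Rat.num_lt_denom_iff.mpr (Int.fract_lt_one x)
      have hpos : 0 < (Int.fract x).num := Rat.num_pos.mpr h0
      have : (-1 / Int.fract x).den = (Int.fract x).num.natAbs := by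
        rw [neg_div, Rat.den_neg_eq_den, one_div, Rat.den_inv_of_ne_zero h0.ne']
      omega

theorem cfracSum_neg (hneg : -1 ∈ Γ) (f : (SL(2, ℤ) ⧸ Γ) → R) (x : ℚ) (g : SL(2, ℤ)) :
    cfracSum f (-g) x = cfracSum f g x := by
  rw [← neg_one_mul g, cfracSum_mul_left hneg]

theorem cfracSum_of_mem_Ioo {x : ℚ} (h0 : 0 < x) (h1 : x < 1) (f : (SL(2, ℤ) ⧸ Γ) → R)
    (g : SL(2, ℤ)) : cfracSum f g x = -edgeVal f g + cfracSum f (g * mS) (-1 / x) := by
  have hf : ⌊x⌋ = 0 := Int.floor_eq_iff.mpr ⟨by simpa using h0.le, by simpa using h1⟩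
  have hr : Int.fract x = x := by simp [Int.fract, hf]
  rw [cfracSum_eq, if_neg (by rw [hr]; exact h0.ne'), hr, hf, zpow_zero, mul_one]

theorem cfracSum_int (n : ℤ) (f : (SL(2, ℤ) ⧸ Γ) → R) (g : SL(2, ℤ)) :
    cfracSum f g n = -edgeVal f (g * mT ^ n) := by
  rw [cfracSum_eq, if_pos (Int.fract_intCast n), Int.floor_intCast]

theorem cfracSum_zero (f : (SL(2, ℤ) ⧸ Γ) → R) (g : SL(2, ℤ)) :
    cfracSum f g 0 = -edgeVal f g := by
  simpa using cfracSum_int 0 f g

theorem cfracSum_one (f : (SL(2, ℤ) ⧸ Γ) → R) (g : SL(2, ℤ)) :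
    cfracSum f g 1 = -edgeVal f (g * mT) := by
  simpa using cfracSum_int 1 f g

section Cocycle

variable (hneg : -1 ∈ Γ) {f : (SL(2, ℤ) ⧸ Γ) → R} (hf : f ∈ maninSpace Γ R)
include hneg hf

omit hneg hf in
theorem cfracSum_S_of_lt_neg_one {x : ℚ} (hx : x < -1) (g : SL(2, ℤ)) :
    cfracSum f g (-1 / x) = -edgeVal f g + cfracSum f (g * mS) x := by
  have hx0 : x ≠ 0 := by linarith
  have h1 : 0 < -1 / x := div_pos_of_neg_of_neg (by norm_num) (by linarith)
  have h2 : -1 / x < 1 := by rw [div_lt_one_of_neg (by linarith)]; exact hx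
  rw [cfracSum_of_mem_Ioo h1 h2]
  congr 2
  field_simp

theorem cfracSum_S_of_one_le : ∀ {x : ℚ}, 1 ≤ x → ∀ g : SL(2, ℤ),
    cfracSum f g (-1 / x) = -edgeVal f g + cfracSum f (g * mS) x := by
  suffices H : ∀ n : ℕ, ∀ x : ℚ, 1 ≤ x → ⌊x⌋.natAbs = n → ∀ g : SL(2, ℤ),
      cfracSum f g (-1 / x) = -edgeVal f g + cfracSum f (g * mS) x from
    fun {x} hx g => H _ x hx rfl g
  intro n
  induction n using Nat.strong_induction_on with
  | _ n ih =>
    intro x hx hn g
    have hx0 : (0 : ℚ) < x := lt_of_lt_of_le one_pos hx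
    have hT : cfracSum f g (-1 / x) = cfracSum f (g * mT⁻¹) ((x - 1) / x) := by
      have : -1 / x = (x - 1) / x + ((-1 : ℤ) : ℚ) := by push_cast; field_simp; ring
      rw [this, cfracSum_add_int, zpow_neg_one]
    rw [hT]
    rcases eq_or_lt_of_le hx with h | h
    · subst h
      rw [sub_self, zero_div, cfracSum_zero, cfracSum_one, edgeVal_triangle hneg hf, mul_assoc]
      ring
    · have hy0 : 0 < (x - 1) / x := div_pos (sub_pos.mpr h) hx0
      have hy1 : (x - 1) / x < 1 := by rw [div_lt_one hx0]; linarith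
      rw [cfracSum_of_mem_Ioo hy0 hy1]
      have e1 : -1 / ((x - 1) / x) = -1 / (x - 1) + ((-1 : ℤ) : ℚ) := by
        have : x - 1 ≠ 0 := (sub_pos.mpr h).ne'
        push_cast; field_simp; ring
      rw [e1, cfracSum_add_int, zpow_neg_one]
      set k := g * mT⁻¹ * mS * mT⁻¹ with hk
      have hkS : k * mS = -(g * mS * mT) := by
        rw [hk, mul_assoc, mul_assoc, mul_assoc, ← mul_assoc mT⁻¹ mS, mTinv_mS_sq, mul_neg,
          mul_assoc]
      have hkv : edgeVal f k = -edgeVal f (g * (mS * mT)) := by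
        have h1 := edgeVal_S hf k
        rw [hkS, edgeVal_neg hneg, mul_assoc] at h1
        rw [h1, neg_neg]
      have hstep : cfracSum f k (-1 / (x - 1)) = -edgeVal f k + cfracSum f (k * mS) (x - 1) := by
        rcases lt_or_ge (x - 1) 1 with h' | h'
        · have h0' : 0 < x - 1 := sub_pos.mpr h
          have h4 := cfracSum_of_mem_Ioo h0' h' f (k * mS)
          rw [h4, mul_assoc k mS mS, mS_mul_mS, mul_neg, mul_one, cfracSum_neg hneg,
            edgeVal_S hf]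
          ring
        · refine ih _ ?_ (x - 1) h' rfl k
          rw [← hn, Int.floor_sub_one]
          have : 1 ≤ ⌊x - 1⌋ := Int.le_floor.mpr (by exact_mod_cast h')
          rw [Int.floor_sub_one] at this
          omega
      rw [hstep, hkS, cfracSum_neg hneg, hkv, edgeVal_triangle hneg hf]
      have hxe : x = (x - 1) + ((1 : ℤ) : ℚ) := by push_cast; ring
      conv_rhs => rw [hxe, cfracSum_add_int, zpow_one]
      ring

/-- The inversion rule. -/
theorem cuspSum_S (g : SL(2, ℤ)) (x : Cusp) :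
    cuspSum f g (glQ mS • x) = -edgeVal f g + cuspSum f (g * mS) x := by
  have flip : ∀ y : ℚ, (∀ k, cfracSum f k (-1 / y) = -edgeVal f k + cfracSum f (k * mS) y) →
      cfracSum f g y = -edgeVal f g + cfracSum f (g * mS) (-1 / y) := by
    intro y h
    rw [h (g * mS), mul_assoc, mS_mul_mS, mul_neg, mul_one, cfracSum_neg hneg, edgeVal_S hf]
    ring
  induction x using OnePoint.rec with
  | infty =>
    rw [glQ_mS_infty, cuspSum_coe, cfracSum_zero, cuspSum_infty, add_zero]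
  | coe x =>
    rcases eq_or_ne x 0 with rfl | hx
    · rw [glQ_mS_zero, cuspSum_infty, cuspSum_coe, cfracSum_zero, edgeVal_S hf]
      ring
    rw [glQ_mS_coe hx, cuspSum_coe, cuspSum_coe]
    rcases lt_trichotomy x (-1) with h | h | h
    · exact cfracSum_S_of_lt_neg_one h g
    · subst h
      have := flip 1 fun k => cfracSum_S_of_one_le hneg hf le_rfl k
      norm_num at this ⊢
      exact this
    · rcases lt_or_ge x 0 with h0 | h0
      · have h1 : 1 ≤ -1 / x := by rw [le_div_iff_of_neg h0]; linarith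
        have := flip (-1 / x) fun k => cfracSum_S_of_one_le hneg hf h1 k
        rwa [show -1 / (-1 / x) = x by field_simp] at this
      · rcases lt_or_ge x 1 with h1 | h1
        · have h0' : 0 < x := lt_of_le_of_ne h0 (Ne.symm hx)
          have h2 : -1 / x < -1 := by rw [div_lt_iff₀ h0']; linarith
          have := flip (-1 / x) fun k => cfracSum_S_of_lt_neg_one h2 k
          rwa [show -1 / (-1 / x) = x by field_simp] at this
        · exact cfracSum_S_of_one_le hneg hf h1 g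

/-- The cocycle rule. -/
theorem cuspSum_smul (A : SL(2, ℤ)) : ∀ (g : SL(2, ℤ)) (x : Cusp),
    cuspSum f g (glQ A • x) = cuspSum f g (glQ A • ∞) + cuspSum f (g * A) x := by
  have hA : A ∈ Subgroup.closure ({mS, mT} : Set SL(2, ℤ)) := by
    rw [show Subgroup.closure ({mS, mT} : Set SL(2, ℤ)) = ⊤ from
      SpecialLinearGroup.SL2Z_generators]
    trivial
  induction hA using Subgroup.closure_induction with
  | mem B hB =>
    intro g x
    rcases hB with rfl | rfl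
    · rw [cuspSum_S hneg hf g x, glQ_mS_infty, cuspSum_coe, cfracSum_zero]
    · have h1 : glQ mT • (∞ : Cusp) = ∞ := by simpa using glQ_mT_zpow_infty 1
      rw [h1, cuspSum_infty, zero_add]
      induction x using OnePoint.rec with
      | infty => rw [h1, cuspSum_infty, cuspSum_infty]
      | coe x =>
        rw [← zpow_one mT, glQ_mT_zpow_coe, cuspSum_coe, cuspSum_coe, cfracSum_add_int]
  | one => intro g x; simp [cuspSum_infty]
  | mul A B _ _ hA hB =>
    intro g x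
    rw [glQ_mul_smul, glQ_mul_smul, hA g (glQ B • x), hA g (glQ B • ∞), hB (g * A) x, mul_assoc]
    ring
  | inv A _ hA =>
    intro g x
    have h1 := hA (g * A⁻¹) (glQ A⁻¹ • x)
    have h2 := hA (g * A⁻¹) (glQ A⁻¹ • ∞)
    rw [← glQ_mul_smul, mul_inv_cancel, map_one, one_smul, inv_mul_cancel_right] at h1 h2
    rw [cuspSum_infty] at h2
    linear_combination h2 - h1

end Cocycle

/-- The symbol attached to a coset function. -/
def symbolOf (f : (SL(2, ℤ) ⧸ Γ) → R) (x y : Cusp) : R := cuspSum f 1 y - cuspSum f 1 x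

theorem symbolOf_mem (hneg : -1 ∈ Γ) {f : (SL(2, ℤ) ⧸ Γ) → R} (hf : f ∈ maninSpace Γ R) :
    symbolOf f ∈ Symb Γ R := by
  refine ⟨fun x y z => by simp only [symbolOf]; ring, fun γ hγ x y => ?_⟩
  have key : ∀ z, cuspSum f γ z = cuspSum f 1 z := by
    intro z
    induction z using OnePoint.rec with
    | infty => rfl
    | coe z => simpa [cuspSum_coe] using cfracSum_mul_left hγ f z 1
  simp only [symbolOf]
  rw [cuspSum_smul hneg hf γ 1 x, cuspSum_smul hneg hf γ 1 y, one_mul, key, key]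
  ring

theorem symbolOf_edge (hneg : -1 ∈ Γ) {f : (SL(2, ℤ) ⧸ Γ) → R} (hf : f ∈ maninSpace Γ R)
    (g : SL(2, ℤ)) : symbolOf f (glQ g • ((0 : ℚ) : Cusp)) (glQ g • ∞) = edgeVal f g := by
  simp only [symbolOf]
  rw [cuspSum_smul hneg hf g 1 ((0 : ℚ) : Cusp), one_mul, cuspSum_coe, cfracSum_zero]
  ring

/-- The coset function of a symbol. -/
def cosetFun (Φ : Cusp → Cusp → R) (c : SL(2, ℤ) ⧸ Γ) : R :=
  Φ (glQ c.out⁻¹ • ((0 : ℚ) : Cusp)) (glQ c.out⁻¹ • ∞)

theorem cosetFun_mk {Φ : Cusp → Cusp → R} (hΦ : Φ ∈ Symb Γ R) (g : SL(2, ℤ)) :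
    cosetFun (Γ := Γ) Φ ↑(g⁻¹) = Φ (glQ g • ((0 : ℚ) : Cusp)) (glQ g • ∞) := by
  obtain ⟨⟨h, hh⟩, heq⟩ := QuotientGroup.mk_out_eq_mul Γ g⁻¹
  unfold cosetFun
  simp only at heq
  rw [heq, _root_.mul_inv_rev, inv_inv, glQ_mul_smul, glQ_mul_smul, Symb.smul_cusps hΦ (inv_mem hh)]

theorem cosetFun_mem {Φ : Cusp → Cusp → R} (hΦ : Φ ∈ Symb Γ R) :
    cosetFun (Γ := Γ) Φ ∈ maninSpace Γ R := by
  intro g
  simp only [cosetFun_mk hΦ]
  have e0 : glQ (mS * mT) • ((0 : ℚ) : Cusp) = ((-1 : ℚ) : Cusp) := by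
    rw [glQ_mul_smul, ← zpow_one mT, glQ_mT_zpow_coe, glQ_mS_coe (by norm_num)]
    norm_num
  have ei : glQ (mS * mT) • (∞ : Cusp) = ((0 : ℚ) : Cusp) := by
    rw [glQ_mul_smul, ← zpow_one mT, glQ_mT_zpow_infty, glQ_mS_infty]
  have em : glQ (mS * mT) • ((-1 : ℚ) : Cusp) = ∞ := by
    rw [glQ_mul_smul, ← zpow_one mT, glQ_mT_zpow_coe]
    simpa using glQ_mS_zero
  constructor
  · rw [glQ_mul_smul, glQ_mul_smul, glQ_mS_zero, glQ_mS_infty, hΦ.1, Symb.self_eq_zero hΦ]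
  · rw [glQ_mul_smul g (mS * mT), glQ_mul_smul g (mS * mT), e0, ei, glQ_mul_smul (g * (mS * mT)),
      glQ_mul_smul (g * (mS * mT)), e0, ei, glQ_mul_smul g (mS * mT), glQ_mul_smul g (mS * mT),
      em, e0]
    rw [add_comm (Φ _ _) (Φ (glQ g • ((-1 : ℚ) : Cusp)) _), hΦ.1, hΦ.1, Symb.self_eq_zero hΦ]

/-- A symbol with zero coset function vanishes. -/
theorem Symb.eq_zero_of_edge {Φ : Cusp → Cusp → R} (hΦ : Φ ∈ Symb Γ R)
    (h : ∀ g : SL(2, ℤ), Φ (glQ g • ((0 : ℚ) : Cusp)) (glQ g • ∞) = 0) : Φ = 0 := by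
  have key : ∀ (x : ℚ) (g : SL(2, ℤ)), Φ (glQ g • ∞) (glQ g • (x : Cusp)) = 0 := by
    intro x
    induction hd : x.den using Nat.strong_induction_on generalizing x with
    | _ d ih =>
      intro g
      have hx : (x : Cusp) = glQ (mT ^ ⌊x⌋) • ((Int.fract x : ℚ) : Cusp) := by
        rw [glQ_mT_zpow_coe, Int.fract_add_floor]
      have hi : (∞ : Cusp) = glQ (mT ^ ⌊x⌋) • (∞ : Cusp) := (glQ_mT_zpow_infty _).symm
      rw [hx, hi, ← glQ_mul_smul, ← glQ_mul_smul]
      set k := g * mT ^ ⌊x⌋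
      rcases eq_or_ne (Int.fract x) 0 with h0 | h0
      · rw [h0, Symb.swap hΦ, h k, neg_zero]
      · have hk : (∞ : Cusp) = glQ mS • ((0 : ℚ) : Cusp) := glQ_mS_zero.symm
        have hk2 : ((Int.fract x : ℚ) : Cusp) = glQ mS • ((-1 / Int.fract x : ℚ) : Cusp) := by
          rw [glQ_mS_coe (by simp [h0])]
          congr 1
          field_simp
        rw [← hΦ.1 _ (glQ k • ((0 : ℚ) : Cusp)) _, Symb.swap hΦ, h k, neg_zero, zero_add, hk2,
          ← glQ_mul_smul, ← glQ_mS_infty, ← glQ_mul_smul]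
        refine ih _ ?_ _ rfl _
        have h1 : 0 < Int.fract x := lt_of_le_of_ne (Int.fract_nonneg x) (Ne.symm h0)
        have hden : (Int.fract x).den = x.den := by
          rw [Int.fract, sub_eq_add_neg, ← Int.cast_neg, Rat.add_intCast_den]
        have hnum : (Int.fract x).num < (Int.fract x).den :=
          Rat.num_lt_denom_iff.mpr (Int.fract_lt_one x)
        have hpos : 0 < (Int.fract x).num := Rat.num_pos.mpr h1
        have : (-1 / Int.fract x).den = (Int.fract x).num.natAbs := by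
          rw [neg_div, Rat.den_neg_eq_den, one_div, Rat.den_inv_of_ne_zero h1.ne']
        omega
  have key' : ∀ z : Cusp, Φ ∞ z = 0 := by
    intro z
    induction z using OnePoint.rec with
    | infty => exact Symb.self_eq_zero hΦ _
    | coe z => simpa using key z 1
  funext x y
  rw [Pi.zero_apply, Pi.zero_apply, ← hΦ.1 x ∞ y, Symb.swap hΦ, key', key', neg_zero, add_zero]

/-- Modular symbols are coset functions with the Manin relations. -/
def symbEquiv (hneg : -1 ∈ Γ) : Symb Γ R ≃ₗ[R] maninSpace Γ R where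
  toFun Φ := ⟨cosetFun Φ.1, cosetFun_mem Φ.2⟩
  map_add' _ _ := Subtype.ext (funext fun _ => rfl)
  map_smul' _ _ := Subtype.ext (funext fun _ => rfl)
  invFun f := ⟨symbolOf f.1, symbolOf_mem hneg f.2⟩
  left_inv Φ := by
    refine Subtype.ext (sub_eq_zero.mp (Symb.eq_zero_of_edge (Γ := Γ) (sub_mem
      (symbolOf_mem hneg (cosetFun_mem Φ.2)) Φ.2) fun g => ?_))
    simp only [Pi.sub_apply]
    rw [symbolOf_edge hneg (cosetFun_mem Φ.2), edgeVal, cosetFun_mk Φ.2, sub_self]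
  right_inv f := by
    refine Subtype.ext (funext fun c => ?_)
    show cosetFun (symbolOf f.1) c = f.1 c
    obtain ⟨g, rfl⟩ : ∃ g : SL(2, ℤ), c = ↑(g⁻¹) := by
      obtain ⟨a, rfl⟩ := QuotientGroup.mk_surjective c
      exact ⟨a⁻¹, by rw [inv_inv]⟩
    rw [cosetFun_mk (symbolOf_mem hneg f.2), symbolOf_edge hneg f.2, edgeVal]

@[simp] theorem symbEquiv_apply (hneg : -1 ∈ Γ) (Φ : Symb Γ R) :
    ((symbEquiv hneg Φ : maninSpace Γ R) : (SL(2, ℤ) ⧸ Γ) → R) = cosetFun Φ.1 := rfl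

@[simp] theorem symbEquiv_symm_apply (hneg : -1 ∈ Γ) (f : maninSpace Γ R) :
    (((symbEquiv hneg).symm f : Symb Γ R) : Cusp → Cusp → R) = symbolOf f.1 := rfl

end FLTAgent.LevelRaising
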