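import Fermat.Agent.LevelRaising.HeckeMatrices
import Fermat.Agent.LevelRaising.Manin

/-!
# Hecke operators and degeneracy maps on modular symbols

`Lev R M` is the module of modular symbols of level `Γ₀(M)`; `tOp`, `uOp`, the Atkin–Lehner
operator `wOp` and the trace `trOp` act on it and satisfy the usual commutation relations.
-/

set_option autoImplicit false

noncomputable section

open Matrix CongruenceSubgroup
open scoped MatrixGroups

namespace FLTAgent.LevelRaising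

variable (R : Type*) [CommRing R]

/-- The modular symbols of level `M`. -/
abbrev Lev (M : ℕ) : Submodule R (Cusp → Cusp → R) := Symb (Gamma0 M) R

/-- The sum of pullbacks along a family of integral matrices. -/
def pullFam {ι : Type*} [Fintype ι] (A : ι → M2) :
    (Cusp → Cusp → R) →ₗ[R] (Cusp → Cusp → R) :=
  ∑ i, pull R (ofMat (A i))

/-- The operator `T_ℓ`. -/
def tOp (ℓ : ℕ) : (Cusp → Cusp → R) →ₗ[R] (Cusp → Cusp → R) := pullFam R (heckeFam ℓ)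

/-- The operator `U_q`. -/
def uOp (q : ℕ) : (Cusp → Cusp → R) →ₗ[R] (Cusp → Cusp → R) :=
  pullFam R fun j => heckeFam q (some j)

variable {R}

/-- The pullback by a family is the sum of the pullbacks. -/
theorem pullFam_apply {ι : Type*} [Fintype ι] (A : ι → M2) (Φ : Cusp → Cusp → R) :
    pullFam R A Φ = ∑ i, pull R (ofMat (A i)) Φ := by
  simp [pullFam]

theorem tOp_eq (ℓ : ℕ) (Φ : Cusp → Cusp → R) :
    tOp R ℓ Φ = pull R (ofMat (heckeFam ℓ none)) Φ + uOp R ℓ Φ := by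
  rw [tOp, uOp, pullFam_apply, pullFam_apply, Fintype.sum_option]

/-- An element of `SL(2, ℤ)` has nonzero determinant. -/
theorem sl_det_ne_zero (γ : SL(2, ℤ)) : (γ : M2).det ≠ 0 := by simp [γ.det_coe]

theorem pull_glQ_eq {Γ : Subgroup SL(2, ℤ)} {Φ : Cusp → Cusp → R} (hΦ : Φ ∈ Symb Γ R)
    {γ : SL(2, ℤ)} (hγ : γ ∈ Γ) : pull R (glQ γ) Φ = Φ :=
  funext fun x => funext fun y => Symb.smul_cusps hΦ hγ x y

/-- Pullback by a product is the composite. -/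
theorem pull_ofMat_mul {A B : M2} (hA : A.det ≠ 0) (hB : B.det ≠ 0) (Φ : Cusp → Cusp → R) :
    pull R (ofMat (A * B)) Φ = pull R (ofMat B) (pull R (ofMat A) Φ) := by
  rw [ofMat_mul hA hB, pull_mul]; rfl

theorem pull_sl_mul {Γ : Subgroup SL(2, ℤ)} {Φ : Cusp → Cusp → R} (hΦ : Φ ∈ Symb Γ R)
    {γ : SL(2, ℤ)} (hγ : γ ∈ Γ) {A : M2} (hA : A.det ≠ 0) :
    pull R (ofMat ((γ : M2) * A)) Φ = pull R (ofMat A) Φ := by
  rw [pull_ofMat_mul (sl_det_ne_zero γ) hA, ofMat_coe, pull_glQ_eq hΦ hγ]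

/-- Two families meeting the same cosets, injectively, give the same operator. -/
theorem sum_pull_eq {Γ : Subgroup SL(2, ℤ)} {Φ : Cusp → Cusp → R} (hΦ : Φ ∈ Symb Γ R)
    {ι κ : Type*} [Fintype ι] [Fintype κ] (hcard : Fintype.card ι = Fintype.card κ)
    (A : ι → M2) (B : κ → M2) (hB : ∀ k, (B k).det ≠ 0)
    (h : ∀ i, ∃ k, ∃ γ ∈ Γ, A i = (γ : M2) * B k)
    (hinj : ∀ i i', ∀ γ ∈ Γ, A i = ((γ : SL(2, ℤ)) : M2) * A i' → i = i') :
    ∑ i, pull R (ofMat (A i)) Φ = ∑ k, pull R (ofMat (B k)) Φ := by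
  choose e γ hγ he using h
  have hei : Function.Injective e := fun i i' hii => by
    refine hinj i i' (γ i * (γ i')⁻¹) (mul_mem (hγ i) (inv_mem (hγ i'))) ?_
    rw [he i', ← mul_assoc, ← Matrix.SpecialLinearGroup.coe_mul, inv_mul_cancel_right, ← hii]
    exact he i
  refine Fintype.sum_bijective e ⟨hei, ?_⟩ _ _ fun i => ?_
  · exact ((Fintype.bijective_iff_injective_and_card e).mpr ⟨hei, hcard⟩).2
  · rw [he i, pull_sl_mul hΦ (hγ i) (hB (e i))]

/-- A matrix of determinant one with divisible lower corner lies in `Γ₀`. -/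
theorem exists_gamma0_eq {M : ℕ} {δ : M2} (h1 : δ.det = 1) (hc : (M : ℤ) ∣ δ 1 0) :
    ∃ γ ∈ Gamma0 M, ((γ : SL(2, ℤ)) : M2) = δ :=
  ⟨⟨δ, h1⟩, mem_Gamma0_iff_dvd.mpr hc, rfl⟩

/-- A matrix of determinant `ℓ` upper triangular modulo `M` is a representative up to `Γ₀(M)`. -/
theorem exists_gamma_mul_heckeFam {ℓ M : ℕ} (hℓ : ℓ.Prime) (hM : ¬ ℓ ∣ M) {δ : M2}
    (hdet : δ.det = ℓ) (hc : (M : ℤ) ∣ δ 1 0) :
    ∃ i, ∃ γ ∈ Gamma0 M, δ = ((γ : SL(2, ℤ)) : M2) * heckeFam ℓ i := by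
  obtain ⟨i, δ', hc', he⟩ := exists_eq_mul_heckeFam hℓ hM δ (hdet ▸ dvd_refl _) hc
  have h1 : δ'.det = 1 := by
    have h := congrArg Matrix.det he
    rw [Matrix.det_mul, heckeFam_det, hdet] at h
    exact mul_right_cancel₀ (b := (ℓ : ℤ)) (by exact_mod_cast hℓ.ne_zero) (by rw [one_mul, ← h])
  obtain ⟨γ, hγ, rfl⟩ := exists_gamma0_eq h1 hc'
  exact ⟨i, γ, hγ, he⟩

theorem exists_gamma_mul_heckeFam_some {q M : ℕ} (hq : q.Prime) {δ : M2}
    (hdet : δ.det = q) (hc : (M : ℤ) ∣ δ 1 0) (ha : ¬ (q : ℤ) ∣ δ 0 0) :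
    ∃ j, ∃ γ ∈ Gamma0 M, δ = ((γ : SL(2, ℤ)) : M2) * heckeFam q (some j) := by
  obtain ⟨j, δ', hc', _, he⟩ := exists_eq_mul_heckeFam_some hq δ (hdet ▸ dvd_refl _) hc ha
  have h1 : δ'.det = 1 := by
    have h := congrArg Matrix.det he
    rw [Matrix.det_mul, heckeFam_det, hdet] at h
    exact mul_right_cancel₀ (b := (q : ℤ)) (by exact_mod_cast hq.ne_zero) (by rw [one_mul, ← h])
  obtain ⟨γ, hγ, rfl⟩ := exists_gamma0_eq h1 hc'
  exact ⟨j, γ, hγ, he⟩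

/-- The Hecke representatives have nonzero determinant. -/
theorem heckeFam_det_ne_zero {ℓ : ℕ} (hℓ : ℓ ≠ 0) (i : Option (Fin ℓ)) :
    (heckeFam ℓ i).det ≠ 0 := by
  rw [heckeFam_det]; exact_mod_cast hℓ

theorem mul_sl_inj {γ : SL(2, ℤ)} {A B : M2} (h : A * (γ : M2) = B * (γ : M2)) : A = B := by
  have := congrArg (· * ((γ⁻¹ : SL(2, ℤ)) : M2)) h
  simpa only [mul_assoc, ← Matrix.SpecialLinearGroup.coe_mul, mul_inv_cancel,
    Matrix.SpecialLinearGroup.coe_one, mul_one] using this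

theorem left_cancel_of_det_ne_zero {A B C : M2} (hA : A.det ≠ 0) (h : A * B = A * C) : B = C := by
  have := congrArg (A.adjugate * ·) h
  simp only [← mul_assoc, Matrix.adjugate_mul, Matrix.smul_mul, one_mul] at this
  exact smul_right_injective M2 hA this

theorem right_cancel_of_det_ne_zero {A B C : M2} (hA : A.det ≠ 0) (h : B * A = C * A) : B = C := by
  have := congrArg (· * A.adjugate) h
  simp only [mul_assoc, Matrix.mul_adjugate, Matrix.mul_smul, mul_one] at this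
  exact smul_right_injective M2 hA this

theorem smul_cusps_comm {Γ : Subgroup SL(2, ℤ)} (Φ : Cusp → Cusp → R)
    (hadd : ∀ x y z, Φ x y + Φ y z = Φ x z) (hinv : ∀ γ ∈ Γ, pull R (glQ γ) Φ = Φ) :
    Φ ∈ Symb Γ R :=
  ⟨hadd, fun γ hγ x y => congrFun (congrFun (hinv γ hγ) x) y⟩

theorem pullFam_additive {ι : Type*} [Fintype ι] (A : ι → M2) {Φ : Cusp → Cusp → R}
    (hΦ : ∀ x y z, Φ x y + Φ y z = Φ x z) (x y z : Cusp) :
    pullFam R A Φ x y + pullFam R A Φ y z = pullFam R A Φ x z := by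
  simp only [pullFam_apply, Finset.sum_apply, pull_apply, ← Finset.sum_add_distrib, hΦ]

/-- `T_ℓ` preserves symbols of level `M`. -/
theorem tOp_mem {ℓ M : ℕ} (hℓ : ℓ.Prime) (hM : ¬ ℓ ∣ M) {Φ : Cusp → Cusp → R}
    (hΦ : Φ ∈ Lev R M) : tOp R ℓ Φ ∈ Lev R M := by
  refine smul_cusps_comm _ (pullFam_additive _ hΦ.1) fun γ hγ => ?_
  rw [tOp, pullFam_apply, map_sum]
  simp only [← ofMat_coe, ← pull_ofMat_mul (heckeFam_det_ne_zero hℓ.ne_zero _) (sl_det_ne_zero γ)]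
  refine sum_pull_eq hΦ rfl _ _ (heckeFam_det_ne_zero hℓ.ne_zero) (fun i => ?_)
    fun i i' γ' _ he => ?_
  · refine exists_gamma_mul_heckeFam hℓ hM ?_ ?_
    · rw [Matrix.det_mul, heckeFam_det, γ.det_coe, mul_one]
    · rw [Matrix.mul_apply, Fin.sum_univ_two, heckeFam_lower, zero_mul, zero_add]
      exact dvd_mul_of_dvd_right (mem_Gamma0_iff_dvd.mp hγ) _
  · rw [← mul_assoc] at he
    refine heckeFam_right_unique hℓ (δ₁ := 1) (δ₂ := (γ' : M2)) ?_ (not_dvd_det_SL hℓ γ') ?_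
    · rw [Matrix.det_one]; exact not_prime_dvd_one hℓ
    · rw [one_mul]; exact mul_sl_inj he

theorem not_dvd_corner {q M : ℕ} (hq : q.Prime) (hqM : q ∣ M) {γ : SL(2, ℤ)}
    (hγ : γ ∈ Gamma0 M) : ¬ (q : ℤ) ∣ γ 0 0 := fun h => by
  have hc : (q : ℤ) ∣ γ 1 0 :=
    (Int.natCast_dvd_natCast.mpr hqM).trans (mem_Gamma0_iff_dvd.mp hγ)
  have hdet := γ.det_coe
  rw [Matrix.det_fin_two] at hdet
  exact not_prime_dvd_one hq (hdet ▸ dvd_sub (dvd_mul_of_dvd_left h _) (dvd_mul_of_dvd_right hc _))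

theorem uOp_mem {q M : ℕ} (hq : q.Prime) (hqM : q ∣ M) {Φ : Cusp → Cusp → R}
    (hΦ : Φ ∈ Lev R M) : uOp R q Φ ∈ Lev R M := by
  refine smul_cusps_comm _ (pullFam_additive _ hΦ.1) fun γ hγ => ?_
  rw [uOp, pullFam_apply, map_sum]
  simp only [← ofMat_coe, ← pull_ofMat_mul (heckeFam_det_ne_zero hq.ne_zero _) (sl_det_ne_zero γ)]
  refine sum_pull_eq hΦ rfl _ _ (fun j => heckeFam_det_ne_zero hq.ne_zero _) (fun j => ?_)
    fun j j' γ' _ he => ?_
  · refine exists_gamma_mul_heckeFam_some hq ?_ ?_ ?_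
    · rw [Matrix.det_mul, heckeFam_det, γ.det_coe, mul_one]
    · rw [Matrix.mul_apply, Fin.sum_univ_two, heckeFam_lower, zero_mul, zero_add]
      exact dvd_mul_of_dvd_right (mem_Gamma0_iff_dvd.mp hγ) _
    · have hc : (q : ℤ) ∣ γ 1 0 :=
        (Int.natCast_dvd_natCast.mpr hqM).trans (mem_Gamma0_iff_dvd.mp hγ)
      rw [Matrix.mul_apply, Fin.sum_univ_two]
      simp only [heckeFam_some, Matrix.cons_val', Matrix.cons_val_zero, Matrix.cons_val_one,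
        Matrix.cons_val_fin_one, Matrix.of_apply, one_mul]
      intro h
      exact not_dvd_corner hq hqM hγ ((dvd_add_left (dvd_mul_of_dvd_right hc _)).mp h)
  · rw [← mul_assoc] at he
    refine Option.some_injective _ (heckeFam_right_unique hq (δ₁ := 1) (δ₂ := (γ' : M2)) ?_
      (not_dvd_det_SL hq γ') ?_)
    · rw [Matrix.det_one]; exact not_prime_dvd_one hq
    · rw [one_mul]; exact mul_sl_inj he

/-- `T_ℓ` and `T_m` commute. -/
theorem tOp_comm {ℓ m M : ℕ} (hℓ : ℓ.Prime) (hm : m.Prime) (hne : ℓ ≠ m) (hℓM : ¬ ℓ ∣ M)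
    (hmM : ¬ m ∣ M) {Φ : Cusp → Cusp → R} (hΦ : Φ ∈ Lev R M) :
    tOp R ℓ (tOp R m Φ) = tOp R m (tOp R ℓ Φ) := by
  simp only [tOp, pullFam_apply, map_sum]
  simp only [← pull_ofMat_mul (heckeFam_det_ne_zero hℓ.ne_zero _)
    (heckeFam_det_ne_zero hm.ne_zero _), ← pull_ofMat_mul (heckeFam_det_ne_zero hm.ne_zero _)
    (heckeFam_det_ne_zero hℓ.ne_zero _)]
  rw [← Fintype.sum_prod_type', ← Fintype.sum_prod_type']
  refine sum_pull_eq hΦ (by simp [mul_comm]) _ _ ?_ ?_ ?_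
  · intro k
    rw [Matrix.det_mul, heckeFam_det, heckeFam_det]
    exact mul_ne_zero (by exact_mod_cast hℓ.ne_zero) (by exact_mod_cast hm.ne_zero)
  · rintro ⟨k, i⟩
    obtain ⟨i', δ', hc', he⟩ := exists_eq_mul_heckeFam hm hmM (heckeFam m k * heckeFam ℓ i)
      (by rw [Matrix.det_mul, heckeFam_det, heckeFam_det]; exact dvd_mul_right _ _)
      (by simp [Matrix.mul_apply, Fin.sum_univ_two, heckeFam_lower])
    have hd : δ'.det = ℓ := by
      have h := congrArg Matrix.det he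
      simp only [Matrix.det_mul, heckeFam_det] at h
      exact mul_right_cancel₀ (b := (m : ℤ)) (by exact_mod_cast hm.ne_zero)
        (by rw [← h, mul_comm])
    obtain ⟨k', γ, hγ, rfl⟩ := exists_gamma_mul_heckeFam hℓ hℓM hd hc'
    exact ⟨(k', i'), γ, hγ, by rw [he, mul_assoc]⟩
  · rintro ⟨k, i⟩ ⟨k', i'⟩ γ _ he
    simp only [← mul_assoc] at he
    have hcop : ¬ (ℓ : ℤ) ∣ (m : ℤ) := fun h =>
      hne ((Nat.prime_dvd_prime_iff_eq hℓ hm).mp (by exact_mod_cast h))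
    obtain rfl : i = i' := heckeFam_right_unique hℓ (by rw [heckeFam_det]; exact hcop)
      (by rw [Matrix.det_mul, γ.det_coe, one_mul, heckeFam_det]; exact hcop) he
    have := right_cancel_of_det_ne_zero (heckeFam_det_ne_zero hℓ.ne_zero i) he
    obtain rfl : k = k' := heckeFam_right_unique hm (δ₁ := 1)
      (by rw [Matrix.det_one]; exact not_prime_dvd_one hm) (not_dvd_det_SL hm γ)
      (by rw [one_mul]; exact this)
    rfl

/-- A product `T_ℓ`-matrix times `U_q`-matrix is one in the other order up to `Γ₀(M)`. -/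
theorem exists_gamma_mul_heckeFam_swap {ℓ q M : ℕ} (hℓ : ℓ.Prime) (hq : q.Prime) (hℓM : ¬ ℓ ∣ M)
    (hqM : q ∣ M) (i : Option (Fin ℓ)) (j : Fin q) :
    ∃ k' i', ∃ γ ∈ Gamma0 M, heckeFam ℓ i * heckeFam q (some j) =
      ((γ : SL(2, ℤ)) : M2) * (heckeFam q (some k') * heckeFam ℓ i') := by
  have hne : ℓ ≠ q := fun h => hℓM (h ▸ hqM)
  have hcop : ∀ {a b : ℕ}, a.Prime → b.Prime → a ≠ b → ¬ (a : ℤ) ∣ (b : ℤ) := fun ha hb hab h =>
    hab ((Nat.prime_dvd_prime_iff_eq ha hb).mp (by exact_mod_cast h))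
  obtain ⟨i', δ', hc', he⟩ := exists_eq_mul_heckeFam hℓ hℓM (heckeFam ℓ i * heckeFam q (some j))
    (by rw [Matrix.det_mul, heckeFam_det, heckeFam_det]; exact dvd_mul_right _ _)
    (by simp [Matrix.mul_apply, Fin.sum_univ_two, heckeFam_lower])
  have hd : δ'.det = q := by
    have h := congrArg Matrix.det he
    simp only [Matrix.det_mul, heckeFam_det] at h
    exact mul_right_cancel₀ (b := (ℓ : ℤ)) (by exact_mod_cast hℓ.ne_zero)
      (by rw [← h, mul_comm])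
  have ha : ¬ (q : ℤ) ∣ δ' 0 0 := by
    intro ha
    have h := congrFun (congrFun he 0) 0
    simp only [Matrix.mul_apply, Fin.sum_univ_two, heckeFam_lower, mul_zero, add_zero] at h
    have h2 : (q : ℤ) ∣ heckeFam ℓ i 0 0 * heckeFam q (some j) 0 0 := h ▸ dvd_mul_of_dvd_left ha _
    rcases i with _ | i <;> simp at h2
    · exact hcop hq hℓ hne.symm h2
    · exact not_prime_dvd_one hq h2
  obtain ⟨k', γ, hγ, rfl⟩ := exists_gamma_mul_heckeFam_some hq hd hc' ha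
  exact ⟨k', i', γ, hγ, by rw [he, mul_assoc]⟩

/-- The products of `T_ℓ`- and `U_q`-matrices lie in distinct orbits of `SL(2, ℤ)`. -/
theorem heckeFam_mul_right_unique {ℓ q : ℕ} (hℓ : ℓ.Prime) (hq : q.Prime) (hne : ℓ ≠ q)
    {i i' : Option (Fin ℓ)} {j j' : Fin q} (γ : SL(2, ℤ))
    (he : heckeFam ℓ i * heckeFam q (some j) = (γ : M2) * (heckeFam ℓ i' * heckeFam q (some j'))) :
    i = i' ∧ j = j' := by
  have hcop : ∀ {a b : ℕ}, a.Prime → b.Prime → a ≠ b → ¬ (a : ℤ) ∣ (b : ℤ) := fun ha hb hab h =>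
    hab ((Nat.prime_dvd_prime_iff_eq ha hb).mp (by exact_mod_cast h))
  simp only [← mul_assoc] at he
  obtain rfl : j = j' := Option.some_injective _ (heckeFam_right_unique hq
    (by rw [heckeFam_det]; exact hcop hq hℓ hne.symm)
    (by rw [Matrix.det_mul, γ.det_coe, one_mul, heckeFam_det]; exact hcop hq hℓ hne.symm) he)
  have := right_cancel_of_det_ne_zero (heckeFam_det_ne_zero hq.ne_zero (some j)) he
  obtain rfl : i = i' := heckeFam_right_unique hℓ (δ₁ := 1)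
    (by rw [Matrix.det_one]; exact not_prime_dvd_one hℓ) (not_dvd_det_SL hℓ γ)
    (by rw [one_mul]; exact this)
  exact ⟨rfl, rfl⟩

theorem tOp_uOp_comm {ℓ q M : ℕ} (hℓ : ℓ.Prime) (hq : q.Prime) (hℓM : ¬ ℓ ∣ M) (hqM : q ∣ M)
    {Φ : Cusp → Cusp → R} (hΦ : Φ ∈ Lev R M) : tOp R ℓ (uOp R q Φ) = uOp R q (tOp R ℓ Φ) := by
  symm
  simp only [tOp, uOp, pullFam_apply, map_sum]
  simp only [← pull_ofMat_mul (heckeFam_det_ne_zero hℓ.ne_zero _)
    (heckeFam_det_ne_zero hq.ne_zero _), ← pull_ofMat_mul (heckeFam_det_ne_zero hq.ne_zero _)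
    (heckeFam_det_ne_zero hℓ.ne_zero _)]
  rw [← Fintype.sum_prod_type', ← Fintype.sum_prod_type']
  refine sum_pull_eq hΦ (by simp [mul_comm]) _ _ ?_ ?_ ?_
  · intro k
    rw [Matrix.det_mul, heckeFam_det, heckeFam_det]
    exact mul_ne_zero (by exact_mod_cast hq.ne_zero) (by exact_mod_cast hℓ.ne_zero)
  · rintro ⟨i, j⟩
    obtain ⟨k', i', γ, hγ, he⟩ := exists_gamma_mul_heckeFam_swap hℓ hq hℓM hqM i j
    exact ⟨(k', i'), γ, hγ, he⟩
  · rintro ⟨i, j⟩ ⟨i', j'⟩ γ _ he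
    obtain ⟨rfl, rfl⟩ := heckeFam_mul_right_unique hℓ hq (fun h => hℓM (h ▸ hqM)) γ he
    rfl

/-- Symbols of level `N` are symbols of level `M` when `N ∣ M`. -/
theorem lev_mono {N M : ℕ} (h : N ∣ M) : Lev R N ≤ Lev R M := fun _Φ hΦ =>
  ⟨hΦ.1, fun γ hγ => hΦ.2 γ (mem_Gamma0_iff_dvd.mpr
    ((Int.natCast_dvd_natCast.mpr h).trans (mem_Gamma0_iff_dvd.mp hγ)))⟩

namespace ALData

variable {N q : ℕ} (D : ALData N q)

variable (R) in
/-- The Atkin–Lehner operator. -/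
def wOp : (Cusp → Cusp → R) →ₗ[R] (Cusp → Cusp → R) := pull R (ofMat D.mat)

variable (R) in
/-- The first degeneracy trace. -/
def trOp : (Cusp → Cusp → R) →ₗ[R] (Cusp → Cusp → R) :=
  LinearMap.id + uOp R q ∘ₗ D.wOp R

theorem mat_det_ne_zero (hq : q.Prime) : D.mat.det ≠ 0 := by
  rw [D.mat_det]; exact_mod_cast hq.ne_zero

theorem exists_sl_mat_mul {γ : SL(2, ℤ)} (hγ : γ ∈ Gamma0 (N * q)) :
    ∃ γ' ∈ Gamma0 (N * q), D.mat * (γ : M2) = ((γ' : SL(2, ℤ)) : M2) * D.mat := by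
  obtain ⟨δ, hd, hc, he⟩ := D.exists_mat_mul (mem_Gamma0_iff_dvd.mp hγ)
  obtain ⟨γ', hγ', rfl⟩ := exists_gamma0_eq (by rw [hd, γ.det_coe]) hc
  exact ⟨γ', hγ', he⟩

theorem exists_sl_mul_mat {γ : SL(2, ℤ)} (hγ : γ ∈ Gamma0 (N * q)) :
    ∃ γ' ∈ Gamma0 (N * q), (γ : M2) * D.mat = D.mat * ((γ' : SL(2, ℤ)) : M2) := by
  obtain ⟨δ, hd, hc, he⟩ := D.exists_mul_mat (mem_Gamma0_iff_dvd.mp hγ)
  obtain ⟨γ', hγ', rfl⟩ := exists_gamma0_eq (by rw [hd, γ.det_coe]) hc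
  exact ⟨γ', hγ', he⟩

/-- The Atkin–Lehner operator preserves the level. -/
theorem wOp_mem (hq : q.Prime) {Φ : Cusp → Cusp → R} (hΦ : Φ ∈ Lev R (N * q)) :
    D.wOp R Φ ∈ Lev R (N * q) := by
  refine smul_cusps_comm _ (fun x y z => hΦ.1 _ _ _) fun γ hγ => ?_
  obtain ⟨γ', hγ', he⟩ := D.exists_sl_mat_mul hγ
  rw [wOp, ← ofMat_coe, ← pull_ofMat_mul (D.mat_det_ne_zero hq) (sl_det_ne_zero γ), he,
    pull_sl_mul hΦ hγ' (D.mat_det_ne_zero hq)]

/-- The Atkin–Lehner operator is an involution. -/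
theorem wOp_wOp (hq : q.Prime) {Φ : Cusp → Cusp → R} (hΦ : Φ ∈ Lev R (N * q)) :
    D.wOp R (D.wOp R Φ) = Φ := by
  rw [wOp, ← pull_ofMat_mul (D.mat_det_ne_zero hq) (D.mat_det_ne_zero hq), mat_mul_mat,
    pull_ofMat_smul (by exact_mod_cast hq.ne_zero) (sl_det_ne_zero _), ofMat_coe,
    pull_glQ_eq hΦ D.sq_mem]

/-- The Atkin–Lehner operator commutes with `T_ℓ`. -/
theorem tOp_wOp (hq : q.Prime) {ℓ : ℕ} (hℓ : ℓ.Prime) (hℓN : ¬ ℓ ∣ N * q)
    {Φ : Cusp → Cusp → R} (hΦ : Φ ∈ Lev R (N * q)) :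
    tOp R ℓ (D.wOp R Φ) = D.wOp R (tOp R ℓ Φ) := by
  simp only [tOp, wOp, pullFam_apply, map_sum]
  simp only [← pull_ofMat_mul (D.mat_det_ne_zero hq) (heckeFam_det_ne_zero hℓ.ne_zero _),
    ← pull_ofMat_mul (heckeFam_det_ne_zero hℓ.ne_zero _) (D.mat_det_ne_zero hq)]
  refine sum_pull_eq hΦ rfl _ _ (fun i => ?_) (fun i => ?_) fun i i' γ hγ he => ?_
  · rw [Matrix.det_mul, heckeFam_det, D.mat_det]
    exact mul_ne_zero (by exact_mod_cast hℓ.ne_zero) (by exact_mod_cast hq.ne_zero)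
  · obtain ⟨δ, hd, hc, he⟩ := D.exists_mat_mul (A := heckeFam ℓ i)
      (by rw [heckeFam_lower]; exact dvd_zero _)
    obtain ⟨k, γ, hγ, rfl⟩ := exists_gamma_mul_heckeFam hℓ hℓN (by rw [hd, heckeFam_det]) hc
    exact ⟨k, γ, hγ, by rw [he, mul_assoc]⟩
  · obtain ⟨γ'', _, he'⟩ := D.exists_sl_mul_mat hγ
    rw [← mul_assoc, he', mul_assoc] at he
    exact heckeFam_right_unique hℓ (δ₁ := 1) (by rw [Matrix.det_one]; exact not_prime_dvd_one hℓ)
      (not_dvd_det_SL hℓ γ'') (by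
        rw [one_mul]; exact left_cancel_of_det_ne_zero (D.mat_det_ne_zero hq) he)

theorem trOp_eq_sum (hq : q.Prime) (Φ : Cusp → Cusp → R) :
    D.trOp R Φ = ∑ i, pull R (glQ (D.cosetRep i)) Φ := by
  rw [Fintype.sum_option, trOp, LinearMap.add_apply, LinearMap.id_apply, LinearMap.comp_apply,
    uOp, wOp, pullFam_apply, cosetRep, map_one, pull_one, LinearMap.id_apply]
  congr 1
  refine Finset.sum_congr rfl fun j _ => ?_
  rw [← pull_ofMat_mul (D.mat_det_ne_zero hq) (heckeFam_det_ne_zero hq.ne_zero _),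
    mat_mul_heckeFam, pull_ofMat_smul (by exact_mod_cast hq.ne_zero) (sl_det_ne_zero _), ofMat_coe]

/-- The trace lands in level `N`. -/
theorem trOp_mem (hq : q.Prime) (hqN : ¬ q ∣ N) {Φ : Cusp → Cusp → R}
    (hΦ : Φ ∈ Lev R (N * q)) : D.trOp R Φ ∈ Lev R N := by
  refine smul_cusps_comm _ (fun x y z => ?_) fun γ hγ => ?_
  · simp only [D.trOp_eq_sum hq, Finset.sum_apply, pull_apply, ← Finset.sum_add_distrib, hΦ.1]
  · simp only [D.trOp_eq_sum hq, map_sum, ← ofMat_coe,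
      ← pull_ofMat_mul (sl_det_ne_zero _) (sl_det_ne_zero γ)]
    refine sum_pull_eq hΦ rfl _ _ (fun i => sl_det_ne_zero _) (fun i => ?_)
      fun i i' γ' hγ' he => ?_
    · obtain ⟨k, hk⟩ := D.exists_eq_mul_cosetRep hq hqN (mul_mem (D.cosetRep_mem i) hγ)
      exact ⟨k, _, hk, by simp only [← Matrix.SpecialLinearGroup.coe_mul]; simp⟩
    · rw [← mul_assoc] at he
      have := mul_sl_inj he
      rw [← Matrix.SpecialLinearGroup.coe_mul] at this
      refine D.cosetRep_injective hq hqN ?_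
      rw [Subtype.ext this, mul_inv_cancel_right]
      exact hγ'

theorem trOp_of_mem (hq : q.Prime) {Φ : Cusp → Cusp → R} (hΦ : Φ ∈ Lev R N) :
    D.trOp R Φ = ((q : R) + 1) • Φ := by
  rw [D.trOp_eq_sum hq, Finset.sum_congr rfl fun i _ => pull_glQ_eq hΦ (D.cosetRep_mem i)]
  rw [Finset.sum_const, Finset.card_univ, Fintype.card_option, Fintype.card_fin,
    ← Nat.cast_smul_eq_nsmul R]
  push_cast
  rfl

theorem trOp_wOp_of_mem (hq : q.Prime) {Φ : Cusp → Cusp → R} (hΦ : Φ ∈ Lev R N) :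
    D.trOp R (D.wOp R Φ) = tOp R q Φ := by
  rw [trOp, LinearMap.add_apply, LinearMap.id_apply, LinearMap.comp_apply,
    D.wOp_wOp hq (lev_mono (dvd_mul_right N q) hΦ), tOp_eq, wOp, mat_eq,
    pull_ofMat_mul (sl_det_ne_zero _) (heckeFam_det_ne_zero hq.ne_zero _), ofMat_coe,
    pull_glQ_eq hΦ D.g₀_mem]

theorem uOp_uOp_of_ker (hq : q.Prime) {Φ : Cusp → Cusp → R} (hΦ : Φ ∈ Lev R (N * q))
    (h1 : D.trOp R Φ = 0) (h2 : D.trOp R (D.wOp R Φ) = 0) : uOp R q (uOp R q Φ) = Φ := by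
  simp only [trOp, LinearMap.add_apply, LinearMap.id_apply, LinearMap.comp_apply] at h1 h2
  rw [D.wOp_wOp hq hΦ] at h2
  have e1 : uOp R q Φ = -D.wOp R Φ := eq_neg_of_add_eq_zero_right h2
  rw [e1, map_neg]
  exact neg_eq_of_add_eq_zero_left h1

/-- The trace commutes with `T_ℓ`. -/
theorem tOp_trOp (hq : q.Prime) {ℓ : ℕ} (hℓ : ℓ.Prime) (hℓN : ¬ ℓ ∣ N * q)
    {Φ : Cusp → Cusp → R} (hΦ : Φ ∈ Lev R (N * q)) :
    tOp R ℓ (D.trOp R Φ) = D.trOp R (tOp R ℓ Φ) := by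
  simp only [trOp, LinearMap.add_apply, LinearMap.id_apply, LinearMap.comp_apply, map_add]
  rw [tOp_uOp_comm hℓ hq hℓN (dvd_mul_left q N) (D.wOp_mem hq hΦ), D.tOp_wOp hq hℓ hℓN hΦ]

end ALData

end FLTAgent.LevelRaising
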