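import Fermat.Agent.LevelRaising.Side
import Fermat.Agent.LevelRaising.Hecke
import Mathlib.Algebra.BigOperators.Finprod

/-!
# Crossing symbols

`crossSymb Γ γ` is the integral modular symbol counting the crossings of a geodesic with the
translates of a path from `i` to `γ i`. It is the Poincaré dual of `γ`; it is compatible with
Hecke operators and traces by reindexing.
-/

set_option autoImplicit false

noncomputable section

open Matrix CongruenceSubgroup
open scoped MatrixGroups UpperHalfPlane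

namespace FLTAgent.LevelRaising

/-- The action of an integral matrix on the upper half plane. -/
def mact (A : M2) (z : ℍ) : ℍ := realGL (ofMat A) • z

theorem mact_mul {A B : M2} (hA : A.det ≠ 0) (hB : B.det ≠ 0) (z : ℍ) :
    mact (A * B) z = mact A (mact B z) := by
  rw [mact, mact, mact, ofMat_mul hA hB, map_mul, mul_smul]

theorem mact_sl (g : SL(2, ℤ)) (z : ℍ) : mact (g : M2) z = g • z := by
  rw [mact, ofMat_coe, realGL_glQ_smul]

theorem mact_scalar {n : ℤ} (hn : n ≠ 0) (z : ℍ) : mact (n • (1 : M2)) z = z := by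
  have hd : (n • (1 : M2)).det ≠ 0 := by
    rw [det_smul_fin_two, Matrix.det_one, mul_one]; exact mul_ne_zero hn hn
  have hpos : 0 < (realGL (ofMat (n • (1 : M2)))).det.val := by
    rw [Matrix.GeneralLinearGroup.val_det_apply, Matrix.det_fin_two]
    simp only [realGL_apply, ofMat_apply hd, Matrix.smul_apply, Matrix.one_apply]
    simp [hn]
  ext
  rw [mact, UpperHalfPlane.coe_smul_of_det_pos hpos]
  simp only [UpperHalfPlane.num, UpperHalfPlane.denom, realGL_apply, ofMat_apply hd,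
    Matrix.smul_apply, Matrix.one_apply]
  simp
  have : (n : ℂ) ≠ 0 := by exact_mod_cast hn
  field_simp

theorem ofMat_det_pos {A : M2} (hA : 0 < A.det) : 0 < (ofMat A).det.val := by
  rw [Matrix.GeneralLinearGroup.val_det_apply, Matrix.det_fin_two]
  simp only [ofMat_apply hA.ne']
  rw [Matrix.det_fin_two] at hA
  exact_mod_cast hA

theorem det_adjugate_fin_two (A : M2) : A.adjugate.det = A.det := by
  rw [Matrix.det_adjugate]; simp

theorem side_ofMat_left {A : M2} (hA : 0 < A.det) (r s : Cusp) (z : ℍ) :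
    side (ofMat A • r) (ofMat A • s) z = side r s (mact A.adjugate z) := by
  conv_lhs => rw [← mact_scalar hA.ne' z, ← Matrix.mul_adjugate,
    mact_mul hA.ne' (by rw [det_adjugate_fin_two]; exact hA.ne')]
  rw [mact, side_smul _ (ofMat_det_pos hA)]

theorem adjugate_sl (g : SL(2, ℤ)) : (g : M2).adjugate = ((g⁻¹ : SL(2, ℤ)) : M2) :=
  (Matrix.SpecialLinearGroup.coe_inv g).symm

theorem adjugate_adjugate_fin_two (A : M2) : A.adjugate.adjugate = A := by
  rw [Matrix.adjugate_fin_two, Matrix.adjugate_fin_two]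
  ext i j; fin_cases i <;> fin_cases j <;> simp

variable (Γ : Subgroup SL(2, ℤ))

/-- The summand of the crossing number. -/
def crossTerm (r s : Cusp) (z w : ℍ) (g : Γ) : ℤ :=
  side r s ((g : SL(2, ℤ)) • w) - side r s ((g : SL(2, ℤ)) • z)

/-- The crossing number of a geodesic with the translates of a path. -/
def crossing (r s : Cusp) (z w : ℍ) : ℤ := ∑ᶠ g : Γ, crossTerm Γ r s z w g

theorem finite_support_crossTerm (r s : Cusp) (z w : ℍ) :
    (Function.support (crossTerm Γ r s z w)).Finite :=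
  ((finite_side_ne r s z w).preimage Subtype.val_injective.injOn).subset fun g hg => by
    simp only [Function.mem_support, crossTerm, sub_ne_zero] at hg
    exact fun h => hg h.symm

theorem crossing_add_path (r s : Cusp) (z w u : ℍ) :
    crossing Γ r s z w + crossing Γ r s w u = crossing Γ r s z u := by
  rw [crossing, crossing, crossing, ← finsum_add_distrib (finite_support_crossTerm Γ r s z w)
    (finite_support_crossTerm Γ r s w u)]
  exact finsum_congr fun g => by simp [crossTerm]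

theorem crossing_self (r s : Cusp) (z : ℍ) : crossing Γ r s z z = 0 := by
  simp [crossing, crossTerm]

theorem crossing_smul_cusps {γ : SL(2, ℤ)} (hγ : γ ∈ Γ) (r s : Cusp) (z w : ℍ) :
    crossing Γ (glQ γ • r) (glQ γ • s) z w = crossing Γ r s z w := by
  rw [crossing, crossing, ← finsum_comp_equiv (Equiv.mulLeft (⟨γ, hγ⟩ : Γ))]
  exact finsum_congr fun g => by simp [crossTerm, side_glQ_left, mul_smul]

theorem crossing_smul_points {γ : SL(2, ℤ)} (hγ : γ ∈ Γ) (r s : Cusp) (z w : ℍ) :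
    crossing Γ r s (γ • z) (γ • w) = crossing Γ r s z w := by
  conv_rhs => rw [crossing, ← finsum_comp_equiv (Equiv.mulRight (⟨γ, hγ⟩ : Γ))]
  exact finsum_congr fun g => by simp [crossTerm, mul_smul]

theorem crossing_base {γ : SL(2, ℤ)} (hγ : γ ∈ Γ) (r s : Cusp) (z w : ℍ) :
    crossing Γ r s z (γ • z) = crossing Γ r s w (γ • w) := by
  have h1 := crossing_add_path Γ r s z w (γ • w)
  have h2 := crossing_add_path Γ r s z (γ • z) (γ • w)
  rw [crossing_smul_points Γ hγ] at h2
  linarith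

theorem crossing_mul {γ δ : SL(2, ℤ)} (hγ : γ ∈ Γ) (r s : Cusp) (z : ℍ) :
    crossing Γ r s z ((γ * δ) • z) = crossing Γ r s z (γ • z) + crossing Γ r s z (δ • z) := by
  rw [← crossing_add_path Γ r s z (γ • z), mul_smul, crossing_smul_points Γ hγ]

theorem crossing_add_cusps {γ : SL(2, ℤ)} (hγ : γ ∈ Γ) (r s t : Cusp) (z : ℍ) :
    crossing Γ r s z (γ • z) + crossing Γ s t z (γ • z) = crossing Γ r t z (γ • z) := by
  obtain ⟨ε, hε⟩ := exists_finite_sideTri r s t z
  have hfin : (Function.support fun g : Γ =>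
      sideTri r s t ((g : SL(2, ℤ)) • z) - ε).Finite :=
    (hε.preimage Subtype.val_injective.injOn).subset fun g hg => by
      simpa [sub_eq_zero] using hg
  have hfin' : (Function.support fun g : Γ =>
      sideTri r s t ((g : SL(2, ℤ)) • γ • z) - ε).Finite :=
    (hfin.preimage (Equiv.mulRight (⟨γ, hγ⟩ : Γ)).injective.injOn).subset fun g hg => by
      simpa [mul_smul] using hg
  have key : (∑ᶠ g : Γ, (sideTri r s t ((g : SL(2, ℤ)) • γ • z) - ε)) =
      ∑ᶠ g : Γ, (sideTri r s t ((g : SL(2, ℤ)) • z) - ε) := by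
    conv_rhs => rw [← finsum_comp_equiv (Equiv.mulRight (⟨γ, hγ⟩ : Γ))]
    exact finsum_congr fun g => by simp [mul_smul]
  have hd := finsum_sub_distrib hfin' hfin
  rw [key, sub_self] at hd
  have hsum :
      crossing Γ r s z (γ • z) + crossing Γ s t z (γ • z) + crossing Γ t r z (γ • z) = 0 := by
    rw [crossing, crossing, crossing,
      ← finsum_add_distrib (finite_support_crossTerm Γ r s z _)
        (finite_support_crossTerm Γ s t z _),
      ← finsum_add_distrib ((finite_support_crossTerm Γ r s z _).union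
        (finite_support_crossTerm Γ s t z _) |>.subset (Function.support_add _ _))
        (finite_support_crossTerm Γ t r z _), ← hd]
    exact finsum_congr fun g => by simp only [crossTerm, sideTri]; ring
  have hswap : crossing Γ t r z (γ • z) = -crossing Γ r t z (γ • z) := by
    rw [crossing, crossing, ← finsum_neg_distrib]
    exact finsum_congr fun g => by simp only [crossTerm, side_swap r t]; ring
  linarith

/-- The Poincaré dual symbol of an element of `Γ`. -/
def crossSymb : Additive Γ →+ Symb Γ ℤ where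
  toFun γ := ⟨fun r s => crossing Γ r s UpperHalfPlane.I
      (((Additive.toMul γ : Γ) : SL(2, ℤ)) • UpperHalfPlane.I),
    fun r s t => crossing_add_cusps Γ (Additive.toMul γ).2 r s t _,
    fun _ hδ r s => crossing_smul_cusps Γ hδ r s _ _⟩
  map_zero' := Subtype.ext <| funext fun r => funext fun s => by simp [crossing_self]
  map_add' γ δ := Subtype.ext <| funext fun r => funext fun s => by
    simpa using crossing_mul Γ (Additive.toMul γ).2 r s UpperHalfPlane.I

theorem sum_finsum_eq {ι G : Type*} [Fintype ι] (F : ι → G → ℤ)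
    (hF : ∀ i, (Function.support (F i)).Finite) :
    ∑ i, ∑ᶠ g, F i g = ∑ᶠ x : ι × G, F x.1 x.2 := by
  classical
  rw [finsum_curry (fun x : ι × G => F x.1 x.2), finsum_eq_sum_of_fintype]
  refine ((Set.finite_univ.prod (Set.finite_iUnion hF)) :
    (Set.univ ×ˢ ⋃ i, Function.support (F i) : Set (ι × G)).Finite).subset fun x hx => ?_
  exact ⟨Set.mem_univ _, Set.mem_iUnion.mpr ⟨x.1, hx⟩⟩

/-- Compatibility of crossing symbols with `T_ℓ`. -/
theorem tOp_crossSymb {ℓ M : ℕ} (hℓ : ℓ.Prime) (hℓM : ¬ ℓ ∣ M) (γ : Gamma0 M)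
    (σ : Option (Fin ℓ) → Option (Fin ℓ)) (γ' : Option (Fin ℓ) → Gamma0 M)
    (h : ∀ i, heckeFam ℓ i * ((γ : SL(2, ℤ)) : M2) =
      ((γ' i : SL(2, ℤ)) : M2) * heckeFam ℓ (σ i)) :
    tOp ℤ ℓ (crossSymb (Gamma0 M) (Additive.ofMul γ) : Cusp → Cusp → ℤ) =
      ∑ i, (crossSymb (Gamma0 M) (Additive.ofMul (γ' i)) : Cusp → Cusp → ℤ) := by
  classical
  have hnd : ∀ i, (heckeFam ℓ i).det ≠ 0 := heckeFam_det_ne_zero hℓ.ne_zero
  have hpos : ∀ i, 0 < (heckeFam ℓ i).det := fun i => by
    rw [heckeFam_det]; exact_mod_cast hℓ.pos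
  funext r s
  simp only [tOp, pullFam_apply, Finset.sum_apply, pull_apply]
  set z := (UpperHalfPlane.I : ℍ)
  -- the involution of `Γ × reps` induced by the adjugate
  have hex : ∀ x : Option (Fin ℓ) × Gamma0 M, ∃ y : Option (Fin ℓ) × Gamma0 M,
      (((x.2 : SL(2, ℤ)) : M2) * heckeFam ℓ x.1).adjugate =
        ((y.2 : SL(2, ℤ)) : M2) * heckeFam ℓ y.1 := by
    intro x
    obtain ⟨i, g, hg, he⟩ := exists_gamma_mul_heckeFam hℓ hℓM
      (δ := (((x.2 : SL(2, ℤ)) : M2) * heckeFam ℓ x.1).adjugate)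
      (by rw [det_adjugate_fin_two, Matrix.det_mul, heckeFam_det, Matrix.SpecialLinearGroup.det_coe,
        one_mul]) (by
        rw [Matrix.adjugate_fin_two]
        simp [Matrix.mul_apply, Fin.sum_univ_two, heckeFam_lower]
        exact dvd_mul_of_dvd_left (mem_Gamma0_iff_dvd.mp x.2.2) _)
    exact ⟨(i, ⟨g, hg⟩), he⟩
  choose f hf using hex
  have hinj : ∀ x y : Option (Fin ℓ) × Gamma0 M, ((x.2 : SL(2, ℤ)) : M2) * heckeFam ℓ x.1 =
      ((y.2 : SL(2, ℤ)) : M2) * heckeFam ℓ y.1 → x = y := by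
    rintro ⟨i, g⟩ ⟨j, g'⟩ e
    obtain rfl : i = j := heckeFam_right_unique hℓ (not_dvd_det_SL hℓ _) (not_dvd_det_SL hℓ _) e
    exact Prod.ext rfl (Subtype.ext (Subtype.ext (right_cancel_of_det_ne_zero (hnd i) e)))
  have hff : Function.Involutive f := fun x => hinj _ _ (by
    rw [← hf (f x), ← hf x, adjugate_adjugate_fin_two])
  have step1 : (∑ i, crossing (Gamma0 M) (ofMat (heckeFam ℓ i) • r) (ofMat (heckeFam ℓ i) • s) z
      ((γ : SL(2, ℤ)) • z)) = ∑ i, crossing (Gamma0 M) r s (mact (heckeFam ℓ i) z)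
        (mact (heckeFam ℓ i) ((γ : SL(2, ℤ)) • z)) := by
    simp only [crossing]
    rw [sum_finsum_eq _ fun i => finite_support_crossTerm _ _ _ _ _,
      sum_finsum_eq _ fun i => finite_support_crossTerm _ _ _ _ _]
    refine finsum_eq_of_bijective (fun x => f (x.1, x.2⁻¹))
      (hff.bijective.comp (Function.Involutive.bijective fun x => by simp)) fun x => ?_
    have e := hf (x.1, x.2⁻¹)
    rw [Matrix.adjugate_mul_distrib, adjugate_sl, Subgroup.coe_inv, inv_inv] at e
    simp only [crossTerm, side_ofMat_left (hpos _)]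
    have hd : (heckeFam ℓ x.1).adjugate.det ≠ 0 := by rw [det_adjugate_fin_two]; exact hnd _
    simp only [← mact_sl, ← mact_mul hd (sl_det_ne_zero _), e,
      ← mact_mul (sl_det_ne_zero _) (hnd _)]
  have hσ : Function.Bijective σ := by
    refine Finite.injective_iff_bijective.mp fun i j hij => ?_
    have e : heckeFam ℓ i * ((γ : SL(2, ℤ)) : M2) =
        ((γ' i * (γ' j)⁻¹ : Gamma0 M) : SL(2, ℤ)) * heckeFam ℓ j * ((γ : SL(2, ℤ)) : M2) := by
      rw [mul_assoc, h j, ← hij, h i, ← mul_assoc, ← Matrix.SpecialLinearGroup.coe_mul,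
        ← Subgroup.coe_mul, inv_mul_cancel_right]
    exact heckeFam_right_unique hℓ (δ₁ := 1)
      (by rw [Matrix.det_one]; exact not_prime_dvd_one hℓ) (not_dvd_det_SL hℓ _)
      (by rw [one_mul]; exact mul_sl_inj e)
  show (∑ i, crossing (Gamma0 M) (ofMat (heckeFam ℓ i) • r) (ofMat (heckeFam ℓ i) • s) z
      ((γ : SL(2, ℤ)) • z)) = ∑ i, crossing (Gamma0 M) r s z ((γ' i : SL(2, ℤ)) • z)
  rw [step1]
  have step2 : ∀ i, crossing (Gamma0 M) r s (mact (heckeFam ℓ i) z)
      (mact (heckeFam ℓ i) ((γ : SL(2, ℤ)) • z)) =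
      crossing (Gamma0 M) r s z ((γ' i : SL(2, ℤ)) • z) +
        (crossing (Gamma0 M) r s z (mact (heckeFam ℓ (σ i)) z) -
          crossing (Gamma0 M) r s z (mact (heckeFam ℓ i) z)) := by
    intro i
    rw [← mact_sl (γ : SL(2, ℤ)), ← mact_mul (hnd i) (sl_det_ne_zero _), h i,
      mact_mul (sl_det_ne_zero _) (hnd _), mact_sl]
    have h1 := crossing_add_path (Gamma0 M) r s z (mact (heckeFam ℓ i) z)
      ((γ' i : SL(2, ℤ)) • mact (heckeFam ℓ (σ i)) z)
    have h2 := crossing_add_path (Gamma0 M) r s z ((γ' i : SL(2, ℤ)) • z)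
      ((γ' i : SL(2, ℤ)) • mact (heckeFam ℓ (σ i)) z)
    rw [crossing_smul_points _ (γ' i).2] at h2
    linarith
  rw [Finset.sum_congr rfl fun i _ => step2 i, Finset.sum_add_distrib, Finset.sum_sub_distrib,
    hσ.sum_comp (fun i => crossing (Gamma0 M) r s z (mact (heckeFam ℓ i) z)), sub_self, add_zero]

namespace ALData

variable {N q : ℕ} (D : ALData N q)

/-- Traces of crossing symbols. -/
theorem trOp_crossSymb (hq : q.Prime) (hqN : ¬ q ∣ N) {γ : SL(2, ℤ)}
    (hγ : γ ∈ Gamma0 (N * q)) (hγ' : γ ∈ Gamma0 N) :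
    D.trOp ℤ (crossSymb (Gamma0 (N * q)) (Additive.ofMul ⟨γ, hγ⟩) : Cusp → Cusp → ℤ) =
      (crossSymb (Gamma0 N) (Additive.ofMul ⟨γ, hγ'⟩) : Cusp → Cusp → ℤ) := by
  classical
  have hle : ∀ g : Gamma0 (N * q), (g : SL(2, ℤ)) ∈ Gamma0 N := fun g => mem_Gamma0_iff_dvd.mpr
    ((Int.natCast_dvd_natCast.mpr (dvd_mul_right N q)).trans (mem_Gamma0_iff_dvd.mp g.2))
  funext r s
  simp only [D.trOp_eq_sum hq, Finset.sum_apply, pull_apply]
  show (∑ i, crossing (Gamma0 (N * q)) _ _ _ (γ • UpperHalfPlane.I)) = crossing (Gamma0 N) r s _ _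
  simp only [crossing]
  rw [sum_finsum_eq _ fun i => finite_support_crossTerm _ _ _ _ _]
  refine finsum_eq_of_bijective (fun x => (⟨D.cosetRep x.1, D.cosetRep_mem x.1⟩ : Gamma0 N)⁻¹ *
    ⟨x.2, hle x.2⟩) ⟨?_, ?_⟩ fun x => ?_
  · rintro ⟨i, g⟩ ⟨j, g'⟩ e
    have e' : (D.cosetRep i)⁻¹ * (g : SL(2, ℤ)) = (D.cosetRep j)⁻¹ * g' := congrArg Subtype.val e
    have hh : D.cosetRep i * (D.cosetRep j)⁻¹ = (g : SL(2, ℤ)) * (g' : SL(2, ℤ))⁻¹ := by
      rw [eq_mul_inv_iff_mul_eq, mul_assoc, ← e', mul_inv_cancel_left]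
    obtain rfl : i = j := D.cosetRep_injective hq hqN (hh ▸ mul_mem g.2 (inv_mem g'.2))
    exact Prod.ext rfl (Subtype.ext (mul_left_cancel e'))
  · rintro ⟨x, hx⟩
    obtain ⟨i, hi⟩ := D.exists_eq_mul_cosetRep hq hqN (inv_mem hx)
    refine ⟨(i, ⟨_, inv_mem hi⟩), Subtype.ext ?_⟩
    simp
  · simp [crossTerm, side_glQ_left, mul_smul]

/-- Crossing symbols and the Atkin–Lehner operator. -/
theorem wOp_crossSymb (hq : q.Prime) {γ γ' : SL(2, ℤ)} (hγ : γ ∈ Gamma0 (N * q))
    (hγ' : γ' ∈ Gamma0 (N * q)) (h : (γ : M2) * D.mat = D.mat * (γ' : M2)) :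
    D.wOp ℤ (crossSymb (Gamma0 (N * q)) (Additive.ofMul ⟨γ, hγ⟩) : Cusp → Cusp → ℤ) =
      (crossSymb (Gamma0 (N * q)) (Additive.ofMul ⟨γ', hγ'⟩) : Cusp → Cusp → ℤ) := by
  have hd : D.mat.det ≠ 0 := D.mat_det_ne_zero hq
  have hpos : 0 < D.mat.det := by rw [D.mat_det]; exact_mod_cast hq.pos
  have hda : D.mat.adjugate.det ≠ 0 := by rw [det_adjugate_fin_two]; exact hd
  have flip : ∀ {a b : SL(2, ℤ)}, (a : M2) * D.mat = D.mat * (b : M2) →
      D.mat.adjugate * (a : M2) = (b : M2) * D.mat.adjugate := fun {a b} e => by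
    refine left_cancel_of_det_ne_zero hd (right_cancel_of_det_ne_zero hd ?_)
    rw [← mul_assoc, Matrix.mul_adjugate, Matrix.smul_mul, one_mul, Matrix.smul_mul, e,
      mul_assoc, mul_assoc, Matrix.adjugate_mul, Matrix.mul_smul, Matrix.mul_smul, mul_one]
  let conj : Gamma0 (N * q) → Gamma0 (N * q) := fun g =>
    ⟨(D.exists_sl_mul_mat g.2).choose, (D.exists_sl_mul_mat g.2).choose_spec.1⟩
  have hconj : ∀ g : Gamma0 (N * q), D.mat.adjugate * ((g : SL(2, ℤ)) : M2) =
      ((conj g : SL(2, ℤ)) : M2) * D.mat.adjugate := fun g =>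
    flip (D.exists_sl_mul_mat g.2).choose_spec.2
  have hbij : Function.Bijective conj := by
    refine ⟨fun a b e => ?_, fun b => ?_⟩
    · have := hconj a
      rw [e, ← hconj b] at this
      exact Subtype.ext (Subtype.ext (left_cancel_of_det_ne_zero hda this))
    · obtain ⟨g, hg, he⟩ := D.exists_sl_mat_mul b.2
      refine ⟨⟨g, hg⟩, ?_⟩
      have h1 := hconj ⟨g, hg⟩
      rw [flip he.symm] at h1
      exact Subtype.ext (Subtype.ext (right_cancel_of_det_ne_zero hda h1.symm))
  funext r s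
  set z := (UpperHalfPlane.I : ℍ)
  show crossing (Gamma0 (N * q)) (ofMat D.mat • r) (ofMat D.mat • s) z (γ • z) =
    crossing (Gamma0 (N * q)) r s z (γ' • z)
  rw [crossing_base (Gamma0 (N * q)) hγ' r s z (mact D.mat.adjugate z)]
  refine finsum_eq_of_bijective conj hbij fun g => ?_
  have hmove : ∀ (a b : SL(2, ℤ)), D.mat.adjugate * (a : M2) = (b : M2) * D.mat.adjugate →
      ∀ w : ℍ, mact D.mat.adjugate (a • w) = b • mact D.mat.adjugate w := fun a b e w => by
    rw [← mact_sl a, ← mact_mul hda (sl_det_ne_zero a), e, mact_mul (sl_det_ne_zero b) hda,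
      mact_sl]
  simp only [crossTerm, side_ofMat_left hpos]
  rw [hmove _ _ (hconj g), hmove _ _ (hconj g), hmove _ _ (flip h)]

end ALData

end FLTAgent.LevelRaising
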