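import Fermat.Agent.LevelRaising.PeriodSymbols
import Fermat.Agent.LevelRaising.Algebra

/-!
# Hecke rings acting on integral modular symbols

Integral symbols span the complex ones and reduce injectively modulo `p`; the Hecke rings of one
level and of a pair of levels, with their extensions to other coefficient rings.
-/

set_option autoImplicit false

noncomputable section

open Matrix CongruenceSubgroup
open scoped MatrixGroups

namespace FLTAgent.LevelRaising

variable (R : Type*) [CommRing R]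

/-- Change of coefficients from the integers. -/
def castFn : (Cusp → Cusp → ℤ) →+ (Cusp → Cusp → R) where
  toFun Φ x y := (Φ x y : R)
  map_zero' := by funext x y; simp
  map_add' Φ Ψ := by funext x y; simp

variable {R}

@[simp] theorem castFn_apply (Φ : Cusp → Cusp → ℤ) (x y : Cusp) :
    castFn R Φ x y = (Φ x y : R) := rfl

theorem castFn_zsmul (n : ℤ) (Φ : Cusp → Cusp → ℤ) : castFn R (n • Φ) = (n : R) • castFn R Φ := by
  funext x y; simp

theorem castFn_pull (g : GL (Fin 2) ℚ) (Φ : Cusp → Cusp → ℤ) :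
    castFn R (pull ℤ g Φ) = pull R g (castFn R Φ) := rfl

theorem castFn_pullFam {ι : Type*} [Fintype ι] (A : ι → M2) (Φ : Cusp → Cusp → ℤ) :
    castFn R (pullFam ℤ A Φ) = pullFam R A (castFn R Φ) := by
  rw [pullFam_apply, pullFam_apply, map_sum]
  simp only [castFn_pull]

theorem castFn_tOp (ℓ : ℕ) (Φ : Cusp → Cusp → ℤ) :
    castFn R (tOp ℤ ℓ Φ) = tOp R ℓ (castFn R Φ) := castFn_pullFam _ Φ

theorem castFn_uOp (q : ℕ) (Φ : Cusp → Cusp → ℤ) :
    castFn R (uOp ℤ q Φ) = uOp R q (castFn R Φ) := castFn_pullFam _ Φ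

theorem castFn_wOp {N q : ℕ} (D : ALData N q) (Φ : Cusp → Cusp → ℤ) :
    castFn R (D.wOp ℤ Φ) = D.wOp R (castFn R Φ) := castFn_pull _ Φ

theorem castFn_trOp {N q : ℕ} (D : ALData N q) (Φ : Cusp → Cusp → ℤ) :
    castFn R (D.trOp ℤ Φ) = D.trOp R (castFn R Φ) := by
  simp only [ALData.trOp, LinearMap.add_apply, LinearMap.id_apply, LinearMap.comp_apply, map_add,
    castFn_uOp, castFn_wOp]

theorem castFn_mem {M : ℕ} {Φ : Cusp → Cusp → ℤ} (hΦ : Φ ∈ Lev ℤ M) : castFn R Φ ∈ Lev R M :=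
  ⟨fun x y z => by simp only [castFn_apply]; rw [← hΦ.1 x y z]; push_cast; rfl,
    fun γ hγ x y => by simp only [castFn_apply]; rw [Symb.smul_cusps hΦ hγ]⟩

theorem castFn_injective [CharZero R] : Function.Injective (castFn R) := fun _ _ h =>
  funext fun x => funext fun y => Int.cast_injective (α := R) (congrFun (congrFun h x) y)

theorem exists_eq_smul_of_castFn_eq_zero {M p : ℕ} (hp : p ≠ 0) (Φ : Lev ℤ M)
    (h : castFn (ZMod p) (Φ : Cusp → Cusp → ℤ) = 0) : ∃ Ψ : Lev ℤ M, Φ = (p : ℤ) • Ψ := by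
  have hd : ∀ x y, (p : ℤ) ∣ (Φ : Cusp → Cusp → ℤ) x y := fun x y =>
    (ZMod.intCast_zmod_eq_zero_iff_dvd _ _).mp (congrFun (congrFun h x) y)
  choose g hg using hd
  have hp' : (p : ℤ) ≠ 0 := Int.natCast_ne_zero.mpr hp
  refine ⟨⟨g, fun x y z => mul_left_cancel₀ hp' ?_, fun γ hγ x y => mul_left_cancel₀ hp' ?_⟩,
    Subtype.ext (funext fun x => funext fun y => ?_)⟩
  · rw [mul_add, ← hg, ← hg, ← hg, Φ.2.1]
  · rw [← hg, ← hg, Symb.smul_cusps Φ.2 hγ]
  · exact hg x y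

instance finite_lev [IsNoetherianRing R] (M : ℕ) [NeZero M] : Module.Finite R (Lev R M) :=
  Module.Finite.equiv (symbEquiv (MFDim.neg_one_mem_Gamma0 (N := M))).symm

/-- A complex symbol is a combination of integral ones. -/
theorem exists_int_combination {M : ℕ} [NeZero M] {Φ : Cusp → Cusp → ℂ} (hΦ : Φ ∈ Lev ℂ M) :
    ∃ (n : ℕ) (b : Fin n → ℂ) (Ψ : Fin n → Lev ℤ M),
      Φ = ∑ k, b k • castFn ℂ (Ψ k : Cusp → Cusp → ℤ) := by
  classical
  have hneg := MFDim.neg_one_mem_Gamma0 (N := M)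
  set f := cosetFun (Γ := Gamma0 M) Φ with hf
  let G : Submodule ℤ ℂ := Submodule.span ℤ (Set.range f)
  have : Module.Finite ℤ G := Module.Finite.span_of_finite ℤ (Set.finite_range f)
  have : Module.Free ℤ G := inferInstance
  let B := Module.finBasis ℤ G
  let coord : Fin (Module.finrank ℤ G) → (SL(2, ℤ) ⧸ Gamma0 M) → ℤ := fun k c =>
    B.repr ⟨f c, Submodule.subset_span (Set.mem_range_self c)⟩ k
  have hcoord : ∀ k, coord k ∈ maninSpace (Gamma0 M) ℤ := by
    intro k g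
    obtain ⟨h1, h2⟩ := cosetFun_mem (Γ := Gamma0 M) hΦ g
    constructor
    · simp only [coord, ← Finsupp.add_apply, ← map_add]
      rw [show (_ + _ : G) = 0 from Subtype.ext h1, map_zero]; rfl
    · simp only [coord, ← Finsupp.add_apply, ← map_add]
      rw [show (_ + _ + _ : G) = 0 from Subtype.ext h2, map_zero]; rfl
  refine ⟨_, fun k => (B k : ℂ), fun k => (symbEquiv hneg).symm ⟨coord k, hcoord k⟩, ?_⟩
  have hmem : ∑ k, (B k : ℂ) • castFn ℂ (((symbEquiv hneg).symm ⟨coord k, hcoord k⟩ : Lev ℤ M) :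
      Cusp → Cusp → ℤ) ∈ Lev ℂ M :=
    Submodule.sum_mem _ fun k _ => Submodule.smul_mem _ _ (castFn_mem (Subtype.coe_prop _))
  refine sub_eq_zero.mp (Symb.eq_zero_of_edge (sub_mem hΦ hmem) fun g => ?_)
  rw [Pi.sub_apply, Pi.sub_apply, sub_eq_zero, Finset.sum_apply, Finset.sum_apply,
    ← cosetFun_mk hΦ g]
  simp only [Pi.smul_apply, castFn_apply, symbEquiv_symm_apply, smul_eq_mul]
  have e := congrArg (fun x : G => (x : ℂ))
    (B.sum_repr ⟨f ↑(g⁻¹), Submodule.subset_span (Set.mem_range_self _)⟩)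
  simp only [AddSubmonoidClass.coe_finsetSum, SetLike.val_smul, zsmul_eq_mul] at e
  refine e.symm.trans (Finset.sum_congr rfl fun k _ => ?_)
  rw [symbolOf_edge hneg (hcoord k), edgeVal, mul_comm]

/-- The operator `T_ℓ` on integral symbols. -/
def opT {M ℓ : ℕ} (hℓ : ℓ.Prime) (hℓM : ¬ ℓ ∣ M) : Module.End ℤ (Lev ℤ M) :=
  (tOp ℤ ℓ).restrict fun _ hΦ => tOp_mem hℓ hℓM hΦ

theorem coe_opT {M ℓ : ℕ} (hℓ : ℓ.Prime) (hℓM : ¬ ℓ ∣ M) (Φ : Lev ℤ M) :
    ((opT hℓ hℓM Φ : Lev ℤ M) : Cusp → Cusp → ℤ) = tOp ℤ ℓ Φ := rfl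

theorem opT_comm {M ℓ m : ℕ} (hℓ : ℓ.Prime) (hℓM : ¬ ℓ ∣ M) (hm : m.Prime) (hmM : ¬ m ∣ M) :
    opT hℓ hℓM * opT hm hmM = opT hm hmM * opT hℓ hℓM := by
  rcases eq_or_ne ℓ m with rfl | hne
  · rfl
  · refine LinearMap.ext fun Φ => Subtype.ext ?_
    exact tOp_comm hℓ hm hne hℓM hmM Φ.2

/-- The generators of the Hecke ring of level `N`. -/
def gen0 (N : ℕ) : Set (Module.End ℤ (Lev ℤ N)) :=
  {x | ∃ (ℓ : ℕ) (hℓ : ℓ.Prime) (h : ¬ ℓ ∣ N), x = opT hℓ h}

/-- The Hecke ring of integral symbols of level `N`. -/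
def alg0 (N : ℕ) : Subalgebra ℤ (Module.End ℤ (Lev ℤ N)) := Algebra.adjoin ℤ (gen0 N)

instance alg0_isMulCommutative (N : ℕ) : IsMulCommutative (alg0 N) :=
  Algebra.isMulCommutative_adjoin ℤ fun _ hx _ hy => by
    obtain ⟨ℓ, hℓ, h, rfl⟩ := hx
    obtain ⟨m, hm, h', rfl⟩ := hy
    exact opT_comm hℓ h hm h'

open scoped IsMulCommutative in
instance alg0_commRing (N : ℕ) : CommRing (alg0 N) := inferInstance

/-- Pairs of endomorphisms of the symbols of levels `N` and `N q`. -/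
abbrev EndPair (N q : ℕ) := Module.End ℤ (Lev ℤ N) × Module.End ℤ (Lev ℤ (N * q))

/-- The common generators at levels `N` and `N q`. -/
def genPair (N q : ℕ) : Set (EndPair N q) :=
  {x | ∃ (ℓ : ℕ) (hℓ : ℓ.Prime) (h0 : ¬ ℓ ∣ N) (h1 : ¬ ℓ ∣ N * q), x = (opT hℓ h0, opT hℓ h1)}

/-- The Hecke ring acting on both levels. -/
def pairAlg (N q : ℕ) : Subalgebra ℤ (EndPair N q) := Algebra.adjoin ℤ (genPair N q)

instance pairAlg_isMulCommutative (N q : ℕ) : IsMulCommutative (pairAlg N q) :=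
  Algebra.isMulCommutative_adjoin ℤ fun _ hx _ hy => by
    obtain ⟨ℓ, hℓ, h, h1, rfl⟩ := hx
    obtain ⟨m, hm, h', h1', rfl⟩ := hy
    exact Prod.ext (opT_comm hℓ h hm h') (opT_comm hℓ h1 hm h1')

open scoped IsMulCommutative in
instance pairAlg_commRing (N q : ℕ) : CommRing (pairAlg N q) := inferInstance

theorem fst_mem_alg0 {N q : ℕ} {x : EndPair N q} (hx : x ∈ pairAlg N q) : x.1 ∈ alg0 N := by
  induction hx using Algebra.adjoin_induction with
  | mem x hx =>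
    obtain ⟨ℓ, hℓ, h0, h1, rfl⟩ := hx
    exact Algebra.subset_adjoin ⟨ℓ, hℓ, h0, rfl⟩
  | algebraMap r => exact Subalgebra.algebraMap_mem _ r
  | add x y _ _ hx hy => exact add_mem hx hy
  | mul x y _ _ hx hy => exact mul_mem hx hy

/-- The projection to level `N`. -/
def pairFst (N q : ℕ) : pairAlg N q →+* alg0 N :=
  ((AlgHom.fst ℤ _ _).comp (pairAlg N q).val).toRingHom.codRestrict (alg0 N)
    fun x => fst_mem_alg0 x.2

theorem coe_pairFst {N q : ℕ} (x : pairAlg N q) :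
    ((pairFst N q x : alg0 N) : Module.End ℤ (Lev ℤ N)) = (x : EndPair N q).1 := rfl

/-- A linear map commuting with the generators commutes with the whole ring. -/
theorem pairAlg_intertwine {N q : ℕ} {M M' : Type*} [AddCommGroup M] [AddCommGroup M']
    (π : EndPair N q →+* Module.End ℤ M) (π' : EndPair N q →+* Module.End ℤ M') (f : M →ₗ[ℤ] M')
    (hgen : ∀ x ∈ genPair N q, ∀ m, f (π x m) = π' x (f m)) {x : EndPair N q}
    (hx : x ∈ pairAlg N q) (m : M) : f (π x m) = π' x (f m) := by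
  induction hx using Algebra.adjoin_induction generalizing m with
  | mem x hx => exact hgen x hx m
  | algebraMap r =>
    rw [eq_intCast, map_intCast, map_intCast, Module.End.intCast_apply, Module.End.intCast_apply,
      map_zsmul]
  | add x y _ _ hx hy =>
    rw [map_add, map_add, LinearMap.add_apply, LinearMap.add_apply, map_add, hx, hy]
  | mul x y _ _ hx hy =>
    rw [map_mul, map_mul, Module.End.mul_apply, Module.End.mul_apply, hx, hy]

/-- Elements of the level `N` ring act on any coefficients, and on eigensymbols by scalars. -/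
theorem exists_lift_alg0 {N : ℕ} (Φ₀ : Cusp → Cusp → R)
    (heig : ∀ ℓ, ℓ.Prime → ¬ ℓ ∣ N → ∃ c : R, tOp R ℓ Φ₀ = c • Φ₀)
    {x : Module.End ℤ (Lev ℤ N)} (hx : x ∈ alg0 N) :
    ∃ (X : Module.End R (Cusp → Cusp → R)) (c : R),
      (∀ Φ : Lev ℤ N, castFn R (x Φ : Cusp → Cusp → ℤ) = X (castFn R (Φ : Cusp → Cusp → ℤ))) ∧
        X Φ₀ = c • Φ₀ := by
  induction hx using Algebra.adjoin_induction with
  | mem x hx =>
    obtain ⟨ℓ, hℓ, h, rfl⟩ := hx
    obtain ⟨c, hc⟩ := heig ℓ hℓ h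
    exact ⟨tOp R ℓ, c, fun Φ => castFn_tOp ℓ _, hc⟩
  | algebraMap r =>
    refine ⟨(r : R) • LinearMap.id, (r : R), fun Φ => ?_, rfl⟩
    rw [Module.algebraMap_end_apply, Submodule.coe_smul, castFn_zsmul]; rfl
  | add x y _ _ hx hy =>
    obtain ⟨X, c, hX, hXc⟩ := hx
    obtain ⟨Y, d, hY, hYd⟩ := hy
    refine ⟨X + Y, c + d, fun Φ => ?_, by rw [LinearMap.add_apply, hXc, hYd, add_smul]⟩
    rw [LinearMap.add_apply, Submodule.coe_add, map_add, hX, hY]; rfl
  | mul x y _ _ hx hy =>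
    obtain ⟨X, c, hX, hXc⟩ := hx
    obtain ⟨Y, d, hY, hYd⟩ := hy
    refine ⟨X * Y, d * c, fun Φ => ?_, by
      rw [Module.End.mul_apply, hYd, map_smul, hXc, smul_smul]⟩
    rw [Module.End.mul_apply, Module.End.mul_apply, hX, hY]

/-- Elements of the pair ring act on level `N q` symbols with any coefficients. -/
theorem exists_lift_pairAlg {N q : ℕ} {x : EndPair N q} (hx : x ∈ pairAlg N q) :
    ∃ X : Module.End R (Cusp → Cusp → R), ∀ Φ : Lev ℤ (N * q),
      castFn R (x.2 Φ : Cusp → Cusp → ℤ) = X (castFn R (Φ : Cusp → Cusp → ℤ)) := by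
  induction hx using Algebra.adjoin_induction with
  | mem x hx =>
    obtain ⟨ℓ, hℓ, h0, h1, rfl⟩ := hx
    exact ⟨tOp R ℓ, fun Φ => castFn_tOp ℓ _⟩
  | algebraMap r =>
    refine ⟨(r : R) • LinearMap.id, fun Φ => ?_⟩
    rw [Prod.algebraMap_apply, Module.algebraMap_end_apply, Submodule.coe_smul, castFn_zsmul]; rfl
  | add x y _ _ hx hy =>
    obtain ⟨X, hX⟩ := hx
    obtain ⟨Y, hY⟩ := hy
    refine ⟨X + Y, fun Φ => ?_⟩
    rw [Prod.snd_add, LinearMap.add_apply, Submodule.coe_add, map_add, hX, hY]; rfl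
  | mul x y _ _ hx hy =>
    obtain ⟨X, hX⟩ := hx
    obtain ⟨Y, hY⟩ := hy
    refine ⟨X * Y, fun Φ => ?_⟩
    rw [Prod.snd_mul, Module.End.mul_apply, Module.End.mul_apply, hX, hY]

/-- An eigensymbol of level `N` gives a character of the Hecke ring. -/
theorem exists_char_alg0 {N : ℕ} [NeZero N] {Φ₀ : Cusp → Cusp → ℂ} (hΦ : Φ₀ ∈ Lev ℂ N)
    (h0 : Φ₀ ≠ 0) (a : ℕ → ℂ) (heig : ∀ ℓ, ℓ.Prime → ¬ ℓ ∣ N → tOp ℂ ℓ Φ₀ = a ℓ • Φ₀) :
    ∃ χ : alg0 N →+* ℂ, ∀ (ℓ : ℕ) (hℓ : ℓ.Prime) (h : ¬ ℓ ∣ N),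
      χ ⟨opT hℓ h, Algebra.subset_adjoin ⟨ℓ, hℓ, h, rfl⟩⟩ = a ℓ := by
  obtain ⟨n, b, Ψ, hrep⟩ := exists_int_combination hΦ
  let val : alg0 N → (Cusp → Cusp → ℂ) := fun x =>
    ∑ k, b k • castFn ℂ ((x : Module.End ℤ (Lev ℤ N)) (Ψ k) : Cusp → Cusp → ℤ)
  have hlift := fun x : alg0 N => exists_lift_alg0 Φ₀
    (fun ℓ hℓ h => ⟨a ℓ, heig ℓ hℓ h⟩) x.2
  choose X c hX hXc using hlift
  have hval : ∀ x, val x = c x • Φ₀ := fun x => by
    rw [← hXc x]
    simp only [val, hX x]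
    conv_rhs => rw [hrep, map_sum]
    simp only [map_smul]
  have huniq : ∀ y z : ℂ, y • Φ₀ = z • Φ₀ → y = z := fun y z e => smul_left_injective ℂ h0 e
  have hone : val 1 = Φ₀ := by
    conv_rhs => rw [hrep]
    rfl
  have hmul : ∀ x y, val (x * y) = (c x * c y) • Φ₀ := fun x y => by
    have e : val (x * y) = X x (val y) := by
      simp only [val, map_sum, map_smul, Subalgebra.coe_mul, Module.End.mul_apply, hX x]
    rw [e, hval, map_smul, hXc, smul_smul, mul_comm]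
  have hadd : ∀ x y, val (x + y) = val x + val y := fun x y => by
    simp only [val, Subalgebra.coe_add, LinearMap.add_apply, Submodule.coe_add, map_add, smul_add,
      Finset.sum_add_distrib]
  let χ : alg0 N →+* ℂ :=
    { toFun := c
      map_one' := huniq _ _ (by rw [← hval, hone, one_smul])
      map_mul' := fun x y => huniq _ _ (by rw [← hval, hmul])
      map_zero' := huniq _ _ (by simp [← hval, val])
      map_add' := fun x y => huniq _ _ (by rw [← hval, hadd, hval, hval, add_smul]) }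
  refine ⟨χ, fun ℓ hℓ h => huniq _ _ ?_⟩
  show c _ • Φ₀ = _
  rw [← hval, ← heig ℓ hℓ h]
  simp only [val, coe_opT, castFn_tOp]
  conv_rhs => rw [hrep, map_sum]
  simp only [map_smul]

theorem isIntegral_alg0 {N : ℕ} [NeZero N] (x : alg0 N) : IsIntegral ℤ x :=
  (isIntegral_algHom_iff (alg0 N).val Subtype.val_injective).mp
    (Algebra.IsIntegral.isIntegral (R := ℤ) (x : Module.End ℤ (Lev ℤ N)))

theorem isIntegral_pairAlg {N q : ℕ} [NeZero N] [NeZero (N * q)] (x : pairAlg N q) :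
    IsIntegral ℤ x :=
  (isIntegral_algHom_iff (pairAlg N q).val Subtype.val_injective).mp
    (IsIntegral.pair (Algebra.IsIntegral.isIntegral (R := ℤ) (x : EndPair N q).1)
      (Algebra.IsIntegral.isIntegral (R := ℤ) (x : EndPair N q).2))

end FLTAgent.LevelRaising
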