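import Fermat.Agent.LevelRaising.GammaOne
import Fermat.Agent.LevelRaising.SymbolAlgebra

/-!
# The degeneracy maps on symbols modulo `p`

Symbols in both copies of level `N` have no periods on `Γ(N)`, and functionals modulo `p` killing
the image of the two traces are killed by `(T_ℓ - 1 - ℓ) ^ 2` for `ℓ ≡ 1 (mod N)`; here `q = p` is
allowed.
-/

set_option autoImplicit false

noncomputable section

open Matrix CongruenceSubgroup
open scoped OnePoint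
open scoped MatrixGroups

namespace FLTAgent.LevelRaising

/-- An element of trace two fixes a cusp. -/
theorem exists_fixed_cusp {g : SL(2, ℚ)} (htr : g 0 0 + g 1 1 = 2) :
    ∃ x : Cusp, glSL g • x = x := by
  have hh : ∀ i j, (glSL g : GL (Fin 2) ℚ) i j = g i j := fun i j => rfl
  by_cases hc : g 1 0 = 0
  · exact ⟨∞, by rw [OnePoint.smul_infty_eq_ite]; simp [hh, hc]⟩
  · refine ⟨(((g 0 0 - 1) / g 1 0 : ℚ) : Cusp), ?_⟩
    have hdet := det_eq g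
    have hden : g 1 0 * ((g 0 0 - 1) / g 1 0) + g 1 1 = 1 := by
      field_simp; linear_combination htr
    rw [OnePoint.smul_some_eq_ite]
    simp only [hh, hden, if_neg one_ne_zero, div_one]
    congr 1
    field_simp
    linear_combination (-1 : ℚ) * hdet + g 0 0 * htr

variable {p q N : ℕ}

/-- Symbols invariant under both copies of `Γ₀(N)` have no periods on `Γ(N)`. -/
theorem periods_eq_zero_of_pull [Fact p.Prime] (hp2 : p ≠ 2) (hq : q.Prime) (hN : 0 < N)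
    (hNq : N.Coprime q) {R : Type*} [CommRing R] [CharP R p] {Φ Ψ : Cusp → Cusp → R}
    (hΦ : Φ ∈ Lev R N) (hΨ : Ψ ∈ Lev R N) (h : Φ = pull R (ofMat (heckeFam q none)) Ψ) :
    ∀ γ ∈ CongruenceSubgroup.Gamma N, ∀ x, Φ x (glQ γ • x) = 0 := by
  have hG : ∀ g ∈ qZero q N, ∀ x y, Φ (glSL g • x) (glSL g • y) = Φ x y := by
    let H : Subgroup SL(2, ℚ) :=
      { carrier := {g | ∀ x y, Φ (glSL g • x) (glSL g • y) = Φ x y}
        one_mem' := fun x y => by simp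
        mul_mem' := fun {a b} ha hb x y => by rw [map_mul, mul_smul, mul_smul, ha, hb]
        inv_mem' := fun {a} ha x y => by
          conv_rhs => rw [← one_smul (GL (Fin 2) ℚ) x, ← one_smul (GL (Fin 2) ℚ) y,
            ← map_one glSL, ← mul_inv_cancel a, map_mul, mul_smul, mul_smul, ha] }
    refine qZero_le (H := H) hq hN hNq (fun a ha x y => ?_) fun a ha x y => ?_
    · rw [glSL_toQ]; exact Symb.smul_cusps hΦ ha x y
    · have e : ∀ z : Cusp, ofMat (heckeFam q none) • glSL (piConj hq.ne_zero a) • z =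
          glQ a • ofMat (heckeFam q none) • z := fun z => by
        rw [← mul_smul, ← mul_smul, piMat_mul_piConj]
      rw [h, pull_apply, pull_apply, e, e, Symb.smul_cusps hΨ ha]
  have hbase : ∀ g ∈ qZero q N, ∀ x y, Φ x (glSL g • x) = Φ y (glSL g • y) := by
    intro g hg x y
    rw [← Symb.add_cusps hΦ x y (glSL g • x), ← Symb.add_cusps hΦ y (glSL g • y) (glSL g • x),
      hG g hg, Symb.swap hΦ x y]
    ring
  intro γ hγ x
  by_contra hne
  obtain ⟨lam, hlam⟩ := exists_addHom_ne_zero (p := p)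
    (fun r : R => by rw [nsmul_eq_mul, CharP.cast_eq_zero, zero_mul]) hne
  refine hlam ?_
  let f : SL(2, ℚ) → ZMod p := fun g => lam (Φ x (glSL g • x))
  have hadd : ∀ a ∈ qZero q N, ∀ b ∈ qZero q N, f (a * b) = f a + f b := fun a ha b _ => by
    simp only [f, ← map_add]
    rw [map_mul, mul_smul, ← Symb.add_cusps hΦ x (glSL a • x), hG a ha x (glSL b • x)]
  have hle : qGamma q N ≤ qZero q N := qGamma_le_qZero q dvd_rfl
  have hgood : IsGood q N f := ⟨hN, hNq, fun a ha b hb => hadd a (hle ha) b (hle hb),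
    fun g hg htr => by
      obtain ⟨y, hy⟩ := exists_fixed_cusp htr
      simp only [f, hbase g (hle hg) x y, hy, Symb.self_eq_zero hΦ, map_zero]⟩
  have hzero : ∀ g ∈ qGamma q (N * N), f g = 0 := fun g hg =>
    hgood.eq_zero hp2 hq (qGamma_mono (dvd_mul_right N N) hg) hg.1
  have hmem : ∀ a ∈ Gamma0 N, toQ a ∈ qZero q N := fun a ha => by
    refine ⟨mem_qGamma_one_iff.mpr fun i j => ?_, ?_⟩
    · rw [toQ_apply]; exact intCast_mem _ _
    · rw [toQ_apply]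
      obtain ⟨c, hc⟩ := mem_Gamma0_iff_dvd.mp ha
      rw [hc, Int.cast_mul, Int.cast_natCast]
      exact mul_natCast_mem_qMul (intCast_mem _ c)
  have hT : mT ∈ Gamma0 N := by rw [mem_Gamma0_iff_dvd]; simp
  have key := hom_eq_zero_gamma (N := N) (χ := fun g => f (toQ g))
    (fun a ha b hb => by rw [map_mul]; exact hadd _ (hmem a ha) _ (hmem b hb))
    (Nat.mul_pos hN hN) (dvd_mul_right N N) ?_ ?_ (fun g hg => hzero _ (gamma_toQ_mem hg)) γ hγ
  · simpa [f, glSL_toQ] using key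
  · show lam (Φ x (glSL (toQ mT) • x)) = 0
    rw [hbase _ (hmem _ hT) x ∞, glSL_toQ, ← zpow_one mT, glQ_mT_zpow_infty,
      Symb.self_eq_zero hΦ, map_zero]
  · show lam (Φ x (glSL (toQ (lowerZ N)) • x)) = 0
    have e : glQ (lowerZ (N : ℤ)) • ((0 : ℚ) : Cusp) = ((0 : ℚ) : Cusp) := by
      rw [OnePoint.smul_some_eq_ite]
      simp only [glQ_apply]
      simp [lowerZ, slMk]
    rw [hbase _ (hmem _ (by simpa using lowerZ_mem_Gamma0 N 1)) x ((0 : ℚ) : Cusp), glSL_toQ, e,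
      Symb.self_eq_zero hΦ, map_zero]

/-- Functionals killing both traces are killed by `(T_ℓ - 1 - ℓ) ^ 2`. -/
theorem functional_eisenstein_sq [Fact p.Prime] (hp2 : p ≠ 2) (hq : q.Prime) (hN : 0 < N)
    (hqN : ¬ q ∣ N) (D : ALData N q) (φ₁ φ₂ : Lev ℤ N →+ ZMod p)
    (h : ∀ (Ψ : Cusp → Cusp → ℤ) (hΨ : Ψ ∈ Lev ℤ (N * q)),
      φ₁ ⟨D.trOp ℤ Ψ, D.trOp_mem hq hqN hΨ⟩ +
        φ₂ ⟨D.trOp ℤ (D.wOp ℤ Ψ), D.trOp_mem hq hqN (D.wOp_mem hq hΨ)⟩ = 0)
    {ℓ : ℕ} (hℓ : ℓ.Prime) (hℓN : ¬ ℓ ∣ N) (hℓNq : ¬ ℓ ∣ N * q) (hℓp : ℓ ≠ p)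
    (hℓ1 : ℓ ≡ 1 [MOD N]) (Φ : Lev ℤ N) :
    φ₁ (((opT hℓ hℓN - ((1 + ℓ : ℕ) : Module.End ℤ (Lev ℤ N))) ^ 2) Φ) = 0 ∧
      φ₂ (((opT hℓ hℓN - ((1 + ℓ : ℕ) : Module.End ℤ (Lev ℤ N))) ^ 2) Φ) = 0 := by
  have : NeZero N := ⟨hN.ne'⟩
  have hNq : N.Coprime q := (hq.coprime_iff_not_dvd.mpr hqN).symm
  obtain ⟨M, hM, hNM, hMq, hMℓ, hvan⟩ := exists_vanishing_level (p := p) hp2 hq hN hNq
  have hℓM : ℓ.Coprime M := hMℓ ℓ ((hℓ.coprime_iff_not_dvd.mpr hℓN).mul_right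
    ((Nat.coprime_primes hℓ Fact.out).mpr hℓp))
  set Eop : Module.End ℤ (Lev ℤ N) := opT hℓ hℓN - ((1 + ℓ : ℕ) : Module.End ℤ (Lev ℤ N))
  have hΓ0 : ∀ γ ∈ CongruenceSubgroup.Gamma M, γ ∈ Gamma0 N := fun γ hγ => by
    rw [mem_Gamma0_iff_dvd]
    exact (Int.natCast_dvd_natCast.mpr hNM).trans
      ((ZMod.intCast_zmod_eq_zero_iff_dvd _ _).mp (CongruenceSubgroup.Gamma_mem.mp hγ).2.2.1)
  -- vanishing on `Γ(M)` for any pair killing the traces
  have hzero : ∀ ψ₁ ψ₂ : Lev ℤ N →+ ZMod p, (∀ (Ψ : Cusp → Cusp → ℤ) (hΨ : Ψ ∈ Lev ℤ (N * q)),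
      ψ₁ ⟨D.trOp ℤ Ψ, D.trOp_mem hq hqN hΨ⟩ +
        ψ₂ ⟨D.trOp ℤ (D.wOp ℤ Ψ), D.trOp_mem hq hqN (D.wOp_mem hq hΨ)⟩ = 0) →
      (∀ γ ∈ CongruenceSubgroup.Gamma M, crossHom ψ₁ γ = 0) ∧
        ∀ γ ∈ CongruenceSubgroup.Gamma M, crossHom ψ₂ γ = 0 := by
    intro ψ₁ ψ₂ hψ
    obtain ⟨f, hadd, hfA, hfB⟩ := exists_glue_hom hq hN hqN D ψ₁ ψ₂ hψ
    refine ⟨fun γ hγ => ?_, fun γ hγ => ?_⟩
    · have := hvan f hadd _ (piConj_mem_qGamma hq.ne_zero hγ)
      rw [hfB γ (hΓ0 γ hγ)] at this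
      exact neg_eq_zero.mp this
    · have := hvan f hadd _ (gamma_toQ_mem hγ)
      rwa [hfA γ (hΓ0 γ hγ)] at this
  -- one application of `T_ℓ - 1 - ℓ` kills the standard unipotents
  have hEop : ∀ (φ : Lev ℤ N →+ ZMod p) (v : Lev ℤ N),
      φ (Eop v) = φ (opT hℓ hℓN v) - ((1 : ZMod p) + ℓ) * φ v := fun φ v => by
    rw [LinearMap.sub_apply, map_sub, Module.End.natCast_apply, map_nsmul, nsmul_eq_mul]
    push_cast; ring
  have hT0 : mT ∈ Gamma0 N := by rw [mem_Gamma0_iff_dvd]; simp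
  have hL0 : lowerZ (N : ℤ) ∈ Gamma0 N := by simpa using lowerZ_mem_Gamma0 N 1
  have hℓ0 : (ℓ : ZMod p) ≠ 0 := fun e => hℓp
    ((Nat.prime_dvd_prime_iff_eq Fact.out hℓ).mp ((ZMod.natCast_eq_zero_iff _ _).mp e)).symm
  have hunip : ∀ φ : Lev ℤ N →+ ZMod p, (∀ γ ∈ CongruenceSubgroup.Gamma M, crossHom φ γ = 0) →
      crossHom (φ.comp Eop.toAddMonoidHom) mT = 0 ∧
        crossHom (φ.comp Eop.toAddMonoidHom) (lowerZ N) = 0 := by
    intro φ hφ
    set ψ := φ.comp Eop.toAddMonoidHom with hψdef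
    have hχ := crossHom_add φ
    have hψ := crossHom_add ψ
    have hval : ∀ (γ : Gamma0 N) (g : Option (Fin ℓ) → Gamma0 N),
        (∀ i, heckeFam ℓ i * ((γ : SL(2, ℤ)) : M2) = ((g i : SL(2, ℤ)) : M2) * heckeFam ℓ i) →
        crossHom ψ γ = ∑ i, crossHom φ (g i) - ((1 : ZMod p) + ℓ) * crossHom φ γ := by
      intro γ g hg
      rw [← crossHom_eq ψ γ, hψdef, AddMonoidHom.comp_apply, LinearMap.toAddMonoidHom_coe, hEop,
        crossHom_eq φ γ]
      have e : opT hℓ hℓN (crossSymb (Gamma0 N) (Additive.ofMul γ)) =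
          ∑ i, crossSymb (Gamma0 N) (Additive.ofMul (g i)) := by
        refine Subtype.ext ?_
        rw [Submodule.coe_sum]
        exact tOp_crossSymb hℓ hℓN γ (fun i => i) g hg
      rw [e, map_sum]
      simp only [crossHom_eq]
    refine ⟨?_, ?_⟩
    · have h1 := hval ⟨mT ^ ℓ, pow_mem hT0 ℓ⟩
        (fun i => Option.elim i ⟨mT ^ (ℓ * ℓ), pow_mem hT0 _⟩ fun _ => ⟨mT, hT0⟩) fun i => by
          have e : ∀ n : ℕ, ((mT ^ n : SL(2, ℤ)) : M2) = !![1, (n : ℤ); 0, 1] := fun n => by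
            rw [← zpow_natCast, ModularGroup.coe_T_zpow]
          rcases i with _ | j <;> simp only [Option.elim_none, Option.elim_some, e,
            ModularGroup.coe_T] <;> ext a b <;> fin_cases a <;> fin_cases b <;>
            simp [Matrix.mul_apply, Fin.sum_univ_two]
          all_goals ring
      rw [Fintype.sum_option] at h1
      simp only [Option.elim_none, Option.elim_some, hom_pow hψ hT0, hom_pow hχ hT0,
        Finset.sum_const, Finset.card_univ, Fintype.card_fin, nsmul_eq_mul, Nat.cast_mul] at h1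
      refine (mul_eq_zero.mp (h1.trans ?_)).resolve_left hℓ0
      ring
    · have hsq := sq_smul_hom_lowerZ hχ hNM hℓM hφ
      rw [nsmul_eq_mul, Nat.cast_pow] at hsq
      have hg : ∀ j : Fin ℓ, ∃ g : Gamma0 N, heckeFam ℓ (some j) * (lowerZ ((N : ℤ) * ℓ) : M2) =
          ((g : SL(2, ℤ)) : M2) * heckeFam ℓ (some j) ∧
          crossHom φ g = (ℓ : ZMod p) ^ 2 * crossHom φ (lowerZ N) := by
        intro j
        set g := slMk (1 + (j : ℕ) * N * ℓ) (-((j : ℕ) : ℤ) ^ 2 * N) (N * ℓ ^ 2)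
          (1 - (j : ℕ) * N * ℓ) (by ring) with hgdef
        have hg0 : g ∈ Gamma0 N := by
          rw [mem_Gamma0_iff_dvd]; exact Dvd.intro ((ℓ : ℤ) ^ 2) rfl
        refine ⟨⟨g, hg0⟩, ?_, ?_⟩
        · ext a b
          fin_cases a <;> fin_cases b <;>
            simp [hgdef, lowerZ, slMk, Matrix.mul_apply, Fin.sum_univ_two] <;> ring
        · obtain ⟨u, v, huv⟩ := Nat.isCoprime_iff_coprime.mpr hℓM
          have hu : (u : ZMod M) * (ℓ : ZMod M) = 1 := by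
            have := congrArg (Int.cast : ℤ → ZMod M) huv
            push_cast at this
            rwa [ZMod.natCast_self, mul_zero, add_zero] at this
          set y : ℤ := u * (j : ℕ) with hy
          set c := mT ^ y * lowerZ ((N : ℤ) * (ℓ ^ 2 : ℕ)) * (mT ^ y)⁻¹ with hc
          have hc0 : c ∈ Gamma0 N := mul_mem (mul_mem (mT_zpow_mem_Gamma0 N y)
            (lowerZ_mem_Gamma0 N _)) (inv_mem (mT_zpow_mem_Gamma0 N y))
          have hm : c⁻¹ * g ∈ CongruenceSubgroup.Gamma M := inv_mul_mem_Gamma fun a b => by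
            rw [hc, ← _root_.zpow_neg]
            simp only [Matrix.SpecialLinearGroup.coe_mul, ModularGroup.coe_T_zpow]
            fin_cases a <;> fin_cases b <;>
              simp [hgdef, lowerZ, slMk, Matrix.mul_apply, Fin.sum_univ_two, hy]
            · linear_combination ((j : ℕ) : ZMod M) * (N : ZMod M) * (ℓ : ZMod M) * hu
            · linear_combination (-((j : ℕ) : ZMod M) ^ 2 * (N : ZMod M) *
                ((u : ZMod M) * (ℓ : ZMod M) + 1)) * hu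
            · linear_combination (-((j : ℕ) : ZMod M) * (N : ZMod M) * (ℓ : ZMod M)) * hu
          rw [hom_eq_of_inv_mul hχ hc0 hg0 (hφ _ hm), hc,
            hom_conj hχ (lowerZ_mem_Gamma0 N _) (mT_zpow_mem_Gamma0 N y), hom_lowerZ hχ,
            zsmul_eq_mul]
          push_cast; ring
      choose g hg1 hg2 using hg
      have h1 := hval ⟨lowerZ ((N : ℤ) * ℓ), lowerZ_mem_Gamma0 N _⟩
        (fun i => Option.elim i ⟨lowerZ N, hL0⟩ g) fun i => by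
          rcases i with _ | j
          · simp only [Option.elim_none]
            ext a b
            fin_cases a <;> fin_cases b <;>
              simp [lowerZ, slMk, Matrix.mul_apply, Fin.sum_univ_two]
          · exact hg1 j
      rw [Fintype.sum_option] at h1
      simp only [Option.elim_none, Option.elim_some, hg2, hom_lowerZ hψ, hom_lowerZ hχ,
        Finset.sum_const, Finset.card_univ, Fintype.card_fin, nsmul_eq_mul, zsmul_eq_mul,
        Int.cast_natCast] at h1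
      refine (mul_eq_zero.mp (h1.trans ?_)).resolve_left hℓ0
      linear_combination ((ℓ : ZMod p) - 1) * hsq
  -- conclusion
  have hcomm : ∀ (Ψ : Cusp → Cusp → ℤ) (hΨ : Ψ ∈ Lev ℤ (N * q)),
      Eop ⟨D.trOp ℤ Ψ, D.trOp_mem hq hqN hΨ⟩ =
        ⟨D.trOp ℤ (tOp ℤ ℓ Ψ - (1 + ℓ : ℕ) • Ψ), D.trOp_mem hq hqN
          (sub_mem (tOp_mem hℓ hℓNq hΨ) (nsmul_mem hΨ _))⟩ := fun Ψ hΨ => by
    refine Subtype.ext ?_
    show tOp ℤ ℓ (D.trOp ℤ Ψ) - _ = D.trOp ℤ (tOp ℤ ℓ Ψ - (1 + ℓ : ℕ) • Ψ)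
    rw [map_sub, map_nsmul, D.tOp_trOp hq hℓ hℓNq hΨ, Module.End.natCast_apply]
    rfl
  have hcommw : ∀ (Ψ : Cusp → Cusp → ℤ), Ψ ∈ Lev ℤ (N * q) →
      D.wOp ℤ (tOp ℤ ℓ Ψ - (1 + ℓ : ℕ) • Ψ) =
        tOp ℤ ℓ (D.wOp ℤ Ψ) - (1 + ℓ : ℕ) • D.wOp ℤ Ψ := fun Ψ hΨ => by
    rw [map_sub, map_nsmul, D.tOp_wOp hq hℓ hℓNq hΨ]
  have hker : ∀ (Ψ : Cusp → Cusp → ℤ) (hΨ : Ψ ∈ Lev ℤ (N * q)),
      φ₁.comp Eop.toAddMonoidHom ⟨D.trOp ℤ Ψ, D.trOp_mem hq hqN hΨ⟩ +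
        φ₂.comp Eop.toAddMonoidHom
          ⟨D.trOp ℤ (D.wOp ℤ Ψ), D.trOp_mem hq hqN (D.wOp_mem hq hΨ)⟩ = 0 := fun Ψ hΨ => by
    have hmem : tOp ℤ ℓ Ψ - (1 + ℓ : ℕ) • Ψ ∈ Lev ℤ (N * q) :=
      sub_mem (tOp_mem hℓ hℓNq hΨ) (nsmul_mem hΨ _)
    simp only [AddMonoidHom.comp_apply, LinearMap.toAddMonoidHom_coe]
    rw [hcomm Ψ hΨ, hcomm (D.wOp ℤ Ψ) (D.wOp_mem hq hΨ)]
    simp only [← hcommw Ψ hΨ]
    exact h _ hmem
  obtain ⟨z1, z2⟩ := hzero φ₁ φ₂ h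
  obtain ⟨w1, w2⟩ := hzero _ _ hker
  have final : ∀ φ : Lev ℤ N →+ ZMod p, (∀ γ ∈ CongruenceSubgroup.Gamma M, crossHom φ γ = 0) →
      (∀ γ ∈ CongruenceSubgroup.Gamma M, crossHom (φ.comp Eop.toAddMonoidHom) γ = 0) →
      φ ((Eop ^ 2) Φ) = 0 := by
    intro φ hφ hφE
    obtain ⟨u1, u2⟩ := hunip φ hφ
    have hN' := hom_eq_zero_gamma (crossHom_add _) hM hNM u1 u2 hφE
    have e := map_tOp_eq_of_crossHom hp2 _ hN' hℓ hℓN hℓ1 Φ
    rw [pow_two, Module.End.mul_apply]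
    calc φ (Eop (Eop Φ)) = φ.comp Eop.toAddMonoidHom (Eop Φ) := rfl
      _ = 0 := (hEop _ _).trans (sub_eq_zero.mpr e)
  exact ⟨final φ₁ z1 w1, final φ₂ z2 w2⟩

end FLTAgent.LevelRaising
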