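import Fermat.Agent.LevelRaising.SymbolAlgebra

/-!
# Raising the level of a mod `p` system of eigenvalues of modular symbols

If `T_q ≡ ± (q + 1)` for a non-Eisenstein maximal ideal of level `N`, the system of eigenvalues
occurs, up to congruence, on the symbols of level `N q` killed by both traces.
-/

set_option autoImplicit false

noncomputable section

open Matrix CongruenceSubgroup
open scoped MatrixGroups

namespace FLTAgent.LevelRaising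

variable {p q N : ℕ}

/-- A non-Eisenstein eigensymbol modulo `p` is not an eigenvector of the Atkin-Lehner map. -/
theorem sub_wOp_ne_zero [Fact p.Prime] (hp2 : p ≠ 2) (hq : q.Prime) (hN : 0 < N) (hqN : ¬ q ∣ N)
    (hpq : p ≠ q) (D : ALData N q) {Φ : Cusp → Cusp → ZMod p} (hΦ : Φ ∈ Lev (ZMod p) N)
    (hne : Φ ≠ 0) {ℓ : ℕ} (hℓ : ℓ.Prime) (hℓ1 : ℓ ≡ 1 [MOD N * p * (N * p)]) {c : ZMod p}
    (hc : tOp (ZMod p) ℓ Φ = c • Φ) (hcne : c ≠ 1 + ℓ) {ε : ZMod p} (hε : ε * ε = 1) :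
    Φ - ε • D.wOp (ZMod p) Φ ≠ 0 := by
  intro h
  have hw : D.wOp (ZMod p) Φ = ε • Φ := by
    conv_rhs => rw [sub_eq_zero.mp h, smul_smul, hε, one_smul]
  have hT := tOp_eq_smul_of_periods hΦ (periods_eq_zero_of_wOp hp2 hq hN hqN hpq D hΦ hε hw) hℓ hℓ1
  exact hcne (smul_left_injective (ZMod p) hne (hc.symm.trans hT))

/-- The diagonal action of the first component. -/
def diagFst (N q : ℕ) : EndPair N q →+* Module.End ℤ (Lev ℤ N × Lev ℤ N) where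
  toFun y := LinearMap.prodMap y.1 y.1
  map_one' := by refine LinearMap.ext fun v => ?_; rfl
  map_mul' a b := by refine LinearMap.ext fun v => ?_; rfl
  map_zero' := by refine LinearMap.ext fun v => ?_; rfl
  map_add' a b := by refine LinearMap.ext fun v => ?_; rfl

/-- The inclusion of level `N` in level `N q`. -/
def inclLev (N q : ℕ) : Lev ℤ N →ₗ[ℤ] Lev ℤ (N * q) :=
  Submodule.inclusion (lev_mono (dvd_mul_right N q))

namespace ALData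

variable (D : ALData N q) (hq : q.Prime) (hqN : ¬ q ∣ N)

/-- The Atkin-Lehner map on integral symbols. -/
def wLev : Lev ℤ (N * q) →ₗ[ℤ] Lev ℤ (N * q) :=
  (D.wOp ℤ).restrict fun _ hΦ => D.wOp_mem hq hΦ

/-- The two traces on integral symbols. -/
def betaLev : Lev ℤ (N * q) →ₗ[ℤ] Lev ℤ N × Lev ℤ N :=
  ((D.trOp ℤ).restrict fun _ hΦ => D.trOp_mem hq hqN hΦ).prod
    (((D.trOp ℤ).restrict fun _ hΦ => D.trOp_mem hq hqN hΦ) ∘ₗ D.wLev hq)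

end ALData

/-- A ring acting on the integral symbols killed by both traces, faithfully outside a prime and
extending to complex functions, has a complex eigensymbol killed by both traces. -/
theorem exists_complex_eigen_of_faithful [NeZero (N * q)] (hq : q.Prime) (hqN : ¬ q ∣ N)
    (D : ALData N q) {A : Type*} [CommRing A] (ρ : A →+* Module.End ℤ (Lev ℤ (N * q)))
    (hlift : ∀ a, ∃ X : Module.End ℂ (Cusp → Cusp → ℂ), ∀ Φ : Lev ℤ (N * q),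
      castFn ℂ (ρ a Φ : Cusp → Cusp → ℤ) = X (castFn ℂ (Φ : Cusp → Cusp → ℤ)))
    (hρ : ∀ a Φ, D.betaLev hq hqN Φ = 0 → D.betaLev hq hqN (ρ a Φ) = 0)
    (m : Ideal A) [m.IsPrime]
    (hfaith : ∀ s ∉ m, ∃ Φ : Lev ℤ (N * q), D.betaLev hq hqN Φ = 0 ∧ ρ s Φ ≠ 0) :
    ∃ (χ : A →+* ℂ) (Φ : Cusp → Cusp → ℂ), Φ ≠ 0 ∧ Φ ∈ Lev ℂ (N * q) ∧
      D.trOp ℂ Φ = 0 ∧ D.trOp ℂ (D.wOp ℂ Φ) = 0 ∧
      (∀ (a : A) (T : Module.End ℂ (Cusp → Cusp → ℂ)), (∀ Ψ : Lev ℤ (N * q),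
        T (castFn ℂ (Ψ : Cusp → Cusp → ℤ)) = castFn ℂ (ρ a Ψ : Cusp → Cusp → ℤ)) →
          T Φ = χ a • Φ) ∧
      RingHom.ker χ ≤ m := by
  choose X hX using hlift
  set W := Submodule.span ℂ ((fun Φ : Lev ℤ (N * q) => castFn ℂ (Φ : Cusp → Cusp → ℤ)) ''
    {Φ | D.betaLev hq hqN Φ = 0}) with hW
  have hWlev : W ≤ Lev ℂ (N * q) := Submodule.span_le.mpr (by
    rintro _ ⟨Φ, -, rfl⟩
    exact castFn_mem Φ.2)
  have : FiniteDimensional ℂ W := Submodule.finiteDimensional_of_le hWlev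
  have hXW : ∀ x, W ≤ W.comap (X x) := fun x => Submodule.span_le.mpr (by
    rintro _ ⟨Φ, hΦ, rfl⟩
    exact Submodule.mem_comap.mpr (Submodule.subset_span ⟨ρ x Φ, hρ x Φ hΦ, hX x Φ⟩))
  have hext : ∀ G H : Module.End ℂ (Cusp → Cusp → ℂ),
      (∀ Φ : Lev ℤ (N * q), G (castFn ℂ (Φ : Cusp → Cusp → ℤ)) =
        H (castFn ℂ (Φ : Cusp → Cusp → ℤ))) →
      ∀ u ∈ W, G u = H u := fun G H h => LinearMap.eqOn_span (by
    rintro _ ⟨Φ, -, rfl⟩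
    exact h Φ)
  let Y : A →+* Module.End ℂ W :=
    { toFun := fun x => (X x).restrict fun _ hu => hXW x hu
      map_one' := LinearMap.ext fun u => Subtype.ext
        (hext (X 1) LinearMap.id (fun Φ => by rw [← hX, map_one]; rfl) u u.2)
      map_mul' := fun x y => LinearMap.ext fun u => Subtype.ext
        (hext (X (x * y)) (X x * X y) (fun Φ => by
          rw [Module.End.mul_apply, ← hX, ← hX, ← hX, map_mul]; rfl) u u.2)
      map_zero' := LinearMap.ext fun u => Subtype.ext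
        (hext (X 0) 0 (fun Φ => by rw [← hX, map_zero, LinearMap.zero_apply]; exact map_zero _)
          u u.2)
      map_add' := fun x y => LinearMap.ext fun u => Subtype.ext
        (hext (X (x + y)) (X x + X y) (fun Φ => by
          rw [LinearMap.add_apply, ← hX, ← hX, ← hX, ← map_add, map_add]; rfl) u u.2) }
  obtain ⟨χ, u, hu0, hu, hker⟩ := exists_joint_eigen Y m fun s hs h0 => by
    obtain ⟨Φ, hΦ, hsΦ⟩ := hfaith s hs
    refine hsΦ (Subtype.ext (castFn_injective (R := ℂ) ?_))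
    rw [ZeroMemClass.coe_zero, map_zero, hX]
    exact congrArg Subtype.val
      (LinearMap.congr_fun h0 ⟨_, Submodule.subset_span ⟨Φ, hΦ, rfl⟩⟩)
  have hker' : W ≤ LinearMap.ker (D.trOp ℂ) ⊓ LinearMap.ker (D.trOp ℂ ∘ₗ D.wOp ℂ) :=
    Submodule.span_le.mpr (by
      rintro _ ⟨Φ, hΦ, rfl⟩
      have h1 : D.trOp ℤ (Φ : Cusp → Cusp → ℤ) = 0 :=
        congrArg (fun x : Lev ℤ N × Lev ℤ N => (x.1 : Cusp → Cusp → ℤ)) hΦ
      have h2 : D.trOp ℤ (D.wOp ℤ (Φ : Cusp → Cusp → ℤ)) = 0 :=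
        congrArg (fun x : Lev ℤ N × Lev ℤ N => (x.2 : Cusp → Cusp → ℤ)) hΦ
      refine ⟨LinearMap.mem_ker.mpr ?_, LinearMap.mem_ker.mpr ?_⟩
      · rw [← castFn_trOp, h1, map_zero]
      · rw [LinearMap.comp_apply, ← castFn_wOp, ← castFn_trOp, h2, map_zero])
  exact ⟨χ, u.1, fun h => hu0 (Subtype.ext h), hWlev u.2, LinearMap.mem_ker.mp (hker' u.2).1,
    LinearMap.mem_ker.mp (hker' u.2).2, fun a T hT => (hext T (X a)
      (fun Ψ => (hT Ψ).trans (hX a Ψ)) u u.2).trans (congrArg Subtype.val (hu a)), hker⟩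

/-- Reduction of integral symbols modulo `p`. -/
private def redLev (p N : ℕ) : Lev ℤ N →ₗ[ℤ] (Cusp → Cusp → ZMod p) :=
  ((castFn (ZMod p)).comp (Lev ℤ N).subtype.toAddMonoidHom).toIntLinearMap

/-- Reduction modulo `p` is coefficientwise. -/
private lemma redLev_apply (Φ : Lev ℤ N) :
    redLev p N Φ = castFn (ZMod p) (Φ : Cusp → Cusp → ℤ) := rfl

/-- A system of eigenvalues modulo `p` has a socle symbol. -/
private lemma exists_mod_socle [Fact p.Prime] [NeZero N] {K : Type*} [Field K] (hpK : (p : K) = 0)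
    (θ : alg0 N →+* K) : ∃ v : Lev ℤ N,
      (∀ x : alg0 N, θ x = 0 → redLev p N ((x : Module.End ℤ (Lev ℤ N)) v) = 0) ∧
      ∀ x : alg0 N, θ x ≠ 0 → redLev p N ((x : Module.End ℤ (Lev ℤ N)) v) ≠ 0 := by
  have hp0 : p ≠ 0 := (Fact.out : p.Prime).ne_zero
  have hm : (RingHom.ker θ).IsPrime := RingHom.ker_isPrime θ
  set P := LinearMap.ker (redLev p N) with hP
  have hstab : ∀ x : alg0 N, P ≤ Submodule.comap (x : Module.End ℤ (Lev ℤ N)) P := by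
    intro x Φ hΦ
    obtain ⟨X, c, hX, -⟩ := exists_lift_alg0 (R := ZMod p) 0 (fun _ _ _ => ⟨0, by simp⟩) x.2
    have hΦ' : castFn (ZMod p) (Φ : Cusp → Cusp → ℤ) = 0 := LinearMap.mem_ker.mp hΦ
    rw [Submodule.mem_comap, hP, LinearMap.mem_ker, redLev_apply, hX, hΦ', map_zero]
  let ρV : alg0 N →+* Module.End ℤ (Lev ℤ N ⧸ P) :=
    { toFun := fun x => Submodule.mapQ P P (x : Module.End ℤ (Lev ℤ N)) (hstab x)
      map_one' := Submodule.linearMap_qext _ (LinearMap.ext fun _ => rfl)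
      map_mul' := fun _ _ => Submodule.linearMap_qext _ (LinearMap.ext fun _ => rfl)
      map_zero' := Submodule.linearMap_qext _ (LinearMap.ext fun _ => rfl)
      map_add' := fun _ _ => Submodule.linearMap_qext _ (LinearMap.ext fun _ => rfl) }
  have : Finite (Lev (ZMod p) N) := Module.finite_of_finite (ZMod p)
  have : Finite (Lev ℤ N ⧸ P) := by
    refine Finite.of_injective
      (fun w => (⟨Submodule.liftQ P (redLev p N) le_rfl w, ?_⟩ : Lev (ZMod p) N))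
      fun a b h => LinearMap.ker_eq_bot.mp (Submodule.ker_liftQ_eq_bot' P (redLev p N) rfl)
        (congrArg Subtype.val h)
    obtain ⟨Φ, rfl⟩ := Submodule.Quotient.mk_surjective P w
    exact castFn_mem Φ.2
  obtain ⟨w, hw1, hw2⟩ := exists_socle ρV (RingHom.ker θ) fun s hs => by
    obtain ⟨v, hv⟩ := exists_not_mem_smul_top (alg0 N).val.toRingHom Subtype.val_injective
      (RingHom.ker θ) (p := p) (by rw [RingHom.mem_ker, map_natCast, hpK]) hs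
    refine ⟨Submodule.Quotient.mk v, fun h0 => hv ?_⟩
    obtain ⟨Ψ, hΨ⟩ := exists_eq_smul_of_castFn_eq_zero hp0 _
      (LinearMap.mem_ker.mp ((Submodule.Quotient.mk_eq_zero P).mp h0))
    show (s : Module.End ℤ (Lev ℤ N)) v ∈ _
    rw [hΨ]
    exact Submodule.smul_mem_smul (Ideal.mem_span_singleton_self _) Submodule.mem_top
  obtain ⟨v, rfl⟩ := Submodule.Quotient.mk_surjective P w
  exact ⟨v, fun x hx => (Submodule.Quotient.mk_eq_zero P).mp (hw1 x hx),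
    fun x hx h0 => hw2 x hx ((Submodule.Quotient.mk_eq_zero P).mpr h0)⟩

/-- The combination `Φ - ε w Φ` at level `N q`. -/
private def raiseMap (D : ALData N q) (hq : q.Prime) (ε : ℤ) : Lev ℤ N →ₗ[ℤ] Lev ℤ (N * q) :=
  inclLev N q - ε • (D.wLev hq ∘ₗ inclLev N q)

/-- The two traces of `Φ - ε w Φ`. -/
private lemma betaLev_raiseMap (D : ALData N q) (hq : q.Prime) (hqN : ¬ q ∣ N) {ε : ℤ}
    (hε : ε * ε = 1) (v : Lev ℤ N) :
    D.betaLev hq hqN (raiseMap D hq ε v) =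
      (-ε • (opT hq hqN v - (ε * ((q : ℤ) + 1)) • v), opT hq hqN v - (ε * ((q : ℤ) + 1)) • v) := by
  refine Prod.ext (Subtype.ext ?_) (Subtype.ext ?_)
  · show D.trOp ℤ ((v : Cusp → Cusp → ℤ) - ε • D.wOp ℤ (v : Cusp → Cusp → ℤ)) =
      -ε • (tOp ℤ q (v : Cusp → Cusp → ℤ) - (ε * ((q : ℤ) + 1)) • (v : Cusp → Cusp → ℤ))
    have e : -ε * (ε * ((q : ℤ) + 1)) = -((q : ℤ) + 1) := by
      linear_combination (-((q : ℤ) + 1)) * hε
    rw [map_sub, map_smul, D.trOp_of_mem hq v.2, D.trOp_wOp_of_mem hq v.2, smul_sub, smul_smul, e]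
    module
  · show D.trOp ℤ (D.wOp ℤ ((v : Cusp → Cusp → ℤ) - ε • D.wOp ℤ (v : Cusp → Cusp → ℤ))) =
      tOp ℤ q (v : Cusp → Cusp → ℤ) - (ε * ((q : ℤ) + 1)) • (v : Cusp → Cusp → ℤ)
    rw [map_sub, map_smul, D.wOp_wOp hq (lev_mono (dvd_mul_right N q) v.2), map_sub,
      map_smul, D.trOp_wOp_of_mem hq v.2, D.trOp_of_mem hq v.2, smul_smul]

/-- The action of the pair algebra on level `N q`. -/
private def actTop (N q : ℕ) : pairAlg N q →+* Module.End ℤ (Lev ℤ (N * q)) :=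
  (RingHom.snd _ _).comp (pairAlg N q).val.toRingHom

/-- The action of the pair algebra on two copies of level `N`. -/
private def actPair (N q : ℕ) : pairAlg N q →+* Module.End ℤ (Lev ℤ N × Lev ℤ N) :=
  (diagFst N q).comp (pairAlg N q).val.toRingHom

/-- The two traces intertwine the actions. -/
private lemma betaLev_actTop (D : ALData N q) (hq : q.Prime) (hqN : ¬ q ∣ N) (a : pairAlg N q)
    (x : Lev ℤ (N * q)) :
    D.betaLev hq hqN (actTop N q a x) = actPair N q a (D.betaLev hq hqN x) := by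
  refine pairAlg_intertwine (RingHom.snd _ _) (diagFst N q) _ ?_ a.2 x
  rintro _ ⟨ℓ, hℓ, h0, h1, rfl⟩ Φ
  refine Prod.ext (Subtype.ext ?_) (Subtype.ext ?_)
  · exact (D.tOp_trOp hq hℓ h1 Φ.2).symm
  · show D.trOp ℤ (D.wOp ℤ (tOp ℤ ℓ (Φ : Cusp → Cusp → ℤ))) =
      tOp ℤ ℓ (D.trOp ℤ (D.wOp ℤ (Φ : Cusp → Cusp → ℤ)))
    rw [D.tOp_trOp hq hℓ h1 (D.wOp_mem hq Φ.2), D.tOp_wOp hq hℓ h1 Φ.2]

/-- The map `Φ - ε w Φ` intertwines the actions. -/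
private lemma actTop_raiseMap (D : ALData N q) (hq : q.Prime) (ε : ℤ) (a : pairAlg N q)
    (v : Lev ℤ N) : actTop N q a (raiseMap D hq ε v) = raiseMap D hq ε ((a : EndPair N q).1 v) := by
  refine (pairAlg_intertwine (RingHom.fst _ _) (RingHom.snd _ _) (raiseMap D hq ε) ?_ a.2 v).symm
  rintro _ ⟨ℓ, hℓ, h0, h1, rfl⟩ Φ
  refine Subtype.ext ?_
  show (tOp ℤ ℓ (Φ : Cusp → Cusp → ℤ)) - ε • D.wOp ℤ (tOp ℤ ℓ (Φ : Cusp → Cusp → ℤ)) =
    tOp ℤ ℓ ((Φ : Cusp → Cusp → ℤ) - ε • D.wOp ℤ (Φ : Cusp → Cusp → ℤ))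
  rw [map_sub, map_smul, D.tOp_wOp hq hℓ h1 (lev_mono (dvd_mul_right N q) Φ.2)]

/-- Away from a non-Eisenstein maximal ideal the two traces are surjective. -/
private lemma exists_smul_mem_range_betaLev [Fact p.Prime] [NeZero N] (hp2 : p ≠ 2)
    (hq : q.Prime) (hN : 0 < N) (hqN : ¬ q ∣ N) (hpq : p ≠ q) (D : ALData N q) {K : Type*}
    [Field K] (hpK : (p : K) = 0) (θ : alg0 N →+* K) {ℓ₀ : ℕ} (hℓ₀ : ℓ₀.Prime)
    (hℓ₀N : ¬ ℓ₀ ∣ N * q) (hℓ₀1 : ℓ₀ ≡ 1 [MOD N * p * (N * p)]) {c₀ : ℤ}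
    (hc₀' : (c₀ : ZMod p) ≠ 1 + ℓ₀)
    (hθ₀ : θ ⟨opT hℓ₀ (fun h => hℓ₀N (h.mul_right q)),
      Algebra.subset_adjoin ⟨ℓ₀, hℓ₀, _, rfl⟩⟩ = c₀) :
    ∃ s₁ ∉ RingHom.ker (θ.comp (pairFst N q)),
      ∀ y, ∃ x, D.betaLev hq hqN x = actPair N q s₁ y := by
  have hm0 : (RingHom.ker (θ.comp (pairFst N q))).IsPrime := RingHom.ker_isPrime _
  have hℓ₀N' : ¬ ℓ₀ ∣ N := fun h => hℓ₀N (h.mul_right q)
  set x₀ : pairAlg N q := ⟨(opT hℓ₀ hℓ₀N', opT hℓ₀ hℓ₀N),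
    Algebra.subset_adjoin ⟨ℓ₀, hℓ₀, _, hℓ₀N, rfl⟩⟩ - (c₀ : pairAlg N q) with hx₀
  have hx₀m : x₀ ∈ RingHom.ker (θ.comp (pairFst N q)) := by
    rw [RingHom.mem_ker, hx₀, map_sub, map_intCast, RingHom.comp_apply, sub_eq_zero]
    exact hθ₀
  have hx₀v : ∀ y : Lev ℤ N, (x₀ : EndPair N q).1 y = opT hℓ₀ hℓ₀N' y - c₀ • y := fun y => by
    rw [hx₀, Subalgebra.coe_sub, Prod.fst_sub, LinearMap.sub_apply, SubringClass.coe_intCast,
      Prod.fst_intCast, Module.End.intCast_apply]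
  refine exists_not_mem_smul_range (actTop N q) (actPair N q) (D.betaLev hq hqN)
    (betaLev_actTop D hq hqN) _ (p := p) (by rw [RingHom.mem_ker, map_natCast, hpK])
    fun φ hφβ hφm => ?_
  let φ₁ : Lev ℤ N →+ ZMod p := φ.comp (AddMonoidHom.inl _ _)
  let φ₂ : Lev ℤ N →+ ZMod p := φ.comp (AddMonoidHom.inr _ _)
  have hsplit : ∀ a b, φ (a, b) = φ₁ a + φ₂ b := fun a b => by
    show φ (a, b) = φ (a, 0) + φ (0, b)
    rw [← map_add, Prod.mk_add_mk, add_zero, zero_add]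
  have hT := functional_tOp_eq hp2 hq hN hqN hpq D φ₁ φ₂
    (fun Ψ hΨ => (hsplit _ _).symm.trans (hφβ ⟨Ψ, hΨ⟩)) hℓ₀ hℓ₀N' hℓ₀1
  refine AddMonoidHom.ext fun y => ?_
  obtain ⟨a, b⟩ := y
  have h := hφm x₀ hx₀m (a, b)
  rw [show actPair N q x₀ (a, b) = ((x₀ : EndPair N q).1 a, (x₀ : EndPair N q).1 b) from rfl,
    hsplit, hx₀v, hx₀v, map_sub, map_sub, map_zsmul, map_zsmul, zsmul_eq_mul, zsmul_eq_mul,
    show φ₁ (opT hℓ₀ hℓ₀N' a) = _ from (hT a).1,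
    show φ₂ (opT hℓ₀ hℓ₀N' b) = _ from (hT b).2] at h
  rw [hsplit, AddMonoidHom.zero_apply]
  have h2 : ((c₀ : ZMod p) - (1 + ℓ₀)) * (φ₁ a + φ₂ b) = 0 := by linear_combination -h
  exact (mul_eq_zero.mp h2).resolve_left (sub_ne_zero.mpr hc₀')

/-- The pair algebra acts faithfully, outside the ideal, on symbols killed by both traces. -/
private lemma exists_actTop_ne_zero [Fact p.Prime] [NeZero N] (hp2 : p ≠ 2) (hq : q.Prime)
    (hN : 0 < N) (hqN : ¬ q ∣ N) (hpq : p ≠ q) (D : ALData N q) {K : Type*} [Field K]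
    (hpK : (p : K) = 0) (θ : alg0 N →+* K) {ℓ₀ : ℕ} (hℓ₀ : ℓ₀.Prime)
    (hℓ₀N : ¬ ℓ₀ ∣ N * q) (hℓ₀1 : ℓ₀ ≡ 1 [MOD N * p * (N * p)]) {c₀ : ℤ}
    (hc₀' : (c₀ : ZMod p) ≠ 1 + ℓ₀)
    (hθ₀ : θ ⟨opT hℓ₀ (fun h => hℓ₀N (h.mul_right q)),
      Algebra.subset_adjoin ⟨ℓ₀, hℓ₀, _, rfl⟩⟩ = c₀)
    {ε : ℤ} (hε : ε * ε = 1)
    (hθq : θ ⟨opT hq hqN, Algebra.subset_adjoin ⟨q, hq, hqN, rfl⟩⟩ = ε * ((q : K) + 1))
    {s : pairAlg N q} (hs : s ∉ RingHom.ker (θ.comp (pairFst N q))) :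
    ∃ Φ : Lev ℤ (N * q), D.betaLev hq hqN Φ = 0 ∧ actTop N q s Φ ≠ 0 := by
  have hℓ₀N' : ¬ ℓ₀ ∣ N := fun h => hℓ₀N (h.mul_right q)
  obtain ⟨v, hv1, hv2⟩ := exists_mod_socle hpK θ
  set tq : alg0 N := ⟨opT hq hqN, Algebra.subset_adjoin ⟨q, hq, hqN, rfl⟩⟩
  obtain ⟨z, hz⟩ : ∃ z : Lev ℤ N, opT hq hqN v - (ε * ((q : ℤ) + 1)) • v = (p : ℤ) • z := by
    refine exists_eq_smul_of_castFn_eq_zero (Fact.out : p.Prime).ne_zero _ ?_
    have h := hv1 (tq - ((ε * ((q : ℤ) + 1) : ℤ) : alg0 N)) (by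
      rw [map_sub, map_intCast, hθq]; push_cast; ring)
    rw [Subalgebra.coe_sub, LinearMap.sub_apply, SubringClass.coe_intCast,
      Module.End.intCast_apply] at h
    exact h
  obtain ⟨s₁, hs₁, hcok⟩ :=
    exists_smul_mem_range_betaLev hp2 hq hN hqN hpq D hpK θ hℓ₀ hℓ₀N hℓ₀1 hc₀' hθ₀
  by_contra hcon
  push Not at hcon
  obtain ⟨y, hy⟩ := hcok (-ε • z, z)
  have hk0 : D.betaLev hq hqN (actTop N q s₁ (raiseMap D hq ε v) - (p : ℤ) • y) = 0 := by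
    rw [map_sub, betaLev_actTop, betaLev_raiseMap D hq hqN hε, hz, map_zsmul, hy, ← map_zsmul,
      Prod.smul_mk, smul_comm, sub_self]
  have h0 := hcon _ hk0
  rw [map_sub, sub_eq_zero, ← Module.End.mul_apply, ← map_mul, actTop_raiseMap, map_zsmul] at h0
  set v' := (((s * s₁ : pairAlg N q)) : EndPair N q).1 v with hv'
  have h1 : castFn (ZMod p) ((v' : Cusp → Cusp → ℤ) - ε • D.wOp ℤ (v' : Cusp → Cusp → ℤ)) = 0 := by
    show castFn (ZMod p) (raiseMap D hq ε v' : Cusp → Cusp → ℤ) = 0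
    rw [h0, Submodule.coe_smul, castFn_zsmul, Int.cast_natCast, ZMod.natCast_self, zero_smul]
  rw [map_sub, castFn_zsmul, castFn_wOp] at h1
  have hθs : θ (pairFst N q (s * s₁)) ≠ 0 := by
    rw [map_mul, map_mul]
    exact mul_ne_zero hs hs₁
  refine sub_wOp_ne_zero hp2 hq hN hqN hpq D (castFn_mem v'.2) (hv2 _ hθs) hℓ₀ hℓ₀1
    (c := (c₀ : ZMod p)) ?_ hc₀' (by rw [← Int.cast_mul, hε, Int.cast_one]) h1
  have h2 := hv1 ((⟨opT hℓ₀ hℓ₀N', Algebra.subset_adjoin ⟨ℓ₀, hℓ₀, _, rfl⟩⟩ - (c₀ : alg0 N))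
    * pairFst N q (s * s₁)) (by rw [map_mul, map_sub, map_intCast, hθ₀, sub_self, zero_mul])
  rw [Subalgebra.coe_mul, Module.End.mul_apply, Subalgebra.coe_sub, LinearMap.sub_apply,
    SubringClass.coe_intCast, Module.End.intCast_apply, coe_pairFst, ← hv', redLev_apply,
    Submodule.coe_sub, map_sub, Submodule.coe_smul, castFn_zsmul, sub_eq_zero, coe_opT,
    castFn_tOp] at h2
  exact h2

/-- Level raising for systems of eigenvalues of modular symbols. -/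
theorem exists_pairAlg_char [Fact p.Prime] (hp2 : p ≠ 2) (hq : q.Prime) (hN : 0 < N)
    (hqN : ¬ q ∣ N) (hpq : p ≠ q) (D : ALData N q) {K : Type*} [Field K] (hpK : (p : K) = 0)
    (θ : alg0 N →+* K) {ℓ₀ : ℕ} (hℓ₀ : ℓ₀.Prime) (hℓ₀N : ¬ ℓ₀ ∣ N * q)
    (hℓ₀1 : ℓ₀ ≡ 1 [MOD N * p * (N * p)]) (c₀ : ℤ) (hc₀ : ¬ (p : ℤ) ∣ c₀ - 2)
    (hθ₀ : θ ⟨opT hℓ₀ (fun h => hℓ₀N (h.mul_right q)),
      Algebra.subset_adjoin ⟨ℓ₀, hℓ₀, _, rfl⟩⟩ = c₀)
    (ε : ℤ) (hε : ε * ε = 1)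
    (hθq : θ ⟨opT hq hqN, Algebra.subset_adjoin ⟨q, hq, hqN, rfl⟩⟩ = ε * ((q : K) + 1)) :
    ∃ (χ : pairAlg N q →+* ℂ) (Φ : Cusp → Cusp → ℂ), Φ ≠ 0 ∧ Φ ∈ Lev ℂ (N * q) ∧
      D.trOp ℂ Φ = 0 ∧ D.trOp ℂ (D.wOp ℂ Φ) = 0 ∧
      (∀ (ℓ : ℕ) (hℓ : ℓ.Prime) (h1 : ¬ ℓ ∣ N * q), tOp ℂ ℓ Φ =
        χ ⟨(opT hℓ (fun h => h1 (h.mul_right q)), opT hℓ h1),
          Algebra.subset_adjoin ⟨ℓ, hℓ, _, h1, rfl⟩⟩ • Φ) ∧
      RingHom.ker χ ≤ RingHom.ker (θ.comp (pairFst N q)) := by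
  classical
  have : NeZero N := ⟨hN.ne'⟩
  have : NeZero (N * q) := ⟨Nat.mul_ne_zero hN.ne' hq.ne_zero⟩
  have hℓ₀p : (ℓ₀ : ZMod p) = 1 := by
    have h : ℓ₀ ≡ 1 [MOD p] := hℓ₀1.of_dvd ((dvd_mul_left p N).mul_right _)
    simpa using (ZMod.natCast_eq_natCast_iff _ _ _).mpr h
  have hc₀' : (c₀ : ZMod p) ≠ 1 + ℓ₀ := by
    rw [hℓ₀p, show (1 : ZMod p) + 1 = ((2 : ℤ) : ZMod p) by norm_num]
    intro h
    exact hc₀ ((ZMod.intCast_eq_intCast_iff_dvd_sub _ _ _).mp h.symm)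
  have hm0 : (RingHom.ker (θ.comp (pairFst N q))).IsPrime := RingHom.ker_isPrime _
  -- the joint eigenvector
  obtain ⟨χ, Φ, h0, hmem, ht, htw, hT, hker⟩ := exists_complex_eigen_of_faithful hq hqN D
    (actTop N q) (fun x => exists_lift_pairAlg (R := ℂ) x.2)
    (fun a Φ h => by rw [betaLev_actTop, h, map_zero]) _
    fun s hs => exists_actTop_ne_zero hp2 hq hN hqN hpq D hpK θ hℓ₀ hℓ₀N hℓ₀1 hc₀' hθ₀ hε hθq hs
  exact ⟨χ, Φ, h0, hmem, ht, htw,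
    fun ℓ hℓ h1 => hT _ (tOp ℂ ℓ) fun Ψ => (castFn_tOp ℓ _).symm, hker⟩

end FLTAgent.LevelRaising
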