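import Fermat.Agent.LevelRaising.SymbolsIhara
import Mathlib.NumberTheory.LSeries.PrimesInAP

/-!
# Homomorphisms on `Γ₀(N)` with a congruence kernel

A homomorphism on `Γ₀(N)` vanishing on some `Γ(M)` and on the two standard unipotents vanishes on
`Γ(N)`; homomorphisms on `qZero q N` to `ZMod p` vanish on a congruence subgroup, also for `q = p`.
-/

set_option autoImplicit false

noncomputable section

open Matrix CongruenceSubgroup
open scoped MatrixGroups

namespace FLTAgent.LevelRaising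

/-- The lower unipotent integral matrix. -/
def lowerZ (n : ℤ) : SL(2, ℤ) := slMk 1 0 n 1 (by ring)

theorem lowerZ_add (m n : ℤ) : lowerZ (m + n) = lowerZ m * lowerZ n := by
  ext i j
  fin_cases i <;> fin_cases j <;> simp [lowerZ, slMk, Matrix.mul_apply, Fin.sum_univ_two]

theorem lowerZ_mem_Gamma0 (N : ℕ) (m : ℤ) : lowerZ ((N : ℤ) * m) ∈ Gamma0 N := by
  rw [mem_Gamma0_iff_dvd]
  exact Dvd.intro m rfl

/-- Congruence of the entries gives a quotient in `Γ(M)`. -/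
theorem inv_mul_mem_Gamma {M : ℕ} {g h : SL(2, ℤ)}
    (e : ∀ i j, ((g i j : ℤ) : ZMod M) = (h i j : ℤ)) : g⁻¹ * h ∈ CongruenceSubgroup.Gamma M := by
  show _ ∈ (SpecialLinearGroup.map (n := Fin 2) (Int.castRingHom (ZMod M))).ker
  rw [MonoidHom.mem_ker, map_mul, map_inv, inv_mul_eq_one]
  refine Subtype.ext (Matrix.ext fun i j => ?_)
  exact e i j

section Hom

variable {A : Type*} [AddCommGroup A] {N : ℕ} {χ : SL(2, ℤ) → A}
  (hadd : ∀ a ∈ Gamma0 N, ∀ b ∈ Gamma0 N, χ (a * b) = χ a + χ b)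

include hadd

theorem hom_pow {a : SL(2, ℤ)} (ha : a ∈ Gamma0 N) (n : ℕ) : χ (a ^ n) = n • χ a := by
  induction n with
  | zero => simpa using hom_one hadd
  | succ n ih => rw [pow_succ, hadd _ (pow_mem ha n) _ ha, ih, succ_nsmul]

theorem hom_eq_of_inv_mul {g h : SL(2, ℤ)} (hg : g ∈ Gamma0 N) (hh : h ∈ Gamma0 N)
    (h0 : χ (g⁻¹ * h) = 0) : χ h = χ g := by
  have := hadd g hg (g⁻¹ * h) (mul_mem (inv_mem hg) hh)
  rwa [mul_inv_cancel_left, h0, add_zero] at this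

theorem hom_lowerZ (m : ℤ) : χ (lowerZ ((N : ℤ) * m)) = m • χ (lowerZ N) := by
  induction m with
  | zero =>
    rw [mul_zero, zero_smul,
      show lowerZ 0 = 1 by ext i j; fin_cases i <;> fin_cases j <;> simp [lowerZ, slMk]]
    exact hom_one hadd
  | succ m ih =>
    rw [mul_add, mul_one, lowerZ_add, hadd _ (lowerZ_mem_Gamma0 N m) _
      (by simpa using lowerZ_mem_Gamma0 N 1), ih, add_smul, one_smul]
  | pred m ih =>
    have e := hadd _ (lowerZ_mem_Gamma0 N (-(m : ℤ) - 1)) _ (by simpa using lowerZ_mem_Gamma0 N 1)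
    rw [← lowerZ_add, show (N : ℤ) * (-(m : ℤ) - 1) + N = N * -(m : ℤ) by ring, ih] at e
    rw [sub_smul, one_smul, e, add_sub_cancel_right]

/-- Kernel containing `Γ(M)`, `T` and the lower unipotent of step `N` contains `Γ(N)`. -/
theorem hom_eq_zero_gamma {M : ℕ} (hM : 0 < M) (hNM : N ∣ M) (hT : χ mT = 0)
    (hL : χ (lowerZ N) = 0) (hΓ : ∀ γ ∈ CongruenceSubgroup.Gamma M, χ γ = 0) :
    ∀ γ ∈ CongruenceSubgroup.Gamma N, χ γ = 0 := by
  let H : Subgroup SL(2, ℤ) :=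
    { carrier := {g | g ∈ Gamma0 N ∧ χ g = 0}
      one_mem' := ⟨one_mem _, hom_one hadd⟩
      mul_mem' := fun {a b} ha hb =>
        ⟨mul_mem ha.1 hb.1, by rw [hadd a ha.1 b hb.1, ha.2, hb.2, add_zero]⟩
      inv_mem' := fun {a} ha => ⟨inv_mem ha.1, by rw [hom_inv hadd ha.1, ha.2, neg_zero]⟩ }
  have hTmem : mT ∈ H := ⟨by rw [mem_Gamma0_iff_dvd]; simp, hT⟩
  have hLmem : ∀ m : ℤ, lowerZ ((N : ℤ) * m) ∈ H := fun m =>
    ⟨lowerZ_mem_Gamma0 N m, by rw [hom_lowerZ hadd m, hL, smul_zero]⟩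
  have hΓmem : ∀ γ ∈ CongruenceSubgroup.Gamma M, γ ∈ H := by
    intro γ hγ
    refine ⟨?_, hΓ γ hγ⟩
    rw [mem_Gamma0_iff_dvd]
    exact (Int.natCast_dvd_natCast.mpr hNM).trans
      ((ZMod.intCast_zmod_eq_zero_iff_dvd _ _).mp (CongruenceSubgroup.Gamma_mem.mp hγ).2.2.1)
  -- entries with upper left corner prime to `M`
  have key : ∀ γ ∈ CongruenceSubgroup.Gamma N, IsCoprime (γ 0 0) (M : ℤ) → γ ∈ H := by
    intro γ hγ hco
    obtain ⟨h1, h2, h3, h4⟩ := CongruenceSubgroup.Gamma_mem.mp hγ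
    obtain ⟨y, hy⟩ : (N : ℤ) ∣ γ 0 0 - 1 := by
      rw [← ZMod.intCast_zmod_eq_zero_iff_dvd]; push_cast; rw [h1, sub_self]
    obtain ⟨c, hc⟩ : (N : ℤ) ∣ γ 1 0 := (ZMod.intCast_zmod_eq_zero_iff_dvd _ _).mp h3
    obtain ⟨a', v, hav⟩ := hco
    set t : ℤ := a' * (γ 0 1 - 1)
    set g := lowerZ ((N : ℤ) * (a' * (c - y))) * mT * lowerZ ((N : ℤ) * y) * mT ^ t with hg
    have hgH : g ∈ H :=
      mul_mem (mul_mem (mul_mem (hLmem _) hTmem) (hLmem _)) (zpow_mem hTmem t)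
    have e : (g : M2) = !![1 + (N : ℤ) * y, (1 + (N : ℤ) * y) * t + 1;
        (N : ℤ) * (a' * (c - y)) * (1 + (N : ℤ) * y) + N * y,
        ((N : ℤ) * (a' * (c - y)) * (1 + (N : ℤ) * y) + N * y) * t +
          (N : ℤ) * (a' * (c - y)) + 1] := by
      simp only [hg, lowerZ, slMk, Matrix.SpecialLinearGroup.coe_mul, ModularGroup.coe_T_zpow,
        ModularGroup.coe_T]
      ext i j
      fin_cases i <;> fin_cases j <;> simp [Matrix.mul_apply, Fin.sum_univ_two] <;> ring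
    have hu : ((γ 0 0 : ℤ) : ZMod M) * (a' : ZMod M) = 1 := by
      have := congrArg (Int.cast : ℤ → ZMod M) hav
      push_cast at this
      rw [ZMod.natCast_self, mul_zero, add_zero] at this
      rw [mul_comm]; exact this
    have ey : (γ 0 0 : ZMod M) = 1 + (N : ZMod M) * y := by
      have := congrArg (Int.cast : ℤ → ZMod M) hy
      push_cast at this
      linear_combination this
    have ec : (γ 1 0 : ZMod M) = (N : ZMod M) * c := by rw [hc]; push_cast; rfl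
    have hd : (γ 0 0 : ZMod M) * (γ 1 1) - (γ 0 1) * (γ 1 0) = 1 := by
      exact_mod_cast congrArg (Int.cast : ℤ → ZMod M) (sl_det γ)
    rw [ey] at hu hd
    rw [ec] at hd
    have hmem : g⁻¹ * γ ∈ H := hΓmem _ (inv_mul_mem_Gamma fun i j => by
      fin_cases i <;> fin_cases j <;> simp [e, t]
      · rw [ey]
      · linear_combination ((γ 0 1 : ZMod M) - 1) * hu
      · rw [ec]; linear_combination ((N : ZMod M) * ((c : ZMod M) - y)) * hu
      · linear_combination (-(a' : ZMod M)) * hd + ((γ 1 1 : ZMod M) - 1 +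
          (N : ZMod M) * ((c : ZMod M) - y) * (a' : ZMod M) * ((γ 0 1 : ZMod M) - 1)) * hu)
    have := mul_mem hgH hmem
    rwa [mul_inv_cancel_left] at this
  intro γ hγ
  obtain ⟨h1, h2, h3, h4⟩ := CongruenceSubgroup.Gamma_mem.mp hγ
  suffices h : γ ∈ H from h.2
  obtain ⟨m, hm⟩ : ∃ m : ℤ, IsCoprime (γ 0 0 + γ 0 1 * N * m) (M : ℤ) := by
    have hb : IsCoprime (γ 0 0) (γ 0 1 * N) := by
      refine IsCoprime.mul_right ⟨γ 1 1, -γ 1 0, by linear_combination sl_det γ⟩ ?_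
      obtain ⟨y, hy⟩ : (N : ℤ) ∣ γ 0 0 - 1 := by
        rw [← ZMod.intCast_zmod_eq_zero_iff_dvd]; push_cast; rw [h1, sub_self]
      exact ⟨1, -y, by linear_combination hy⟩
    rcases eq_or_ne (γ 0 1 * N) 0 with h0 | h0
    · refine ⟨0, ?_⟩
      rw [h0, isCoprime_zero_right] at hb
      obtain ⟨w, hw⟩ := hb
      exact ⟨((w⁻¹ : ℤˣ) : ℤ), 0, by rw [← hw]; simp⟩
    · have hn : (γ 0 1 * N).natAbs ≠ 0 := Int.natAbs_ne_zero.mpr h0
      obtain ⟨r, hrM, hr, hrm⟩ := Nat.forall_exists_prime_gt_and_zmodEq M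
        (q := (γ 0 1 * N).natAbs) (a := γ 0 0) hn (by
          rw [Int.natCast_natAbs]
          rcases abs_choice (γ 0 1 * (N : ℤ)) with e | e <;> rw [e]
          · exact hb
          · exact hb.neg_right)
      obtain ⟨m, hm⟩ : γ 0 1 * N ∣ (r : ℤ) - γ 0 0 :=
        (Int.dvd_natAbs.mpr dvd_rfl).trans (Int.modEq_iff_dvd.mp hrm.symm)
      refine ⟨m, ?_⟩
      rw [show γ 0 0 + γ 0 1 * N * m = (r : ℤ) by linarith, Nat.isCoprime_iff_coprime]
      exact hr.coprime_iff_not_dvd.mpr fun h => by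
        have := Nat.le_of_dvd hM h
        omega
  have hmemL : lowerZ ((N : ℤ) * m) ∈ CongruenceSubgroup.Gamma N := by
    simp [CongruenceSubgroup.Gamma_mem, lowerZ, slMk]
  have := key (γ * lowerZ ((N : ℤ) * m)) (mul_mem hγ hmemL) (by
    simpa [lowerZ, slMk, Matrix.mul_apply, Fin.sum_univ_two, mul_assoc] using hm)
  have := mul_mem this (inv_mem (hLmem m))
  rwa [mul_inv_cancel_right] at this

/-- Modulo `Γ(M)`, conjugation scales the lower unipotent by `ℓ²`. -/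
theorem sq_smul_hom_lowerZ {M ℓ : ℕ} (hNM : N ∣ M) (hℓ : ℓ.Coprime M)
    (hΓ : ∀ γ ∈ CongruenceSubgroup.Gamma M, χ γ = 0) :
    (ℓ ^ 2 : ℕ) • χ (lowerZ N) = χ (lowerZ N) := by
  obtain ⟨u, v, huv⟩ := (Nat.isCoprime_iff_coprime.mpr hℓ).pow_right (n := 2)
  set δ := slMk u (M : ℤ) (-v * M) ℓ (by linear_combination huv) with hδ
  have hδ0 : δ ∈ Gamma0 N := by
    rw [mem_Gamma0_iff_dvd]
    exact dvd_mul_of_dvd_right (Int.natCast_dvd_natCast.mpr hNM) _
  have hL0 : lowerZ (N : ℤ) ∈ Gamma0 N := by simpa using lowerZ_mem_Gamma0 N 1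
  have hM0 : (M : ZMod M) = 0 := ZMod.natCast_self M
  have hm : (lowerZ ((N : ℤ) * (ℓ ^ 2 : ℕ)))⁻¹ * (δ * lowerZ N * δ⁻¹) ∈
      CongruenceSubgroup.Gamma M := by
    refine inv_mul_mem_Gamma fun i j => ?_
    have h := congrArg (Int.cast : ℤ → ZMod M) huv
    push_cast at h
    rw [hM0] at h
    fin_cases i <;> fin_cases j <;>
      simp [hδ, lowerZ, slMk, Matrix.mul_apply, Fin.sum_univ_two, Matrix.adjugate_fin_two]
    all_goals first
      | linear_combination (-1 : ZMod M) * h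
      | linear_combination (norm := (push_cast; ring)) (0 : ZMod M) * h
  have := hom_eq_of_inv_mul hadd (lowerZ_mem_Gamma0 N _)
    (mul_mem (mul_mem hδ0 hL0) (inv_mem hδ0)) (hΓ _ hm)
  rw [hom_conj hadd hL0 hδ0, hom_lowerZ hadd, natCast_zsmul] at this
  exact this.symm

end Hom

variable {p q N : ℕ}

/-- For `q = p` a homomorphism on `qZero q N` is good at level `N`. -/
theorem isGood_of_hom_self [Fact p.Prime] (hN : 0 < N) (hNp : N.Coprime p)
    {f : SL(2, ℚ) → ZMod p}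
    (hadd : ∀ x ∈ qZero p N, ∀ y ∈ qZero p N, f (x * y) = f x + f y) : IsGood p N f := by
  have hp : p.Prime := Fact.out
  have hle : qGamma p N ≤ qZero p N := qGamma_le_qZero p dvd_rfl
  refine ⟨hN, hNp, fun a ha b hb => hadd a (hle ha) b (hle hb), ?_⟩
  intro g hg htr
  have hp0 : (p : ℚ) ≠ 0 := Nat.cast_ne_zero.mpr hp.ne_zero
  have hdiv : ∀ {z : ℚ}, z ∈ qMul p N → z / p ∈ qMul p N := fun hz => by
    rw [div_eq_mul_inv]; exact qMul_mul_right hz (inv_mem_qInt hp.ne_zero)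
  have hdet := det_eq g
  set u := g 0 0 - 1 with hu
  have h11 : g 1 1 = 1 - u := by linear_combination htr
  rw [h11, show g 0 0 = 1 + u by rw [hu]; ring] at hdet
  have hnil : u * u + g 0 1 * g 1 0 = 0 := by linear_combination -hdet
  let δ : SL(2, ℚ) := ⟨!![1 + u / p, g 0 1 / p; g 1 0 / p, 1 - u / p], by
    rw [Matrix.det_fin_two_of]; field_simp; linear_combination -hnil⟩
  have hδ : δ ∈ qGamma p N := by
    refine ⟨?_, ?_, ?_, ?_⟩
    · simpa [δ] using hdiv hg.1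
    · simpa [δ] using hdiv hg.2.1
    · simpa [δ] using hdiv hg.2.2.1
    · simpa [δ] using neg_mem (hdiv hg.1)
  have hpow : ∀ k : ℕ, (δ ^ k) 0 0 = 1 + (k : ℚ) * (u / p) ∧ (δ ^ k) 0 1 = (k : ℚ) * (g 0 1 / p) ∧
      (δ ^ k) 1 0 = (k : ℚ) * (g 1 0 / p) ∧ (δ ^ k) 1 1 = 1 - (k : ℚ) * (u / p) := by
    intro k
    induction k with
    | zero => simp
    | succ k ih =>
      obtain ⟨a, b, c, d⟩ := ih
      simp only [pow_succ, mul_apply_two, a, b, c, d]
      simp [δ]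
      refine ⟨?_, ?_, ?_, ?_⟩ <;> field_simp
      · linear_combination (k : ℚ) * hnil
      · ring
      · ring
      · linear_combination (k : ℚ) * hnil
  have hgδ : g = δ ^ p := by
    obtain ⟨a, b, c, d⟩ := hpow p
    apply ext_two
    · rw [a, mul_div_cancel₀ _ hp0, hu]; ring
    · rw [b, mul_div_cancel₀ _ hp0]
    · rw [c, mul_div_cancel₀ _ hp0]
    · rw [d, mul_div_cancel₀ _ hp0, h11]
  rw [hgδ, ihara_map_pow hadd (hle hδ) p]
  simp

/-- **Ihara's lemma** for `qZero q N`, for every prime `q` prime to `N`. -/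
theorem exists_vanishing_level [Fact p.Prime] (hp2 : p ≠ 2) (hq : q.Prime) (hN : 0 < N)
    (hNq : N.Coprime q) :
    ∃ M, 0 < M ∧ N ∣ M ∧ M.Coprime q ∧ (∀ ℓ : ℕ, ℓ.Coprime (N * p) → ℓ.Coprime M) ∧
      ∀ f : SL(2, ℚ) → ZMod p, (∀ x ∈ qZero q N, ∀ y ∈ qZero q N, f (x * y) = f x + f y) →
        ∀ g ∈ qGamma q M, f g = 0 := by
  have hp : p.Prime := Fact.out
  rcases eq_or_ne q p with rfl | hqp
  · refine ⟨N * N, Nat.mul_pos hN hN, dvd_mul_right N N, hNq.mul_left hNq, fun ℓ hℓ => ?_,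
      fun f hadd g hg => ?_⟩
    · exact (Nat.Coprime.coprime_mul_right_right hℓ).mul_right
        (Nat.Coprime.coprime_mul_right_right hℓ)
    · exact (isGood_of_hom_self hN hNq hadd).eq_zero hp2 hq
        (qGamma_mono (dvd_mul_right N N) hg) hg.1
  · have hpq : p.Coprime q := (Nat.coprime_primes hp hq).mpr hqp.symm
    exact ⟨N * p * (N * p), Nat.mul_pos (Nat.mul_pos hN hp.pos) (Nat.mul_pos hN hp.pos),
      (dvd_mul_right N p).mul_right _, (hNq.mul_left hpq).mul_left (hNq.mul_left hpq),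
      fun ℓ hℓ => hℓ.mul_right hℓ, fun f hadd g hg => hom_qZero_eq_zero hp2 hq hN hNq hpq hadd hg⟩

end FLTAgent.LevelRaising
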