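import Fermat.Agent.LevelRaising.SArith
import Mathlib.NumberTheory.ModularForms.CongruenceSubgroups
import Mathlib.RingTheory.Int.Basic

/-!
# Gluing homomorphisms along `Γ₀(N) ∩ Γ₀(Nq)`

The group `qZero q N` of matrices in `SL(2, ℤ[1/q])` which are upper triangular modulo `N` is
generated by two copies of `Γ₀(N)`, and homomorphisms on the two copies agreeing on the
intersection extend to the whole group.
-/

set_option autoImplicit false

noncomputable section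

open scoped MatrixGroups
open Matrix

namespace FLTAgent.LevelRaising

/-- Matrices in `SL(2, ℤ[1/q])` upper triangular modulo `N`. -/
def qZero (q N : ℕ) : Subgroup SL(2, ℚ) where
  carrier := {g | g ∈ qGamma q 1 ∧ g 1 0 ∈ qMul q N}
  one_mem' := ⟨one_mem _, by simp [zero_mem]⟩
  mul_mem' := by
    rintro x y ⟨hx, hx'⟩ ⟨hy, hy'⟩
    refine ⟨mul_mem hx hy, ?_⟩
    rw [mul_apply_two]
    exact add_mem (qMul_mul_right hx' (apply_mem_qInt hy 0 0))
      (qMul_mul_left (apply_mem_qInt hx 1 1) hy')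
  inv_mem' := by
    rintro x ⟨hx, hx'⟩
    exact ⟨inv_mem hx, by rw [(inv_apply x).2.2.1]; exact neg_mem hx'⟩

theorem qGamma_le_qZero (q : ℕ) {N M : ℕ} (h : N ∣ M) : qGamma q M ≤ qZero q N := fun _ hg =>
  ⟨qGamma_mono (one_dvd _) hg, qMul_mono h hg.2.2.1⟩

/-- The inclusion of `SL(2, ℤ)` into `SL(2, ℚ)`. -/
def toQ : SL(2, ℤ) →* SL(2, ℚ) := Matrix.SpecialLinearGroup.map (Int.castRingHom ℚ)

theorem toQ_apply (g : SL(2, ℤ)) (i j : Fin 2) : toQ g i j = (g i j : ℚ) := rfl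

variable {q : ℕ}

/-- Conjugation by `diag(q, 1)` as a map `SL(2, ℤ) → SL(2, ℚ)`. -/
def piConj (hq : q ≠ 0) : SL(2, ℤ) →* SL(2, ℚ) where
  toFun g := ⟨!![(g 0 0 : ℚ), (g 0 1 : ℚ) / q; (q : ℚ) * g 1 0, (g 1 1 : ℚ)], by
    have h := g.det_coe
    rw [Matrix.det_fin_two] at h
    have h' : (g 0 0 : ℚ) * g 1 1 - g 0 1 * g 1 0 = 1 := by exact_mod_cast h
    have : (q : ℚ) ≠ 0 := Nat.cast_ne_zero.mpr hq
    rw [Matrix.det_fin_two_of]
    field_simp
    linear_combination h'⟩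
  map_one' := by apply ext_two <;> simp
  map_mul' g h := by
    have : (q : ℚ) ≠ 0 := Nat.cast_ne_zero.mpr hq
    apply ext_two <;>
      simp [mul_apply_two, Matrix.mul_apply, Fin.sum_univ_two] <;> field_simp

theorem piConj_apply (hq : q ≠ 0) (g : SL(2, ℤ)) :
    piConj hq g 0 0 = g 0 0 ∧ piConj hq g 0 1 = (g 0 1 : ℚ) / q ∧
      piConj hq g 1 0 = (q : ℚ) * g 1 0 ∧ piConj hq g 1 1 = g 1 1 :=
  ⟨rfl, rfl, rfl, rfl⟩

theorem sl_det (g : SL(2, ℤ)) : g 0 0 * g 1 1 - g 0 1 * g 1 0 = 1 := by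
  have := g.det_coe
  rwa [Matrix.det_fin_two] at this

theorem mem_Gamma0_int {N : ℕ} (g : SL(2, ℤ)) :
    g ∈ CongruenceSubgroup.Gamma0 N ↔ (N : ℤ) ∣ g 1 0 := by
  rw [CongruenceSubgroup.Gamma0_mem, ZMod.intCast_zmod_eq_zero_iff_dvd]

/-- An integral matrix of determinant one. -/
def slMk (a b c d : ℤ) (h : a * d - b * c = 1) : SL(2, ℤ) :=
  ⟨!![a, b; c, d], by rw [Matrix.det_fin_two_of]; exact h⟩

theorem slMk_apply (a b c d : ℤ) (h : a * d - b * c = 1) :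
    slMk a b c d h 0 0 = a ∧ slMk a b c d h 0 1 = b ∧ slMk a b c d h 1 0 = c ∧
      slMk a b c d h 1 1 = d :=
  ⟨rfl, rfl, rfl, rfl⟩

variable {N : ℕ} {F : Type*} [AddCommGroup F]

/-- The data of the two homomorphisms to be glued. -/
structure GlueData (q N : ℕ) (hq : q ≠ 0) (F : Type*) [AddCommGroup F] where
  left : SL(2, ℤ) → F
  right : SL(2, ℤ) → F
  left_mul : ∀ a ∈ CongruenceSubgroup.Gamma0 N, ∀ b ∈ CongruenceSubgroup.Gamma0 N,
    left (a * b) = left a + left b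
  right_mul : ∀ a ∈ CongruenceSubgroup.Gamma0 N, ∀ b ∈ CongruenceSubgroup.Gamma0 N,
    right (a * b) = right a + right b
  compat : ∀ a ∈ CongruenceSubgroup.Gamma0 N, ∀ b ∈ CongruenceSubgroup.Gamma0 N,
    toQ a = piConj hq b → left a = right b

/-- `X = q ^ n g` is integral. -/
def IntegralAt (q : ℕ) (n : ℕ) (g : SL(2, ℚ)) : Prop :=
  ∃ X : Matrix (Fin 2) (Fin 2) ℤ, ∀ i j, (q : ℚ) ^ n * g i j = X i j

theorem IntegralAt.succ {n : ℕ} {g : SL(2, ℚ)} (h : IntegralAt q n g) : IntegralAt q (n + 1) g := by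
  obtain ⟨X, hX⟩ := h
  refine ⟨(q : ℤ) • X, fun i j => ?_⟩
  rw [pow_succ', mul_assoc, hX, Matrix.smul_apply, smul_eq_mul, Int.cast_mul, Int.cast_natCast]

theorem IntegralAt.toQ_mul {n : ℕ} {g : SL(2, ℚ)} (h : IntegralAt q n g) (a : SL(2, ℤ)) :
    IntegralAt q n (toQ a * g) := by
  obtain ⟨X, hX⟩ := h
  refine ⟨(a : Matrix (Fin 2) (Fin 2) ℤ) * X, fun i j => ?_⟩
  rw [mul_apply_two, mul_add, Matrix.mul_apply, Fin.sum_univ_two, Int.cast_add, Int.cast_mul,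
    Int.cast_mul, ← hX, ← hX, toQ_apply, toQ_apply]
  ring

theorem exists_integralAt (_hq : q ≠ 0) {g : SL(2, ℚ)} (hg : g ∈ qGamma q 1) :
    ∃ n, IntegralAt q n g := by
  have h := apply_mem_qInt hg
  choose k z hz using h
  refine ⟨k 0 0 + k 0 1 + k 1 0 + k 1 1,
    fun i j => z i j * (q : ℤ) ^ (k 0 0 + k 0 1 + k 1 0 + k 1 1 - k i j), fun i j => ?_⟩
  push_cast
  have hle : k i j ≤ k 0 0 + k 0 1 + k 1 0 + k 1 1 := by
    revert i j
    simp only [Fin.forall_fin_two]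
    omega
  rw [← hz, mul_assoc, ← pow_add, Nat.add_sub_cancel' hle, mul_comm]

theorem exists_toQ_eq (hNq : N.Coprime q) {g : SL(2, ℚ)} (hg : g ∈ qZero q N)
    (h0 : IntegralAt q 0 g) : ∃ a ∈ CongruenceSubgroup.Gamma0 N, toQ a = g := by
  obtain ⟨X, hX⟩ := h0
  have hX' : ∀ i j, g i j = (X i j : ℚ) := fun i j => by simpa using hX i j
  have hdet : X 0 0 * X 1 1 - X 0 1 * X 1 0 = 1 := by
    have := det_eq g
    simp only [hX'] at this
    exact_mod_cast this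
  refine ⟨slMk _ _ _ _ hdet, ?_, ?_⟩
  · rw [mem_Gamma0_int, ← intCast_mem_qMul_iff hNq]
    have := hg.2
    rwa [hX' 1 0] at this
  · apply ext_two <;> rw [toQ_apply, hX'] <;> rfl

/-! ### The distinguished element -/

/-- An auxiliary element of `Γ₀(N)` with first column `(q, N)`. -/
structure Pivot (q N : ℕ) where
  b : ℤ
  d : ℤ
  det : (q : ℤ) * ((q : ℤ) * d) - b * N = 1

theorem exists_pivot (hqN : N.Coprime q) : Nonempty (Pivot q N) := by
  obtain ⟨u, v, huv⟩ :=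
    (Nat.isCoprime_iff_coprime.mpr hqN).symm.pow_left (m := 2) (R := ℤ) (x := (q : ℤ))
  exact ⟨⟨-v, u, by linear_combination huv⟩⟩

namespace Pivot

variable (P : Pivot q N)

/-- The integral matrix. -/
def mat : SL(2, ℤ) := slMk q P.b N ((q : ℤ) * P.d) P.det

theorem mat_mem : P.mat ∈ CongruenceSubgroup.Gamma0 N := by
  rw [mem_Gamma0_int]; exact dvd_refl _

theorem mat_apply : P.mat 0 0 = (q : ℤ) ∧ P.mat 0 1 = P.b ∧ P.mat 1 0 = (N : ℤ) ∧
    P.mat 1 1 = (q : ℤ) * P.d :=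
  ⟨rfl, rfl, rfl, rfl⟩

theorem not_dvd_b (hq : q.Prime) : ¬ (q : ℤ) ∣ P.b := by
  intro h
  have : (q : ℤ) ∣ 1 := P.det ▸ dvd_sub (dvd_mul_right _ _) (h.mul_right _)
  exact hq.one_lt.ne' (by exact_mod_cast Int.eq_one_of_dvd_one (by positivity) this)

/-- The element `diag(q,1)⁻¹ · mat · diag(q,1)`. -/
def elt (hq : q ≠ 0) : SL(2, ℚ) := piConj hq P.mat

theorem elt_mem_qZero (hq : q ≠ 0) : P.elt hq ∈ qZero q N := by
  obtain ⟨h1, h2, h3, h4⟩ := piConj_apply hq P.mat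
  obtain ⟨m1, m2, m3, m4⟩ := P.mat_apply
  refine ⟨mem_qGamma_one_iff.mpr fun i j => ?_, ?_⟩
  · fin_cases i <;> fin_cases j
    · show piConj hq P.mat 0 0 ∈ _; rw [h1]; exact intCast_mem _ _
    · show piConj hq P.mat 0 1 ∈ _; rw [h2, div_eq_mul_inv]
      exact mul_mem (intCast_mem _ _) (inv_mem_qInt hq)
    · show piConj hq P.mat 1 0 ∈ _; rw [h3]; exact mul_mem (natCast_mem _ _) (intCast_mem _ _)
    · show piConj hq P.mat 1 1 ∈ _; rw [h4]; exact intCast_mem _ _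
  · show piConj hq P.mat 1 0 ∈ _
    rw [h3, m3, Int.cast_natCast]
    exact qMul_mul_left (natCast_mem _ _) natCast_mem_qMul

theorem elt_mul_apply (hq : q ≠ 0) (g : SL(2, ℚ)) (j : Fin 2) :
    (P.elt hq * g) 0 j = (q : ℚ) * g 0 j + (P.b : ℚ) / q * g 1 j ∧
      (P.elt hq * g) 1 j = (q : ℚ) * N * g 0 j + (q : ℚ) * P.d * g 1 j := by
  obtain ⟨h1, h2, h3, h4⟩ := piConj_apply hq P.mat
  obtain ⟨m1, m2, m3, m4⟩ := P.mat_apply
  rw [mul_apply_two, mul_apply_two]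
  simp only [elt, h1, h2, h3, h4, m1, m2, m3, m4]
  push_cast
  exact ⟨rfl, rfl⟩

end Pivot

/-- `a` moves the second row of `q ^ n g` into `q ^ 2 ℤ`. -/
def IsReducer (q n : ℕ) (g : SL(2, ℚ)) (a : SL(2, ℤ)) : Prop :=
  ∀ j, ∃ z : ℤ, (q : ℚ) ^ n * (toQ a * g) 1 j = (q : ℚ) ^ 2 * z

theorem exists_entry_not_dvd (hq : q ≠ 0) {n : ℕ} {g : SL(2, ℚ)} {X : Matrix (Fin 2) (Fin 2) ℤ}
    (hX : ∀ i j, (q : ℚ) ^ (n + 1) * g i j = X i j) (hn : ¬ IntegralAt q n g) :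
    ∃ i j, ¬ (q : ℤ) ∣ X i j := by
  by_contra hall
  push Not at hall
  choose Y hY using hall
  refine hn ⟨Y, fun i j => mul_left_cancel₀ (Nat.cast_ne_zero.mpr hq : (q : ℚ) ≠ 0) ?_⟩
  rw [← mul_assoc, ← pow_succ', hX, hY]
  push_cast; rfl

theorem exists_reducer (hq : q.Prime) (hN : 0 < N) (hNq : N.Coprime q) {n : ℕ} {g : SL(2, ℚ)}
    (hg : IntegralAt q (n + 1) g) (hn : ¬ IntegralAt q n g) :
    ∃ a ∈ CongruenceSubgroup.Gamma0 N, IsReducer q (n + 1) g a := by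
  obtain ⟨X, hX⟩ := hg
  obtain ⟨i₀, j₀, hij⟩ := exists_entry_not_dvd hq.ne_zero hX hn
  set x : ℤ := -X 1 j₀ with hx
  set y : ℤ := X 0 j₀ with hy
  have hprim : ¬ ((q : ℤ) ∣ x ∧ (q : ℤ) ∣ y) := by
    rintro ⟨h1, h2⟩
    rw [hx, dvd_neg] at h1
    rw [hy] at h2
    fin_cases i₀
    · exact hij h2
    · exact hij h1
  have hdet : X 0 0 * X 1 1 - X 0 1 * X 1 0 = ((q : ℤ) ^ (n + 1)) ^ 2 := by
    have h := det_eq g
    have e : ((X 0 0 : ℚ) * X 1 1 - X 0 1 * X 1 0) = ((q : ℚ) ^ (n + 1)) ^ 2 := by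
      rw [← hX, ← hX, ← hX, ← hX]; linear_combination ((q : ℚ) ^ (n + 1)) ^ 2 * h
    exact_mod_cast e
  have hkill : ∀ j, (q : ℤ) ^ 2 ∣ x * X 0 j + y * X 1 j := by
    intro j
    have h2 : (q : ℤ) ^ 2 ∣ ((q : ℤ) ^ (n + 1)) ^ 2 :=
      pow_dvd_pow_of_dvd (dvd_pow_self _ n.succ_ne_zero) 2
    rw [← hdet] at h2
    rw [hx, hy]
    fin_cases j <;> fin_cases j₀
    · simp only [Fin.zero_eta, Fin.isValue]; rw [show -X 1 0 * X 0 0 + X 0 0 * X 1 0 = 0 by ring]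
      exact dvd_zero _
    · simp only [Fin.zero_eta, Fin.isValue, Fin.mk_one]
      rw [show -X 1 1 * X 0 0 + X 0 1 * X 1 0 = -(X 0 0 * X 1 1 - X 0 1 * X 1 0) by ring]
      exact dvd_neg.mpr h2
    · simp only [Fin.zero_eta, Fin.isValue, Fin.mk_one]
      rw [show -X 1 0 * X 0 1 + X 0 0 * X 1 1 = X 0 0 * X 1 1 - X 0 1 * X 1 0 by ring]
      exact h2
    · simp only [Fin.isValue, Fin.mk_one]; rw [show -X 1 1 * X 0 1 + X 0 1 * X 1 1 = 0 by ring]
      exact dvd_zero _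
  obtain ⟨u, v, huv⟩ : IsCoprime ((q : ℤ) ^ 2) (N : ℤ) :=
    (Nat.isCoprime_iff_coprime.mpr hNq).symm.pow_left
  obtain ⟨c, hcN, hcx, hc0⟩ : ∃ c : ℤ, (N : ℤ) ∣ c ∧ (q : ℤ) ^ 2 ∣ c - x ∧ c ≠ 0 := by
    have h1 : (N : ℤ) ∣ v * (N : ℤ) * x := ((dvd_mul_left _ v).mul_right x)
    have h2 : (q : ℤ) ^ 2 ∣ v * (N : ℤ) * x - x := ⟨-u * x, by linear_combination x * huv⟩
    by_cases h : v * (N : ℤ) * x = 0
    · refine ⟨(q : ℤ) ^ 2 * N, dvd_mul_left _ _, ?_, ?_⟩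
      · rw [h, zero_sub, dvd_neg] at h2; exact dvd_sub (dvd_mul_right _ _) h2
      · exact mul_ne_zero (pow_ne_zero _ (Int.natCast_ne_zero.mpr hq.ne_zero))
          (Int.natCast_ne_zero.mpr hN.ne')
    · exact ⟨_, h1, h2, h⟩
  set d₀ : ℤ := v * (N : ℤ) * y + u * (q : ℤ) ^ 2 with hd₀
  have hd₀y : (q : ℤ) ^ 2 ∣ d₀ - y := ⟨u * (1 - y), by rw [hd₀]; linear_combination y * huv⟩
  have hd₀N : (N : ℤ) ∣ d₀ - 1 := ⟨v * (y - 1), by rw [hd₀]; linear_combination huv⟩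
  obtain ⟨s, hs⟩ : ∃ s : ℤ, IsCoprime (d₀ + s * ((q : ℤ) ^ 2 * N)) c := by
    have hL : 0 < c.natAbs := Int.natAbs_pos.mpr hc0
    classical
    set T := c.natAbs.primeFactors.filter fun ℓ : ℕ => ¬ (ℓ : ℤ) ∣ d₀ with hT
    refine ⟨((∏ ℓ ∈ T, ℓ : ℕ) : ℤ), ?_⟩
    rw [Int.isCoprime_iff_nat_coprime]
    refine Nat.coprime_of_dvd fun ℓ hℓ h1 h2 => ?_
    have hℓ' := Nat.prime_iff_prime_int.mp hℓ
    have h1' : (ℓ : ℤ) ∣ d₀ + ((∏ ℓ ∈ T, ℓ : ℕ) : ℤ) * ((q : ℤ) ^ 2 * N) :=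
      Int.natCast_dvd.mpr h1
    have h2' : (ℓ : ℤ) ∣ c := Int.natCast_dvd.mpr h2
    by_cases hA : (ℓ : ℤ) ∣ d₀
    · rcases hℓ'.dvd_or_dvd ((dvd_add_right hA).mp h1') with h3 | h3
      · obtain ⟨l, hl, hdiv⟩ := hℓ.prime.exists_mem_finset_dvd (Int.natCast_dvd_natCast.mp h3)
        rw [hT, Finset.mem_filter, Nat.mem_primeFactors] at hl
        rw [(Nat.prime_dvd_prime_iff_eq hℓ hl.1.1).mp hdiv] at hA
        exact hl.2 hA
      · rcases hℓ'.dvd_or_dvd h3 with h4 | h4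
        · have hℓq : ℓ = q := (Nat.prime_dvd_prime_iff_eq hℓ hq).mp
            (Int.natCast_dvd_natCast.mp (hℓ'.dvd_of_dvd_pow h4))
          subst hℓq
          refine hprim ⟨?_, ?_⟩
          · simpa using dvd_sub h2' ((dvd_pow_self _ two_ne_zero).trans hcx)
          · simpa using dvd_sub hA ((dvd_pow_self _ two_ne_zero).trans hd₀y)
        · have : (ℓ : ℤ) ∣ 1 := by simpa using dvd_sub hA (h4.trans hd₀N)
          exact hℓ'.not_dvd_one this
    · have hmem : ℓ ∈ T := by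
        rw [hT, Finset.mem_filter, Nat.mem_primeFactors]
        exact ⟨⟨hℓ, h2, hL.ne'⟩, hA⟩
      exact hA ((dvd_add_left (Dvd.dvd.mul_right (Int.natCast_dvd_natCast.mpr
        (Finset.dvd_prod_of_mem (fun l => l) hmem)) _)).mp h1')
  set d := d₀ + s * ((q : ℤ) ^ 2 * N) with hd
  obtain ⟨α, β, hαβ⟩ := hs
  refine ⟨slMk α (-β) c d (by linear_combination hαβ), ?_, ?_⟩
  · rw [mem_Gamma0_int]; exact hcN
  · intro j
    have h1 : (q : ℤ) ^ 2 ∣ c * X 0 j + d * X 1 j := by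
      have hdy : (q : ℤ) ^ 2 ∣ d - y := by
        rw [hd, add_sub_right_comm]; exact dvd_add hd₀y ((dvd_mul_right _ _).mul_left s)
      rw [show c * X 0 j + d * X 1 j = (c - x) * X 0 j + (d - y) * X 1 j + (x * X 0 j + y * X 1 j)
        by ring]
      exact dvd_add (dvd_add (hcx.mul_right _) (hdy.mul_right _)) (hkill j)
    obtain ⟨z, hz⟩ := h1
    refine ⟨z, ?_⟩
    have e : (c : ℚ) * X 0 j + (d : ℚ) * X 1 j = (q : ℚ) ^ 2 * z := by exact_mod_cast hz
    rw [← e, ← hX, ← hX, mul_apply_two, toQ_apply, toQ_apply]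
    show _ * ((c : ℚ) * _ + (d : ℚ) * _) = _
    ring

theorem IntegralAt.pivot_step (P : Pivot q N) (hq : q ≠ 0) {n : ℕ} {g : SL(2, ℚ)}
    (hg : IntegralAt q (n + 1) g) {a : SL(2, ℤ)} (ha : IsReducer q (n + 1) g a) :
    IntegralAt q n (P.elt hq * (toQ a * g)) := by
  obtain ⟨Y, hY⟩ := hg.toQ_mul a
  choose z hz using ha
  have hq' : (q : ℚ) ≠ 0 := Nat.cast_ne_zero.mpr hq
  refine ⟨fun i j => if i = 0 then Y 0 j + P.b * z j
    else (N : ℤ) * Y 0 j + (q : ℤ) ^ 2 * (P.d * z j), fun i j => ?_⟩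
  obtain ⟨e1, e2⟩ := P.elt_mul_apply hq (toQ a * g) j
  have h0 := hY 0 j
  have h1 := hz j
  rw [pow_succ] at h0 h1
  fin_cases i
  · show (q : ℚ) ^ n * (P.elt hq * (toQ a * g)) 0 j = _
    rw [e1]
    simp only [Fin.zero_eta, if_pos]
    push_cast
    field_simp
    have h1' : (q : ℚ) ^ n * (toQ a * g) 1 j = (q : ℚ) * z j :=
      mul_left_cancel₀ hq' (by linear_combination h1)
    linear_combination (q : ℚ) * h0 + (P.b : ℚ) * h1'
  · show (q : ℚ) ^ n * (P.elt hq * (toQ a * g)) 1 j = _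
    rw [e2]
    simp only [Fin.mk_one, Fin.one_eq_zero_iff]
    push_cast
    linear_combination (N : ℚ) * h0 + (P.d : ℚ) * h1

theorem toQ_mem_qZero {a : SL(2, ℤ)} (ha : a ∈ CongruenceSubgroup.Gamma0 N) :
    toQ a ∈ qZero q N := by
  refine ⟨mem_qGamma_one_iff.mpr fun i j => by rw [toQ_apply]; exact intCast_mem _ _, ?_⟩
  obtain ⟨c, hc⟩ := (mem_Gamma0_int a).mp ha
  rw [toQ_apply, hc, Int.cast_mul, Int.cast_natCast]
  exact mul_natCast_mem_qMul (intCast_mem _ _)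

theorem toQ_injective : Function.Injective toQ := fun a b h => by
  ext i j
  have := congrArg (fun g : SL(2, ℚ) => g i j) h
  simpa [toQ_apply] using this

/-- Elements of `piConj Γ₀(N)` which are integral. -/
theorem exists_toQ_eq_piConj (hq : q ≠ 0) {z : SL(2, ℤ)} (hz : z ∈ CongruenceSubgroup.Gamma0 N)
    (h : (q : ℤ) ∣ z 0 1) : ∃ x ∈ CongruenceSubgroup.Gamma0 N, toQ x = piConj hq z := by
  obtain ⟨e, he⟩ := h
  have hd := sl_det z
  refine ⟨slMk (z 0 0) e ((q : ℤ) * z 1 0) (z 1 1)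
    (by rw [he] at hd; linear_combination hd), ?_, ?_⟩
  · rw [mem_Gamma0_int]; exact ((mem_Gamma0_int z).mp hz).mul_left _
  · have : (q : ℚ) ≠ 0 := Nat.cast_ne_zero.mpr hq
    obtain ⟨h1, h2, h3, h4⟩ := piConj_apply hq z
    apply ext_two <;> simp only [toQ_apply, h1, h2, h3, h4]
    · rfl
    · show (e : ℚ) = _
      rw [he]; push_cast; field_simp
    · show (((q : ℤ) * z 1 0 : ℤ) : ℚ) = _
      push_cast; ring
    · rfl

theorem exists_piConj_eq_toQ (hq : q ≠ 0) (hNq : N.Coprime q) {x : SL(2, ℤ)}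
    (hx : x ∈ CongruenceSubgroup.Gamma0 N) (h : (q : ℤ) ∣ x 1 0) :
    ∃ z ∈ CongruenceSubgroup.Gamma0 N, piConj hq z = toQ x ∧ x 1 0 = (q : ℤ) * z 1 0 ∧
      z 0 1 = (q : ℤ) * x 0 1 ∧ z 0 0 = x 0 0 ∧ z 1 1 = x 1 1 := by
  obtain ⟨e, he⟩ := h
  have hd := sl_det x
  refine ⟨slMk (x 0 0) ((q : ℤ) * x 0 1) e (x 1 1)
    (by rw [he] at hd; linear_combination hd), ?_, ?_, he, rfl, rfl, rfl⟩
  · rw [mem_Gamma0_int]
    show (N : ℤ) ∣ e
    have := (mem_Gamma0_int x).mp hx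
    rw [he] at this
    exact (Nat.isCoprime_iff_coprime.mpr hNq).dvd_of_dvd_mul_left this
  · have : (q : ℚ) ≠ 0 := Nat.cast_ne_zero.mpr hq
    apply ext_two <;> simp only [toQ_apply]
    · rfl
    · show (((q : ℤ) * x 0 1 : ℤ) : ℚ) / (q : ℚ) = _
      push_cast; field_simp
    · show (q : ℚ) * (e : ℚ) = _
      rw [he]; push_cast; ring
    · rfl

namespace Pivot

variable (P : Pivot q N)

/-- Every element of `Γ₀(N)` is in `H ∪ H · mat · H`, where `H` has upper right entry divisible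
by `q`. -/
theorem exists_decomp (hq : q.Prime) (hNq : N.Coprime q) {z : SL(2, ℤ)}
    (hz : z ∈ CongruenceSubgroup.Gamma0 N) (h : ¬ (q : ℤ) ∣ z 0 1) :
    ∃ β₁ ∈ CongruenceSubgroup.Gamma0 N, ∃ β₂ ∈ CongruenceSubgroup.Gamma0 N,
      (q : ℤ) ∣ β₁ 0 1 ∧ (q : ℤ) ∣ β₂ 0 1 ∧ z = β₁ * P.mat * β₂ := by
  obtain ⟨u, v, huv⟩ : IsCoprime (z 0 1 * N) (q : ℤ) :=
    (((Nat.prime_iff_prime_int.mp hq).coprime_iff_not_dvd.mpr h).symm).mul_left
      (Nat.isCoprime_iff_coprime.mpr hNq)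
  set β₂ := slMk 1 0 ((N : ℤ) * (z 0 0 * u)) 1 (by ring) with hβ₂
  have hβ₂m : β₂ ∈ CongruenceSubgroup.Gamma0 N := by
    rw [mem_Gamma0_int]; exact dvd_mul_right _ _
  refine ⟨z * β₂⁻¹ * P.mat⁻¹, mul_mem (mul_mem hz (inv_mem hβ₂m)) (inv_mem P.mat_mem), β₂, hβ₂m,
    ?_, dvd_zero _, by group⟩
  obtain ⟨m1, m2, m3, m4⟩ := P.mat_apply
  obtain ⟨b1, b2, b3, b4⟩ := slMk_apply 1 0 ((N : ℤ) * (z 0 0 * u)) 1 (by ring)
  rw [← hβ₂] at b1 b2 b3 b4
  have e : (z * β₂⁻¹ * P.mat⁻¹) 0 1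
      = -(z 0 0 - z 0 1 * ((N : ℤ) * (z 0 0 * u))) * P.b + z 0 1 * (q : ℤ) := by
    simp [Matrix.SpecialLinearGroup.SL2_inv_expl, Matrix.mul_apply, Fin.sum_univ_two, b1, b2, b3,
      b4, m1, m2]
    ring
  rw [e]
  refine dvd_add (dvd_mul_of_dvd_left ?_ _) (dvd_mul_left _ _)
  exact dvd_neg.mpr ⟨z 0 0 * v, by linear_combination (-(z 0 0)) * huv⟩

/-- Conjugating by the pivot preserves integrality at elements with `q ^ 2 ∣ c`. -/
theorem conj_dvd {x : SL(2, ℤ)} {z : SL(2, ℤ)} (h1 : x 1 0 = (q : ℤ) * z 1 0)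
    (_h2 : z 0 1 = (q : ℤ) * x 0 1) (hq : q ≠ 0) (hx : (q : ℤ) ^ 2 ∣ x 1 0) :
    (q : ℤ) ∣ (P.mat * z * P.mat⁻¹) 0 1 := by
  obtain ⟨m1, m2, m3, m4⟩ := P.mat_apply
  have e : (P.mat * z * P.mat⁻¹) 0 1
      = -((q : ℤ) * z 0 0 + P.b * z 1 0) * P.b + ((q : ℤ) * z 0 1 + P.b * z 1 1) * (q : ℤ) := by
    simp [Matrix.SpecialLinearGroup.SL2_inv_expl, Matrix.mul_apply, Fin.sum_univ_two, m1, m2]
    ring
  rw [e]
  refine dvd_add (dvd_mul_of_dvd_left (dvd_neg.mpr (dvd_add (dvd_mul_right _ _) ?_)) _)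
    (dvd_mul_left _ _)
  refine Dvd.dvd.mul_left ?_ _
  obtain ⟨t, ht⟩ := hx
  exact ⟨t, mul_left_cancel₀ (Int.natCast_ne_zero.mpr hq) (by rw [← h1, ht]; ring)⟩

theorem mat_mul_mat_dvd : (q : ℤ) ∣ (P.mat * P.mat) 0 1 := by
  obtain ⟨m1, m2, m3, m4⟩ := P.mat_apply
  refine ⟨P.b + P.b * P.d, ?_⟩
  simp [Matrix.mul_apply, Fin.sum_univ_two, m1, m2, m4]
  ring

end Pivot

/-- Descent: generation of `qZero q N` by `Γ₀(N)` and the pivot. -/
theorem qZero_induction (hq : q.Prime) (hN : 0 < N) (hNq : N.Coprime q) (P : Pivot q N)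
    {motive : SL(2, ℚ) → Prop}
    (base : ∀ a ∈ CongruenceSubgroup.Gamma0 N, motive (toQ a))
    (left : ∀ a ∈ CongruenceSubgroup.Gamma0 N, ∀ g ∈ qZero q N, motive g → motive (toQ a * g))
    (pivot : ∀ g ∈ qZero q N, motive g → motive ((P.elt hq.ne_zero)⁻¹ * g))
    {g : SL(2, ℚ)} (hg : g ∈ qZero q N) : motive g := by
  obtain ⟨n, hn⟩ := exists_integralAt hq.ne_zero hg.1
  induction n generalizing g with
  | zero =>
    obtain ⟨a, ha, rfl⟩ := exists_toQ_eq hNq hg hn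
    exact base a ha
  | succ n ih =>
    by_cases h : IntegralAt q n g
    · exact ih hg h
    · obtain ⟨a, ha, har⟩ := exists_reducer hq hN hNq hn h
      have hmem : P.elt hq.ne_zero * (toQ a * g) ∈ qZero q N :=
        mul_mem (P.elt_mem_qZero _) (mul_mem (toQ_mem_qZero ha) hg)
      have h1 := ih hmem (hn.pivot_step P hq.ne_zero har)
      have h2 := left _ (inv_mem ha) _ (mul_mem (inv_mem (P.elt_mem_qZero _)) hmem)
        (pivot _ hmem h1)
      convert h2 using 1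
      rw [map_inv]; group

/-- `qZero q N` is generated by the two copies of `Γ₀(N)`. -/
theorem qZero_le (hq : q.Prime) (hN : 0 < N) (hNq : N.Coprime q) {H : Subgroup SL(2, ℚ)}
    (h1 : ∀ a ∈ CongruenceSubgroup.Gamma0 N, toQ a ∈ H)
    (h2 : ∀ a ∈ CongruenceSubgroup.Gamma0 N, piConj hq.ne_zero a ∈ H) : qZero q N ≤ H := by
  obtain ⟨P⟩ := exists_pivot hNq
  intro g hg
  exact qZero_induction hq hN hNq P (motive := fun g => g ∈ H) h1
    (fun a ha g _ hg' => mul_mem (h1 a ha) hg')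
    (fun g _ hg' => mul_mem (inv_mem (h2 _ P.mat_mem)) hg') hg

/-- Two reducers differ by an element with lower left entry divisible by `q ^ 2`. -/
theorem IsReducer.dvd (hq : q.Prime) {n : ℕ} {g : SL(2, ℚ)} (hn1 : IntegralAt q (n + 1) g)
    (hn : ¬ IntegralAt q n g) (h1 : IsReducer q (n + 1) g 1) {a : SL(2, ℤ)}
    (ha : IsReducer q (n + 1) g a) : (q : ℤ) ^ 2 ∣ a 1 0 := by
  obtain ⟨Y, hY⟩ := hn1
  obtain ⟨i, j, hij⟩ := exists_entry_not_dvd hq.ne_zero hY hn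
  obtain ⟨z, hz⟩ := h1 j
  obtain ⟨z', hz'⟩ := ha j
  rw [map_one, one_mul] at hz
  have hY1 : Y 1 j = (q : ℤ) ^ 2 * z := by
    have : (Y 1 j : ℚ) = (q : ℚ) ^ 2 * z := by rw [← hY, hz]
    exact_mod_cast this
  have hi : i = 0 := by
    fin_cases i
    · rfl
    · exact absurd (hY1 ▸ Dvd.dvd.mul_right (dvd_pow_self _ two_ne_zero) z) hij
  subst hi
  rw [mul_apply_two, toQ_apply, toQ_apply, mul_add] at hz'
  have e : a 1 0 * Y 0 j + a 1 1 * Y 1 j = (q : ℤ) ^ 2 * z' := by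
    have : (a 1 0 : ℚ) * Y 0 j + (a 1 1 : ℚ) * Y 1 j = (q : ℚ) ^ 2 * z' := by
      rw [← hY, ← hY, ← hz']; ring
    exact_mod_cast this
  have hdvd : (q : ℤ) ^ 2 ∣ a 1 0 * Y 0 j :=
    ⟨z' - a 1 1 * z, by rw [hY1] at e; linear_combination e⟩
  exact ((Nat.prime_iff_prime_int.mp hq).coprime_iff_not_dvd.mpr hij).pow_left.dvd_of_dvd_mul_right
    hdvd

namespace GlueData

variable {hq0 : q ≠ 0} (D : GlueData q N hq0 F) (P : Pivot q N)

theorem left_one : D.left 1 = 0 := by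
  have := D.left_mul 1 (one_mem _) 1 (one_mem _)
  simpa using this

theorem left_inv {a : SL(2, ℤ)} (ha : a ∈ CongruenceSubgroup.Gamma0 N) :
    D.left a⁻¹ = -D.left a := by
  have := D.left_mul a⁻¹ (inv_mem ha) a ha
  rw [inv_mul_cancel, D.left_one] at this
  exact eq_neg_of_add_eq_zero_left this.symm

theorem right_inv {a : SL(2, ℤ)} (ha : a ∈ CongruenceSubgroup.Gamma0 N) :
    D.right a⁻¹ = -D.right a := by
  have h1 := D.right_mul 1 (one_mem _) 1 (one_mem _)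
  simp only [mul_one, left_eq_add] at h1
  have := D.right_mul a⁻¹ (inv_mem ha) a ha
  rw [inv_mul_cancel, h1] at this
  exact eq_neg_of_add_eq_zero_left this.symm

open scoped Classical in
/-- The left homomorphism as a function on `SL(2, ℚ)`. -/
def leftQ (g : SL(2, ℚ)) : F :=
  if h : ∃ a : SL(2, ℤ), toQ a = g then D.left h.choose else 0

theorem leftQ_toQ (a : SL(2, ℤ)) : D.leftQ (toQ a) = D.left a := by
  have h : ∃ b : SL(2, ℤ), toQ b = toQ a := ⟨a, rfl⟩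
  rw [leftQ, dif_pos h, toQ_injective h.choose_spec]

open scoped Classical in
/-- The glued map on elements of bounded level. -/
def step : ℕ → SL(2, ℚ) → F
  | 0, g => D.leftQ g
  | n + 1, g => if IntegralAt q n g then step n g else
      if h : ∃ a ∈ CongruenceSubgroup.Gamma0 N, IsReducer q (n + 1) g a then
        -D.left h.choose - D.right P.mat + step n (P.elt hq0 * (toQ h.choose * g))
      else 0

theorem step_of_le {n m : ℕ} {g : SL(2, ℚ)} (h : IntegralAt q n g) (hnm : n ≤ m) :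
    IntegralAt q m g ∧ D.step P m g = D.step P n g := by
  induction m, hnm using Nat.le_induction with
  | base => exact ⟨h, rfl⟩
  | succ m _ ih => exact ⟨ih.1.succ, by rw [step, if_pos ih.1, ih.2]⟩

/-- The glued map. -/
def glue (g : SL(2, ℚ)) : F := by
  classical exact if h : ∃ n, IntegralAt q n g then D.step P (Nat.find h) g else 0

theorem glue_eq_step {n : ℕ} {g : SL(2, ℚ)} (h : IntegralAt q n g) :
    D.glue P g = D.step P n g := by
  classical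
  have hex : ∃ n, IntegralAt q n g := ⟨n, h⟩
  rw [glue, dif_pos hex, (D.step_of_le P (Nat.find_spec hex) (Nat.find_min' hex h)).2]

variable {D P}

theorem step_add (hq : q.Prime) (hN : 0 < N) (hNq : N.Coprime q) :
    ∀ n, ∀ g ∈ qZero q N, IntegralAt q n g → ∀ a ∈ CongruenceSubgroup.Gamma0 N,
      D.step P n (toQ a * g) = D.left a + D.step P n g := by
  intro n
  induction n with
  | zero =>
    intro g hg hn a ha
    obtain ⟨x, hx, rfl⟩ := exists_toQ_eq hNq hg hn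
    rw [← map_mul, step, step, leftQ_toQ, leftQ_toQ, D.left_mul a ha x hx]
  | succ n ih =>
    -- independence of the reducer
    have key : ∀ g ∈ qZero q N, IntegralAt q (n + 1) g → ¬ IntegralAt q n g →
        ∀ b ∈ CongruenceSubgroup.Gamma0 N, IsReducer q (n + 1) g b →
        D.step P (n + 1) g = -D.left b - D.right P.mat + D.step P n (P.elt hq0 * (toQ b * g)) := by
      intro g hg hn1 hn b hb hbr
      have hex : ∃ a ∈ CongruenceSubgroup.Gamma0 N, IsReducer q (n + 1) g a := ⟨b, hb, hbr⟩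
      rw [step, if_neg hn, dif_pos hex]
      obtain ⟨ha, har⟩ := hex.choose_spec
      generalize hex.choose = a at ha har ⊢
      set h := a * b⁻¹ with hh
      have hhm : h ∈ CongruenceSubgroup.Gamma0 N := mul_mem ha (inv_mem hb)
      have hab : a = h * b := by rw [hh]; group
      have hh10 : (q : ℤ) ^ 2 ∣ h 1 0 := by
        refine IsReducer.dvd hq (hn1.toQ_mul b) (fun h' => hn (by
          have := h'.toQ_mul b⁻¹
          rwa [map_inv, inv_mul_cancel_left] at this)) (fun j => ?_) fun j => ?_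
        · rw [map_one, one_mul]; exact hbr j
        · rw [← mul_assoc (toQ h), ← map_mul, ← hab]; exact har j
      obtain ⟨z, hz, hzx, h1, h2, -, -⟩ := exists_piConj_eq_toQ hq0 hNq hhm
        ((dvd_pow_self _ two_ne_zero).trans hh10)
      have hz' : P.mat * z * P.mat⁻¹ ∈ CongruenceSubgroup.Gamma0 N :=
        mul_mem (mul_mem P.mat_mem hz) (inv_mem P.mat_mem)
      obtain ⟨x, hx, hxe⟩ := exists_toQ_eq_piConj hq0 hz' (P.conj_dvd h1 h2 hq0 hh10)
      have hconj : P.elt hq0 * (toQ a * g) = toQ x * (P.elt hq0 * (toQ b * g)) := by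
        rw [hxe, map_mul, map_mul, map_inv, hzx, hab, map_mul, Pivot.elt]; group
      have hLx : D.left x = D.left h := by
        rw [D.compat x hx _ hz' hxe, D.compat h hhm z hz hzx.symm,
          D.right_mul _ (mul_mem P.mat_mem hz) _ (inv_mem P.mat_mem), D.right_mul _ P.mat_mem _ hz,
          D.right_inv P.mat_mem]
        abel
      rw [hconj, ih _ (mul_mem (P.elt_mem_qZero hq0) (mul_mem (toQ_mem_qZero hb) hg))
        (hn1.pivot_step P hq0 hbr) x hx, hLx, hab, D.left_mul _ hhm _ hb]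
      abel
    intro g hg hn a ha
    by_cases hn' : IntegralAt q n g
    · rw [step, if_pos (hn'.toQ_mul a), step, if_pos hn', ih g hg hn' a ha]
    · have hna : ¬ IntegralAt q n (toQ a * g) := fun h' => hn' (by
        have := h'.toQ_mul a⁻¹
        rwa [map_inv, inv_mul_cancel_left] at this)
      obtain ⟨b, hb, hbr⟩ := exists_reducer hq hN hNq hn hn'
      have e : toQ (b * a⁻¹) * (toQ a * g) = toQ b * g := by rw [map_mul, map_inv]; group
      have hbr' : IsReducer q (n + 1) (toQ a * g) (b * a⁻¹) := by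
        intro j; rw [e]; exact hbr j
      rw [key _ (mul_mem (toQ_mem_qZero ha) hg) (hn.toQ_mul a) hna _ (mul_mem hb (inv_mem ha)) hbr',
        key g hg hn hn' b hb hbr, e, D.left_mul b hb _ (inv_mem ha), D.left_inv ha]
      abel

theorem glue_toQ_mul (hq : q.Prime) (hN : 0 < N) (hNq : N.Coprime q) {g : SL(2, ℚ)}
    (hg : g ∈ qZero q N) {a : SL(2, ℤ)} (ha : a ∈ CongruenceSubgroup.Gamma0 N) :
    D.glue P (toQ a * g) = D.left a + D.glue P g := by
  obtain ⟨n, hn⟩ := exists_integralAt hq0 hg.1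
  rw [glue_eq_step D P (hn.toQ_mul a), glue_eq_step D P hn, step_add hq hN hNq n g hg hn a ha]

theorem glue_one : D.glue P 1 = 0 := by
  have h : IntegralAt q 0 (1 : SL(2, ℚ)) :=
    ⟨1, fun i j => by fin_cases i <;> fin_cases j <;> simp⟩
  rw [glue_eq_step D P h, step, ← map_one toQ, leftQ_toQ, left_one]

theorem glue_reducer (hq : q.Prime) (hN : 0 < N) (hNq : N.Coprime q) {g : SL(2, ℚ)}
    (hg : g ∈ qZero q N) {n : ℕ} (hn1 : IntegralAt q (n + 1) g) (hn : ¬ IntegralAt q n g)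
    {b : SL(2, ℤ)} (hb : b ∈ CongruenceSubgroup.Gamma0 N) (hbr : IsReducer q (n + 1) g b) :
    D.glue P g = -D.left b - D.right P.mat + D.glue P (P.elt hq0 * (toQ b * g)) := by
  have hnb : ¬ IntegralAt q n (toQ b * g) := fun h' => hn (by
    have := h'.toQ_mul b⁻¹
    rwa [map_inv, inv_mul_cancel_left] at this)
  have h1 : IsReducer q (n + 1) (toQ b * g) 1 := fun j => by
    rw [map_one, one_mul]; exact hbr j
  have hex : ∃ a ∈ CongruenceSubgroup.Gamma0 N, IsReducer q (n + 1) (toQ b * g) a :=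
    ⟨1, one_mem _, h1⟩
  have hbg : toQ b * g ∈ qZero q N := mul_mem (toQ_mem_qZero hb) hg
  have h := glue_toQ_mul (D := D) (P := P) hq hN hNq hg hb
  suffices D.glue P (toQ b * g) = -D.right P.mat + D.glue P (P.elt hq0 * (toQ b * g)) by
    rw [this] at h
    rw [sub_eq_add_neg, add_assoc, h]
    abel
  rw [glue_eq_step D P (hn1.toQ_mul b), step, if_neg hnb, dif_pos hex]
  obtain ⟨ha, har⟩ := hex.choose_spec
  generalize hex.choose = a at ha har ⊢
  have hh10 : (q : ℤ) ^ 2 ∣ a 1 0 := IsReducer.dvd hq (hn1.toQ_mul b) hnb h1 har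
  obtain ⟨z, hz, hzx, h1', h2', -, -⟩ := exists_piConj_eq_toQ hq0 hNq ha
    ((dvd_pow_self _ two_ne_zero).trans hh10)
  have hz' : P.mat * z * P.mat⁻¹ ∈ CongruenceSubgroup.Gamma0 N :=
    mul_mem (mul_mem P.mat_mem hz) (inv_mem P.mat_mem)
  obtain ⟨x, hx, hxe⟩ := exists_toQ_eq_piConj hq0 hz' (P.conj_dvd h1' h2' hq0 hh10)
  have hconj : P.elt hq0 * (toQ a * (toQ b * g)) = toQ x * (P.elt hq0 * (toQ b * g)) := by
    rw [hxe, map_mul, map_mul, map_inv, hzx, Pivot.elt]; group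
  have hLx : D.left x = D.left a := by
    rw [D.compat x hx _ hz' hxe, D.compat a ha z hz hzx.symm,
      D.right_mul _ (mul_mem P.mat_mem hz) _ (inv_mem P.mat_mem), D.right_mul _ P.mat_mem _ hz,
      D.right_inv P.mat_mem]
    abel
  rw [hconj, step_add hq hN hNq n _ (mul_mem (P.elt_mem_qZero hq0) hbg)
    (hn1.pivot_step P hq0 hbr) x hx, hLx, glue_eq_step D P (hn1.pivot_step P hq0 hbr)]
  abel

theorem glue_pivot_mul (hq : q.Prime) (hN : 0 < N) (hNq : N.Coprime q) :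
    ∀ n, ∀ g ∈ qZero q N, IntegralAt q n g →
      D.glue P (P.elt hq0 * g) = D.right P.mat + D.glue P g := by
  intro n
  induction n using Nat.strong_induction_on with
  | _ n ih =>
  intro g hg hn
  obtain ⟨X, hX⟩ := hn
  have hn : IntegralAt q n g := ⟨X, hX⟩
  have hq' : (q : ℚ) ≠ 0 := Nat.cast_ne_zero.mpr hq0
  by_cases hlow : ∃ m, m < n ∧ IntegralAt q m g
  · obtain ⟨m, hm, hm'⟩ := hlow
    exact ih m hm g hg hm'
  push Not at hlow
  by_cases hall : ∀ j, (q : ℤ) ∣ X 1 j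
  swap
  · -- the level goes up
    push Not at hall
    obtain ⟨j, hj⟩ := hall
    have h1 : IntegralAt q (n + 1) (P.elt hq0 * g) := by
      refine ⟨fun i j => if i = 0 then (q : ℤ) ^ 2 * X 0 j + P.b * X 1 j
        else (q : ℤ) ^ 2 * ((N : ℤ) * X 0 j + P.d * X 1 j), fun i j => ?_⟩
      obtain ⟨e1, e2⟩ := P.elt_mul_apply hq0 g j
      fin_cases i
      · show (q : ℚ) ^ (n + 1) * (P.elt hq0 * g) 0 j = _
        rw [e1]
        simp only [Fin.zero_eta, if_pos]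
        push_cast
        rw [← hX, ← hX]
        field_simp
        ring
      · show (q : ℚ) ^ (n + 1) * (P.elt hq0 * g) 1 j = _
        rw [e2]
        simp only [Fin.mk_one, Fin.one_eq_zero_iff]
        push_cast
        rw [← hX, ← hX]
        ring
    have h0 : ¬ IntegralAt q n (P.elt hq0 * g) := by
      rintro ⟨Y, hY⟩
      have hy := hY 0 j
      rw [(P.elt_mul_apply hq0 g j).1] at hy
      have e : (q : ℤ) ^ 2 * X 0 j + P.b * X 1 j = (q : ℤ) * Y 0 j := by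
        have : ((q : ℚ) ^ 2 * X 0 j + P.b * X 1 j : ℚ) = (q : ℚ) * Y 0 j := by
          rw [← hy, ← hX, ← hX]; field_simp
        exact_mod_cast this
      have : (q : ℤ) ∣ P.b * X 1 j := ⟨Y 0 j - q * X 0 j, by linear_combination e⟩
      exact ((Nat.prime_iff_prime_int.mp hq).dvd_or_dvd this).elim (P.not_dvd_b hq) hj
    have hr : IsReducer q (n + 1) (P.elt hq0 * g) 1 := fun j => by
      refine ⟨(N : ℤ) * X 0 j + P.d * X 1 j, ?_⟩
      rw [map_one, one_mul, (P.elt_mul_apply hq0 g j).2]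
      push_cast
      rw [← hX, ← hX]
      ring
    obtain ⟨y, hy, hye⟩ := exists_toQ_eq_piConj hq0 (mul_mem P.mat_mem P.mat_mem) P.mat_mul_mat_dvd
    have hpp : P.elt hq0 * (P.elt hq0 * g) = toQ y * g := by
      rw [hye, map_mul, Pivot.elt]; group
    rw [glue_reducer hq hN hNq (mul_mem (P.elt_mem_qZero hq0) hg) h1 h0 (one_mem _) hr, map_one,
      one_mul, hpp, glue_toQ_mul hq hN hNq hg hy,
      D.compat y hy _ (mul_mem P.mat_mem P.mat_mem) hye, D.right_mul _ P.mat_mem _ P.mat_mem,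
      D.left_one]
    abel
  -- the second row is divisible by `q`
  obtain ⟨m, rfl⟩ : ∃ m, n = m + 1 := by
    rcases n with _ | m
    · exfalso
      have hd := det_eq g
      have e : ∀ i j, g i j = (X i j : ℚ) := fun i j => by simpa using hX i j
      simp only [e] at hd
      have hd' : X 0 0 * X 1 1 - X 0 1 * X 1 0 = 1 := by exact_mod_cast hd
      have : (q : ℤ) ∣ 1 := hd' ▸ dvd_sub ((hall 1).mul_left _) ((hall 0).mul_left _)
      exact hq.one_lt.ne' (by exact_mod_cast Int.eq_one_of_dvd_one (by positivity) this)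
    · exact ⟨m, rfl⟩
  have hm : ¬ IntegralAt q m g := hlow m (Nat.lt_succ_self m)
  obtain ⟨a, ha, har⟩ := exists_reducer hq hN hNq hn hm
  have hgp := glue_reducer (D := D) (P := P) hq hN hNq hg hn hm ha har
  set g' := P.elt hq0 * (toQ a * g) with hg'
  have hg'm : g' ∈ qZero q N := mul_mem (P.elt_mem_qZero hq0) (mul_mem (toQ_mem_qZero ha) hg)
  have hg'i : IntegralAt q m g' := hn.pivot_step P hq0 har
  -- the reducer lies in both copies
  have ha10 : (q : ℤ) ∣ a 1 0 := by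
    obtain ⟨i, j, hij⟩ := exists_entry_not_dvd hq0 hX hm
    have hi : i = 0 := by
      fin_cases i
      · rfl
      · exact absurd (hall j) hij
    subst hi
    obtain ⟨z, hz⟩ := har j
    rw [mul_apply_two, toQ_apply, toQ_apply] at hz
    have e : a 1 0 * X 0 j + a 1 1 * X 1 j = (q : ℤ) ^ 2 * z := by
      have : (a 1 0 : ℚ) * X 0 j + (a 1 1 : ℚ) * X 1 j = (q : ℚ) ^ 2 * z := by
        rw [← hX, ← hX, ← hz]; ring
      exact_mod_cast this
    obtain ⟨c, hc⟩ := hall j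
    have : (q : ℤ) ∣ a 1 0 * X 0 j := ⟨q * z - a 1 1 * c, by rw [hc] at e; linear_combination e⟩
    exact ((Nat.prime_iff_prime_int.mp hq).dvd_or_dvd this).resolve_right hij
  obtain ⟨z₀, hz₀, hz₀e, -, -, -, -⟩ := exists_piConj_eq_toQ hq0 hNq ha ha10
  -- equivariance for the second copy at lower level
  have hB : ∀ z ∈ CongruenceSubgroup.Gamma0 N,
      D.glue P (piConj hq0 z * g') = D.right z + D.glue P g' := by
    intro z hz
    by_cases h : (q : ℤ) ∣ z 0 1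
    · obtain ⟨x, hx, hxe⟩ := exists_toQ_eq_piConj hq0 hz h
      rw [← hxe, glue_toQ_mul hq hN hNq hg'm hx, D.compat x hx z hz hxe]
    · obtain ⟨β₁, hβ₁, β₂, hβ₂, h1, h2, rfl⟩ := P.exists_decomp hq hNq hz h
      obtain ⟨x₁, hx₁, hx₁e⟩ := exists_toQ_eq_piConj hq0 hβ₁ h1
      obtain ⟨x₂, hx₂, hx₂e⟩ := exists_toQ_eq_piConj hq0 hβ₂ h2
      rw [map_mul, map_mul, ← hx₁e, ← hx₂e, show piConj hq0 P.mat = P.elt hq0 from rfl,
        mul_assoc, mul_assoc,
        glue_toQ_mul hq hN hNq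
          (mul_mem (P.elt_mem_qZero hq0) (mul_mem (toQ_mem_qZero hx₂) hg'm)) hx₁,
        ih m (Nat.lt_succ_self m) _ (mul_mem (toQ_mem_qZero hx₂) hg'm) (hg'i.toQ_mul x₂),
        glue_toQ_mul hq hN hNq hg'm hx₂, D.compat x₁ hx₁ β₁ hβ₁ hx₁e,
        D.compat x₂ hx₂ β₂ hβ₂ hx₂e, D.right_mul _ (mul_mem hβ₁ P.mat_mem) _ hβ₂,
        D.right_mul _ hβ₁ _ P.mat_mem]
      abel
  have hw : P.mat * z₀⁻¹ * P.mat⁻¹ ∈ CongruenceSubgroup.Gamma0 N :=
    mul_mem (mul_mem P.mat_mem (inv_mem hz₀)) (inv_mem P.mat_mem)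
  have heq : P.elt hq0 * g = piConj hq0 (P.mat * z₀⁻¹ * P.mat⁻¹) * g' := by
    rw [hg', map_mul, map_mul, map_inv, map_inv, hz₀e, Pivot.elt]; group
  rw [heq, hB _ hw, hgp, D.right_mul _ (mul_mem P.mat_mem (inv_mem hz₀)) _ (inv_mem P.mat_mem),
    D.right_mul _ P.mat_mem _ (inv_mem hz₀), D.right_inv P.mat_mem, D.right_inv hz₀,
    D.compat a ha z₀ hz₀ hz₀e.symm]
  abel

/-- **Gluing**: the two homomorphisms extend to `qZero q N`. -/
theorem exists_hom (hq : q.Prime) (hN : 0 < N) (hNq : N.Coprime q)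
    (D : GlueData q N hq.ne_zero F) :
    ∃ f : SL(2, ℚ) → F, (∀ x ∈ qZero q N, ∀ y ∈ qZero q N, f (x * y) = f x + f y) ∧
      (∀ a ∈ CongruenceSubgroup.Gamma0 N, f (toQ a) = D.left a) ∧
      (∀ a ∈ CongruenceSubgroup.Gamma0 N, f (piConj hq.ne_zero a) = D.right a) := by
  obtain ⟨P⟩ := exists_pivot hNq
  have hpiv : ∀ g ∈ qZero q N,
      D.glue P ((P.elt hq.ne_zero)⁻¹ * g) = -D.right P.mat + D.glue P g := by
    intro g hg
    have hm : (P.elt hq.ne_zero)⁻¹ * g ∈ qZero q N := mul_mem (inv_mem (P.elt_mem_qZero _)) hg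
    obtain ⟨n, hn⟩ := exists_integralAt hq.ne_zero hm.1
    have h := glue_pivot_mul (D := D) (P := P) hq hN hNq n _ hm hn
    rw [mul_inv_cancel_left] at h
    rw [h]; abel
  have hadd : ∀ x ∈ qZero q N, ∀ g ∈ qZero q N, D.glue P (x * g) = D.glue P x + D.glue P g := by
    intro x hx
    refine qZero_induction hq hN hNq P
      (motive := fun x => ∀ g ∈ qZero q N, D.glue P (x * g) = D.glue P x + D.glue P g)
      (fun a ha g hg => ?_) (fun a ha x hx ih g hg => ?_) (fun x hx ih g hg => ?_) hx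
    · have h1 := glue_toQ_mul (D := D) (P := P) hq hN hNq (one_mem _) ha
      rw [mul_one, glue_one, add_zero] at h1
      rw [glue_toQ_mul hq hN hNq hg ha, h1]
    · rw [mul_assoc, glue_toQ_mul hq hN hNq (mul_mem hx hg) ha, ih g hg,
        glue_toQ_mul hq hN hNq hx ha, add_assoc]
    · rw [mul_assoc, hpiv _ (mul_mem hx hg), ih g hg, hpiv _ hx, add_assoc]
  have hA : ∀ a ∈ CongruenceSubgroup.Gamma0 N, D.glue P (toQ a) = D.left a := by
    intro a ha
    have h := glue_toQ_mul (D := D) (P := P) hq hN hNq (one_mem _) ha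
    rwa [mul_one, glue_one, add_zero] at h
  refine ⟨D.glue P, hadd, hA, fun z hz => ?_⟩
  have hpivot : D.glue P (P.elt hq.ne_zero) = D.right P.mat := by
    have h := glue_pivot_mul (D := D) (P := P) hq hN hNq 0 1 (one_mem _)
      ⟨1, fun i j => by fin_cases i <;> fin_cases j <;> simp⟩
    rwa [mul_one, glue_one, add_zero] at h
  by_cases h : (q : ℤ) ∣ z 0 1
  · obtain ⟨x, hx, hxe⟩ := exists_toQ_eq_piConj hq.ne_zero hz h
    rw [← hxe, hA x hx, D.compat x hx z hz hxe]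
  · obtain ⟨β₁, hβ₁, β₂, hβ₂, h1, h2, rfl⟩ := P.exists_decomp hq hNq hz h
    obtain ⟨x₁, hx₁, hx₁e⟩ := exists_toQ_eq_piConj hq.ne_zero hβ₁ h1
    obtain ⟨x₂, hx₂, hx₂e⟩ := exists_toQ_eq_piConj hq.ne_zero hβ₂ h2
    rw [map_mul, map_mul, ← hx₁e, ← hx₂e, show piConj hq.ne_zero P.mat = P.elt hq.ne_zero from rfl,
      hadd _ (mul_mem (toQ_mem_qZero hx₁) (P.elt_mem_qZero _)) _ (toQ_mem_qZero hx₂),
      hadd _ (toQ_mem_qZero hx₁) _ (P.elt_mem_qZero _), hA x₁ hx₁, hA x₂ hx₂, hpivot,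
      D.compat x₁ hx₁ β₁ hβ₁ hx₁e, D.compat x₂ hx₂ β₂ hβ₂ hx₂e,
      D.right_mul _ (mul_mem hβ₁ P.mat_mem) _ hβ₂, D.right_mul _ hβ₁ _ P.mat_mem]

end GlueData

end FLTAgent.LevelRaising
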