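import Fermat.Agent.LevelRaising.Basic
import Mathlib.RingTheory.Coprime.Lemmas
import Mathlib.NumberTheory.Padics.PadicVal.Basic
import Mathlib.Data.Int.GCD

/-!
# Hecke coset matrices

Elementary classification of integral matrices by the upper triangular Hecke representatives,
coset representatives of `Γ₀(Nq)` in `Γ₀(N)` and the Atkin–Lehner matrix at `q`.
-/

set_option autoImplicit false

noncomputable section

open Matrix CongruenceSubgroup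
open scoped MatrixGroups

namespace FLTAgent.LevelRaising

/-- Two by two integral matrices. -/
abbrev M2 := Matrix (Fin 2) (Fin 2) ℤ

/-- The representatives of the Hecke double coset of level `ℓ`. -/
def heckeFam (ℓ : ℕ) : Option (Fin ℓ) → M2
  | none => !![(ℓ : ℤ), 0; 0, 1]
  | some j => !![1, ((j : ℕ) : ℤ); 0, (ℓ : ℤ)]

@[simp] theorem heckeFam_none (ℓ : ℕ) : heckeFam ℓ none = !![(ℓ : ℤ), 0; 0, 1] := rfl

@[simp] theorem heckeFam_some (ℓ : ℕ) (j : Fin ℓ) :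
    heckeFam ℓ (some j) = !![1, ((j : ℕ) : ℤ); 0, (ℓ : ℤ)] := rfl

/-- The Hecke representatives have determinant `ℓ`. -/
theorem heckeFam_det (ℓ : ℕ) (i : Option (Fin ℓ)) : (heckeFam ℓ i).det = ℓ := by
  cases i <;> simp [Matrix.det_fin_two]

/-- The Hecke representatives are upper triangular. -/
theorem heckeFam_lower (ℓ : ℕ) (i : Option (Fin ℓ)) : heckeFam ℓ i 1 0 = 0 := by
  cases i <;> simp

theorem eq_mul_fin_two (δ A B : M2) :
    δ = A * B ↔ δ 0 0 = A 0 0 * B 0 0 + A 0 1 * B 1 0 ∧ δ 0 1 = A 0 0 * B 0 1 + A 0 1 * B 1 1 ∧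
      δ 1 0 = A 1 0 * B 0 0 + A 1 1 * B 1 0 ∧ δ 1 1 = A 1 0 * B 0 1 + A 1 1 * B 1 1 := by
  simp [← Matrix.ext_iff, Fin.forall_fin_two, Matrix.mul_apply, Fin.sum_univ_two, and_assoc]

theorem exists_fin_modEq {ℓ : ℕ} (hℓ : ℓ.Prime) {a : ℤ} (ha : ¬ (ℓ : ℤ) ∣ a) (b : ℤ) :
    ∃ j : Fin ℓ, (ℓ : ℤ) ∣ b - a * ((j : ℕ) : ℤ) := by
  obtain ⟨u, v, huv⟩ := ((Nat.prime_iff_prime_int.mp hℓ).coprime_iff_not_dvd.mpr ha)
  have hpos : (0 : ℤ) < ℓ := by exact_mod_cast hℓ.pos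
  have h0 := Int.emod_nonneg (v * b) hpos.ne'
  have h1 := Int.emod_lt_of_pos (v * b) hpos
  refine ⟨⟨((v * b) % ℓ).toNat, by omega⟩, u * b + a * (v * b / ℓ), ?_⟩
  rw [Int.toNat_of_nonneg h0, Int.emod_def]
  linear_combination (-b) * huv

theorem fin_eq_of_dvd_sub {ℓ : ℕ} {i j : Fin ℓ}
    (h : (ℓ : ℤ) ∣ ((i : ℕ) : ℤ) - ((j : ℕ) : ℤ)) : i = j := by
  have h1 := i.isLt
  have h2 := j.isLt
  have h3 : |((i : ℕ) : ℤ) - ((j : ℕ) : ℤ)| < ℓ := abs_sub_lt_iff.mpr ⟨by omega, by omega⟩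
  have := Int.eq_zero_of_abs_lt_dvd h h3
  exact Fin.ext (by omega)

/-- Right division by the representatives, at a prime not dividing the level. -/
theorem exists_eq_mul_heckeFam {ℓ M : ℕ} (hℓ : ℓ.Prime) (hM : ¬ ℓ ∣ M) (δ : M2)
    (hdet : (ℓ : ℤ) ∣ δ.det) (hc : (M : ℤ) ∣ δ 1 0) :
    ∃ (i : Option (Fin ℓ)) (δ' : M2), (M : ℤ) ∣ δ' 1 0 ∧ δ = δ' * heckeFam ℓ i := by
  have hp := Nat.prime_iff_prime_int.mp hℓ
  obtain ⟨t, ht⟩ := hdet
  rw [Matrix.det_fin_two] at ht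
  by_cases ha : (ℓ : ℤ) ∣ δ 0 0
  · by_cases hc' : (ℓ : ℤ) ∣ δ 1 0
    · obtain ⟨x, hx⟩ := ha
      obtain ⟨y, hy⟩ := hc'
      refine ⟨none, !![x, δ 0 1; y, δ 1 1], ?_, ?_⟩
      · have hcop : IsCoprime (M : ℤ) (ℓ : ℤ) := (hp.coprime_iff_not_dvd.mpr
          (by exact_mod_cast hM)).symm
        rw [hy] at hc
        simpa using hcop.dvd_of_dvd_mul_left hc
      · rw [eq_mul_fin_two]
        simp [hx, hy, mul_comm]
    · obtain ⟨j, u, hj⟩ := exists_fin_modEq hℓ hc' (δ 1 1)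
      obtain ⟨v, hv⟩ : (ℓ : ℤ) ∣ δ 0 1 - δ 0 0 * ((j : ℕ) : ℤ) := by
        refine (hp.dvd_mul.mp ⟨δ 0 0 * u - t, ?_⟩).resolve_left hc'
        linear_combination δ 0 0 * hj - ht
      refine ⟨some j, !![δ 0 0, v; δ 1 0, u], by simpa using hc, ?_⟩
      rw [eq_mul_fin_two]
      simp only [heckeFam_some, Matrix.cons_val', Matrix.cons_val_zero, Matrix.cons_val_one,
        Matrix.cons_val_fin_one, Matrix.of_apply]
      refine ⟨by ring, by linear_combination hv, by ring, by linear_combination hj⟩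
  · obtain ⟨j, v, hj⟩ := exists_fin_modEq hℓ ha (δ 0 1)
    obtain ⟨u, hu⟩ : (ℓ : ℤ) ∣ δ 1 1 - δ 1 0 * ((j : ℕ) : ℤ) := by
      refine (hp.dvd_mul.mp ⟨t + δ 1 0 * v, ?_⟩).resolve_left ha
      linear_combination ht + δ 1 0 * hj
    refine ⟨some j, !![δ 0 0, v; δ 1 0, u], by simpa using hc, ?_⟩
    rw [eq_mul_fin_two]
    simp only [heckeFam_some, Matrix.cons_val', Matrix.cons_val_zero, Matrix.cons_val_one,
      Matrix.cons_val_fin_one, Matrix.of_apply]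
    refine ⟨by ring, by linear_combination hj, by ring, by linear_combination hu⟩

/-- Right division by the representatives of `U`, when the corner is prime to `q`. -/
theorem exists_eq_mul_heckeFam_some {q M : ℕ} (hq : q.Prime) (δ : M2)
    (hdet : (q : ℤ) ∣ δ.det) (hc : (M : ℤ) ∣ δ 1 0) (ha : ¬ (q : ℤ) ∣ δ 0 0) :
    ∃ (j : Fin q) (δ' : M2), (M : ℤ) ∣ δ' 1 0 ∧ δ' 0 0 = δ 0 0 ∧
      δ = δ' * heckeFam q (some j) := by
  have hp := Nat.prime_iff_prime_int.mp hq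
  obtain ⟨t, ht⟩ := hdet
  rw [Matrix.det_fin_two] at ht
  obtain ⟨j, v, hj⟩ := exists_fin_modEq hq ha (δ 0 1)
  obtain ⟨u, hu⟩ : (q : ℤ) ∣ δ 1 1 - δ 1 0 * ((j : ℕ) : ℤ) := by
    refine (hp.dvd_mul.mp ⟨t + δ 1 0 * v, ?_⟩).resolve_left ha
    linear_combination ht + δ 1 0 * hj
  refine ⟨j, !![δ 0 0, v; δ 1 0, u], by simpa using hc, by simp, ?_⟩
  rw [eq_mul_fin_two]
  simp only [heckeFam_some, Matrix.cons_val', Matrix.cons_val_zero, Matrix.cons_val_one,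
    Matrix.cons_val_fin_one, Matrix.of_apply]
  refine ⟨by ring, by linear_combination hj, by ring, by linear_combination hu⟩

/-- Uniqueness of right factors. -/
theorem heckeFam_right_unique {ℓ : ℕ} (hℓ : ℓ.Prime) {δ₁ δ₂ : M2}
    (h₁ : ¬ (ℓ : ℤ) ∣ δ₁.det) (h₂ : ¬ (ℓ : ℤ) ∣ δ₂.det) {i i' : Option (Fin ℓ)}
    (h : δ₁ * heckeFam ℓ i = δ₂ * heckeFam ℓ i') : i = i' := by
  have hp := Nat.prime_iff_prime_int.mp hℓ
  have key : ∀ {δ δ' : M2} {j : Fin ℓ}, ¬ (ℓ : ℤ) ∣ δ.det →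
      δ * heckeFam ℓ (some j) = δ' * heckeFam ℓ none → False := by
    intro δ δ' j hδ he
    rw [eq_mul_fin_two] at he
    simp [Matrix.mul_apply, Fin.sum_univ_two] at he
    refine hδ ?_
    rw [Matrix.det_fin_two]
    exact dvd_sub (dvd_mul_of_dvd_left ⟨δ' 0 0, by rw [he.1, mul_comm]⟩ _)
      (dvd_mul_of_dvd_right ⟨δ' 1 0, by rw [he.2.2.1, mul_comm]⟩ _)
  rcases i with _ | j <;> rcases i' with _ | j'
  · rfl
  · exact (key h₂ h.symm).elim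
  · exact (key h₁ h).elim
  · rw [eq_mul_fin_two] at h
    simp [Matrix.mul_apply, Fin.sum_univ_two] at h
    obtain ⟨e00, e01, e10, e11⟩ := h
    congr 1
    by_contra hne
    refine h₁ ?_
    rw [Matrix.det_fin_two]
    have hd : ¬ (ℓ : ℤ) ∣ ((j : ℕ) : ℤ) - ((j' : ℕ) : ℤ) := fun hd => hne (fin_eq_of_dvd_sub hd)
    have ha : (ℓ : ℤ) ∣ δ₁ 0 0 := (hp.dvd_mul.mp ⟨δ₂ 0 1 - δ₁ 0 1, by
      linear_combination e01 - ((j' : ℕ) : ℤ) * e00⟩).resolve_right hd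
    have hc : (ℓ : ℤ) ∣ δ₁ 1 0 := (hp.dvd_mul.mp ⟨δ₂ 1 1 - δ₁ 1 1, by
      linear_combination e11 - ((j' : ℕ) : ℤ) * e10⟩).resolve_right hd
    exact dvd_sub (dvd_mul_of_dvd_left ha _) (dvd_mul_of_dvd_right hc _)

/-- A prime does not divide one. -/
theorem not_prime_dvd_one {ℓ : ℕ} (hℓ : ℓ.Prime) : ¬ (ℓ : ℤ) ∣ (1 : ℤ) := fun h =>
  hℓ.ne_one (by exact_mod_cast Int.eq_one_of_dvd_one (by positivity) h)

/-- A prime does not divide the determinant of an element of `SL(2, ℤ)`. -/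
theorem not_dvd_det_SL {ℓ : ℕ} (hℓ : ℓ.Prime) (γ : SL(2, ℤ)) :
    ¬ (ℓ : ℤ) ∣ (γ : M2).det := by
  rw [γ.det_coe]; exact not_prime_dvd_one hℓ

/-- `Γ₀(M)` consists of the matrices with lower left entry divisible by `M`. -/
theorem mem_Gamma0_iff_dvd {M : ℕ} {γ : SL(2, ℤ)} : γ ∈ Gamma0 M ↔ (M : ℤ) ∣ γ 1 0 := by
  rw [Gamma0_mem, ZMod.intCast_zmod_eq_zero_iff_dvd]

/-- The data defining the Atkin–Lehner matrix at `q ∤ N`. -/
structure ALData (N q : ℕ) where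
  a : ℤ
  b : ℤ
  d : ℤ
  eq_one : (q : ℤ) * a * d - b * N = 1

/-- Atkin–Lehner data exist at a prime not dividing `N`. -/
theorem exists_alData {N q : ℕ} (hq : q.Prime) (hqN : ¬ q ∣ N) : Nonempty (ALData N q) := by
  obtain ⟨u, v, huv⟩ := ((Nat.prime_iff_prime_int.mp hq).coprime_iff_not_dvd.mpr
    (by exact_mod_cast hqN : ¬ (q : ℤ) ∣ N))
  exact ⟨⟨u, -v, 1, by linear_combination huv⟩⟩

namespace ALData

variable {N q : ℕ} (D : ALData N q)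

/-- The Atkin–Lehner matrix at `q`. -/
def mat : M2 := !![(q : ℤ) * D.a, D.b; (q : ℤ) * N, (q : ℤ) * D.d]

/-- The element `g₀` with `W = g₀ · diag(q,1)`. -/
def g₀ : SL(2, ℤ) := ⟨!![D.a, D.b; (N : ℤ), (q : ℤ) * D.d], by
  rw [Matrix.det_fin_two_of]; linear_combination D.eq_one⟩

/-- The square of the Atkin–Lehner matrix, divided by `q`. -/
def sq : SL(2, ℤ) := ⟨!![(q : ℤ) * D.a ^ 2 + D.b * N, D.b * (D.a + D.d);
    (q : ℤ) * N * (D.a + D.d), D.b * N + (q : ℤ) * D.d ^ 2], by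
  rw [Matrix.det_fin_two_of]
  linear_combination ((q : ℤ) * D.a * D.d - D.b * N + 1) * D.eq_one⟩

theorem mat_det : D.mat.det = q := by
  rw [mat, Matrix.det_fin_two_of]; linear_combination (q : ℤ) * D.eq_one

theorem g₀_mem : D.g₀ ∈ Gamma0 N := by
  rw [mem_Gamma0_iff_dvd]; simp [g₀]

theorem sq_mem : D.sq ∈ Gamma0 (N * q) := by
  rw [mem_Gamma0_iff_dvd]; simp [sq, Nat.cast_mul]
  exact ⟨D.a + D.d, by ring⟩

theorem mat_eq : D.mat = (D.g₀ : M2) * heckeFam q none := by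
  rw [eq_mul_fin_two]; simp [mat, g₀, mul_comm]

theorem mat_mul_mat : D.mat * D.mat = (q : ℤ) • (D.sq : M2) := by
  symm
  rw [eq_mul_fin_two]
  simp [mat, sq]
  refine ⟨by ring, by ring, by ring, by ring⟩

/-- Conjugation by `W` on the left. -/
theorem exists_mat_mul {A : M2} (hA : ((N * q : ℕ) : ℤ) ∣ A 1 0) :
    ∃ δ : M2, δ.det = A.det ∧ ((N * q : ℕ) : ℤ) ∣ δ 1 0 ∧ D.mat * A = δ * D.mat := by
  obtain ⟨c₀, hc⟩ := hA
  push_cast at hc ⊢
  refine ⟨!![D.d * (q * D.a * A 0 0 + D.b * A 1 0) - N * (q * D.a * A 0 1 + D.b * A 1 1),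
      -D.b * D.a * A 0 0 - D.b ^ 2 * (N * c₀) + D.a * (q * D.a * A 0 1 + D.b * A 1 1);
    q * (D.d * (N * A 0 0 + D.d * A 1 0) - N * (N * A 0 1 + D.d * A 1 1)),
      -D.b * (N * A 0 0 + D.d * A 1 0) + q * D.a * (N * A 0 1 + D.d * A 1 1)], ?_, ?_, ?_⟩
  · rw [Matrix.det_fin_two_of, Matrix.det_fin_two]
    simp only [hc]
    linear_combination ((A 0 0 * A 1 1 - A 0 1 * (N * q * c₀))
      * ((q : ℤ) * D.a * D.d - D.b * N + 1)) * D.eq_one
  · simp only [hc, Matrix.of_apply, Matrix.cons_val', Matrix.cons_val_zero, Matrix.cons_val_one,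
      Matrix.cons_val_fin_one]
    exact ⟨D.d * (A 0 0 + D.d * q * c₀) - (N * A 0 1 + D.d * A 1 1), by ring⟩
  · rw [eq_mul_fin_two]
    simp [mat, Matrix.mul_apply, Fin.sum_univ_two, hc]
    refine ⟨?_, ?_, ?_, ?_⟩
    · linear_combination -((q : ℤ) * D.a * A 0 0 + D.b * (N * q * c₀)) * D.eq_one
    · linear_combination -((q : ℤ) * D.a * A 0 1 + D.b * A 1 1) * D.eq_one
    · linear_combination -((q : ℤ) * N * A 0 0 + q * D.d * (N * q * c₀)) * D.eq_one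
    · linear_combination -((q : ℤ) * N * A 0 1 + q * D.d * A 1 1) * D.eq_one

/-- Conjugation by `W` on the right. -/
theorem exists_mul_mat {A : M2} (hA : ((N * q : ℕ) : ℤ) ∣ A 1 0) :
    ∃ δ : M2, δ.det = A.det ∧ ((N * q : ℕ) : ℤ) ∣ δ 1 0 ∧ A * D.mat = D.mat * δ := by
  obtain ⟨c₀, hc⟩ := hA
  push_cast at hc ⊢
  refine ⟨!![(q * D.d * A 0 0 - D.b * A 1 0) * D.a + (q * D.d * A 0 1 - D.b * A 1 1) * N,
      D.d * D.b * A 0 0 - D.b ^ 2 * (N * c₀) + (q * D.d * A 0 1 - D.b * A 1 1) * D.d;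
    q * ((-N * A 0 0 + D.a * A 1 0) * D.a + (-N * A 0 1 + D.a * A 1 1) * N),
      (-N * A 0 0 + D.a * A 1 0) * D.b + (-N * A 0 1 + D.a * A 1 1) * (q * D.d)], ?_, ?_, ?_⟩
  · rw [Matrix.det_fin_two_of, Matrix.det_fin_two]
    simp only [hc]
    linear_combination ((A 0 0 * A 1 1 - A 0 1 * (N * q * c₀))
      * ((q : ℤ) * D.a * D.d - D.b * N + 1)) * D.eq_one
  · simp only [hc, Matrix.of_apply, Matrix.cons_val', Matrix.cons_val_zero, Matrix.cons_val_one,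
      Matrix.cons_val_fin_one]
    exact ⟨(-A 0 0 + D.a * q * c₀) * D.a + (-N * A 0 1 + D.a * A 1 1), by ring⟩
  · rw [eq_mul_fin_two]
    simp [mat, Matrix.mul_apply, Fin.sum_univ_two, hc]
    refine ⟨?_, ?_, ?_, ?_⟩
    · linear_combination -((q : ℤ) * D.a * A 0 0 + q * N * A 0 1) * D.eq_one
    · linear_combination -(D.b * A 0 0 + q * D.d * A 0 1) * D.eq_one
    · linear_combination -((q : ℤ) * D.a * (N * q * c₀) + q * N * A 1 1) * D.eq_one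
    · linear_combination -(D.b * (N * q * c₀) + q * D.d * A 1 1) * D.eq_one

/-- Coset representatives of `Γ₀(Nq)` in `Γ₀(N)`. -/
def cosetRep : Option (Fin q) → SL(2, ℤ)
  | none => 1
  | some j => ⟨!![D.a, D.a * ((j : ℕ) : ℤ) + D.b; (N : ℤ), N * ((j : ℕ) : ℤ) + q * D.d], by
      rw [Matrix.det_fin_two_of]; linear_combination D.eq_one⟩

theorem cosetRep_mem (i : Option (Fin q)) : D.cosetRep i ∈ Gamma0 N := by
  rw [mem_Gamma0_iff_dvd]
  cases i <;> simp [cosetRep]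

theorem mat_mul_heckeFam (j : Fin q) :
    D.mat * heckeFam q (some j) = (q : ℤ) • (D.cosetRep (some j) : M2) := by
  symm
  rw [eq_mul_fin_two]
  simp [mat, cosetRep]
  refine ⟨by ring, by ring⟩

theorem exists_eq_mul_cosetRep (hq : q.Prime) (hqN : ¬ q ∣ N) {γ : SL(2, ℤ)}
    (hγ : γ ∈ Gamma0 N) : ∃ i, γ * (D.cosetRep i)⁻¹ ∈ Gamma0 (N * q) := by
  obtain ⟨c₀, hc⟩ := mem_Gamma0_iff_dvd.mp hγ
  by_cases h : (q : ℤ) ∣ c₀
  · refine ⟨none, ?_⟩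
    obtain ⟨e, he⟩ := h
    rw [cosetRep, inv_one, mul_one, mem_Gamma0_iff_dvd]
    exact ⟨e, by rw [hc, he]; push_cast; ring⟩
  · have h' : ¬ (q : ℤ) ∣ c₀ * N := fun h' =>
      ((Nat.prime_iff_prime_int.mp hq).dvd_mul.mp h').elim h (by exact_mod_cast hqN)
    obtain ⟨j, e, he⟩ := exists_fin_modEq hq h' (γ 1 1)
    refine ⟨some j, mem_Gamma0_iff_dvd.mpr ⟨c₀ * D.d - e, ?_⟩⟩
    rw [Matrix.SpecialLinearGroup.coe_mul, Matrix.SpecialLinearGroup.coe_inv]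
    simp [cosetRep, Matrix.mul_apply, Fin.sum_univ_two, Matrix.adjugate_fin_two, hc]
    linear_combination -(N : ℤ) * he

theorem cosetRep_injective (hq : q.Prime) (hqN : ¬ q ∣ N) {i i' : Option (Fin q)}
    (h : D.cosetRep i * (D.cosetRep i')⁻¹ ∈ Gamma0 (N * q)) : i = i' := by
  have hp := Nat.prime_iff_prime_int.mp hq
  have hN0 : (N : ℤ) ≠ 0 := by
    have : N ≠ 0 := fun h0 => hqN (h0 ▸ dvd_zero q)
    exact_mod_cast this
  obtain ⟨e, he⟩ := mem_Gamma0_iff_dvd.mp h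
  rw [Matrix.SpecialLinearGroup.coe_mul, Matrix.SpecialLinearGroup.coe_inv] at he
  simp only [Matrix.mul_apply, Fin.sum_univ_two, Matrix.adjugate_fin_two] at he
  rcases i with _ | j <;> rcases i' with _ | j' <;> simp [cosetRep] at he
  · rfl
  · exact (not_prime_dvd_one hq ⟨-e, mul_left_cancel₀ hN0 (by linear_combination -he)⟩).elim
  · exact (not_prime_dvd_one hq ⟨e, mul_left_cancel₀ hN0 (by linear_combination he)⟩).elim
  · have h1 : (q : ℤ) ∣ (N : ℤ) * (((j : ℕ) : ℤ) - ((j' : ℕ) : ℤ)) :=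
      ⟨-e, mul_left_cancel₀ hN0 (by linear_combination -he)⟩
    exact congrArg some (fin_eq_of_dvd_sub ((hp.dvd_mul.mp h1).resolve_left
      (by exact_mod_cast hqN)))

end ALData

end FLTAgent.LevelRaising
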