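import Fermat.Agent.Density.Chebotarev
import Fermat.Prelude.Def_GaloisRep_ComplexConjugation
import Mathlib.FieldTheory.Galois.Infinite
import Mathlib.NumberTheory.Padics.PadicVal.Basic

/-!
# Primes modulo which a fixed prime has small multiplicative order at a given prime

Given primes `q`, `r` and a class `a` modulo `m`, there is a prime `ℓ` in the class such that the
order of `q` modulo `ℓ` divides some `k` with `v_r k ≤ v_r 2`.
-/

set_option autoImplicit false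

noncomputable section

namespace FLTAgent.LevelRaising

/-- Powers of a primitive root of unity agree exactly for congruent exponents. -/
theorem primitiveRoot_pow_eq_pow_iff {R : Type*} [CommMonoid R] {ζ : R} {m : ℕ} [NeZero m]
    (hζ : IsPrimitiveRoot ζ m) (a b : ℕ) : ζ ^ a = ζ ^ b ↔ a ≡ b [MOD m] := by
  obtain ⟨u, rfl⟩ := hζ.isUnit (NeZero.ne m)
  rw [← Units.val_pow_eq_pow_val, ← Units.val_pow_eq_pow_val, Units.val_inj, pow_eq_pow_iff_modEq,
    ← orderOf_units, ← hζ.eq_orderOf]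

/-- A real algebraic number with an exact power equal to a prime is not radical over the
cyclotomic fields, once the exponent is an odd prime or four. -/
theorem exists_fix_root_of_unity_apply_ne {q : ℕ} (hq : q.Prime) {k : ℕ} (hk : ¬ k ∣ 2)
    {m : ℕ} [NeZero m] {ζ α : Density.Qbar} (hζ : IsPrimitiveRoot ζ m) (hα : α ^ k = q)
    (hreal : complexConjugation α = α) :
    ∃ τ : Density.GalQ, τ ζ = ζ ∧ τ α ≠ α := by
  by_contra hall
  push Not at hall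
  have hk0 : k ≠ 0 := by
    rintro rfl
    simp only [pow_zero] at hα
    exact hq.one_lt.ne' (by exact_mod_cast hα.symm)
  have hα0 : α ≠ 0 := by
    rintro rfl
    rw [zero_pow hk0] at hα
    exact hq.ne_zero (by exact_mod_cast hα.symm)
  have hcomm : ∀ s t : Density.GalQ, s (t ζ) = t (s ζ) := by
    intro s t
    obtain ⟨i, -, hi⟩ := hζ.eq_pow_of_pow_eq_one
      (show (s ζ) ^ m = 1 by rw [← map_pow, hζ.pow_eq_one, map_one])
    obtain ⟨j, -, hj⟩ := hζ.eq_pow_of_pow_eq_one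
      (show (t ζ) ^ m = 1 by rw [← map_pow, hζ.pow_eq_one, map_one])
    rw [← hi, ← hj, map_pow, map_pow, ← hi, ← hj, pow_right_comm]
  -- every conjugate of `α` is real
  have hfix : ∀ σ : Density.GalQ, complexConjugation (σ α) = σ α := by
    intro σ
    have h := hall (σ⁻¹ * complexConjugation * σ * complexConjugation⁻¹) (by
      simp only [AlgEquiv.mul_apply]
      rw [hcomm σ (complexConjugation⁻¹), ← AlgEquiv.mul_apply complexConjugation,
        mul_inv_cancel, AlgEquiv.one_apply, ← AlgEquiv.mul_apply σ⁻¹, inv_mul_cancel,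
        AlgEquiv.one_apply])
    rw [complexConjugation_inv] at h
    simp only [AlgEquiv.mul_apply, hreal] at h
    have h' := congrArg σ h
    rwa [← AlgEquiv.mul_apply σ σ⁻¹, mul_inv_cancel, AlgEquiv.one_apply] at h'
  have hsq : ∀ σ : Density.GalQ, σ (α ^ 2) = α ^ 2 := by
    intro σ
    set ω := σ α / α with hωdef
    have hωk : ω ^ k = 1 := by
      rw [hωdef, div_pow, ← map_pow, hα, map_natCast,
        div_self (by exact_mod_cast hq.ne_zero)]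
    have hωr : complexConjugation ω = ω := by rw [hωdef, map_div₀, hfix σ, hreal]
    have hre : starRingEnd ℂ (complexEmbedding ω) = complexEmbedding ω := by
      rw [← complexEmbedding_complexConjugation, hωr]
    obtain ⟨x, hx⟩ := Complex.conj_eq_iff_real.mp hre
    have hxk : x ^ k = 1 := by
      have h := congrArg complexEmbedding hωk
      rw [map_pow, map_one, hx] at h
      exact_mod_cast h
    have hxabs : |x| = 1 := (pow_eq_one_iff_of_nonneg (abs_nonneg x) hk0).mp (by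
      rw [← abs_pow, hxk, abs_one])
    have hω2 : ω ^ 2 = 1 := by
      refine complexEmbedding.toRingHom.injective ?_
      show complexEmbedding (ω ^ 2) = complexEmbedding 1
      rw [map_pow, map_one, hx, ← Complex.ofReal_pow, ← sq_abs, hxabs, one_pow,
        Complex.ofReal_one]
    rw [hωdef, div_pow, div_eq_one_iff_eq (pow_ne_zero _ hα0)] at hω2
    rw [map_pow, hω2]
  have : IsGalois ℚ Density.Qbar := {}
  obtain ⟨x, hx⟩ := IntermediateField.mem_bot.mp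
    ((InfiniteGalois.mem_bot_iff_fixed (k := ℚ) (α ^ 2)).mpr hsq)
  have hxq : x ^ k = (q : ℚ) ^ 2 := by
    apply (algebraMap ℚ Density.Qbar).injective
    rw [map_pow, map_pow, hx, ← pow_mul, mul_comm, pow_mul, hα, map_natCast]
  have hv := congrArg (padicValRat q) hxq
  have := Fact.mk hq
  have hx0 : x ≠ 0 := by
    rintro rfl
    rw [zero_pow hk0] at hxq
    exact pow_ne_zero 2 (Nat.cast_ne_zero.mpr hq.ne_zero) hxq.symm
  rw [padicValRat.pow, padicValRat.pow, padicValRat.self hq.one_lt] at hv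
  apply hk
  have : (k : ℤ) ∣ 2 := ⟨padicValRat q x, by simpa using hv.symm⟩
  exact_mod_cast this

/-- A lift of a residue class whose predecessor is not too divisible by `r`. -/
theorem exists_coprime_lift {r : ℕ} (hr : r.Prime) {m : ℕ} (hm : 0 < m) {a : ℕ}
    (ha : a.Coprime m) :
    ∃ (a' e : ℕ), r ^ e ∣ m * r ^ 2 ∧ a'.Coprime (m * r ^ 2) ∧ a' ≡ a [MOD m] ∧
      ¬ (r ^ e : ℤ) ∣ (a' : ℤ) - 1 := by
  by_cases hrm : r ∣ m
  · refine ⟨if (r ^ (m.factorization r + 1) : ℤ) ∣ (a : ℤ) - 1 then a + m else a,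
      m.factorization r + 1, ?_, ?_, ?_, ?_⟩
    · rw [pow_succ, pow_two, ← mul_assoc]
      exact dvd_mul_of_dvd_left (mul_dvd_mul_right (Nat.ordProj_dvd m r) r) r
    · have h : ∀ x : ℕ, x.Coprime m → x.Coprime (m * r ^ 2) := fun x hx =>
        hx.mul_right ((hx.coprime_dvd_right hrm).pow_right 2)
      split_ifs
      · exact h _ (by simpa using ha)
      · exact h _ ha
    · split_ifs
      · simp [Nat.ModEq]
      · rfl
    · split_ifs with h
      · intro h'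
        have hd : (r ^ (m.factorization r + 1) : ℤ) ∣ (m : ℤ) := by
          have := dvd_sub h' h
          push_cast at this
          rwa [add_sub_right_comm, add_sub_cancel_left] at this
        exact Nat.pow_succ_factorization_not_dvd hm.ne' hr (by exact_mod_cast hd)
      · exact h
  · have hco : m.Coprime (r ^ 2) := ((hr.coprime_iff_not_dvd.mpr hrm).symm).pow_right 2
    obtain ⟨x, hx1, hx2⟩ := Nat.chineseRemainder hco a (r ^ 2 - 1)
    have hr2 : 4 ≤ r ^ 2 := by nlinarith [hr.two_le]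
    refine ⟨x, 2, dvd_mul_left _ _, ?_, hx1, ?_⟩
    · refine Nat.Coprime.mul_right ?_ ?_
      · rw [Nat.Coprime, hx1.gcd_eq]; exact ha
      · rw [Nat.Coprime, hx2.gcd_eq]
        exact (Nat.coprime_self_sub_left (show 1 ≤ r ^ 2 by omega)).mpr (Nat.coprime_one_left _)
    · intro h
      have h1 : ((r ^ 2 : ℕ) : ℤ) ∣ (((r ^ 2 - 1 : ℕ) : ℤ)) - x :=
        Nat.modEq_iff_dvd.mp hx2
      push_cast [show 1 ≤ r ^ 2 by omega] at h1
      have h2 : (r : ℤ) ^ 2 ∣ 2 := by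
        have := dvd_sub (dvd_refl ((r : ℤ) ^ 2)) (dvd_add h h1)
        ring_nf at this ⊢
        simpa using this
      have := Int.le_of_dvd two_pos h2
      have : (4 : ℤ) ≤ (r : ℤ) ^ 2 := by exact_mod_cast hr2
      omega

/-- A Frobenius element at a prime congruent to one modulo four, for which `q` is a quadratic
residue, fixes every square root of `q`. -/
theorem frobenius_fix_sqrt {q ℓ : ℕ} (hq : q.Prime) (hℓ : ℓ.Prime) (hℓ2 : ℓ ≠ 2) (hℓq : ℓ ≠ q)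
    (hsq : IsSquare (q : ZMod ℓ)) {A : ValuationSubring Density.Qbar} (hA : A.LiesOverPrime ℓ)
    {σ : Density.GalQ} (hσ : A.IsFrobeniusAt σ ℓ) {β : Density.Qbar} (hβ : β ^ 2 = q) :
    σ β = β := by
  have := Fact.mk hℓ
  have hq0 : (q : ZMod ℓ) ≠ 0 := by
    rw [Ne, ZMod.natCast_eq_zero_iff]
    exact fun h => hℓq ((Nat.prime_dvd_prime_iff_eq hℓ hq).mp h)
  have hdvd : (ℓ : ℤ) ∣ (q : ℤ) ^ (ℓ / 2) - 1 := by
    rw [← ZMod.intCast_zmod_eq_zero_iff_dvd]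
    push_cast
    rw [(ZMod.euler_criterion ℓ hq0).mp hsq, sub_self]
  have hβA : β ∈ A := Density.mem_of_isIntegral A
    (IsIntegral.of_pow two_pos (hβ ▸ isIntegral_natCast q))
  obtain ⟨-, hc⟩ := Density.isFrobeniusAt_iff.mp hσ
  have h1 := hc β hβA
  have hpow : β ^ ℓ = β * ((q : Density.Qbar) ^ (ℓ / 2)) := by
    rw [← hβ, ← pow_mul, mul_comm β, ← pow_succ,
      show 2 * (ℓ / 2) + 1 = ℓ by have := hℓ.eq_two_or_odd.resolve_left hℓ2; omega]
  rcases eq_or_eq_neg_of_sq_eq_sq (σ β) β (by rw [← map_pow, hβ, map_natCast]) with h | h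
  · exact h
  exfalso
  have hmul : ∀ {x y : Density.Qbar}, x ∈ A.nonunits → y ∈ A → x * y ∈ A.nonunits := by
    intro x y hx hy
    rw [ValuationSubring.mem_nonunits_iff] at hx ⊢
    rw [map_mul]
    exact lt_of_le_of_lt (mul_le_of_le_one_right' ((A.valuation_le_one_iff _).mpr hy)) hx
  have h2 := hmul h1 hβA
  have h3 : (σ β - β ^ ℓ) * β =
      ((-((q : ℤ) * (((q : ℤ) ^ (ℓ / 2) - 1) + 2)) : ℤ) : Density.Qbar) := by
    rw [h, hpow]
    push_cast
    rw [← hβ]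
    ring
  rw [h3, Density.natCast_mem_nonunits_iff hℓ hA, dvd_neg] at h2
  rcases (Nat.prime_iff_prime_int.mp hℓ).dvd_or_dvd h2 with h4 | h4
  · exact hℓq ((Nat.prime_dvd_prime_iff_eq hℓ hq).mp (by exact_mod_cast h4))
  · rw [dvd_add_right hdvd] at h4
    exact hℓ2 ((Nat.prime_dvd_prime_iff_eq hℓ Nat.prime_two).mp (by exact_mod_cast h4))

/-- An integer not divisible by `r ^ e` has an exact power of `r` dividing it, below the `e`-th. -/
private theorem exists_exact_pow_dvd {r : ℕ} (hr : r.Prime) {e : ℕ} {x : ℤ}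
    (hx : ¬ (r ^ e : ℤ) ∣ x) :
    ∃ j : ℕ, j + 1 ≤ e ∧ (r ^ j : ℤ) ∣ x ∧ ¬ (r ^ (j + 1) : ℤ) ∣ x := by
  have hx0 : x.natAbs ≠ 0 := by
    intro h0
    exact hx (by rw [Int.natAbs_eq_zero.mp h0]; exact dvd_zero _)
  have h1 : (r ^ x.natAbs.factorization r : ℤ) ∣ x := by
    exact_mod_cast Int.natCast_dvd.mpr (Nat.ordProj_dvd x.natAbs r)
  refine ⟨x.natAbs.factorization r, ?_, h1, fun h => ?_⟩
  · by_contra h
    exact hx (dvd_trans (pow_dvd_pow _ (by omega)) h1)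
  · exact Nat.pow_succ_factorization_not_dvd hx0 hr (Int.natCast_dvd.mp (by exact_mod_cast h))

/-- In a class with `r ^ j` exactly dividing `a - 1`, it exactly divides `ℓ - 1`. -/
private theorem exists_sub_one_eq_pow_mul {r j M a ℓ : ℕ} (hj1 : (r ^ j : ℤ) ∣ (a : ℤ) - 1)
    (hj2 : ¬ (r ^ (j + 1) : ℤ) ∣ (a : ℤ) - 1) (hjM : r ^ (j + 1) ∣ M) (hℓ : 1 ≤ ℓ)
    (hmod : ℓ ≡ a [MOD M]) : ∃ u, ℓ - 1 = r ^ j * u ∧ ¬ r ∣ u := by
  have h2 : (r ^ (j + 1) : ℤ) ∣ (a : ℤ) - ℓ :=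
    dvd_trans (by exact_mod_cast hjM) (Nat.modEq_iff_dvd.mp hmod)
  have h : ((r ^ j : ℕ) : ℤ) ∣ (ℓ : ℤ) - 1 := by
    push_cast
    simpa using dvd_sub hj1 (dvd_trans (pow_dvd_pow _ (Nat.le_succ j)) h2)
  rw [← Nat.cast_one, ← Nat.cast_sub hℓ, Int.natCast_dvd_natCast] at h
  obtain ⟨u, hu⟩ := h
  refine ⟨u, hu, ?_⟩
  rintro ⟨u', rfl⟩
  refine hj2 ?_
  have h1 : (r ^ (j + 1) : ℤ) ∣ (ℓ : ℤ) - 1 := by
    refine ⟨u', ?_⟩
    have := congrArg (Nat.cast : ℕ → ℤ) hu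
    rw [Nat.cast_sub hℓ] at this
    push_cast at this
    rw [this]; ring
  simpa using dvd_add h2 h1

/-- When `r ^ j` divides two, any prime in the class works with the exponent `ℓ - 1`. -/
private theorem exists_prime_small_order_of_dvd_two {q : ℕ} (hq : q.Prime) {r : ℕ} (hr : r.Prime)
    {M : ℕ} (hM : M ≠ 0) {a j : ℕ} (hcop : a.Coprime M) (hj1 : (r ^ j : ℤ) ∣ (a : ℤ) - 1)
    (hj2 : ¬ (r ^ (j + 1) : ℤ) ∣ (a : ℤ) - 1) (hjM : r ^ (j + 1) ∣ M) (hj : r ^ j ∣ 2)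
    (S : Finset ℕ) :
    ∃ ℓ, ℓ.Prime ∧ ℓ ∉ S ∧ ℓ ≡ a [MOD M] ∧ ∃ k : ℕ, 0 < k ∧ (ℓ : ℤ) ∣ (q : ℤ) ^ k - 1 ∧
      k.factorization r ≤ (2 : ℕ).factorization r := by
  obtain ⟨ℓ, hℓgt, hℓ, hℓmod⟩ := Nat.forall_exists_prime_gt_and_modEq (q + ∑ x ∈ S, x) hM hcop
  obtain ⟨u, hu, hru⟩ := exists_sub_one_eq_pow_mul hj1 hj2 hjM hℓ.one_le hℓmod
  have hu0 : u ≠ 0 := fun h => hru (h ▸ dvd_zero r)
  refine ⟨ℓ, hℓ, fun h => ?_, hℓmod, ℓ - 1, by have := hℓ.two_le; omega, ?_, ?_⟩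
  · have := Finset.single_le_sum (f := fun x => x) (fun _ _ => Nat.zero_le _) h
    omega
  · have := Fact.mk hℓ
    rw [← ZMod.intCast_zmod_eq_zero_iff_dvd]
    push_cast
    rw [ZMod.pow_card_sub_one_eq_one, sub_self]
    rw [Ne, ZMod.natCast_eq_zero_iff]
    intro h
    have := (Nat.prime_dvd_prime_iff_eq hℓ hq).mp h
    omega
  · rw [hu, Nat.factorization_mul (pow_ne_zero _ hr.ne_zero) hu0, Finsupp.coe_add, Pi.add_apply,
      Nat.factorization_eq_zero_of_not_dvd hru, add_zero]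
    exact (Nat.factorization_le_iff_dvd (pow_ne_zero _ hr.ne_zero) two_ne_zero).mpr hj r

/-- A prime has a real `n`-th root among the algebraic numbers. -/
private theorem exists_real_pow_eq {q : ℕ} (hq : q ≠ 0) {n : ℕ} [NeZero n] {z : Density.Qbar}
    (hz : IsPrimitiveRoot z n) :
    ∃ θ : Density.Qbar, θ ^ n = q ∧ complexConjugation θ = θ := by
  have hn : 0 < n := NeZero.pos n
  obtain ⟨θ₀, hθ₀⟩ := IsAlgClosed.exists_pow_nat_eq (q : Density.Qbar) hn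
  set x : ℂ := (((q : ℝ) ^ ((n : ℝ)⁻¹) : ℝ) : ℂ) with hxdef
  have hx : x ^ n = q := by
    rw [hxdef, ← Complex.ofReal_pow, Real.rpow_inv_natCast_pow (Nat.cast_nonneg q) hn.ne',
      Complex.ofReal_natCast]
  have h0 : complexEmbedding θ₀ ^ n = q := by rw [← map_pow, hθ₀, map_natCast]
  have hq0 : (q : ℂ) ≠ 0 := Nat.cast_ne_zero.mpr hq
  have hne : complexEmbedding θ₀ ≠ 0 := fun h => hq0 (by rw [← h0, h, zero_pow hn.ne'])
  obtain ⟨i, -, hi⟩ := (hz.map_of_injective complexEmbedding.toRingHom.injective)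
    |>.eq_pow_of_pow_eq_one (show (x / complexEmbedding θ₀) ^ n = 1 by
      rw [div_pow, hx, h0, div_self hq0])
  have hemb : complexEmbedding (z ^ i * θ₀) = x := by
    rw [map_mul, map_pow]
    erw [hi]
    field_simp
  refine ⟨z ^ i * θ₀, ?_, ?_⟩
  · rw [mul_pow, ← pow_mul, mul_comm i, pow_mul, hz.pow_eq_one, one_pow, one_mul, hθ₀]
  · apply complexEmbedding.toRingHom.injective
    show complexEmbedding _ = complexEmbedding _
    rw [complexEmbedding_complexConjugation, hemb, hxdef, Complex.conj_ofReal]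

/-- An automorphism multiplies an `n`-th root of a natural number by an `n`-th root of unity. -/
private theorem exists_apply_eq_pow_mul {q : ℕ} (hq : q ≠ 0) {n : ℕ} [NeZero n]
    {z θ : Density.Qbar} (hz : IsPrimitiveRoot z n) (hθ : θ ^ n = q) (s : Density.GalQ) :
    ∃ t : ℕ, s θ = z ^ t * θ := by
  have hθ0 : θ ≠ 0 := by
    rintro rfl
    rw [zero_pow (NeZero.ne n)] at hθ
    exact hq (by exact_mod_cast hθ.symm)
  obtain ⟨t, -, ht⟩ := hz.eq_pow_of_pow_eq_one (show (s θ / θ) ^ n = 1 by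
    rw [div_pow, ← map_pow, hθ, map_natCast, div_self (Nat.cast_ne_zero.mpr hq)])
  exact ⟨t, by rw [ht, div_mul_cancel₀ _ hθ0]⟩

/-- A prime in a class modulo `M`, congruent to one modulo `q` when `q` is prime to `M`. -/
private theorem exists_prime_modEq_and_modEq_one {q M a : ℕ} (hq : 0 < q) (hM : 0 < M)
    (hcop : a.Coprime M) :
    ∃ ℓ : ℕ, ℓ.Prime ∧ ℓ ≠ q ∧ ¬ ℓ ∣ M ∧ ℓ ≡ a [MOD M] ∧ (M.Coprime q → ℓ ≡ 1 [MOD q]) := by
  have hgt : ∀ ℓ : ℕ, q + M < ℓ → ℓ ≠ q ∧ ¬ ℓ ∣ M := fun ℓ h =>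
    ⟨by omega, fun hd => by have := Nat.le_of_dvd hM hd; omega⟩
  by_cases hco : M.Coprime q
  · obtain ⟨x, hx1, hx2⟩ := Nat.chineseRemainder hco a 1
    have hxc : x.Coprime (M * q) := Nat.Coprime.mul_right
      (by rw [Nat.Coprime, hx1.gcd_eq]; exact hcop)
      (by rw [Nat.Coprime, hx2.gcd_eq]; simp)
    obtain ⟨ℓ, hℓgt, hℓ, hℓmod⟩ := Nat.forall_exists_prime_gt_and_modEq (q + M)
      (Nat.mul_pos hM hq).ne' hxc
    exact ⟨ℓ, hℓ, (hgt ℓ hℓgt).1, (hgt ℓ hℓgt).2,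
      (hℓmod.of_dvd (dvd_mul_right _ _)).trans hx1,
      fun _ => (hℓmod.of_dvd (dvd_mul_left _ _)).trans hx2⟩
  · obtain ⟨ℓ, hℓgt, hℓ, hℓmod⟩ := Nat.forall_exists_prime_gt_and_modEq (q + M) hM.ne' hcop
    exact ⟨ℓ, hℓ, (hgt ℓ hℓgt).1, (hgt ℓ hℓgt).2, hℓmod, fun h => absurd h hco⟩

/-- An automorphism raising `ζ` to the power `a`, and fixing a square root of `q` if `r = 2`. -/
private theorem exists_aut_pow_fix_sqrt {q : ℕ} (hq : q.Prime) {r : ℕ} {m : ℕ}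
    (hqm : ¬ q ∣ m) {a j : ℕ} [NeZero (m * r ^ 2)] (hcop : a.Coprime (m * r ^ 2))
    (hj1 : (r ^ j : ℤ) ∣ (a : ℤ) - 1) (hjM : r ^ (j + 1) ∣ m * r ^ 2) (hj : ¬ r ^ j ∣ 2)
    {ζ θ : Density.Qbar} (hζ : IsPrimitiveRoot ζ (m * r ^ 2)) (hθ : θ ^ r ^ j = q) :
    ∃ σ : Density.GalQ, σ ζ = ζ ^ a ∧ (r = 2 → σ (θ ^ (r ^ j / 2)) = θ ^ (r ^ j / 2)) := by
  obtain ⟨ℓ, hℓ, hℓq, hℓM, hmod, hmod₁⟩ :=
    exists_prime_modEq_and_modEq_one hq.pos (NeZero.pos (m * r ^ 2)) hcop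
  obtain ⟨B, hB⟩ := Density.exists_liesOverPrime hℓ
  obtain ⟨σ, hσ⟩ := Density.exists_isFrobeniusAt B hℓ hB
  refine ⟨σ, ?_, fun hr2 => ?_⟩
  · rw [Density.isFrobeniusAt_apply_of_pow_eq_one hℓ hB hσ hℓM hζ.pow_eq_one,
      primitiveRoot_pow_eq_pow_iff hζ]
    exact hmod
  subst hr2
  have hj4 : 2 ≤ j := by
    by_contra h
    exact hj (pow_dvd_pow 2 (show j ≤ 1 by omega))
  have hq2 : q ≠ 2 := by
    rintro rfl
    -- `m` is odd, so `r ^ (j + 1)` divides four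
    have hco : (2 ^ (j + 1)).Coprime m := ((Nat.prime_two.coprime_iff_not_dvd).mpr hqm).pow_left _
    have := (Nat.pow_dvd_pow_iff_le_right (by norm_num)).mp (hco.dvd_of_dvd_mul_left hjM)
    omega
  have hℓ4 : ℓ % 4 = 1 := by
    have h4n : (4 : ℤ) ∣ (a : ℤ) - 1 := dvd_trans (pow_dvd_pow (2 : ℤ) hj4) hj1
    have h4l : (4 : ℤ) ∣ (a : ℤ) - ℓ :=
      dvd_trans (Int.natCast_dvd_natCast.mpr (dvd_mul_left 4 m)) (Nat.modEq_iff_dvd.mp hmod)
    omega
  have hco : (m * 2 ^ 2).Coprime q := (hq.coprime_iff_not_dvd.mpr fun h =>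
    (hq.dvd_mul.mp h).elim hqm fun h' =>
      hq2 ((Nat.prime_dvd_prime_iff_eq hq Nat.prime_two).mp (hq.dvd_of_dvd_pow h'))).symm
  have := Fact.mk hℓ
  have := Fact.mk hq
  have hsq : IsSquare (q : ZMod ℓ) := by
    rw [ZMod.exists_sq_eq_prime_iff_of_mod_four_eq_one hℓ4 hq2,
      (ZMod.natCast_eq_natCast_iff ℓ 1 q).mpr (hmod₁ hco), Nat.cast_one]
    exact IsSquare.one
  refine frobenius_fix_sqrt hq hℓ (by omega) hℓq hsq hB hσ ?_
  rw [← pow_mul, Nat.div_mul_cancel (dvd_pow_self 2 (show j ≠ 0 by omega)), hθ]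

/-- If four or `r` does not divide `t`, `gcd t (r ^ j)` divides `s` (even when `r = 2`). -/
private theorem gcd_pow_dvd_of_not_dvd {r : ℕ} (hr : r.Prime) {j t s : ℕ}
    (ht : ¬ (if r = 2 then 4 else r) ∣ t) (hs : r = 2 → 2 ∣ s) : Nat.gcd t (r ^ j) ∣ s := by
  obtain ⟨i, -, hi⟩ := (Nat.dvd_prime_pow hr).mp (Nat.gcd_dvd_right t (r ^ j))
  rw [hi]
  have hit : r ^ i ∣ t := hi ▸ Nat.gcd_dvd_left t (r ^ j)
  rcases i with _ | _ | i
  · simp
  · by_cases h2 : r = 2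
    · simpa [h2] using hs h2
    · rw [if_neg h2] at ht
      exact absurd (by simpa using hit) ht
  · exfalso
    refine ht (dvd_trans ?_ hit)
    split_ifs with h2
    · exact h2 ▸ ⟨2 ^ i, by ring⟩
    · exact dvd_pow_self r (Nat.succ_ne_zero _)

/-- A multiple of `gcd t n` is cancelled modulo `n` by a multiple of `t`. -/
private theorem exists_dvd_add_mul {n t s : ℕ} [NeZero n] (h : Nat.gcd t n ∣ s) :
    ∃ i : ℕ, n ∣ s + i * t := by
  obtain ⟨w, hw⟩ := h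
  refine ⟨(-(w : ZMod n) * (Nat.gcdA t n : ZMod n)).val, (ZMod.natCast_eq_zero_iff _ _).mp ?_⟩
  have hb : ((Nat.gcd t n : ℕ) : ZMod n) = (t : ZMod n) * (Nat.gcdA t n : ZMod n) := by
    have := congrArg (Int.cast : ℤ → ZMod n) (Nat.gcd_eq_gcd_ab t n)
    push_cast at this
    rw [ZMod.natCast_self, zero_mul, add_zero] at this
    exact this
  push_cast
  rw [ZMod.natCast_zmod_val, hw, Nat.cast_mul]
  linear_combination (w : ZMod n) * hb

/-- Iterates of an automorphism fixing `ζ` and rotating `θ` by a power of `ζ`. -/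
private theorem pow_apply_of_rotation {τ : Density.GalQ} {ζ θ : Density.Qbar} {d t : ℕ}
    (hτζ : τ ζ = ζ) (ht : τ θ = (ζ ^ d) ^ t * θ) (i : ℕ) :
    (τ ^ i) ζ = ζ ∧ (τ ^ i) θ = (ζ ^ d) ^ (i * t) * θ := by
  induction i with
  | zero => simp
  | succ i ih =>
    simp only [pow_succ', AlgEquiv.mul_apply, ih.1, ih.2, hτζ, map_mul, map_pow, ht, true_and]
    rw [← mul_assoc, ← pow_add]
    ring_nf

/-- An automorphism may be changed, without changing it on `ζ`, to fix the real root `θ`. -/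
private theorem exists_aut_fix_root {q : ℕ} (hq : q.Prime) {r : ℕ} (hr : r.Prime) {j : ℕ}
    (hj : ¬ r ^ j ∣ 2) {M d a : ℕ} [NeZero M] {ζ θ : Density.Qbar} (hζ : IsPrimitiveRoot ζ M)
    (hz : IsPrimitiveRoot (ζ ^ d) (r ^ j)) (hθ : θ ^ r ^ j = q)
    (hθr : complexConjugation θ = θ) {σ : Density.GalQ} (hσζ : σ ζ = ζ ^ a)
    (hσ2 : r = 2 → σ (θ ^ (r ^ j / 2)) = θ ^ (r ^ j / 2)) :
    ∃ g : Density.GalQ, g ζ = ζ ^ a ∧ g θ = θ := by
  have : NeZero (r ^ j) := ⟨pow_ne_zero j hr.ne_zero⟩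
  have hθ0 : θ ≠ 0 := by
    rintro rfl
    rw [zero_pow (NeZero.ne (r ^ j))] at hθ
    exact hq.ne_zero (by exact_mod_cast hθ.symm)
  -- the exponent to be tested
  obtain ⟨c, hc⟩ : (if r = 2 then 4 else r) ∣ r ^ j := by
    split_ifs with h2
    · subst h2
      exact pow_dvd_pow 2 (show 2 ≤ j by by_contra h; exact hj (pow_dvd_pow 2 (by omega : j ≤ 1)))
    · exact dvd_pow_self r fun h => hj (by simp [h])
  have hk2 : ¬ (if r = 2 then 4 else r) ∣ 2 := by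
    split_ifs with h2
    · decide
    · exact fun h => h2 ((Nat.prime_dvd_prime_iff_eq hr Nat.prime_two).mp h)
  obtain ⟨s, hs⟩ := exists_apply_eq_pow_mul hq.ne_zero hz hθ σ
  obtain ⟨τ, hτζ, hτ⟩ := exists_fix_root_of_unity_apply_ne hq hk2 hζ
    (show (θ ^ c) ^ _ = (q : Density.Qbar) by rw [← pow_mul, mul_comm, ← hc, hθ])
    (by rw [map_pow, hθr])
  obtain ⟨t, ht⟩ := exists_apply_eq_pow_mul hq.ne_zero hz hθ τ
  have hkt : ¬ (if r = 2 then 4 else r) ∣ t := fun ⟨u, hu⟩ => hτ (by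
    rw [map_pow, ht, mul_pow, ← pow_mul, hu, mul_right_comm, ← hc, pow_mul, hz.pow_eq_one,
      one_pow, one_mul])
  have hs2 : r = 2 → 2 ∣ s := by
    intro h2
    obtain ⟨h, hh⟩ : 2 ∣ r ^ j := by
      subst h2
      exact dvd_trans (show 2 ∣ 4 by norm_num) (Dvd.intro c (by rw [hc, if_pos rfl]))
    have h1 := hσ2 h2
    rw [show r ^ j / 2 = h by omega, map_pow, hs, mul_pow, mul_eq_right₀ (pow_ne_zero _ hθ0),
      ← pow_mul, hz.pow_eq_one_iff_dvd, hh] at h1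
    exact Nat.dvd_of_mul_dvd_mul_right (show 0 < h by have := NeZero.pos (r ^ j); omega) h1
  obtain ⟨i, u, hu⟩ := exists_dvd_add_mul (gcd_pow_dvd_of_not_dvd hr (j := j) hkt hs2)
  have hi := pow_apply_of_rotation hτζ ht i
  refine ⟨τ ^ i * σ, ?_, ?_⟩
  · rw [AlgEquiv.mul_apply, hσζ, map_pow, hi.1]
  · rw [AlgEquiv.mul_apply, hs, map_mul, map_pow, map_pow, hi.1, hi.2, ← mul_assoc, ← pow_add,
      hu, pow_mul, hz.pow_eq_one, one_pow, one_mul]

/-- Infinitely many primes have a Frobenius element agreeing with `g` at two given numbers. -/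
private theorem exists_frobenius_agree_pair (g : Density.GalQ) (ζ θ : Density.Qbar)
    (T : Finset ℕ) :
    ∃ ℓ : ℕ, ℓ.Prime ∧ ℓ ∉ T ∧ ∃ A : ValuationSubring Density.Qbar, A.LiesOverPrime ℓ ∧
      ∃ τ : Density.GalQ, A.IsFrobeniusAt τ ℓ ∧ τ ζ = g ζ ∧ τ θ = g θ := by
  set L : IntermediateField ℚ Density.Qbar :=
    IntermediateField.normalClosure ℚ (IntermediateField.adjoin ℚ ({ζ, θ} : Set Density.Qbar))
      Density.Qbar with hLdef
  have : FiniteDimensional ℚ (IntermediateField.adjoin ℚ ({ζ, θ} : Set Density.Qbar)) :=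
    IntermediateField.finiteDimensional_adjoin fun x _ => Algebra.IsIntegral.isIntegral x
  have : FiniteDimensional ℚ L := normalClosure.is_finiteDimensional ..
  have : Normal ℚ L := normalClosure.normal ..
  have : IsGalois ℚ L := {}
  have hmemL : ∀ x ∈ ({ζ, θ} : Set Density.Qbar), x ∈ L := fun x hx =>
    IntermediateField.le_normalClosure _ (IntermediateField.subset_adjoin _ _ hx)
  obtain ⟨ℓ, hℓ, hℓT, A, hA, -, τ, hτ, hagree⟩ := Density.exists_frobenius_agree L g T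
  exact ⟨ℓ, hℓ, hℓT, A, hA, τ, hτ, (hagree ζ (hmemL ζ (by simp))).symm,
    (hagree θ (hmemL θ (by simp))).symm⟩

/-- A Frobenius element at `ℓ` fixing an `n`-th root of `q` gives `ℓ ∣ q ^ ((ℓ - 1) / n) - 1`. -/
private theorem dvd_pow_sub_one_of_frobenius_fix {q ℓ n u : ℕ} (hq : q.Prime) (hℓ : ℓ.Prime)
    (hℓq : ℓ ≠ q) (hn : 0 < n) (hu : ℓ - 1 = n * u) {A : ValuationSubring Density.Qbar}
    (hA : A.LiesOverPrime ℓ) {τ : Density.GalQ} (hτ : A.IsFrobeniusAt τ ℓ) {θ : Density.Qbar}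
    (hθ : θ ^ n = q) (hfix : τ θ = θ) : (ℓ : ℤ) ∣ (q : ℤ) ^ u - 1 := by
  have hθA : θ ∈ A := Density.mem_of_isIntegral A
    (IsIntegral.of_pow hn (hθ ▸ isIntegral_natCast q))
  obtain ⟨-, hc⟩ := Density.isFrobeniusAt_iff.mp hτ
  have h1 := hc θ hθA
  rw [hfix] at h1
  have h2 : ((θ - θ ^ ℓ) * θ ^ (n - 1)) ∈ A.nonunits := by
    rw [ValuationSubring.mem_nonunits_iff] at h1 ⊢
    rw [map_mul]
    exact lt_of_le_of_lt (mul_le_of_le_one_right'
      ((A.valuation_le_one_iff _).mpr (A.toSubring.pow_mem hθA _))) h1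
  have h3 : (θ - θ ^ ℓ) * θ ^ (n - 1) =
      ((-((q : ℤ) * ((q : ℤ) ^ u - 1)) : ℤ) : Density.Qbar) := by
    have hl : ℓ = n * u + 1 := by have := hℓ.one_le; omega
    obtain ⟨n', hn'⟩ : ∃ n', n = n' + 1 := ⟨n - 1, by omega⟩
    push_cast
    rw [← hθ, hl, hn', Nat.add_sub_cancel]
    ring
  rw [h3, Density.natCast_mem_nonunits_iff hℓ hA, dvd_neg] at h2
  exact ((Nat.prime_iff_prime_int.mp hℓ).dvd_or_dvd h2).resolve_left fun h => hℓq
    ((Nat.prime_dvd_prime_iff_eq hℓ hq).mp (by exact_mod_cast h))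

/-- Primes `ℓ` in a class, with `q ^ k ≡ 1 (mod ℓ)` for some `k` with `v_r k ≤ v_r 2`. -/
theorem exists_prime_small_order {q : ℕ} (hq : q.Prime) {r : ℕ} (hr : r.Prime) {m : ℕ}
    (hm : 0 < m) (hqm : ¬ q ∣ m) {a : ℕ} (ha : a.Coprime m) (S : Finset ℕ) :
    ∃ ℓ, ℓ.Prime ∧ ℓ ∉ S ∧ ℓ ≡ a [MOD m] ∧ ∃ k : ℕ, 0 < k ∧ (ℓ : ℤ) ∣ (q : ℤ) ^ k - 1 ∧
      k.factorization r ≤ (2 : ℕ).factorization r := by
  obtain ⟨a', e, he, hcop, hmod, hnd⟩ := exists_coprime_lift hr hm ha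
  have hM : 0 < m * r ^ 2 := Nat.mul_pos hm (pow_pos hr.pos 2)
  have : NeZero (m * r ^ 2) := ⟨hM.ne'⟩
  have : NeZero ((m * r ^ 2 : ℕ) : Density.Qbar) := ⟨Nat.cast_ne_zero.mpr hM.ne'⟩
  have hmodm : ∀ {ℓ : ℕ}, ℓ ≡ a' [MOD m * r ^ 2] → ℓ ≡ a [MOD m] := fun h =>
    (h.of_dvd (dvd_mul_right m _)).trans hmod
  -- the exact power of `r` dividing `a' - 1`
  obtain ⟨j, hje, hj1, hj2⟩ := exists_exact_pow_dvd hr hnd
  have hjM : r ^ (j + 1) ∣ m * r ^ 2 := dvd_trans (pow_dvd_pow _ hje) he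
  by_cases hj : r ^ j ∣ 2
  · obtain ⟨ℓ, hℓ, hℓS, hℓmod, h⟩ :=
      exists_prime_small_order_of_dvd_two hq hr hM.ne' hcop hj1 hj2 hjM hj S
    exact ⟨ℓ, hℓ, hℓS, hmodm hℓmod, h⟩
  have : NeZero (r ^ j) := ⟨pow_ne_zero j hr.ne_zero⟩
  obtain ⟨ζ, hζ⟩ := (inferInstance : HasEnoughRootsOfUnity Density.Qbar (m * r ^ 2)).prim
  obtain ⟨d, hd⟩ : r ^ j ∣ m * r ^ 2 := dvd_trans (pow_dvd_pow _ (Nat.le_succ j)) hjM
  have hz : IsPrimitiveRoot (ζ ^ d) (r ^ j) := hζ.pow hM (by rw [hd, mul_comm])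
  -- a real root of `q` and an automorphism fixing it with the prescribed action on `ζ`
  obtain ⟨θ, hθ, hθr⟩ := exists_real_pow_eq hq.ne_zero hz
  obtain ⟨σ, hσζ, hσ2⟩ := exists_aut_pow_fix_sqrt hq hqm hcop hj1 hjM hj hζ hθ
  obtain ⟨g, hgζ, hgθ⟩ := exists_aut_fix_root hq hr hj hζ hz hθ hθr hσζ hσ2
  -- Chebotarev
  obtain ⟨ℓ, hℓ, hℓS, A, hA, τ, hτ, hτζ, hτθ⟩ :=
    exists_frobenius_agree_pair g ζ θ (S ∪ (m * r ^ 2).primeFactors ∪ {q})
  simp only [Finset.mem_union, Finset.mem_singleton, not_or] at hℓS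
  obtain ⟨⟨hℓS, hℓM⟩, hℓq⟩ := hℓS
  have hℓM' : ¬ ℓ ∣ m * r ^ 2 := fun h => hℓM (Nat.mem_primeFactors.mpr ⟨hℓ, h, hM.ne'⟩)
  rw [Density.isFrobeniusAt_apply_of_pow_eq_one hℓ hA hτ hℓM' hζ.pow_eq_one, hgζ,
    primitiveRoot_pow_eq_pow_iff hζ] at hτζ
  -- Frobenius congruence
  obtain ⟨u, hu, hru⟩ := exists_sub_one_eq_pow_mul hj1 hj2 hjM hℓ.one_le hτζ
  refine ⟨ℓ, hℓ, hℓS, hmodm hτζ, u, Nat.pos_of_ne_zero fun h => hru (h ▸ dvd_zero r),
    dvd_pow_sub_one_of_frobenius_fix hq hℓ hℓq (NeZero.pos _) hu hA hτ hθ (hτθ.trans hgθ), ?_⟩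
  simp [Nat.factorization_eq_zero_of_not_dvd hru]

end FLTAgent.LevelRaising
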