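import Fermat.Agent.LevelRaising.SArith
import Fermat.Agent.LevelRaising.KummerPrime
import Mathlib.NumberTheory.LegendreSymbol.QuadraticReciprocity
import Mathlib.NumberTheory.LSeries.PrimesInAP
import Mathlib.GroupTheory.ArchimedeanDensely
import Mathlib.FieldTheory.Finite.Basic

/-!
# Ihara's lemma in homomorphism form

A homomorphism from a congruence subgroup of `SL(2, ℤ[1/q])` to `ZMod p` (`p` odd) killing
unipotent elements vanishes on a smaller congruence subgroup.  The proof combines Serre's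
argument for the centrality of the congruence kernel with a quadratic residue argument.
-/

set_option autoImplicit false

noncomputable section

open scoped MatrixGroups

namespace FLTAgent.LevelRaising

variable {p q : ℕ}

/-- A character of a congruence subgroup killing unipotent elements. -/
structure IsGood (q M : ℕ) (χ : SL(2, ℚ) → ZMod p) : Prop where
  pos : 0 < M
  coprime : M.Coprime q
  map_mul : ∀ a ∈ qGamma q M, ∀ b ∈ qGamma q M, χ (a * b) = χ a + χ b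
  unipotent : ∀ g ∈ qGamma q M, g 0 0 + g 1 1 = 2 → χ g = 0

theorem trace_conj (x g : SL(2, ℚ)) :
    (x * g * x⁻¹) 0 0 + (x * g * x⁻¹) 1 1 = g 0 0 + g 1 1 := by
  obtain ⟨i1, i2, i3, i4⟩ := inv_apply x
  simp only [mul_apply_two, i1, i2, i3, i4]
  linear_combination (g 0 0 + g 1 1) * det_eq x

namespace IsGood

variable {M : ℕ} {χ : SL(2, ℚ) → ZMod p}

/-- A good function vanishes at one. -/
theorem map_one (h : IsGood q M χ) : χ 1 = 0 :=
  h.unipotent 1 (one_mem _) (by norm_num)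

/-- Goodness passes to a multiple of the level prime to `q`. -/
theorem restrict (h : IsGood q M χ) {M' : ℕ} (hM' : 0 < M') (hc : M'.Coprime q) (hd : M ∣ M') :
    IsGood q M' χ :=
  ⟨hM', hc, fun a ha b hb => h.map_mul a (qGamma_mono hd ha) b (qGamma_mono hd hb),
    fun g hg ht => h.unipotent g (qGamma_mono hd hg) ht⟩

theorem comp_conj (h : IsGood q M χ) (x : SL(2, ℚ)) {M' : ℕ} (hM' : 0 < M') (hc : M'.Coprime q)
    (hx : ∀ g ∈ qGamma q M', x * g * x⁻¹ ∈ qGamma q M) :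
    IsGood q M' (fun g => χ (x * g * x⁻¹)) :=
  ⟨hM', hc, fun a ha b hb => by
    rw [show x * (a * b) * x⁻¹ = x * a * x⁻¹ * (x * b * x⁻¹) by group]
    exact h.map_mul _ (hx a ha) _ (hx b hb),
   fun g hg ht => h.unipotent _ (hx g hg) (by rw [trace_conj, ht])⟩

theorem apply_upper (h : IsGood q M χ) {t : ℚ} (ht : t ∈ qMul q M) : χ (upper t) = 0 :=
  h.unipotent _ (upper_mem_qGamma ht) (by simp; norm_num)

theorem apply_lower (h : IsGood q M χ) {t : ℚ} (ht : t ∈ qMul q M) : χ (lower t) = 0 :=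
  h.unipotent _ (lower_mem_qGamma ht) (by simp; norm_num)

theorem apply_mul_upper (h : IsGood q M χ) {g : SL(2, ℚ)} (hg : g ∈ qGamma q M) {t : ℚ}
    (ht : t ∈ qMul q M) : χ (g * upper t) = χ g := by
  rw [h.map_mul _ hg _ (upper_mem_qGamma ht), h.apply_upper ht, add_zero]

theorem apply_mul_lower (h : IsGood q M χ) {g : SL(2, ℚ)} (hg : g ∈ qGamma q M) {t : ℚ}
    (ht : t ∈ qMul q M) : χ (g * lower t) = χ g := by
  rw [h.map_mul _ hg _ (lower_mem_qGamma ht), h.apply_lower ht, add_zero]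

theorem apply_lower_mul (h : IsGood q M χ) {g : SL(2, ℚ)} (hg : g ∈ qGamma q M) {t : ℚ}
    (ht : t ∈ qMul q M) : χ (lower t * g) = χ g := by
  rw [h.map_mul _ (lower_mem_qGamma ht) _ hg, h.apply_lower ht, zero_add]

/-- The value only depends on the first row. -/
theorem eq_of_row (h : IsGood q M χ) {g g' : SL(2, ℚ)} (hg : g ∈ qGamma q M) (hg' : g' ∈ qGamma q M)
    (h0 : g' 0 0 = g 0 0) (h1 : g' 0 1 = g 0 1) : χ g' = χ g := by
  have hm : g' * g⁻¹ ∈ qGamma q M := mul_mem hg' (inv_mem hg)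
  have e : g' = g' * g⁻¹ * g := by group
  rw [e, h.map_mul _ hm _ hg, h.unipotent _ hm ?_, zero_add]
  obtain ⟨i1, i2, i3, i4⟩ := inv_apply g
  simp only [mul_apply_two, i1, i2, i3, i4, h0, h1]
  have := det_eq g
  have h2 := det_eq g'
  rw [h0, h1] at h2
  linear_combination this + h2

end IsGood

/-- Integral first rows. -/
theorem exists_int_row (hq : q.Prime) {M : ℕ} (hM : 0 < M) (hMq : M.Coprime q) {g : SL(2, ℚ)}
    (hg : g ∈ qGamma q M) :
    ∃ g' ∈ qGamma q M, ∃ A Y : ℤ, g' 0 0 = A ∧ g' 0 1 = (M : ℚ) * Y ∧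
      IsCoprime A ((M : ℤ) * Y) ∧ Y ≠ 0 ∧ ¬ (q : ℤ) ∣ Y ∧ (M : ℤ) ∣ A - 1 ∧
      g' 0 0 - g 0 0 ∈ qMul q (M * M) ∧
      ∀ χ : SL(2, ℚ) → ZMod p, IsGood q M χ → χ g' = χ g := by
  have hq0 : (q : ℚ) ≠ 0 := Nat.cast_ne_zero.mpr hq.ne_zero
  have := Fact.mk hq
  -- make the upper right entry nonzero
  obtain ⟨g₁, hg₁, hne, he₁, h00⟩ : ∃ g₁ ∈ qGamma q M, g₁ 0 1 ≠ 0 ∧
      (∀ χ : SL(2, ℚ) → ZMod p, IsGood q M χ → χ g₁ = χ g) ∧ g₁ 0 0 = g 0 0 := by
    by_cases hb : g 0 1 = 0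
    · refine ⟨g * upper M, mul_mem hg (upper_mem_qGamma natCast_mem_qMul), ?_,
        fun χ hχ => hχ.apply_mul_upper hg natCast_mem_qMul, by simp [mul_apply_two]⟩
      have hdet := det_eq g
      rw [hb, zero_mul, sub_zero] at hdet
      simp [mul_apply_two, hb, hM.ne', left_ne_zero_of_mul_eq_one hdet]
    · exact ⟨g, hg, hb, fun _ _ => rfl, rfl⟩
  have hg₁m := hg₁
  obtain ⟨a_mem, b_mem, -, -⟩ := hg₁
  obtain ⟨y, hy, hby⟩ := mem_qMul.mp b_mem
  obtain ⟨s, A, Y, hA, hY⟩ := exists_eq_div_pair hq.ne_zero (apply_mem_qInt hg₁m 0 0) hy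
  have hY0 : Y ≠ 0 := by
    rintro rfl
    simp at hY
    exact hne (by rw [hby, hY, mul_zero])
  obtain ⟨i, Y', hY', hYi⟩ := Int.natAbs_ne_zero.mpr hY0 |>
    fun h => Nat.exists_eq_pow_mul_and_not_dvd h q hq.ne_one
  obtain ⟨Z', hZ', hZY⟩ : ∃ Z' : ℤ, ¬ (q : ℤ) ∣ Z' ∧ Y = (q : ℤ) ^ i * Z' := by
    rcases Int.natAbs_eq Y with e | e
    · exact ⟨Y', by exact_mod_cast hY', by rw [e, hYi]; push_cast; rfl⟩
    · exact ⟨-Y', by rw [dvd_neg]; exact_mod_cast hY', by rw [e, hYi]; push_cast; ring⟩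
  have hQ : ∀ {X : ℤ}, ¬ (q : ℤ) ∣ X → IsCoprime X ((q : ℤ) ^ (s + 1)) := fun h =>
    (((Nat.prime_iff_prime_int.mp hq).coprime_iff_not_dvd.mpr h).symm).pow_right
  -- first coordinate
  have hco : IsCoprime ((M : ℤ) * M * Z') ((q : ℤ) ^ (s + 1)) := by
    have hM' : IsCoprime (M : ℤ) ((q : ℤ) ^ (s + 1)) :=
      (Nat.isCoprime_iff_coprime.mpr hMq).pow_right
    exact (hM'.mul_left hM').mul_left (hQ hZ')
  obtain ⟨u, v, huv⟩ := hco
  set A' : ℤ := 1 + (q : ℤ) * (v * ((q : ℤ) ^ s - A)) * (-1) with hA'def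
  set z : ℤ := ((q : ℤ) ^ s - A) * u with hzdef
  have hA' : (A : ℚ) + (z : ℚ) * ((M : ℚ) * M * Z') = (q : ℚ) ^ s * A' := by
    have e : A + z * ((M : ℤ) * M * Z') = (q : ℤ) ^ s * A' := by
      rw [hA'def, hzdef]; linear_combination ((q : ℤ) ^ s - A) * huv
    exact_mod_cast e
  set t : ℚ := (M : ℚ) * ((z : ℚ) / (q : ℚ) ^ i) with htdef
  have ht : t ∈ qMul q M := mul_natCast_mem_qMul (div_pow_mem_qInt hq.ne_zero z i)
  set g₂ := g₁ * lower t with hg₂def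
  have hg₂ : g₂ ∈ qGamma q M := mul_mem hg₁m (lower_mem_qGamma ht)
  have hYq : (Y : ℚ) = (q : ℚ) ^ i * Z' := by exact_mod_cast hZY
  have h200 : g₂ 0 0 = A' := by
    simp [hg₂def, mul_apply_two, hby, hA, hY, htdef, hYq]
    field_simp
    linear_combination hA'
  have h201 : g₂ 0 1 = (M : ℚ) * ((Y : ℚ) / (q : ℚ) ^ s) := by
    simp [hg₂def, mul_apply_two, hby, hY]
  have hA'q : ¬ (q : ℤ) ∣ A' := by
    intro h
    have : (q : ℤ) ∣ 1 := by
      have := dvd_sub h (Dvd.intro (v * ((q : ℤ) ^ s - A) * (-1)) (mul_assoc _ _ _).symm)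
      simpa [hA'def] using this
    exact hq.one_lt.ne' (by exact_mod_cast Int.eq_one_of_dvd_one (by positivity) this)
  -- second coordinate
  obtain ⟨u', v', huv'⟩ := hQ hA'q
  set Y'' : ℤ := 1 + (q : ℤ) * (v' * ((q : ℤ) ^ s - Y)) * (-1) with hY''def
  set z' : ℤ := ((q : ℤ) ^ s - Y) * u' with hz'def
  have hY'' : (Y : ℚ) + (z' : ℚ) * A' = (q : ℚ) ^ s * Y'' := by
    have e : Y + z' * A' = (q : ℤ) ^ s * Y'' := by
      rw [hY''def, hz'def]; linear_combination ((q : ℤ) ^ s - Y) * huv'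
    exact_mod_cast e
  set t' : ℚ := (M : ℚ) * ((z' : ℚ) / (q : ℚ) ^ s) with ht'def
  have ht' : t' ∈ qMul q M := mul_natCast_mem_qMul (div_pow_mem_qInt hq.ne_zero z' s)
  set g₃ := g₂ * upper t' with hg₃def
  have hg₃ : g₃ ∈ qGamma q M := mul_mem hg₂ (upper_mem_qGamma ht')
  have h300 : g₃ 0 0 = A' := by simp [hg₃def, mul_apply_two, h200]
  have h301 : g₃ 0 1 = (M : ℚ) * Y'' := by
    simp [hg₃def, mul_apply_two, h200, h201, ht'def]
    field_simp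
    linear_combination hY''
  have hY''q : ¬ (q : ℤ) ∣ Y'' := by
    intro h
    have : (q : ℤ) ∣ 1 := by
      have := dvd_sub h (Dvd.intro (v' * ((q : ℤ) ^ s - Y) * (-1)) (mul_assoc _ _ _).symm)
      simpa [hY''def] using this
    exact hq.one_lt.ne' (by exact_mod_cast Int.eq_one_of_dvd_one (by positivity) this)
  refine ⟨g₃, hg₃, A', Y'', h300, h301, ?_, fun h => hY''q (h ▸ dvd_zero _), hY''q, ?_, ?_, ?_⟩
  · obtain ⟨k, C, D, hC, hD⟩ := exists_eq_div_pair hq.ne_zero (apply_mem_qInt hg₃ 1 0)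
      (apply_mem_qInt hg₃ 1 1)
    have hdet := det_eq g₃
    rw [h300, h301, hC, hD] at hdet
    field_simp at hdet
    have e : A' * D - (M : ℤ) * Y'' * C = (q : ℤ) ^ k := by exact_mod_cast hdet
    obtain ⟨a, b, hab⟩ := (hQ hA'q).of_isCoprime_of_dvd_right
      (show (q : ℤ) ∣ (q : ℤ) ^ (s + 1) from dvd_pow_self _ s.succ_ne_zero) |>.pow_right (n := k)
    exact ⟨a + b * D, -(b * C), by rw [← hab, ← e]; ring⟩
  · rw [← intCast_mem_qMul_iff hMq, Int.cast_sub, Int.cast_one, ← h300]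
    exact hg₃.1
  · rw [h300, ← h200, hg₂def, mul_apply_two, ← h00]
    simp only [lower_coe]
    norm_num
    exact qMul_mul_qMul (q := q) b_mem ht
  · intro χ hχ
    rw [hg₃def, hχ.apply_mul_upper hg₂ ht', hg₂def, hχ.apply_mul_lower hg₁m ht, he₁ χ hχ]

/-! ### Centrality -/

theorem torus_mul (r r' : ℚ) (hr : r ≠ 0) (hr' : r' ≠ 0) : torus r * torus r' = torus (r * r') := by
  ext i j
  rw [Matrix.SpecialLinearGroup.coe_mul, torus_coe hr, torus_coe hr',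
    torus_coe (mul_ne_zero hr hr')]
  fin_cases i <;> fin_cases j <;> simp [Matrix.mul_apply, mul_comm]

theorem torus_apply {r : ℚ} (hr : r ≠ 0) :
    torus r 0 0 = r ∧ torus r 0 1 = 0 ∧ torus r 1 0 = 0 ∧ torus r 1 1 = r⁻¹ := by
  simp [torus_coe hr]

theorem torus_conj_apply {r : ℚ} (hr : r ≠ 0) (g : SL(2, ℚ)) :
    (torus r * g * (torus r)⁻¹) 0 0 = g 0 0 ∧ (torus r * g * (torus r)⁻¹) 0 1 = r ^ 2 * g 0 1 ∧
    (torus r * g * (torus r)⁻¹) 1 0 = g 1 0 / r ^ 2 ∧ (torus r * g * (torus r)⁻¹) 1 1 = g 1 1 := by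
  obtain ⟨i1, i2, i3, i4⟩ := inv_apply (torus r)
  obtain ⟨t1, t2, t3, t4⟩ := torus_apply hr
  simp only [mul_apply_two, i1, i2, i3, i4, t1, t2, t3, t4]
  refine ⟨?_, ?_, ?_, ?_⟩ <;> field_simp <;> ring

theorem torus_mem_qGamma_one (hq : q.Prime) : torus (q : ℚ) ∈ qGamma q 1 := by
  obtain ⟨t1, t2, t3, t4⟩ := torus_apply (Nat.cast_ne_zero.mpr hq.ne_zero : (q : ℚ) ≠ 0)
  rw [mem_qGamma_one_iff]
  intro i j
  fin_cases i <;> fin_cases j
  · show torus (q : ℚ) 0 0 ∈ _; rw [t1]; exact natCast_mem _ q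
  · show torus (q : ℚ) 0 1 ∈ _; rw [t2]; exact zero_mem _
  · show torus (q : ℚ) 1 0 ∈ _; rw [t3]; exact zero_mem _
  · show torus (q : ℚ) 1 1 ∈ _; rw [t4]; exact inv_mem_qInt hq.ne_zero

theorem torus_zpow {r : ℚ} (hr : r ≠ 0) (k : ℕ) : torus r ^ k = torus (r ^ k) := by
  induction k with
  | zero =>
    ext i j; rw [pow_zero, pow_zero, torus_coe one_ne_zero]; fin_cases i <;> fin_cases j <;> simp
  | succ k ih => rw [pow_succ, ih, torus_mul _ _ (pow_ne_zero k hr) hr, ← pow_succ]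

/-- Conjugation by `diag(q², q⁻²)` fixes every good character. -/
theorem IsGood.apply_torus_sq_conj (hq : q.Prime) {M : ℕ} {χ : SL(2, ℚ) → ZMod p}
    (hχ : IsGood q M χ) {g : SL(2, ℚ)} (hg : g ∈ qGamma q M) :
    χ (torus (q : ℚ) ^ 2 * g * (torus (q : ℚ) ^ 2)⁻¹) = χ g := by
  have hq0 : (q : ℚ) ≠ 0 := Nat.cast_ne_zero.mpr hq.ne_zero
  set T := torus (q : ℚ) with hT
  have hTk : ∀ k : ℤ, T ^ k ∈ qGamma q 1 := fun k => zpow_mem (torus_mem_qGamma_one hq) k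
  have hcomp : ∀ (k : ℤ) (χ : SL(2, ℚ) → ZMod p), IsGood q M χ →
      IsGood q M (fun g => χ (T ^ k * g * (T ^ k)⁻¹)) := fun k χ h =>
    h.comp_conj _ h.pos h.coprime fun g hg => conj_mem_qGamma (hTk k) hg
  obtain ⟨g', hg', A, Y, hA, hY, hco, hY0, hqY, -, -, he⟩ :=
    exists_int_row (p := p) hq hχ.pos hχ.coprime hg
  -- the subgroup of admissible exponents
  let S : AddSubgroup ℤ :=
    { carrier := {k | ∀ χ : SL(2, ℚ) → ZMod p, IsGood q M χ →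
        χ (T ^ k * g' * (T ^ k)⁻¹) = χ g'}
      add_mem' := by
        intro k l hk hl χ h
        have := (hl _ (hcomp k χ h)).trans (hk χ h)
        rwa [show T ^ k * (T ^ l * g' * (T ^ l)⁻¹) * (T ^ k)⁻¹
          = T ^ (k + l) * g' * (T ^ (k + l))⁻¹ by group] at this
      zero_mem' := fun χ _ => by simp
      neg_mem' := by
        intro k hk χ h
        have := hk _ (hcomp (-k) χ h)
        rw [show T ^ (-k) * (T ^ k * g' * (T ^ k)⁻¹) * (T ^ (-k))⁻¹ = g' by group] at this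
        exact this.symm }
  suffices h2 : (2 : ℤ) ∈ S by
    have h := h2 χ hχ
    rw [he χ hχ, show T ^ (2 : ℤ) = T ^ 2 by norm_cast] at h
    have h' := he _ (hcomp 2 χ hχ)
    simp only [show T ^ (2 : ℤ) = T ^ 2 by norm_cast] at h'
    rw [← h, ← h']
  have hex : ∀ r : ℕ, r.Prime → ∃ k : ℕ, 0 < k ∧ (k : ℤ) ∈ S ∧
      k.factorization r ≤ (2 : ℕ).factorization r := by
    intro r hr
    set m : ℕ := M * M * Y.natAbs with hm
    have hm0 : 0 < m := Nat.mul_pos (Nat.mul_pos hχ.pos hχ.pos) (Int.natAbs_pos.mpr hY0)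
    have : NeZero m := ⟨hm0.ne'⟩
    have hqm : ¬ q ∣ m := by
      intro h
      rcases hq.dvd_mul.mp h with h | h
      · rcases hq.dvd_mul.mp h with h | h <;>
          exact hq.coprime_iff_not_dvd.mp hχ.coprime.symm h
      · exact hqY (Int.natCast_dvd.mpr h)
    have hAm : IsCoprime A (m : ℤ) := by
      have h1 : IsCoprime A (M : ℤ) := hco.of_mul_right_left
      have h2 : IsCoprime A Y := hco.of_mul_right_right
      rw [hm]; push_cast
      refine (h1.mul_right h1).mul_right ?_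
      rcases abs_choice Y with e | e <;> rw [e]
      · exact h2
      · exact h2.neg_right
    obtain ⟨a, ha⟩ : ∃ a : ℕ, (m : ℤ) ∣ (a : ℤ) - A := by
      refine ⟨(A % m).toNat, ?_⟩
      rw [Int.toNat_of_nonneg (Int.emod_nonneg _ (by exact_mod_cast hm0.ne'))]
      exact ⟨-(A / m), by linarith [Int.emod_add_mul_ediv A m, mul_comm (m : ℤ) (A / m)]⟩
    have hac : a.Coprime m := by
      rw [← Nat.isCoprime_iff_coprime]
      obtain ⟨c, hc⟩ := ha
      rw [show (a : ℤ) = A + c * m by linarith]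
      exact hAm.add_mul_right_left c
    obtain ⟨ℓ, hℓ, -, hℓa, k, hk, hkd, hkf⟩ := exists_prime_small_order hq hr hm0 hqm hac ∅
    refine ⟨k, hk, ?_, hkf⟩
    intro χ h
    obtain ⟨c, hc⟩ := dvd_trans
      (show (M : ℤ) * M * Y ∣ (m : ℤ) by
        rw [hm]; push_cast; exact mul_dvd_mul_left _ (self_dvd_abs _))
      (show (m : ℤ) ∣ (ℓ : ℤ) - A by
        have := dvd_sub ha (Nat.modEq_iff_dvd.mp hℓa)
        simpa using this)
    obtain ⟨w, hw⟩ := dvd_trans hkd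
      (show (q : ℤ) ^ k - 1 ∣ (q : ℤ) ^ k * (q : ℤ) ^ k - 1 from ⟨(q : ℤ) ^ k + 1, by ring⟩)
    set g'' := g' * lower ((M : ℚ) * c) with hg''
    have htc : (M : ℚ) * c ∈ qMul q M := mul_natCast_mem_qMul (intCast_mem _ c)
    have hg''m : g'' ∈ qGamma q M := mul_mem hg' (lower_mem_qGamma htc)
    have h00 : g'' 0 0 = (ℓ : ℚ) := by
      have e : (ℓ : ℚ) - A = (M : ℚ) * M * Y * c := by exact_mod_cast hc
      simp [hg'', mul_apply_two, hA, hY]
      linear_combination -e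
    have h01 : g'' 0 1 = (M : ℚ) * Y := by simp [hg'', mul_apply_two, hY]
    have hmain : χ (T ^ k * g'' * (T ^ k)⁻¹) = χ g'' := by
      have htw : (M : ℚ) * (w * Y) ∈ qMul q M :=
        mul_natCast_mem_qMul (mul_mem (intCast_mem _ w) (intCast_mem _ Y))
      rw [← h.apply_mul_upper hg''m htw]
      refine h.eq_of_row (mul_mem hg''m (upper_mem_qGamma htw))
        (conj_mem_qGamma (pow_mem (torus_mem_qGamma_one hq) k) hg''m) ?_ ?_
      · rw [hT, torus_zpow hq0, (torus_conj_apply (pow_ne_zero k hq0) g'').1]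
        simp [mul_apply_two]
      · have e : (q : ℚ) ^ k * (q : ℚ) ^ k - 1 = (ℓ : ℚ) * w := by exact_mod_cast hw
        rw [hT, torus_zpow hq0, (torus_conj_apply (pow_ne_zero k hq0) g'').2.1]
        simp [mul_apply_two, h00, h01]
        linear_combination (M : ℚ) * Y * e
    simp only [zpow_natCast]
    have h1 := h.apply_mul_lower hg' htc
    have h2 := (hcomp k χ h).apply_mul_lower hg' htc
    simp only [zpow_natCast] at h2
    rw [← h1, ← h2, ← hg'', hmain]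
  obtain ⟨d, hd⟩ := Int.subgroup_cyclic S
  have hmem : ∀ k : ℤ, k ∈ S ↔ d ∣ k := fun k => by
    rw [hd, ← AddSubgroup.zmultiples_eq_closure, Int.mem_zmultiples_iff]
  have hd0 : d.natAbs ≠ 0 := by
    obtain ⟨k, hk, hkS, -⟩ := hex 2 Nat.prime_two
    intro h0
    rw [hmem, Int.natAbs_eq_zero.mp h0, zero_dvd_iff] at hkS
    omega
  rw [hmem, ← Int.natAbs_dvd]
  show ((d.natAbs : ℤ)) ∣ ((2 : ℕ) : ℤ)
  rw [Int.natCast_dvd_natCast]
  rw [← Nat.factorization_le_iff_dvd hd0 two_ne_zero]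
  intro r
  by_cases hr : r.Prime
  · obtain ⟨k, hk, hkS, hkf⟩ := hex r hr
    rw [hmem, ← Int.natAbs_dvd, Int.natCast_dvd_natCast] at hkS
    exact le_trans ((Nat.factorization_le_iff_dvd hd0 hk.ne').mpr hkS r) hkf
  · simp [Nat.factorization_eq_zero_of_not_prime _ hr]

variable (p q)

/-- Elements whose conjugation fixes every good character near the identity. -/
def fixingGroup (hq : q.Prime) : Subgroup SL(2, ℚ) where
  carrier := {x | ∀ (M : ℕ) (χ : SL(2, ℚ) → ZMod p), IsGood q M χ →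
    ∃ M', 0 < M' ∧ M'.Coprime q ∧ M ∣ M' ∧
      ∀ g ∈ qGamma q M', x * g * x⁻¹ ∈ qGamma q M ∧ χ (x * g * x⁻¹) = χ g}
  one_mem' := fun M χ h => ⟨M, h.pos, h.coprime, dvd_rfl, fun g hg => by simpa using hg⟩
  mul_mem' := by
    intro x y hx hy M χ h
    obtain ⟨M₁, p₁, c₁, d₁, h₁⟩ := hx M χ h
    obtain ⟨M₂, p₂, c₂, d₂, h₂⟩ := hy M₁ χ (h.restrict p₁ c₁ d₁)
    refine ⟨M₂, p₂, c₂, d₁.trans d₂, fun g hg => ?_⟩
    obtain ⟨hm, he⟩ := h₂ g hg
    obtain ⟨hm', he'⟩ := h₁ _ hm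
    rw [show x * y * g * (x * y)⁻¹ = x * (y * g * y⁻¹) * x⁻¹ by group]
    exact ⟨hm', he'.trans he⟩
  inv_mem' := by
    intro x hx M χ h
    obtain ⟨M₁, p₁, c₁, d₁, h₁⟩ := hx M χ h
    obtain ⟨M₂, p₂, c₂, d₂, h₂⟩ := exists_conj_level hq p₁ c₁ x⁻¹
    refine ⟨M₂, p₂, c₂, d₁.trans d₂, fun g hg => ⟨qGamma_mono d₁ (h₂ g hg), ?_⟩⟩
    obtain ⟨-, he⟩ := h₁ _ (h₂ g hg)
    rw [show x * (x⁻¹ * g * x⁻¹⁻¹) * x⁻¹ = g by group] at he
    exact he.symm

variable {p q}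

theorem conj_mem_fixingGroup (hq : q.Prime) {x : SL(2, ℚ)} (hx : x ∈ fixingGroup p q hq)
    (y : SL(2, ℚ)) : y * x * y⁻¹ ∈ fixingGroup p q hq := by
  intro M χ h
  obtain ⟨M₁, p₁, c₁, d₁, h₁⟩ := exists_conj_level hq h.pos h.coprime y
  obtain ⟨M₂, p₂, c₂, d₂, h₂⟩ := hx M₁ _ (h.comp_conj y p₁ c₁ h₁)
  obtain ⟨M₃, p₃, c₃, d₃, h₃⟩ := exists_conj_level hq p₂ c₂ y⁻¹
  refine ⟨M₃, p₃, c₃, d₁.trans (d₂.trans d₃), fun g hg => ?_⟩
  obtain ⟨hm, he⟩ := h₂ _ (h₃ g hg)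
  have e : y * x * y⁻¹ * g * (y * x * y⁻¹)⁻¹ = y * (x * (y⁻¹ * g * y⁻¹⁻¹) * x⁻¹) * y⁻¹ := by group
  rw [e]
  refine ⟨h₁ _ hm, he.trans ?_⟩
  show χ (y * (y⁻¹ * g * y⁻¹⁻¹) * y⁻¹) = χ g
  rw [show y * (y⁻¹ * g * y⁻¹⁻¹) * y⁻¹ = g by group]

theorem torus_sq_mem_fixingGroup (hq : q.Prime) : torus (q : ℚ) ^ 2 ∈ fixingGroup p q hq :=
  fun M _ h => ⟨M, h.pos, h.coprime, dvd_rfl, fun _ hg =>
    ⟨conj_mem_qGamma (pow_mem (torus_mem_qGamma_one hq) 2) hg, h.apply_torus_sq_conj hq hg⟩⟩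

theorem torus_mem_fixingGroup (hq : q.Prime) {r : ℚ} (hr : r ≠ 0) :
    torus r ∈ fixingGroup p q hq := by
  have hq0 : (q : ℚ) ≠ 0 := Nat.cast_ne_zero.mpr hq.ne_zero
  have hq2 : ((q : ℚ) ^ 2) ≠ 0 := pow_ne_zero 2 hq0
  have hq1 : (1 : ℚ) < (q : ℚ) ^ 4 :=
    one_lt_pow₀ (by exact_mod_cast hq.one_lt) (by norm_num)
  have key : ∀ x, torus (q : ℚ) ^ 2 * (x * (torus (q : ℚ) ^ 2)⁻¹ * x⁻¹) ∈ fixingGroup p q hq :=
    fun x => mul_mem (torus_sq_mem_fixingGroup hq)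
      (conj_mem_fixingGroup hq (inv_mem (torus_sq_mem_fixingGroup hq)) x)
  have hconj : ∀ x, torus (q : ℚ) ^ 2 * (x * (torus (q : ℚ) ^ 2)⁻¹ * x⁻¹)
      = (torus ((q : ℚ) ^ 2) * x * (torus ((q : ℚ) ^ 2))⁻¹) * x⁻¹ := fun x => by
    rw [torus_zpow hq0]; group
  have hU : ∀ y : ℚ, upper y ∈ fixingGroup p q hq := by
    intro y
    have hne : (q : ℚ) ^ 4 - 1 ≠ 0 := by linarith
    have h := key (upper (y / ((q : ℚ) ^ 4 - 1)))
    rw [hconj] at h
    convert h using 1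
    obtain ⟨c1, c2, c3, c4⟩ := torus_conj_apply hq2 (upper (y / ((q : ℚ) ^ 4 - 1)))
    obtain ⟨i1, i2, i3, i4⟩ := inv_apply (upper (y / ((q : ℚ) ^ 4 - 1)))
    apply ext_two <;> simp [mul_apply_two, c1, c2, c3, c4, i1, i2, i3, i4]
    all_goals (field_simp; ring)
  have hV : ∀ y : ℚ, lower y ∈ fixingGroup p q hq := by
    intro y
    have hne : (1 : ℚ) - (q : ℚ) ^ 4 ≠ 0 := by linarith
    have h := key (lower (y * (q : ℚ) ^ 4 / (1 - (q : ℚ) ^ 4)))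
    rw [hconj] at h
    convert h using 1
    obtain ⟨c1, c2, c3, c4⟩ := torus_conj_apply hq2 (lower (y * (q : ℚ) ^ 4 / (1 - (q : ℚ) ^ 4)))
    obtain ⟨i1, i2, i3, i4⟩ := inv_apply (lower (y * (q : ℚ) ^ 4 / (1 - (q : ℚ) ^ 4)))
    apply ext_two <;> simp [mul_apply_two, c1, c2, c3, c4, i1, i2, i3, i4]
    all_goals (field_simp; ring)
  have e : torus r = upper r * lower (-r⁻¹) * upper r * (upper (-1) * lower 1 * upper (-1)) := by
    obtain ⟨t1, t2, t3, t4⟩ := torus_apply hr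
    apply ext_two <;> simp [mul_apply_two, t1, t2, t3, t4, hr]
  rw [e]
  exact mul_mem (mul_mem (mul_mem (hU _) (hV _)) (hU _)) (mul_mem (mul_mem (hU _) (hV _)) (hU _))

/-! ### Vanishing -/

theorem exists_isCoprime_add_mul {A X : ℤ} {L : ℕ} (hL : 0 < L)
    (h : ∀ ℓ : ℕ, ℓ.Prime → ℓ ∣ L → ¬ ((ℓ : ℤ) ∣ A ∧ (ℓ : ℤ) ∣ X)) :
    ∃ s : ℤ, IsCoprime (A + s * X) L := by
  classical
  set T := L.primeFactors.filter fun ℓ : ℕ => ¬ (ℓ : ℤ) ∣ A with hT
  refine ⟨((∏ ℓ ∈ T, ℓ : ℕ) : ℤ), ?_⟩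
  rw [Int.isCoprime_iff_nat_coprime, Int.natAbs_natCast]
  refine Nat.coprime_of_dvd fun ℓ hℓ h1 h2 => ?_
  have h1' : (ℓ : ℤ) ∣ A + ((∏ ℓ ∈ T, ℓ : ℕ) : ℤ) * X := Int.natCast_dvd.mpr h1
  by_cases hA : (ℓ : ℤ) ∣ A
  · rcases (Nat.prime_iff_prime_int.mp hℓ).dvd_or_dvd ((dvd_add_right hA).mp h1') with h3 | h3
    · rw [Int.natCast_dvd_natCast] at h3
      obtain ⟨l, hl, hdiv⟩ := hℓ.prime.exists_mem_finset_dvd h3
      rw [hT, Finset.mem_filter, Nat.mem_primeFactors] at hl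
      rw [(Nat.prime_dvd_prime_iff_eq hℓ hl.1.1).mp hdiv] at hA
      exact hl.2 hA
    · exact h ℓ hℓ h2 ⟨hA, h3⟩
  · have hmem : ℓ ∈ T := by
      rw [hT, Finset.mem_filter, Nat.mem_primeFactors]
      exact ⟨⟨hℓ, h2, hL.ne'⟩, hA⟩
    exact hA ((dvd_add_left (Dvd.dvd.mul_right (Int.natCast_dvd_natCast.mpr
      (Finset.dvd_prod_of_mem (fun l => l) hmem)) X)).mp h1')

/-- Powers of elements which are diagonal modulo `M`. -/
theorem pow_congr_diag {M : ℕ} {g : SL(2, ℚ)} (hg : g ∈ qGamma q 1) {a : ℚ} (ha : a ∈ qInt q)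
    (h01 : g 0 1 ∈ qMul q M) (h10 : g 1 0 ∈ qMul q M) (h11 : g 1 1 - a ∈ qMul q M) (n : ℕ) :
    (g ^ n) 0 0 - g 0 0 ^ n ∈ qMul q M ∧ (g ^ n) 0 1 ∈ qMul q M ∧ (g ^ n) 1 0 ∈ qMul q M ∧
      (g ^ n) 1 1 - a ^ n ∈ qMul q M := by
  have R := apply_mem_qInt hg
  induction n with
  | zero => simp [zero_mem]
  | succ n ih =>
    obtain ⟨a00, a01, a10, a11⟩ := ih
    have Rn := apply_mem_qInt (pow_mem hg n)
    simp only [pow_succ, mul_apply_two]
    refine ⟨?_, add_mem (qMul_mul_left (Rn 0 0) h01) (qMul_mul_right a01 (R 1 1)),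
      add_mem (qMul_mul_right a10 (R 0 0)) (qMul_mul_left (Rn 1 1) h10), ?_⟩
    · rw [show (g ^ n) 0 0 * g 0 0 + (g ^ n) 0 1 * g 1 0 - g 0 0 ^ n * g 0 0
        = ((g ^ n) 0 0 - g 0 0 ^ n) * g 0 0 + (g ^ n) 0 1 * g 1 0 by ring]
      exact add_mem (qMul_mul_right a00 (R 0 0)) (qMul_mul_right a01 (R 1 0))
    · rw [show (g ^ n) 1 0 * g 0 1 + (g ^ n) 1 1 * g 1 1 - a ^ n * a
        = (g ^ n) 1 0 * g 0 1 + ((g ^ n) 1 1 - a ^ n) * g 1 1 + a ^ n * (g 1 1 - a) by ring]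
      exact add_mem (add_mem (qMul_mul_right a10 (R 0 1)) (qMul_mul_right a11 (R 1 1)))
        (qMul_mul_left (pow_mem ha n) h11)

/-- Elements of level `M` whose lower left entry is divisible by `N`. -/
private def qGammaLower (q M N : ℕ) : Subgroup SL(2, ℚ) where
  carrier := {x | x ∈ qGamma q M ∧ x 1 0 ∈ qMul q N}
  one_mem' := ⟨one_mem _, by simp [zero_mem]⟩
  mul_mem' := by
    rintro x y ⟨hx, hx'⟩ ⟨hy, hy'⟩
    refine ⟨mul_mem hx hy, ?_⟩
    rw [mul_apply_two]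
    exact add_mem (qMul_mul_right hx' (apply_mem_qInt hy 0 0))
      (qMul_mul_left (apply_mem_qInt hx 1 1) hy')
  inv_mem' := by
    rintro x ⟨hx, hx'⟩
    exact ⟨inv_mem hx, by rw [(inv_apply x).2.2.1]; exact neg_mem hx'⟩

/-- Upper unipotents of level `M` lie in `qGammaLower q M N`. -/
private theorem upper_mem_qGammaLower {M N : ℕ} {t : ℚ} (ht : t ∈ qMul q M) :
    upper t ∈ qGammaLower q M N :=
  ⟨upper_mem_qGamma ht, by simp [zero_mem]⟩

/-- Lower unipotents of level `N` lie in `qGammaLower q M N` when `M ∣ N`. -/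
private theorem lower_mem_qGammaLower {M N : ℕ} (hMN : M ∣ N) {t : ℚ} (ht : t ∈ qMul q N) :
    lower t ∈ qGammaLower q M N :=
  ⟨lower_mem_qGamma (qMul_mono hMN ht), by simpa using ht⟩

/-- A function additive on `qGammaLower q M N` killing its elementary matrices and level `L`. -/
private structure KillsUnipotents (q M N L : ℕ) (ψ : SL(2, ℚ) → ZMod p) : Prop where
  map_mul : ∀ x ∈ qGammaLower q M N, ∀ y ∈ qGammaLower q M N, ψ (x * y) = ψ x + ψ y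
  upper : ∀ t ∈ qMul q M, ψ (upper t) = 0
  lower : ∀ t ∈ qMul q N, ψ (lower t) = 0
  deep : ∀ x ∈ qGamma q L, x ∈ qGammaLower q M N ∧ ψ x = 0

/-- Conjugation by `diag(r, r⁻¹)` keeps level `M` when `M r²` divides the lower left entry. -/
private theorem torus_conj_mem_qGamma {M r : ℕ} (hr0 : (r : ℚ) ≠ 0) {x : SL(2, ℚ)}
    (hx : x ∈ qGamma q M) (hxc : x 1 0 ∈ qMul q (M * (r * r))) :
    torus (r : ℚ) * x * (torus (r : ℚ))⁻¹ ∈ qGamma q M := by
  obtain ⟨c1, c2, c3, c4⟩ := torus_conj_apply hr0 x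
  rw [mem_qGamma, c1, c2, c3, c4]
  refine ⟨hx.1, qMul_mul_left (pow_mem (natCast_mem _ r) 2) hx.2.1, ?_, hx.2.2.2⟩
  obtain ⟨y, hy, e⟩ := mem_qMul.mp hxc
  rw [e]
  push_cast
  rw [show (M : ℚ) * (r * r) * y / (r : ℚ) ^ 2 = (M : ℚ) * y by field_simp]
  exact mul_natCast_mem_qMul hy

/-- The change of a good function under conjugation by `diag(r, r⁻¹)` kills unipotents. -/
private theorem killsUnipotents_torus {M r L : ℕ} {χ : SL(2, ℚ) → ZMod p} (hχ : IsGood q M χ)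
    (hr0 : (r : ℚ) ≠ 0) (hL : M * (r * r) ∣ L)
    (hfix : ∀ x ∈ qGamma q L, χ (torus (r : ℚ) * x * (torus (r : ℚ))⁻¹) = χ x) :
    KillsUnipotents q M (M * (r * r)) L
      (fun x => χ (torus (r : ℚ) * x * (torus (r : ℚ))⁻¹) - χ x) := by
  set T := torus (r : ℚ)
  have hTmem : ∀ x ∈ qGammaLower q M (M * (r * r)), T * x * T⁻¹ ∈ qGamma q M :=
    fun x hx => torus_conj_mem_qGamma hr0 hx.1 hx.2
  have hunip : ∀ x ∈ qGammaLower q M (M * (r * r)), x 0 0 + x 1 1 = 2 →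
      χ (T * x * T⁻¹) - χ x = 0 := by
    intro x hx ht
    rw [hχ.unipotent _ hx.1 ht, hχ.unipotent _ (hTmem x hx) (by rw [trace_conj, ht]), sub_zero]
  refine ⟨fun x hx y hy => ?_, fun t ht => hunip _ (upper_mem_qGammaLower ht) (by simp; norm_num),
    fun t ht => hunip _ (lower_mem_qGammaLower (dvd_mul_right _ _) ht) (by simp; norm_num),
    fun x hx => ⟨⟨qGamma_mono (dvd_trans (dvd_mul_right _ _) hL) hx, qMul_mono hL hx.2.2.1⟩,
      by simp only [hfix x hx, sub_self]⟩⟩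
  rw [show T * (x * y) * T⁻¹ = T * x * T⁻¹ * (T * y * T⁻¹) by group,
    hχ.map_mul _ (hTmem x hx) _ (hTmem y hy), hχ.map_mul _ hx.1 _ hy.1]
  ring

/-- A right translation by a lower unipotent makes the numerator of the first entry prime
to `L`. -/
private theorem exists_isCoprime_first_entry (hq : q.Prime) {M r L : ℕ} (hMq : M.Coprime q)
    (hr : r.Prime) (hrq : r.Coprime q) (hL0 : 0 < L) (hLq : L.Coprime q) {g : SL(2, ℚ)}
    (hg : g ∈ qGamma q M) (h10 : g 1 0 ∈ qMul q (M * (r * r))) :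
    ∃ (s A₁ : ℤ) (k : ℕ), g 0 0 + g 0 1 * (((M * (r * r) : ℕ) : ℚ) * s) = (A₁ : ℚ) / (q : ℚ) ^ k ∧
      IsCoprime A₁ L := by
  obtain ⟨k, A, B, hA, hB⟩ :=
    exists_eq_div_pair hq.ne_zero (apply_mem_qInt hg 0 0) (apply_mem_qInt hg 0 1)
  obtain ⟨k', C, D, hC, hD⟩ :=
    exists_eq_div_pair hq.ne_zero (apply_mem_qInt hg 1 0) (apply_mem_qInt hg 1 1)
  have hq0 : (q : ℚ) ≠ 0 := Nat.cast_ne_zero.mpr hq.ne_zero
  have hdet : A * D - B * C = (q : ℤ) ^ k * (q : ℤ) ^ k' := by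
    have := det_eq g
    rw [hA, hB, hC, hD] at this
    field_simp at this
    have e : (A : ℚ) * D - B * C = (q : ℚ) ^ k * (q : ℚ) ^ k' := by linear_combination this
    exact_mod_cast e
  have hCr : (r : ℤ) ∣ C := by
    rw [← intCast_mem_qMul_iff hrq]
    have := qMul_mul_right
      (qMul_mono (show r ∣ M * (r * r) from Dvd.intro (M * r) (by ring)) h10)
      (pow_mem (natCast_mem (qInt q) q) k')
    rwa [hC, div_mul_cancel₀ _ (pow_ne_zero _ hq0)] at this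
  obtain ⟨s, hs⟩ := exists_isCoprime_add_mul (A := A) (X := ((M * (r * r) : ℕ) : ℤ) * B) hL0 (by
    rintro ℓ hℓ hℓL ⟨h1, h2⟩
    have hℓq : ¬ (ℓ : ℤ) ∣ (q : ℤ) ^ k * (q : ℤ) ^ k' := by
      intro h
      have := (Nat.prime_iff_prime_int.mp hℓ).dvd_or_dvd h
      have h' : ℓ ∣ q := by
        rcases this with h | h <;>
          exact Int.natCast_dvd_natCast.mp ((Nat.prime_iff_prime_int.mp hℓ).dvd_of_dvd_pow h)
      exact hℓ.ne_one (Nat.dvd_one.mp (hLq ▸ Nat.dvd_gcd hℓL h'))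
    push_cast at h2
    rcases (Nat.prime_iff_prime_int.mp hℓ).dvd_or_dvd h2 with h3 | h3
    · rcases (Nat.prime_iff_prime_int.mp hℓ).dvd_or_dvd h3 with h4 | h4
      · have h5 : (M : ℤ) ∣ A - 1 * (q : ℤ) ^ k := by
          rw [← div_pow_sub_mem_qMul_iff hq.ne_zero hMq, Int.cast_one, ← hA]
          exact hg.1
        refine hℓq (Dvd.dvd.mul_right ?_ _)
        simpa using dvd_sub h1 (h4.trans h5)
      · have hℓr : ℓ = r := by
          have : (ℓ : ℤ) ∣ (r : ℤ) := ((Nat.prime_iff_prime_int.mp hℓ).dvd_or_dvd h4).elim id id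
          exact (Nat.prime_dvd_prime_iff_eq hℓ hr).mp (Int.natCast_dvd_natCast.mp this)
        subst hℓr
        exact hℓq (hdet ▸ dvd_sub (h1.mul_right D) (hCr.mul_left B))
    · exact hℓq (hdet ▸ dvd_sub (h1.mul_right D) (h3.mul_right C)))
  refine ⟨s, A + s * (((M * (r * r) : ℕ) : ℤ) * B), k, ?_, hs⟩
  simp [hA, hB]
  ring

/-- An element whose first entry has inverse `a` modulo `L` becomes diagonal modulo `L` after
multiplication by elementary matrices. -/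
private theorem exists_diagonal_congr {M N L : ℕ} (hMN : M ∣ N) {ψ : SL(2, ℚ) → ZMod p}
    (hψ : KillsUnipotents q M N L ψ) {g : SL(2, ℚ)} (hg : g ∈ qGammaLower q M N) {a : ℚ}
    (ha : a ∈ qInt q) (haL : g 0 0 * a - 1 ∈ qMul q L) :
    ∃ δ ∈ qGammaLower q M N, δ 0 0 = g 0 0 ∧ δ 0 1 ∈ qMul q L ∧ δ 1 0 ∈ qMul q L ∧
      δ 1 1 - a ∈ qMul q L ∧ ψ δ = ψ g := by
  have hU : -(a * g 0 1) ∈ qMul q M := neg_mem (qMul_mul_left ha hg.1.2.1)
  have hV : -(a * g 1 0) ∈ qMul q N := neg_mem (qMul_mul_left ha hg.2)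
  have hmV := lower_mem_qGammaLower hMN hV
  set δ := lower (-(a * g 1 0)) * g * upper (-(a * g 0 1)) with hδ
  have hδH : δ ∈ qGammaLower q M N := mul_mem (mul_mem hmV hg) (upper_mem_qGammaLower hU)
  have R := apply_mem_qInt hg.1
  have hδ00 : δ 0 0 = g 0 0 := by simp [hδ, mul_apply_two]
  have hδ01 : δ 0 1 ∈ qMul q L := by
    rw [show δ 0 1 = (g 0 0 * a - 1) * -g 0 1 by simp [hδ, mul_apply_two]; ring]
    exact qMul_mul_right haL (neg_mem (R 0 1))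
  have hδ10 : δ 1 0 ∈ qMul q L := by
    rw [show δ 1 0 = (g 0 0 * a - 1) * -g 1 0 by simp [hδ, mul_apply_two]; ring]
    exact qMul_mul_right haL (neg_mem (R 1 0))
  have hδR : δ ∈ qGamma q 1 := qGamma_mono (one_dvd _) hδH.1
  refine ⟨δ, hδH, hδ00, hδ01, hδ10, ?_, ?_⟩
  · rw [show δ 1 1 - a = a * δ 0 1 * δ 1 0 - (g 0 0 * a - 1) * δ 1 1 by
      linear_combination a * det_eq δ - a * δ 1 1 * hδ00]
    exact sub_mem (qMul_mul_left (mul_mem ha (apply_mem_qInt hδR 0 1)) hδ10)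
      (qMul_mul_right haL (apply_mem_qInt hδR 1 1))
  · rw [hδ, hψ.map_mul _ (mul_mem hmV hg) _ (upper_mem_qGammaLower hU),
      hψ.map_mul _ hmV _ hg, hψ.lower _ hV, hψ.upper _ hU, zero_add, add_zero]

/-- Euler's congruence for the first entry. -/
private theorem pow_sub_one_mem_qMul (hq : q ≠ 0) {M r : ℕ} (hr : r.Prime) (hrM : ¬ r ∣ M)
    (hrq : r.Coprime q) {A₁ : ℤ} {k : ℕ} (hA : IsCoprime A₁ ((r * r : ℕ) : ℤ))
    (h1 : (A₁ : ℚ) / (q : ℚ) ^ k - 1 ∈ qMul q (M * M)) :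
    ((A₁ : ℚ) / (q : ℚ) ^ k) ^ (r * (r - 1)) - 1 ∈ qMul q (M * (M * (r * r))) := by
  set E := r * (r - 1) with hE
  set x := (A₁ : ℚ) / (q : ℚ) ^ k with hx
  rw [← mul_assoc]
  have hco : (M * M).Coprime (r * r) := by
    have h : M.Coprime r := (hr.coprime_iff_not_dvd.mpr hrM).symm
    exact (h.mul_left h).mul_right (h.mul_left h)
  refine qMul_inter hco ?_ ?_
  · rw [← mul_geom_sum x E]
    exact qMul_mul_right h1 (sum_mem fun i _ => pow_mem (div_pow_mem_qInt hq A₁ k) i)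
  · rw [hx, div_pow, ← pow_mul, ← Int.cast_pow]
    have := (div_pow_sub_mem_qMul_iff hq (hrq.mul_left hrq) (A₁ ^ E) 1 (k * E)).mpr ?_
    · simpa using this
    have : NeZero (r * r) := ⟨(Nat.mul_pos hr.pos hr.pos).ne'⟩
    rw [one_mul, ← ZMod.intCast_zmod_eq_zero_iff_dvd]
    push_cast
    have hpow : ∀ z : ℤ, IsUnit (z : ZMod (r * r)) → (z : ZMod (r * r)) ^ E = 1 := by
      intro z hz
      have htot : (r * r).totient = E := by
        rw [← sq, Nat.totient_prime_pow hr two_pos, hE]; simp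
      have h := ZMod.pow_totient hz.unit
      have h' := congrArg Units.val h
      rw [htot] at h'
      simpa using h'
    have hu' : IsUnit ((q : ℤ) : ZMod (r * r)) :=
      (ZMod.unitOfIsCoprime (q : ℤ)
        (Nat.isCoprime_iff_coprime.mpr (hrq.mul_left hrq).symm)).isUnit
    have h2 := hpow _ hu'
    push_cast at h2
    rw [hpow _ (ZMod.unitOfIsCoprime A₁ hA).isUnit, mul_comm k, pow_mul, h2, one_pow, sub_self]

/-- The power of a diagonal element is congruent to a product of elementary matrices. -/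
private theorem apply_pow_eq_zero {M N L : ℕ} (hMN : M ∣ N) {ψ : SL(2, ℚ) → ZMod p}
    (hψ : KillsUnipotents q M N L ψ) {δ : SL(2, ℚ)} (hδ : δ ∈ qGammaLower q M N) {a : ℚ}
    (ha : a ∈ qInt q) (h01 : δ 0 1 ∈ qMul q L) (h10 : δ 1 0 ∈ qMul q L)
    (h11 : δ 1 1 - a ∈ qMul q L) (haL : δ 0 0 * a - 1 ∈ qMul q L) {E : ℕ} {z : ℚ}
    (hz : z ∈ qMul q N) (hxz : δ 0 0 ^ E = 1 + (M : ℚ) * z) : ψ (δ ^ E) = 0 := by
  have hδR : δ ∈ qGamma q 1 := qGamma_mono (one_dvd _) hδ.1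
  obtain ⟨e00, e01, e10, e11⟩ := pow_congr_diag hδR ha h01 h10 h11 E
  set x : ℚ := δ 0 0
  have hM1 : (M : ℚ) ∈ qMul q M := natCast_mem_qMul
  have haM : -(a ^ E * (M : ℚ)) ∈ qMul q M := neg_mem (qMul_mul_left (pow_mem ha E) hM1)
  have haz : -(a ^ E * z) ∈ qMul q N := neg_mem (qMul_mul_left (pow_mem ha E) hz)
  set P := lower (-(a ^ E * z)) * upper (M : ℚ) * lower z * upper (-(a ^ E * (M : ℚ))) with hP
  have m1 := lower_mem_qGammaLower hMN haz
  have m2 := mul_mem m1 (upper_mem_qGammaLower hM1)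
  have m3 := mul_mem m2 (lower_mem_qGammaLower hMN hz)
  have hPH : P ∈ qGammaLower q M N := mul_mem m3 (upper_mem_qGammaLower haM)
  have hψP : ψ P = 0 := by
    rw [hP, hψ.map_mul _ m3 _ (upper_mem_qGammaLower haM),
      hψ.map_mul _ m2 _ (lower_mem_qGammaLower hMN hz),
      hψ.map_mul _ m1 _ (upper_mem_qGammaLower hM1), hψ.upper _ haM, hψ.lower _ hz,
      hψ.upper _ hM1, hψ.lower _ haz]
    simp
  have hxa : x ^ E * a ^ E - 1 ∈ qMul q L := by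
    rw [← mul_pow, ← mul_geom_sum (x * a) E]
    exact qMul_mul_right haL
      (sum_mem fun i _ => pow_mem (mul_mem (apply_mem_qInt hδR 0 0) ha) i)
  have hMR : (M : ℚ) ∈ qInt q := natCast_mem _ M
  have hzR := mem_qInt_of_mem_qMul hz
  have hdiff : ∀ i j, (δ ^ E) i j - P i j ∈ qMul q L := by
    have p00 : P 0 0 = x ^ E := by simp [hP, mul_apply_two]; linear_combination -hxz
    have p01 : P 0 1 = (M : ℚ) * -(x ^ E * a ^ E - 1) := by
      simp [hP, mul_apply_two]; linear_combination (a ^ E * (M : ℚ)) * hxz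
    have p10 : P 1 0 = z * -(x ^ E * a ^ E - 1) := by
      simp [hP, mul_apply_two]; linear_combination (a ^ E * z) * hxz
    have p11 : P 1 1 - a ^ E = ((M : ℚ) * z * a ^ E - 1) * (x ^ E * a ^ E - 1) := by
      simp [hP, mul_apply_two]
      linear_combination (-(a ^ E * a ^ E) * ((M : ℚ) * z) + a ^ E) * hxz
    intro i j
    fin_cases i <;> fin_cases j
    · show (δ ^ E) 0 0 - P 0 0 ∈ _; rw [p00]; exact e00
    · show (δ ^ E) 0 1 - P 0 1 ∈ _; rw [p01]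
      exact sub_mem e01 (qMul_mul_left hMR (neg_mem hxa))
    · show (δ ^ E) 1 0 - P 1 0 ∈ _; rw [p10]
      exact sub_mem e10 (qMul_mul_left hzR (neg_mem hxa))
    · show (δ ^ E) 1 1 - P 1 1 ∈ _
      rw [show (δ ^ E) 1 1 - P 1 1 = ((δ ^ E) 1 1 - a ^ E) - (P 1 1 - a ^ E) by ring, p11]
      exact sub_mem e11 (qMul_mul_left
        (sub_mem (mul_mem (mul_mem hMR hzR) (pow_mem ha E)) (one_mem _)) hxa)
  obtain ⟨hqH, hq0⟩ := hψ.deep _ (mul_inv_mem_qGamma (qGamma_mono (one_dvd _) hPH.1) hdiff)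
  rw [show δ ^ E = δ ^ E * P⁻¹ * P by group, hψ.map_mul _ hqH _ hPH, hq0, hψP, add_zero]

/-- Conjugation by `diag(r, r⁻¹)` for suitable primes `r`. -/
theorem IsGood.apply_torus_prime_conj [Fact p.Prime] (hq : q.Prime) {M : ℕ}
    {χ : SL(2, ℚ) → ZMod p} (hχ : IsGood q M χ) {r : ℕ} (hr : r.Prime) (hrM : ¬ r ∣ M)
    (hrq : r ≠ q) (hrp : ¬ p ∣ r * (r - 1)) {g : SL(2, ℚ)} (hg : g ∈ qGamma q M)
    (h00 : g 0 0 - 1 ∈ qMul q (M * M)) (h10 : g 1 0 ∈ qMul q (M * (r * r))) :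
    torus (r : ℚ) * g * (torus (r : ℚ))⁻¹ ∈ qGamma q M ∧
      χ (torus (r : ℚ) * g * (torus (r : ℚ))⁻¹) = χ g := by
  have hr0 : (r : ℚ) ≠ 0 := Nat.cast_ne_zero.mpr hr.ne_zero
  refine ⟨torus_conj_mem_qGamma hr0 hg h10, ?_⟩
  obtain ⟨M', hM'0, hM'q, hMM', hfix⟩ :=
    torus_mem_fixingGroup (p := p) hq hr0 M χ hχ
  set L := M' * (M * M * (r * r)) with hLdef
  set N := M * (r * r) with hNdef
  have hMN : M ∣ N := dvd_mul_right _ _
  have hrq' : r.Coprime q := (Nat.coprime_primes hr hq).mpr hrq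
  have hL0 : 0 < L := Nat.mul_pos hM'0 (Nat.mul_pos (Nat.mul_pos hχ.pos hχ.pos)
    (Nat.mul_pos hr.pos hr.pos))
  have hLq : L.Coprime q :=
    hM'q.mul_left ((hχ.coprime.mul_left hχ.coprime).mul_left (hrq'.mul_left hrq'))
  set ψ : SL(2, ℚ) → ZMod p :=
    fun x => χ (torus (r : ℚ) * x * (torus (r : ℚ))⁻¹) - χ x with hψdef
  have hψ : KillsUnipotents q M N L ψ :=
    killsUnipotents_torus hχ hr0 (Dvd.intro (M' * M) (by rw [hLdef]; ring))
      fun x hx => (hfix x (qGamma_mono (dvd_mul_right _ _) hx)).2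
  suffices hgoal : ψ g = 0 from sub_eq_zero.mp hgoal
  -- make the first entry a unit modulo `L`
  obtain ⟨s, A₁, k, hA₁, hs⟩ :=
    exists_isCoprime_first_entry hq hχ.coprime hr hrq' hL0 hLq hg h10
  set t : ℚ := (N : ℚ) * s with htdef
  have ht : t ∈ qMul q N := mul_natCast_mem_qMul (intCast_mem _ s)
  set g₁ := g * lower t with hg₁
  have hg₁H : g₁ ∈ qGammaLower q M N := mul_mem ⟨hg, h10⟩ (lower_mem_qGammaLower hMN ht)
  have hψ₁ : ψ g₁ = ψ g := by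
    rw [hg₁, hψ.map_mul _ ⟨hg, h10⟩ _ (lower_mem_qGammaLower hMN ht), hψ.lower t ht, add_zero]
  have h₁00 : g₁ 0 0 = g 0 0 + g 0 1 * t := by simp [hg₁, mul_apply_two]
  have h₁M : g₁ 0 0 - 1 ∈ qMul q (M * M) := by
    rw [h₁00, add_sub_right_comm]
    exact add_mem h00 (qMul_mul_qMul hg.2.1 (qMul_mono hMN ht))
  rw [hA₁] at h₁00
  obtain ⟨u, v, huv⟩ := id hs
  set a : ℚ := (u : ℚ) * (q : ℚ) ^ k with hadef
  have ha : a ∈ qInt q := mul_mem (intCast_mem _ u) (pow_mem (natCast_mem _ q) k)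
  have haL : g₁ 0 0 * a - 1 ∈ qMul q L := by
    have e : g₁ 0 0 * a - 1 = (L : ℚ) * (-v : ℤ) := by
      have h : (u : ℚ) * A₁ + v * L = 1 := by exact_mod_cast huv
      have hq0 : (q : ℚ) ≠ 0 := Nat.cast_ne_zero.mpr hq.ne_zero
      rw [h₁00, hadef]; push_cast; field_simp; linear_combination h
    rw [e]; exact mul_natCast_mem_qMul (intCast_mem _ _)
  -- make it diagonal
  obtain ⟨δ, hδH, hδ00, hδ01, hδ10, hδ11, hψδ⟩ := exists_diagonal_congr hMN hψ hg₁H ha haL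
  -- its power is congruent to a product of unipotent elements
  obtain ⟨w, hw, hxw⟩ := mem_qMul.mp <| pow_sub_one_mem_qMul hq.ne_zero (A₁ := A₁) (k := k) hr
    hrM hrq' (hs.of_isCoprime_of_dvd_right
      (Int.natCast_dvd_natCast.mpr (Dvd.intro (M' * (M * M)) (by rw [hLdef]; ring))))
    (h₁00 ▸ h₁M)
  have hzero : ψ (δ ^ (r * (r - 1))) = 0 :=
    apply_pow_eq_zero hMN hψ hδH ha hδ01 hδ10 hδ11 (hδ00 ▸ haL)
      (mul_natCast_mem_qMul hw) (by
        rw [hδ00, h₁00, hNdef]; push_cast at hxw ⊢; linear_combination hxw)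
  have hpowψ : ∀ n, ψ (δ ^ n) = n • ψ δ := by
    intro n
    induction n with
    | zero => simp [hψdef, hχ.map_one]
    | succ n ih => rw [pow_succ, hψ.map_mul _ (pow_mem hδH n) _ hδH, ih, succ_nsmul]
  rw [hpowψ, hψδ, hψ₁, nsmul_eq_mul, mul_eq_zero, ZMod.natCast_eq_zero_iff] at hzero
  exact hzero.resolve_left hrp

/-- The class of first rows reachable at level `M`. -/
def HasValue (q : ℕ) (M : ℕ) (χ : SL(2, ℚ) → ZMod p) (a x : ℤ) (v : ZMod p) : Prop :=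
  ∀ g ∈ qGamma q M, g 0 0 = a → g 0 1 = (M : ℚ) * x → χ g = v

theorem exists_row_element {M : ℕ} (hMq : M.Coprime q) {a x : ℤ} (ha : (M : ℤ) ∣ a - 1)
    (hco : IsCoprime a ((M : ℤ) * x)) :
    ∃ g ∈ qGamma q M, g 0 0 = a ∧ g 0 1 = (M : ℚ) * x := by
  obtain ⟨u, v, huv⟩ := hco
  -- shift so that the lower left entry is divisible by `M`
  set c : ℤ := -v + v * a with hc
  set d : ℤ := u + v * ((M : ℤ) * x) with hd
  have hdet : (a : ℚ) * d - (M : ℚ) * x * c = 1 := by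
    have h : a * d - (M : ℤ) * x * c = 1 := by rw [hc, hd]; linear_combination huv
    exact_mod_cast h
  refine ⟨⟨!![(a : ℚ), (M : ℚ) * x; (c : ℚ), (d : ℚ)],
    by rw [Matrix.det_fin_two]; simpa using hdet⟩, ?_, rfl, rfl⟩
  have hcM : (M : ℤ) ∣ c := by
    rw [hc, show -v + v * a = v * (a - 1) by ring]; exact ha.mul_left v
  have hdM : (M : ℤ) ∣ d - 1 := by
    have h2 : d - 1 = (M : ℤ) * x * c - (a - 1) * d := by
      have h : a * d - (M : ℤ) * x * c = 1 := by rw [hc, hd]; linear_combination huv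
      linear_combination h
    rw [h2]; exact dvd_sub ((dvd_mul_right _ x).mul_right c) (ha.mul_right d)
  rw [mem_qGamma]
  refine ⟨?_, mul_natCast_mem_qMul (intCast_mem _ x), ?_, ?_⟩
  · show (a : ℚ) - 1 ∈ _
    rw [← Int.cast_one, ← Int.cast_sub, intCast_mem_qMul_iff hMq]; exact ha
  · show (c : ℚ) ∈ _
    rw [intCast_mem_qMul_iff hMq]; exact hcM
  · show (d : ℚ) - 1 ∈ _
    rw [← Int.cast_one, ← Int.cast_sub, intCast_mem_qMul_iff hMq]; exact hdM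

theorem exists_prime_crt {m n : ℕ} (hm : 0 < m) (hn : 0 < n) (hmn : m.Coprime n) {a b : ℕ}
    (ha : a.Coprime m) (hb : b.Coprime n) (B : ℕ) :
    ∃ ℓ, B < ℓ ∧ ℓ.Prime ∧ ℓ ≡ a [MOD m] ∧ ℓ ≡ b [MOD n] := by
  obtain ⟨x, hx1, hx2⟩ := Nat.chineseRemainder hmn a b
  have hx : x.Coprime (m * n) := Nat.Coprime.mul_right
    (by rw [Nat.Coprime, hx1.gcd_eq]; exact ha) (by rw [Nat.Coprime, hx2.gcd_eq]; exact hb)
  obtain ⟨ℓ, h1, h2, h3⟩ := Nat.forall_exists_prime_gt_and_modEq B (Nat.mul_pos hm hn).ne' hx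
  exact ⟨ℓ, h1, h2, (h3.of_dvd (dvd_mul_right _ _)).trans hx1,
    (h3.of_dvd (dvd_mul_left _ _)).trans hx2⟩

namespace IsGood

variable {M : ℕ} {χ : SL(2, ℚ) → ZMod p}

theorem hasValue_unique (hχ : IsGood q M χ) {a x : ℤ} (ha : (M : ℤ) ∣ a - 1)
    (hco : IsCoprime a ((M : ℤ) * x)) : ∃! v, HasValue q M χ a x v := by
  obtain ⟨g, hg, h0, h1⟩ := exists_row_element hχ.coprime ha hco
  exact ⟨χ g, fun g' hg' h0' h1' => hχ.eq_of_row hg hg' (h0'.trans h0.symm) (h1'.trans h1.symm),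
    fun v hv => (hv g hg h0 h1).symm⟩

/-- The common value on a first row (junk value `0`). -/
def rowVal (hχ : IsGood q M χ) (a x : ℤ) : ZMod p :=
  if h : (M : ℤ) ∣ a - 1 ∧ IsCoprime a ((M : ℤ) * x) then
    (hχ.hasValue_unique h.1 h.2).choose else 0

theorem rowVal_spec (hχ : IsGood q M χ) {g : SL(2, ℚ)} (hg : g ∈ qGamma q M) {a x : ℤ}
    (h0 : g 0 0 = a) (h1 : g 0 1 = (M : ℚ) * x) (hco : IsCoprime a ((M : ℤ) * x)) :
    hχ.rowVal a x = χ g := by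
  have ha : (M : ℤ) ∣ a - 1 := by
    rw [← intCast_mem_qMul_iff hχ.coprime, Int.cast_sub, Int.cast_one, ← h0]
    exact hg.1
  rw [rowVal, dif_pos ⟨ha, hco⟩]
  exact ((hχ.hasValue_unique ha hco).choose_spec.1 g hg h0 h1).symm

theorem rowVal_add_fst (hχ : IsGood q M χ) {a x : ℤ} (ha : (M : ℤ) ∣ a - 1)
    (hco : IsCoprime a ((M : ℤ) * x)) (t : ℤ) :
    hχ.rowVal (a + t * ((M : ℤ) * M) * x) x = hχ.rowVal a x := by
  obtain ⟨g, hg, h0, h1⟩ := exists_row_element hχ.coprime ha hco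
  have ht : (M : ℚ) * t ∈ qMul q M := mul_natCast_mem_qMul (intCast_mem _ t)
  rw [hχ.rowVal_spec hg h0 h1 hco, ← hχ.apply_mul_lower hg ht]
  refine hχ.rowVal_spec (mul_mem hg (lower_mem_qGamma ht)) ?_ ?_ ?_
  · simp [mul_apply_two, h0, h1]; ring
  · simp [mul_apply_two, h1]
  · rw [show a + t * ((M : ℤ) * M) * x = a + (t * M) * ((M : ℤ) * x) by ring]
    exact hco.add_mul_right_left _

theorem rowVal_add_snd (hχ : IsGood q M χ) {a x : ℤ} (ha : (M : ℤ) ∣ a - 1)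
    (hco : IsCoprime a ((M : ℤ) * x)) (t : ℤ) :
    hχ.rowVal a (x + t * a) = hχ.rowVal a x := by
  obtain ⟨g, hg, h0, h1⟩ := exists_row_element hχ.coprime ha hco
  have ht : (M : ℚ) * t ∈ qMul q M := mul_natCast_mem_qMul (intCast_mem _ t)
  rw [hχ.rowVal_spec hg h0 h1 hco, ← hχ.apply_mul_upper hg ht]
  refine hχ.rowVal_spec (mul_mem hg (upper_mem_qGamma ht)) ?_ ?_ ?_
  · simp [mul_apply_two, h0]
  · simp [mul_apply_two, h0, h1]; ring
  · rw [show (M : ℤ) * (x + t * a) = (M : ℤ) * x + (M * t) * a by ring]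
    exact hco.add_mul_right_right _

theorem rowVal_mul_sq [Fact p.Prime] (hq : q.Prime) (hχ : IsGood q M χ) {a x : ℤ}
    (ha : ((M : ℤ) * M) ∣ a - 1) (hco : IsCoprime a ((M : ℤ) * x)) {r : ℕ} (hr : r.Prime)
    (hrM : ¬ r ∣ M) (hrq : r ≠ q) (hrp : ¬ p ∣ r * (r - 1)) (hra : ¬ (r : ℤ) ∣ a) :
    hχ.rowVal a ((r : ℤ) ^ 2 * x) = hχ.rowVal a x := by
  have haM : (M : ℤ) ∣ a - 1 := (dvd_mul_right _ _).trans ha
  obtain ⟨g, hg, h0, h1⟩ := exists_row_element hχ.coprime haM hco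
  obtain ⟨w, hw, hc⟩ := mem_qMul.mp hg.2.2.1
  obtain ⟨k, -, W, hW⟩ := exists_eq_div_of_mem_qInt hq.ne_zero hw 0
  have hrZ : IsCoprime (r : ℤ) a := (Nat.prime_iff_prime_int.mp hr).coprime_iff_not_dvd.mpr hra
  obtain ⟨u, v, huv⟩ : IsCoprime ((r : ℤ) ^ 2) (a * (q : ℤ) ^ k) :=
    (hrZ.mul_right
      (Nat.isCoprime_iff_coprime.mpr ((Nat.coprime_primes hr hq).mpr hrq)).pow_right).pow_left
  have hq0 : (q : ℚ) ≠ 0 := Nat.cast_ne_zero.mpr hq.ne_zero
  have hr0 : (r : ℚ) ≠ 0 := Nat.cast_ne_zero.mpr hr.ne_zero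
  set t : ℚ := (M : ℚ) * ((-(W * v) : ℤ) : ℚ) with htdef
  have ht : t ∈ qMul q M := mul_natCast_mem_qMul (intCast_mem _ _)
  set g' := lower t * g with hg'
  have hg'm : g' ∈ qGamma q M := mul_mem (lower_mem_qGamma ht) hg
  have h10 : g' 1 0 ∈ qMul q (M * (r * r)) := by
    have e : g' 1 0 = ((M * (r * r) : ℕ) : ℚ) * (((W * u : ℤ) : ℚ) / (q : ℚ) ^ k) := by
      have h : (u : ℚ) * (r : ℚ) ^ 2 + v * (a * (q : ℚ) ^ k) = 1 := by exact_mod_cast huv
      simp [hg', mul_apply_two, htdef, h0, hc, hW]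
      field_simp
      linear_combination -((M : ℚ) * W) * h
    rw [e]
    exact mul_natCast_mem_qMul (div_pow_mem_qInt hq.ne_zero _ k)
  have h00 : g' 0 0 - 1 ∈ qMul q (M * M) := by
    rw [show g' 0 0 = (a : ℚ) by simp [hg', mul_apply_two, h0], ← Int.cast_one, ← Int.cast_sub,
      intCast_mem_qMul_iff (hχ.coprime.mul_left hχ.coprime)]
    push_cast; exact ha
  obtain ⟨hmem, heq⟩ := hχ.apply_torus_prime_conj hq hr hrM hrq hrp hg'm h00 h10
  rw [hχ.rowVal_spec hg h0 h1 hco, ← hχ.apply_lower_mul hg ht, ← heq]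
  obtain ⟨c1, c2, -, -⟩ := torus_conj_apply hr0 g'
  refine hχ.rowVal_spec hmem ?_ ?_ ?_
  · rw [c1]; simp [hg', mul_apply_two, h0]
  · rw [c2]; simp [hg', mul_apply_two, h1]; ring
  · exact hco.of_mul_right_left.mul_right (hrZ.symm.pow_right.mul_right hco.of_mul_right_right)

/-- The value only depends on the quadratic character. -/
theorem rowVal_eq_of_legendre [Fact p.Prime] (hp2 : p ≠ 2) (hq : q.Prime) (hχ : IsGood q M χ)
    {a : ℕ} [Fact a.Prime] (hap : a ≠ p) (ha : ((M : ℤ) * M) ∣ (a : ℤ) - 1)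
    {x y : ℤ} (hx : (x : ZMod a) ≠ 0) (hxy : legendreSym a x = legendreSym a y) :
    hχ.rowVal a x = hχ.rowVal a y := by
  have haM : (M : ℤ) ∣ (a : ℤ) - 1 := (dvd_mul_right _ _).trans ha
  have hapr : a.Prime := Fact.out
  have hppr : p.Prime := Fact.out
  have hy : (y : ZMod a) ≠ 0 := fun h => by
    rw [(legendreSym.eq_zero_iff a y).mpr h, legendreSym.eq_zero_iff] at hxy
    exact hx hxy
  obtain ⟨σ, hσ⟩ : IsSquare ((x * y : ℤ) : ZMod a) := by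
    refine (legendreSym.eq_one_iff a (by push_cast; exact mul_ne_zero hx hy)).mp ?_
    rw [legendreSym.mul, hxy, ← sq, legendreSym.sq_one a hy]
  push_cast at hσ
  have hσ0 : σ ≠ 0 := by rintro rfl; simp [hx, hy] at hσ
  set ρ : ZMod a := σ / (x : ZMod a) with hρ
  have hρ0 : ρ ≠ 0 := div_ne_zero hσ0 hx
  have hρx : ρ ^ 2 * x = y := by
    rw [hρ]; field_simp; linear_combination -hσ
  obtain ⟨r, hr, hrP, hra, hr2⟩ := exists_prime_crt hapr.pos hppr.pos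
    ((Nat.coprime_primes hapr hppr).mpr hap) (a := ρ.val) (b := 2)
    (Nat.Coprime.symm ((hapr.coprime_iff_not_dvd).mpr fun h => hρ0 (by
      rw [← ZMod.natCast_zmod_val ρ, ZMod.natCast_eq_zero_iff]; exact h)))
    ((Nat.coprime_primes Nat.prime_two hppr).mpr (Ne.symm hp2)) (a + q + M + p)
  have hrM : ¬ r ∣ M := fun h => by have := Nat.le_of_dvd hχ.pos h; omega
  have hrp : ¬ p ∣ r * (r - 1) := by
    intro h
    rcases hppr.dvd_mul.mp h with h | h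
    · have := (Nat.prime_dvd_prime_iff_eq hppr hrP).mp h; omega
    · have h1 : r ≡ 1 [MOD p] := ((Nat.modEq_iff_dvd' hrP.one_le).mpr h).symm
      have := (Nat.modEq_iff_dvd.mp (hr2.symm.trans h1))
      have h' : (p : ℤ) ∣ 1 := by simpa using this
      exact hppr.ne_one (Nat.dvd_one.mp (by exact_mod_cast h'))
  have hra' : ¬ (r : ℤ) ∣ (a : ℤ) := by
    rw [Int.natCast_dvd_natCast]
    exact fun h => by have := Nat.le_of_dvd hapr.pos h; omega
  have hcop : ∀ z : ℤ, (z : ZMod a) ≠ 0 → IsCoprime (a : ℤ) ((M : ℤ) * z) := fun z hz => by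
    refine IsCoprime.mul_right ?_ ((Nat.prime_iff_prime_int.mp hapr).coprime_iff_not_dvd.mpr
      (by rwa [← ZMod.intCast_zmod_eq_zero_iff_dvd]))
    obtain ⟨c, hc⟩ := haM
    exact ⟨1, -c, by linear_combination hc⟩
  have hrσ : (r : ZMod a) = ρ := by
    rw [(ZMod.natCast_eq_natCast_iff r ρ.val a).mpr hra, ZMod.natCast_zmod_val]
  obtain ⟨t, ht⟩ : (a : ℤ) ∣ y - (r : ℤ) ^ 2 * x := by
    rw [← ZMod.intCast_zmod_eq_zero_iff_dvd]; push_cast; rw [hrσ, hρx, sub_self]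
  rw [show y = (r : ℤ) ^ 2 * x + t * a by linarith, hχ.rowVal_add_snd haM _ t,
    hχ.rowVal_mul_sq hq ha (hcop x hx) hrP hrM (by omega) hrp hra']
  refine hcop _ ?_
  push_cast
  rw [hrσ, hρx]
  exact hy

/-- A quadratic residue gives the value zero. -/
theorem rowVal_eq_zero_of_square [Fact p.Prime] (hp2 : p ≠ 2) (hq : q.Prime) (hχ : IsGood q M χ)
    {a : ℕ} [Fact a.Prime] (hap : a ≠ p) (ha : ((M : ℤ) * M) ∣ (a : ℤ) - 1)
    {x : ℤ} (hx : legendreSym a x = 1) : hχ.rowVal a x = 0 := by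
  have hx0 : (x : ZMod a) ≠ 0 := fun h => by
    rw [(legendreSym.eq_zero_iff a x).mpr h] at hx; omega
  rw [hχ.rowVal_eq_of_legendre hp2 hq hap ha hx0 (y := 1) (by rw [hx, legendreSym.at_one])]
  obtain ⟨c, hc⟩ := ha
  have hM1 : IsCoprime (a : ℤ) ((M : ℤ) * 1) := ⟨1, -(c * M), by linear_combination hc⟩
  have haM : (M : ℤ) ∣ (a : ℤ) - 1 := ⟨(M : ℤ) * c, by linear_combination hc⟩
  rw [← hχ.rowVal_add_fst haM hM1 (-c),
    hχ.rowVal_spec (g := upper (M : ℚ)) (upper_mem_qGamma natCast_mem_qMul) ?_ (by simp) ?_,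
    hχ.apply_upper natCast_mem_qMul]
  · have h : (a : ℤ) + -c * ((M : ℤ) * M) * 1 = 1 := by linear_combination hc
    rw [h]; simp
  · rw [show (a : ℤ) + -c * ((M : ℤ) * M) * 1 = 1 by linear_combination hc]
    exact isCoprime_one_left

/-- Two quadratic nonresidues give the same value. -/
theorem rowVal_eq_of_nonsquare [Fact p.Prime] (hp2 : p ≠ 2) (hq : q.Prime) (hχ : IsGood q M χ)
    {a b : ℕ} [Fact a.Prime] [Fact b.Prime] (ha2 : a ≠ 2) (hb2 : b ≠ 2) (hap : a ≠ p) (hbp : b ≠ p)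
    (ha : ((M : ℤ) * M) ∣ (a : ℤ) - 1) (hb : ((M : ℤ) * M) ∣ (b : ℤ) - 1)
    {x y : ℤ} (hx : legendreSym a x = -1) (hy : legendreSym b y = -1) :
    hχ.rowVal a x = hχ.rowVal b y := by
  have hapr : a.Prime := Fact.out
  have hbpr : b.Prime := Fact.out
  have hpick : ∀ (c : ℕ) [Fact c.Prime], c ≠ 2 → ∀ z : ℤ, legendreSym c z = -1 → ∀ B : ℕ,
      ∃ ℓ, B < ℓ ∧ ℓ.Prime ∧ ℓ % 4 = 1 ∧ legendreSym c ℓ = -1 := by
    intro c hc hc2 z hz B
    have hz0 : (z : ZMod c) ≠ 0 := fun h => by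
      rw [(legendreSym.eq_zero_iff c z).mpr h] at hz; omega
    obtain ⟨ℓ, h1, h2, h3, h4⟩ := exists_prime_crt hc.out.pos (show 0 < 4 by norm_num)
      (Nat.Coprime.pow_right 2 ((Nat.coprime_primes hc.out Nat.prime_two).mpr hc2))
      (a := (z : ZMod c).val) (b := 1) (Nat.Coprime.symm (hc.out.coprime_iff_not_dvd.mpr fun h =>
        hz0 (by rw [← ZMod.natCast_zmod_val (z : ZMod c), ZMod.natCast_eq_zero_iff]; exact h)))
      (Nat.coprime_one_left 4) B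
    refine ⟨ℓ, h1, h2, h4, ?_⟩
    rw [← hz, legendreSym, legendreSym]
    congr 1
    push_cast
    rw [(ZMod.natCast_eq_natCast_iff ℓ _ c).mpr h3, ZMod.natCast_zmod_val]
  obtain ⟨ℓ₁, hℓ₁, hℓ₁P, hℓ₁4, hℓ₁a⟩ := hpick a ha2 x hx (a + b + M + 2)
  obtain ⟨ℓ₂, hℓ₂, hℓ₂P, hℓ₂4, hℓ₂b⟩ := hpick b hb2 y hy ℓ₁
  have := Fact.mk hℓ₁P
  have := Fact.mk hℓ₂P
  have hMM : 0 < M * M := Nat.mul_pos hχ.pos hχ.pos
  have hcM : ∀ ℓ : ℕ, ℓ.Prime → M < ℓ → (M * M).Coprime ℓ := by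
    intro ℓ hℓ hlt
    have h : M.Coprime ℓ := (hℓ.coprime_iff_not_dvd.mpr fun h => by
      have := Nat.le_of_dvd hχ.pos h; omega).symm
    exact h.mul_left h
  have h12 : (M * M * ℓ₁).Coprime ℓ₂ :=
    (hcM ℓ₂ hℓ₂P (by omega)).mul_left ((Nat.coprime_primes hℓ₁P hℓ₂P).mpr (by omega))
  have hmodc : ∀ (c d : ℕ), c.Prime → c ≠ d → d.Prime → c.Coprime d := fun c d h1 h2 h3 =>
    (Nat.coprime_primes h1 h3).mpr h2
  obtain ⟨u, hu1, hu2⟩ := Nat.chineseRemainder (hcM ℓ₁ hℓ₁P (by omega)) 1 a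
  obtain ⟨c, hc, hcP, hc1, hc2⟩ := exists_prime_crt (Nat.mul_pos hMM hℓ₁P.pos) hℓ₂P.pos h12
    (a := u) (b := b) (Nat.Coprime.mul_right (by rw [Nat.Coprime, hu1.gcd_eq]; simp)
      (by rw [Nat.Coprime, hu2.gcd_eq]; exact hmodc a ℓ₁ hapr (by omega) hℓ₁P))
    (hmodc b ℓ₂ hbpr (by omega) hℓ₂P) (p + 2 + ℓ₁ + ℓ₂)
  have := Fact.mk hcP
  have hcℓ₁ : c ≡ a [MOD ℓ₁] := (hc1.of_dvd (dvd_mul_left _ _)).trans hu2
  have hc1' : c ≡ 1 [MOD M * M] := (hc1.of_dvd (dvd_mul_right _ _)).trans hu1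
  have hdc : ((M : ℤ) * M) ∣ (c : ℤ) - 1 := by
    have := Nat.modEq_iff_dvd.mp hc1'.symm
    push_cast at this; exact this
  -- the common step
  have step : ∀ (a ℓ : ℕ) [Fact a.Prime] [Fact ℓ.Prime] (z : ℤ), a ≠ 2 → a ≠ p →
      ((M : ℤ) * M) ∣ (a : ℤ) - 1 → legendreSym a z = -1 → legendreSym a ℓ = -1 → ℓ % 4 = 1 →
      M < ℓ → c ≡ a [MOD ℓ] →
      hχ.rowVal a z = hχ.rowVal c ℓ ∧ legendreSym c ℓ = -1 := by
    intro a ℓ ha' hℓ' z ha2 hap ha hz hℓa h4 hMℓ hca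
    have hz0 : (z : ZMod a) ≠ 0 := fun h => by
      rw [(legendreSym.eq_zero_iff a z).mpr h] at hz; omega
    have hℓ0 : ((ℓ : ℤ) : ZMod a) ≠ 0 := fun h => by
      rw [(legendreSym.eq_zero_iff a ℓ).mpr h] at hℓa; omega
    refine ⟨?_, ?_⟩
    · rw [hχ.rowVal_eq_of_legendre hp2 hq hap ha hz0 (hz.trans hℓa.symm)]
      have hdvd : ((M : ℤ) * M) * ℓ ∣ (c : ℤ) - a := by
        refine IsCoprime.mul_dvd ?_ (by simpa using dvd_sub hdc ha)
          (Nat.modEq_iff_dvd.mp hca.symm)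
        exact_mod_cast Nat.isCoprime_iff_coprime.mpr (hcM ℓ hℓ'.out hMℓ)
      obtain ⟨t, ht⟩ := hdvd
      rw [show (c : ℤ) = (a : ℤ) + t * ((M : ℤ) * M) * ℓ by linarith]
      refine (hχ.rowVal_add_fst ((dvd_mul_right _ _).trans ha) ?_ t).symm
      obtain ⟨d, hd⟩ := ha
      exact IsCoprime.mul_right ⟨1, -(M * d), by linear_combination hd⟩
        ((Nat.prime_iff_prime_int.mp ha'.out).coprime_iff_not_dvd.mpr
          (by rwa [← ZMod.intCast_zmod_eq_zero_iff_dvd]))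
    · rw [legendreSym.quadratic_reciprocity_one_mod_four h4 (by omega), ← hℓa,
        legendreSym.quadratic_reciprocity_one_mod_four h4 ha2, legendreSym.mod,
        legendreSym.mod ℓ (a : ℤ)]
      congr 1
      exact_mod_cast hca
  obtain ⟨e₁, n₁⟩ := step a ℓ₁ x ha2 hap ha hx hℓ₁a hℓ₁4 (by omega) hcℓ₁
  obtain ⟨e₂, n₂⟩ := step b ℓ₂ y hb2 hbp hb hy hℓ₂b hℓ₂4 (by omega) hc2
  rw [e₁, e₂]
  refine hχ.rowVal_eq_of_legendre hp2 hq (by omega) hdc ?_ (n₁.trans n₂.symm)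
  intro h
  rw [(legendreSym.eq_zero_iff c ℓ₁).mpr h] at n₁
  omega

/-- **Ihara's lemma.**  A good character of level `M` vanishes at level `M ^ 2`. -/
theorem eq_zero [Fact p.Prime] (hp2 : p ≠ 2) (hq : q.Prime) (hχ : IsGood q M χ)
    {g : SL(2, ℚ)} (hg : g ∈ qGamma q M) (hg0 : g 0 0 - 1 ∈ qMul q (M * M)) : χ g = 0 := by
  have classify : ∀ g ∈ qGamma q M, g 0 0 - 1 ∈ qMul q (M * M) →
      χ g = 0 ∨ ∃ (a : ℕ) (x : ℤ), a.Prime ∧ a ≠ 2 ∧ a ≠ p ∧ ((M : ℤ) * M) ∣ (a : ℤ) - 1 ∧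
        (∀ _ : Fact a.Prime, legendreSym a x = -1) ∧ χ g = hχ.rowVal a x := by
    intro g hg hg0
    obtain ⟨g', hg', A, Y, hA, hY, hco, hY0, hqY, -, h00, he⟩ :=
      exists_int_row (p := p) hq hχ.pos hχ.coprime hg
    have hA1 : ((M : ℤ) * M) ∣ A - 1 := by
      have h := add_mem h00 hg0
      rw [sub_add_sub_cancel, hA, ← Int.cast_one, ← Int.cast_sub,
        intCast_mem_qMul_iff (hχ.coprime.mul_left hχ.coprime)] at h
      push_cast at h; exact h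
    obtain ⟨a, haB, haP, haA⟩ := Nat.forall_exists_prime_gt_and_zmodEq (p + 2 + M + Y.natAbs)
      (q := M * M * Y.natAbs) (a := A)
      (Nat.mul_pos (Nat.mul_pos hχ.pos hχ.pos) (Int.natAbs_pos.mpr hY0)).ne' (by
        have h1 : IsCoprime A (M : ℤ) := hco.of_mul_right_left
        have h2 : IsCoprime A Y := hco.of_mul_right_right
        push_cast
        refine (h1.mul_right h1).mul_right ?_
        rcases abs_choice Y with e | e <;> rw [e]
        · exact h2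
        · exact h2.neg_right)
    have := Fact.mk haP
    obtain ⟨t, ht⟩ : (M : ℤ) * M * Y ∣ (a : ℤ) - A := by
      refine dvd_trans ?_ (Int.modEq_iff_dvd.mp haA.symm)
      push_cast; exact mul_dvd_mul_left _ (self_dvd_abs _)
    have haM : ((M : ℤ) * M) ∣ (a : ℤ) - 1 := by
      rw [show (a : ℤ) - 1 = ((M : ℤ) * M) * (Y * t) + (A - 1) by linear_combination ht]
      exact dvd_add (dvd_mul_right _ _) hA1
    have hval : χ g = hχ.rowVal a Y := by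
      rw [← he χ hχ, ← hχ.rowVal_spec hg' hA hY hco, ← hχ.rowVal_add_fst
        ((dvd_mul_right _ _).trans hA1) hco t]
      congr 1
      linarith
    have hY0' : (Y : ZMod a) ≠ 0 := by
      rw [Ne, ZMod.intCast_zmod_eq_zero_iff_dvd, Int.natCast_dvd]
      intro h
      have := Nat.le_of_dvd (Int.natAbs_pos.mpr hY0) h
      omega
    rcases legendreSym.eq_one_or_neg_one a hY0' with h | h
    · exact Or.inl (hval.trans (hχ.rowVal_eq_zero_of_square hp2 hq (by omega) haM h))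
    · exact Or.inr ⟨a, Y, haP, by omega, by omega, haM, fun _ => h, hval⟩
  rcases classify g hg hg0 with h | ⟨a, x, haP, ha2, hap, ha, hx, hgx⟩
  · exact h
  have hg2 : g * g ∈ qGamma q M := mul_mem hg hg
  have hg20 : (g * g) 0 0 - 1 ∈ qMul q (M * M) := by
    rw [mul_apply_two, show g 0 0 * g 0 0 + g 0 1 * g 1 0 - 1
      = (g 0 0 - 1) * g 0 0 + (g 0 0 - 1) + g 0 1 * g 1 0 by ring]
    exact add_mem (add_mem (qMul_mul_right hg0 (apply_mem_qInt hg 0 0)) hg0)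
      (qMul_mul_qMul hg.2.1 hg.2.2.1)
  have h2 := hχ.map_mul g hg g hg
  rcases classify _ hg2 hg20 with h | ⟨b, y, hbP, hb2, hbp, hb, hy, hgy⟩
  · have h0 : (2 : ZMod p) * χ g = 0 := by rw [two_mul, ← h2, h]
    refine (mul_eq_zero.mp h0).resolve_left fun h' => hp2 ?_
    have h'' : ((2 : ℕ) : ZMod p) = 0 := by simpa using h'
    exact (Nat.prime_dvd_prime_iff_eq Fact.out Nat.prime_two).mp
      ((ZMod.natCast_eq_zero_iff 2 p).mp h'')
  · have := Fact.mk haP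
    have := Fact.mk hbP
    rw [hgy, ← hχ.rowVal_eq_of_nonsquare hp2 hq ha2 hb2 hap hbp ha hb (hx ⟨haP⟩) (hy ⟨hbP⟩), ← hgx]
      at h2
    linear_combination -h2

end IsGood

end FLTAgent.LevelRaising
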