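import Fermat.Agent.LevelRaising.Ihara
import Fermat.Agent.LevelRaising.Glue

/-!
# Homomorphisms on `qZero q N` vanish on a congruence subgroup

`hom_qZero_eq_zero` is Ihara's lemma for the group `qZero q N` of `LevelRaising.Glue`, deduced
from the homomorphism form in `LevelRaising.Ihara`.
-/

set_option autoImplicit false

noncomputable section

open scoped MatrixGroups

namespace FLTAgent.LevelRaising

variable {p q N : ℕ}

theorem ihara_map_pow {F : Type*} [AddCommGroup F] {f : SL(2, ℚ) → F}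
    (hadd : ∀ x ∈ qZero q N, ∀ y ∈ qZero q N, f (x * y) = f x + f y) {x : SL(2, ℚ)}
    (hx : x ∈ qZero q N) (n : ℕ) : f (x ^ n) = n • f x := by
  induction n with
  | zero =>
    have := hadd 1 (one_mem _) 1 (one_mem _)
    simpa using this
  | succ n ih => rw [pow_succ, hadd _ (pow_mem hx n) _ hx, ih, succ_nsmul]

/-- Any homomorphism `qZero q N → ZMod p` is good at level `N * p`. -/
theorem isGood_of_hom [Fact p.Prime] (hN : 0 < N) (hNq : N.Coprime q) (hpq : p.Coprime q)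
    {f : SL(2, ℚ) → ZMod p}
    (hadd : ∀ x ∈ qZero q N, ∀ y ∈ qZero q N, f (x * y) = f x + f y) : IsGood q (N * p) f := by
  have hp : p.Prime := Fact.out
  have hle : qGamma q (N * p) ≤ qZero q N := qGamma_le_qZero q (dvd_mul_right _ _)
  refine ⟨Nat.mul_pos hN hp.pos, hNq.mul_left hpq, fun a ha b hb => hadd a (hle ha) b (hle hb), ?_⟩
  intro g hg htr
  obtain ⟨u, hu, hu'⟩ := mem_qMul.mp hg.1
  obtain ⟨v, hv, hv'⟩ := mem_qMul.mp hg.2.1
  obtain ⟨w, hw, hw'⟩ := mem_qMul.mp hg.2.2.1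
  push_cast at hu' hv' hw'
  have hp0 : (p : ℚ) ≠ 0 := Nat.cast_ne_zero.mpr hp.ne_zero
  have hN0 : (N : ℚ) ≠ 0 := Nat.cast_ne_zero.mpr hN.ne'
  have h11 : g 1 1 = 1 - (N : ℚ) * p * u := by linear_combination htr - hu'
  have hdet := det_eq g
  rw [h11, hv', hw', show g 0 0 = 1 + (N : ℚ) * p * u by linear_combination hu'] at hdet
  have hnil : u * u + v * w = 0 := by
    have : ((N : ℚ) * p) ^ 2 * (u * u + v * w) = 0 := by linear_combination -hdet
    exact (mul_eq_zero.mp this).resolve_left (pow_ne_zero _ (mul_ne_zero hN0 hp0))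
  let δ : SL(2, ℚ) := ⟨!![1 + (N : ℚ) * u, (N : ℚ) * v; (N : ℚ) * w, 1 - (N : ℚ) * u], by
    rw [Matrix.det_fin_two_of]; linear_combination -((N : ℚ) * N) * hnil⟩
  have hδ : δ ∈ qZero q N := by
    refine ⟨mem_qGamma_one_iff.mpr fun i j => ?_, mul_natCast_mem_qMul hw⟩
    fin_cases i <;> fin_cases j
    · exact add_mem (one_mem _) (mul_mem (natCast_mem _ _) hu)
    · exact mul_mem (natCast_mem _ _) hv
    · exact mul_mem (natCast_mem _ _) hw
    · exact sub_mem (one_mem _) (mul_mem (natCast_mem _ _) hu)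
  have hpow : ∀ k : ℕ, (δ ^ k) 0 0 = 1 + (k : ℚ) * N * u ∧ (δ ^ k) 0 1 = (k : ℚ) * N * v ∧
      (δ ^ k) 1 0 = (k : ℚ) * N * w ∧ (δ ^ k) 1 1 = 1 - (k : ℚ) * N * u := by
    intro k
    induction k with
    | zero => simp
    | succ k ih =>
      obtain ⟨a, b, c, d⟩ := ih
      simp only [pow_succ, mul_apply_two, a, b, c, d]
      simp [δ]
      refine ⟨?_, ?_, ?_, ?_⟩
      · linear_combination ((k : ℚ) * N * N) * hnil
      · ring
      · ring
      · linear_combination ((k : ℚ) * N * N) * hnil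
  have hgδ : g = δ ^ p := by
    obtain ⟨a, b, c, d⟩ := hpow p
    apply ext_two
    · rw [a]; linear_combination hu'
    · rw [b, hv']; ring
    · rw [c, hw']; ring
    · rw [d, h11]; ring
  rw [hgδ, ihara_map_pow hadd hδ p]
  simp

/-- **Ihara's lemma** for `qZero q N`. -/
theorem hom_qZero_eq_zero [Fact p.Prime] (hp2 : p ≠ 2) (hq : q.Prime) (hN : 0 < N)
    (hNq : N.Coprime q) (hpq : p.Coprime q) {f : SL(2, ℚ) → ZMod p}
    (hadd : ∀ x ∈ qZero q N, ∀ y ∈ qZero q N, f (x * y) = f x + f y) {g : SL(2, ℚ)}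
    (hg : g ∈ qGamma q (N * p * (N * p))) : f g = 0 :=
  (isGood_of_hom hN hNq hpq hadd).eq_zero hp2 hq (qGamma_mono (dvd_mul_right _ _) hg) hg.1

end FLTAgent.LevelRaising
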