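import Fermat.Agent.GaloisImage.Rep
import Mathlib.AlgebraicGeometry.EllipticCurve.Affine.Point

/-!
# Irreducibility of torsion does not depend on the integral model

A change of variables gives a Galois equivariant isomorphism of the torsion
(`exists_torsion_equiv_of_isIntegralModelOf`), so irreducibility passes to an integral model.
-/

set_option autoImplicit false

open WeierstrassCurve WeierstrassCurve.Affine WeierstrassCurve.Affine.Point
open scoped WeierstrassCurve.Affine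

namespace FLTAgent.LevelRaising

section Map

variable {K : Type*} [Field K] [DecidableEq K] (W : WeierstrassCurve.Affine K)
  (C : WeierstrassCurve.VariableChange K) {W' : WeierstrassCurve.Affine K}

/-- The abscissa map of a change of variables. -/
def vcX (x : K) : K := (C.u : K) ^ 2 * x + C.r

/-- The ordinate map of a change of variables. -/
def vcY (x y : K) : K := (C.u : K) ^ 3 * y + (C.u : K) ^ 2 * C.s * x + C.t

omit [DecidableEq K] in
theorem vcX_injective : Function.Injective (vcX C) := fun a b h => by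
  simpa [vcX, C.u.ne_zero] using h

variable {W C} (hC : C • (W : WeierstrassCurve K) = W')

include hC

omit [DecidableEq K] in
theorem vc_coeff :
    W.a₁ = (C.u : K) * W'.a₁ - 2 * C.s ∧
    W.a₂ = (C.u : K) ^ 2 * W'.a₂ + C.s * W.a₁ - 3 * C.r + C.s ^ 2 ∧
    W.a₃ = (C.u : K) ^ 3 * W'.a₃ - C.r * W.a₁ - 2 * C.t ∧
    W.a₄ = (C.u : K) ^ 4 * W'.a₄ + C.s * W.a₃ - 2 * C.r * W.a₂ + (C.t + C.r * C.s) * W.a₁
      - 3 * C.r ^ 2 + 2 * C.s * C.t ∧
    W.a₆ = (C.u : K) ^ 6 * W'.a₆ - C.r * W.a₄ - C.r ^ 2 * W.a₂ - C.r ^ 3 + C.t * W.a₃ + C.t ^ 2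
      + C.r * C.t * W.a₁ := by
  subst hC
  have hu := C.u.ne_zero
  simp only [WeierstrassCurve.variableChange_def, Units.val_inv_eq_inv_val]
  refine ⟨?_, ?_, ?_, ?_, ?_⟩ <;> field_simp <;> ring

omit [DecidableEq K] in
theorem vc_equation {x y : K} (h : W'.Equation x y) : W.Equation (vcX C x) (vcY C x y) := by
  obtain ⟨h1, h2, h3, h4, h6⟩ := vc_coeff hC
  rw [Affine.equation_iff] at h ⊢
  simp only [vcX, vcY, h6, h4, h3, h2, h1]
  linear_combination ((C.u : K) ^ 6) * h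

omit [DecidableEq K] in
theorem vc_nonsingular {x y : K} (h : W'.Nonsingular x y) :
    W.Nonsingular (vcX C x) (vcY C x y) := by
  obtain ⟨h1, h2, h3, h4, h6⟩ := vc_coeff hC
  rw [Affine.nonsingular_iff'] at h ⊢
  refine ⟨vc_equation hC h.1, ?_⟩
  have hu : (C.u : K) ≠ 0 := C.u.ne_zero
  rcases h.2 with h' | h'
  · by_cases h'' : 2 * y + W'.a₁ * x + W'.a₃ = 0
    · left
      contrapose! h'
      simp only [vcX, vcY, h4, h3, h2, h1] at h'
      have : (C.u : K) ^ 4 * (W'.a₁ * y - (3 * x ^ 2 + 2 * W'.a₂ * x + W'.a₄)) = 0 := by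
        linear_combination h' + ((C.u : K) ^ 3 * C.s) * h''
      exact (mul_eq_zero.mp this).resolve_left (pow_ne_zero _ hu)
    · right
      contrapose! h''
      simp only [vcX, vcY, h3, h1] at h''
      have : (C.u : K) ^ 3 * (2 * y + W'.a₁ * x + W'.a₃) = 0 := by linear_combination h''
      exact (mul_eq_zero.mp this).resolve_left (pow_ne_zero _ hu)
  · right
    contrapose! h'
    simp only [vcX, vcY, h3, h1] at h'
    have : (C.u : K) ^ 3 * (2 * y + W'.a₁ * x + W'.a₃) = 0 := by linear_combination h'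
    exact (mul_eq_zero.mp this).resolve_left (pow_ne_zero _ hu)

omit [DecidableEq K] in
theorem vc_negY (x y : K) : W.negY (vcX C x) (vcY C x y) = vcY C x (W'.negY x y) := by
  obtain ⟨h1, h2, h3, h4, h6⟩ := vc_coeff hC
  simp only [Affine.negY, vcX, vcY, h3, h1]
  ring

omit [DecidableEq K] in
theorem vc_addX (x₁ x₂ ℓ : K) :
    W.addX (vcX C x₁) (vcX C x₂) ((C.u : K) * ℓ + C.s) = vcX C (W'.addX x₁ x₂ ℓ) := by
  obtain ⟨h1, h2, h3, h4, h6⟩ := vc_coeff hC
  simp only [Affine.addX, vcX, h2, h1]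
  ring

omit [DecidableEq K] in
theorem vc_addY (x₁ x₂ y₁ ℓ : K) :
    W.addY (vcX C x₁) (vcX C x₂) (vcY C x₁ y₁) ((C.u : K) * ℓ + C.s) =
      vcY C (W'.addX x₁ x₂ ℓ) (W'.addY x₁ x₂ y₁ ℓ) := by
  rw [Affine.addY, vc_addX hC]
  obtain ⟨h1, h2, h3, h4, h6⟩ := vc_coeff hC
  simp only [Affine.addY, Affine.negAddY, vc_addX hC, Affine.negY]
  simp only [vcX, vcY, h3, h1]
  ring

theorem vc_slope {x₁ x₂ y₁ y₂ : K} (e₁ : W'.Equation x₁ y₁) (e₂ : W'.Equation x₂ y₂)
    (hxy : ¬(x₁ = x₂ ∧ y₁ = W'.negY x₂ y₂)) :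
    W.slope (vcX C x₁) (vcX C x₂) (vcY C x₁ y₁) (vcY C x₂ y₂) =
      (C.u : K) * W'.slope x₁ x₂ y₁ y₂ + C.s := by
  have hu : (C.u : K) ≠ 0 := C.u.ne_zero
  obtain ⟨h1, h2, h3, h4, h6⟩ := vc_coeff hC
  by_cases hx : x₁ = x₂
  · subst hx
    have hy : y₁ ≠ W'.negY x₁ y₂ := fun h => hxy ⟨rfl, h⟩
    have hy' : vcY C x₁ y₁ ≠ W.negY (vcX C x₁) (vcY C x₁ y₂) := by
      rw [vc_negY hC]
      intro h
      simp only [vcY, add_left_inj, mul_eq_mul_left_iff, pow_eq_zero_iff', hu, false_and,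
        or_false] at h
      exact hy h
    have hyy : y₁ = y₂ := Affine.Y_eq_of_Y_ne e₁ e₂ rfl hy
    have hd : y₁ - W'.negY x₁ y₁ ≠ 0 := sub_ne_zero.mpr (by rw [← hyy] at hy; exact hy)
    rw [Affine.slope_of_Y_ne rfl hy', Affine.slope_of_Y_ne rfl hy, vc_negY hC]
    have hd' : vcY C x₁ y₁ - vcY C x₁ (W'.negY x₁ y₁) = (C.u : K) ^ 3 * (y₁ - W'.negY x₁ y₁) := by
      simp only [vcY]; ring
    rw [hd', div_eq_iff (mul_ne_zero (pow_ne_zero _ hu) hd)]
    have key : ∀ {D : K} (n : K), D ≠ 0 → ((C.u : K) * (n / D) + C.s) * ((C.u : K) ^ 3 * D) =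
        (C.u : K) ^ 4 * n + C.s * (C.u : K) ^ 3 * D := fun n hD => by
      field_simp
    rw [key _ hd]
    simp only [Affine.negY, vcX, vcY, h4, h3, h2, h1]
    ring
  · rw [Affine.slope_of_X_ne hx, Affine.slope_of_X_ne fun h => hx (vcX_injective C h)]
    have hd : x₁ - x₂ ≠ 0 := sub_ne_zero.mpr hx
    have hd' : vcX C x₁ - vcX C x₂ ≠ 0 := sub_ne_zero.mpr fun h => hx (vcX_injective C h)
    rw [div_eq_iff hd']
    simp only [vcX, vcY]
    field_simp
    ring

/-- The point map of a change of variables. -/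
def vcPoint : W'.Point → W.Point
  | .zero => .zero
  | .some x y h => .some (vcX C x) (vcY C x y) (vc_nonsingular hC h)

omit [DecidableEq K] in
theorem vcPoint_injective : Function.Injective (vcPoint hC) := by
  intro P Q h
  rcases P with _ | ⟨x₁, y₁, h₁⟩ <;> rcases Q with _ | ⟨x₂, y₂, h₂⟩ <;>
    simp only [vcPoint, reduceCtorEq, Point.some.injEq] at h ⊢
  obtain ⟨hx, hy⟩ := h
  have := vcX_injective C hx
  subst this
  simpa [vcY] using hy

theorem vcPoint_add (P Q : W'.Point) : vcPoint hC (P + Q) = vcPoint hC P + vcPoint hC Q := by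
  rcases P with _ | ⟨x₁, y₁, h₁⟩
  · show vcPoint hC (0 + Q) = 0 + vcPoint hC Q
    rw [zero_add, zero_add]
  rcases Q with _ | ⟨x₂, y₂, h₂⟩
  · show vcPoint hC (_ + 0) = _ + 0
    rw [add_zero, add_zero]
  by_cases hxy : x₁ = x₂ ∧ y₁ = W'.negY x₂ y₂
  · rw [Point.add_of_Y_eq hxy.1 hxy.2]
    show 0 = Point.some _ _ _ + Point.some _ _ _
    rw [Point.add_of_Y_eq (congrArg (vcX C) hxy.1) (by rw [vc_negY hC, hxy.1, hxy.2])]
  · have hxy' : ¬(vcX C x₁ = vcX C x₂ ∧ vcY C x₁ y₁ = W.negY (vcX C x₂) (vcY C x₂ y₂)) := by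
      rintro ⟨hx, hy⟩
      have hx' := vcX_injective C hx
      subst hx'
      rw [vc_negY hC] at hy
      exact hxy ⟨rfl, by simpa [vcY] using hy⟩
    rw [Point.add_some hxy]
    show Point.some _ _ _ = Point.some _ _ _ + Point.some _ _ _
    rw [Point.add_some hxy', Point.some.injEq, vc_slope hC h₁.1 h₂.1 hxy]
    exact ⟨(vc_addX hC _ _ _).symm, (vc_addY hC _ _ _ _).symm⟩

/-- The point map as a homomorphism. -/
def vcHom : W'.Point →+ W.Point where
  toFun := vcPoint hC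
  map_zero' := rfl
  map_add' := vcPoint_add hC

end Map

/-- An integral model of `E` has `p`-torsion equivariantly isomorphic to that of `E`. -/
theorem exists_torsion_equiv_of_isIntegralModelOf {E : WeierstrassCurve ℚ} [E.IsElliptic]
    {W : WeierstrassCurve ℤ} (hW : W.IsIntegralModelOf E) {p : ℕ} [Fact p.Prime] :
    W.Δ ≠ 0 ∧ ∃ e : Submodule.torsionBy ℤ
        ((W.map (Int.castRingHom ℚ)).toAffine⁄(AlgebraicClosure ℚ)).Point (p : ℤ) ≃ₗ[ZMod p]
        Submodule.torsionBy ℤ (E.toAffine⁄(AlgebraicClosure ℚ)).Point (p : ℤ),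
      ∀ (σ : AlgebraicClosure ℚ ≃ₐ[ℚ] AlgebraicClosure ℚ) z, e (σ • z) = σ • e z := by
  obtain ⟨C, hC⟩ := hW
  have hΔ : W.Δ ≠ 0 := by
    intro h
    have h1 : (C • E).Δ = 0 := by rw [hC, WeierstrassCurve.map_Δ, h, _root_.map_zero]
    rw [WeierstrassCurve.variableChange_Δ] at h1
    exact (WeierstrassCurve.isUnit_Δ (W := E)).ne_zero
      ((mul_eq_zero.mp h1).resolve_left (pow_ne_zero _ C.u⁻¹.ne_zero))
  set φ := algebraMap ℚ (AlgebraicClosure ℚ) with hφ
  have hCK : (C.map φ) • ((E.toAffine⁄(AlgebraicClosure ℚ)) : WeierstrassCurve (AlgebraicClosure ℚ))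
      = ((W.map (Int.castRingHom ℚ)).toAffine⁄(AlgebraicClosure ℚ)) := by
    show (C.map φ) • E.map φ = (W.map (Int.castRingHom ℚ)).map φ
    rw [WeierstrassCurve.map_variableChange, hC]
  set f := vcHom (W := E.toAffine⁄(AlgebraicClosure ℚ)) hCK with hf
  have hinj : Function.Injective f := vcPoint_injective hCK
  let g : Submodule.torsionBy ℤ
      ((W.map (Int.castRingHom ℚ)).toAffine⁄(AlgebraicClosure ℚ)).Point (p : ℤ) →+
      Submodule.torsionBy ℤ (E.toAffine⁄(AlgebraicClosure ℚ)).Point (p : ℤ) :=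
    { toFun := fun z => ⟨f z.1, by
        rw [Submodule.mem_torsionBy_iff, ← map_zsmul, (Submodule.mem_torsionBy_iff _ _).mp z.2,
          _root_.map_zero]⟩
      map_zero' := Subtype.ext (map_zero f)
      map_add' := fun a b => Subtype.ext (map_add f _ _) }
  have hginj : Function.Injective g := fun a b h =>
    Subtype.ext (hinj (congrArg Subtype.val h))
  have := GaloisImage.isElliptic_qbar hΔ
  have : (E.toAffine⁄(AlgebraicClosure ℚ)).IsElliptic :=
    inferInstanceAs ((E.map φ).IsElliptic)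
  have hp0 : (p : AlgebraicClosure ℚ) ≠ 0 := Nat.cast_ne_zero.mpr (Fact.out : p.Prime).ne_zero
  have := ECTorsion.finite_torsionBy (W.map (Int.castRingHom ℚ)).toAffine
    (K := AlgebraicClosure ℚ) hp0
  have := ECTorsion.finite_torsionBy E.toAffine (K := AlgebraicClosure ℚ) hp0
  have hbij : Function.Bijective g := (Nat.bijective_iff_injective_and_card _).mpr
    ⟨hginj, (ECTorsion.card_torsionBy (W.map (Int.castRingHom ℚ)).toAffine
      (K := AlgebraicClosure ℚ) hp0).trans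
      (ECTorsion.card_torsionBy E.toAffine (K := AlgebraicClosure ℚ) hp0).symm⟩
  let e := LinearEquiv.ofBijective (g.toZModLinearMap p) hbij
  have hequiv : ∀ (σ : AlgebraicClosure ℚ ≃ₐ[ℚ] AlgebraicClosure ℚ) z, g (σ • z) = σ • g z := by
    intro σ z
    refine Subtype.ext ?_
    show f (σ • z.1) = σ • f z.1
    rcases z.1 with _ | ⟨x, y, h⟩
    · rfl
    · show vcPoint hCK (Point.map σ.toAlgHom (Point.some x y h)) =
        Point.map σ.toAlgHom (vcPoint hCK (Point.some x y h))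
      rw [Point.map_some, vcPoint, vcPoint, Point.map_some, Point.some.injEq]
      simp only [vcX, vcY, WeierstrassCurve.VariableChange.map, Units.coe_map, hφ,
        MonoidHom.coe_coe, map_add, map_mul, map_pow, AlgHom.commutes]
      simp
  exact ⟨hΔ, e, hequiv⟩

/-- Irreducibility of the mod `p` representation passes to an integral model. -/
theorem modRepIsIrreducible_of_isIntegralModelOf {E : WeierstrassCurve ℚ} [E.IsElliptic]
    {W : WeierstrassCurve ℤ} (hW : W.IsIntegralModelOf E) {p : ℕ} [Fact p.Prime]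
    (hirr : GaloisRepIsIrreducible (K := AlgebraicClosure ℚ) ℚ E p) :
    W.ModRepIsIrreducible p ∧ W.Δ ≠ 0 := by
  obtain ⟨hΔ, e, hequiv⟩ := exists_torsion_equiv_of_isIntegralModelOf hW (p := p)
  refine ⟨⟨e.toEquiv.nontrivial_congr.mpr hirr.1, fun N hN => ?_⟩, hΔ⟩
  rcases hirr.2 (N.map e.toLinearMap) (by
    rintro σ _ ⟨x, hx, rfl⟩
    exact ⟨σ • x, hN σ x hx, hequiv σ x⟩) with h | h
  · left; exact (Submodule.map_eq_bot_iff (e := e)).mp h
  · right; exact (Submodule.map_eq_top_iff (e := e)).mp h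

end FLTAgent.LevelRaising
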