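import Fermat.Agent.LevelRaising.EigenRaise
import Fermat.Agent.LevelRaising.NonEisenstein
import Fermat.Agent.LevelRaising.VarChange
import Fermat.Agent.Eigenforms.Algebra
import Fermat.Prelude.Def_FreyPackage_LevelRaising

/-!
# Level raising for eigenforms

If a normalised eigenform of level `N` is congruent to an elliptic curve with irreducible mod `p`
torsion and `a_q ^ 2 ≡ (q + 1) ^ 2`, a congruent eigenform new at `q` exists
(`exists_newAt_congruentEigenform`).  Used for S41.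
-/

set_option autoImplicit false

noncomputable section

open Matrix CongruenceSubgroup WeierstrassCurve WeierstrassCurve.Affine
open WeierstrassCurve.Affine.Point
open scoped MatrixGroups WeierstrassCurve.Affine

namespace FLTAgent.LevelRaising

/-- The symbol of an eigenform is an eigensymbol. -/
theorem tOp_perSymb_eigenform {N : ℕ} [NeZero N] {f : CuspForm (Gamma0 N) 2}
    (hf : f.IsNormalizedEigenform) {ℓ : ℕ} (hℓ : ℓ.Prime) (hℓN : ¬ ℓ ∣ N) :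
    tOp ℂ ℓ (perSymb N f) = ModularFormClass.qCoeff f ℓ • perSymb N f := by
  have h := Eigenforms.heckeFormsGen_apply_eigenform hf ⟨ℓ, hℓ⟩
  rw [CuspForm.heckeFormsGen_of_not_dvd (ℓ := ⟨ℓ, hℓ⟩) hℓN] at h
  rw [← perSymb_heckeT hℓ hℓN f, ← map_smul]
  exact congrArg _ h

/-- A character with algebraic integer values reduces to any character killed by its kernel. -/
theorem exists_reduction {A : Type*} [CommRing A] (χ : A →+* integralClosure ℤ ℂ) {K : Type*}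
    [Field K] [IsAlgClosed K] (θ : A →+* K) (h : RingHom.ker χ ≤ RingHom.ker θ) :
    ∃ ψ : integralClosure ℤ ℂ →+* K, ∀ a, ψ (χ a) = θ a := by
  let T := χ.range
  have hsurj : Function.Surjective χ.rangeRestrict := χ.rangeRestrict_surjective
  let θ' : T →+* K := χ.rangeRestrict.liftOfSurjective hsurj ⟨θ, by
    rwa [RingHom.ker_rangeRestrict]⟩
  have hint : T.subtype.IsIntegral := by
    intro x
    have hx : IsIntegral ℤ x := integralClosure.isIntegral x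
    let _ : Algebra T (integralClosure ℤ ℂ) := T.subtype.toAlgebra
    have : IsScalarTower ℤ T (integralClosure ℤ ℂ) :=
      IsScalarTower.of_algebraMap_eq' (RingHom.ext_int _ _)
    exact hx.tower_top
  obtain ⟨ψ, hψ⟩ := Eigenforms.exists_ringHom_extension T.subtype Subtype.val_injective hint θ'
  refine ⟨ψ, fun a => ?_⟩
  have e := RingHom.congr_fun hψ (χ.rangeRestrict a)
  rw [RingHom.comp_apply] at e
  exact e.trans (RingHom.liftOfSurjective_comp_apply _ hsurj _ a)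

/-- An algebraically closed residue field. -/
theorem exists_residueField {p : ℕ} (hp : p.Prime) (𝔪 : Ideal (integralClosure ℤ ℂ))
    (hmax : 𝔪.IsMaximal) (hpm : (p : integralClosure ℤ ℂ) ∈ 𝔪) :
    ∃ (K : Type) (_ : Field K) (_ : IsAlgClosed K) (_ : CharP K p)
      (red : integralClosure ℤ ℂ →+* K), ∀ x, red x = 0 ↔ x ∈ 𝔪 := by
  have := hmax
  let := Ideal.Quotient.field 𝔪
  let red : integralClosure ℤ ℂ →+* AlgebraicClosure (integralClosure ℤ ℂ ⧸ 𝔪) :=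
    (algebraMap _ _).comp (Ideal.Quotient.mk 𝔪)
  have hred : ∀ x, red x = 0 ↔ x ∈ 𝔪 := fun x => by
    rw [show red x = algebraMap (integralClosure ℤ ℂ ⧸ 𝔪) (AlgebraicClosure _)
      (Ideal.Quotient.mk 𝔪 x) from rfl, map_eq_zero_iff _ (algebraMap (integralClosure ℤ ℂ ⧸ 𝔪)
      (AlgebraicClosure (integralClosure ℤ ℂ ⧸ 𝔪))).injective]
    exact Ideal.Quotient.eq_zero_iff_mem
  refine ⟨_, inferInstance, inferInstance, (CharP.charP_iff_prime_eq_zero hp).mpr ?_, red, hred⟩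
  rw [← map_natCast red]
  exact (hred _).mpr hpm

/-- Level raising. -/
theorem exists_newAt_congruentEigenform (E : WeierstrassCurve ℚ) [E.IsElliptic]
    {W : WeierstrassCurve ℤ} (hW : W.IsIntegralModelOf E) {p N q : ℕ} (hp : p.Prime) (hp2 : p ≠ 2)
    (hN : 0 < N) (hq : q.Prime) (hqN : ¬ q ∣ N) (hqp : q ≠ p)
    (hirr : GaloisRepIsIrreducible (K := AlgebraicClosure ℚ) ℚ E p)
    (f : CuspForm (Gamma0 N) 2) (𝔪 : Ideal (integralClosure ℤ ℂ))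
    (hf : f.IsNormalizedEigenform) (hmax : 𝔪.IsMaximal) (hpm : (p : integralClosure ℤ ℂ) ∈ 𝔪)
    (hcong : ∀ ℓ : ℕ, ℓ.Prime → W.IsGoodPrimeFor ℓ → ¬ ℓ ∣ N → ℓ ≠ p →
      ∃ a : integralClosure ℤ ℂ, (a : ℂ) = ModularFormClass.qCoeff f ℓ ∧
        a - ((W.apOfModel ℓ : ℤ) : integralClosure ℤ ℂ) ∈ 𝔪)
    (hLR : ∃ a : integralClosure ℤ ℂ, (a : ℂ) = ModularFormClass.qCoeff f q ∧
      a ^ 2 - ((q : integralClosure ℤ ℂ) + 1) ^ 2 ∈ 𝔪) :
    ∃ (g : CuspForm (Gamma0 (N * q)) 2) (𝔪' : Ideal (integralClosure ℤ ℂ)),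
      g.IsNormalizedEigenform ∧ 𝔪'.IsMaximal ∧ (p : integralClosure ℤ ℂ) ∈ 𝔪' ∧
      (∀ ℓ : ℕ, ℓ.Prime → W.IsGoodPrimeFor ℓ → ¬ ℓ ∣ N * q → ℓ ≠ p →
        ∃ a : integralClosure ℤ ℂ, (a : ℂ) = ModularFormClass.qCoeff g ℓ ∧
          a - ((W.apOfModel ℓ : ℤ) : integralClosure ℤ ℂ) ∈ 𝔪') ∧
      g.IsNewAt q := by
  classical
  have : Fact p.Prime := ⟨hp⟩
  have : NeZero N := ⟨hN.ne'⟩
  have : NeZero (N * q) := ⟨Nat.mul_ne_zero hN.ne' hq.ne_zero⟩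
  obtain ⟨D⟩ := exists_alData (N := N) hq hqN
  obtain ⟨hirrW, hΔ⟩ := modRepIsIrreducible_of_isIntegralModelOf hW hirr
  obtain ⟨ℓ₀, hℓ₀, hℓ₀S, hℓ₀g, hℓ₀p, hℓ₀1, hℓ₀a⟩ :=
    exists_prime_not_eisenstein hp2 hΔ hirrW (m := N * p * (N * p) * q)
      (by have := hp.pos; have := hq.pos; positivity) (N * q).primeFactors
  have hℓ₀L : ¬ ℓ₀ ∣ N * q := fun h =>
    hℓ₀S (Nat.mem_primeFactors.mpr ⟨hℓ₀, h, Nat.mul_ne_zero hN.ne' hq.ne_zero⟩)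
  have hℓ₀N : ¬ ℓ₀ ∣ N := fun h => hℓ₀L (h.mul_right q)
  -- the character of level `N`
  obtain ⟨θc, hθc⟩ := exists_char_alg0 (perSymb_mem f) (perSymb_ne_zero hf.ne_zero)
    (fun ℓ => ModularFormClass.qCoeff f ℓ) fun ℓ hℓ h => tOp_perSymb_eigenform hf hℓ h
  let θZ : alg0 N →+* integralClosure ℤ ℂ := θc.codRestrict _ fun x =>
    (isIntegral_alg0 x).map θc.toIntAlgHom
  obtain ⟨K, _, _, _, red, hred⟩ := exists_residueField hp 𝔪 hmax hpm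
  have hredeq : ∀ x y, x - y ∈ 𝔪 → red x = red y := fun x y h =>
    sub_eq_zero.mp (by rw [← map_sub]; exact (hred _).mpr h)
  let θ : alg0 N →+* K := red.comp θZ
  have hθ : ∀ (ℓ : ℕ) (hℓ : ℓ.Prime) (h : ¬ ℓ ∣ N), W.IsGoodPrimeFor ℓ → ℓ ≠ p →
      θ ⟨opT hℓ h, Algebra.subset_adjoin ⟨ℓ, hℓ, h, rfl⟩⟩ = (W.apOfModel ℓ : K) := by
    intro ℓ hℓ h hgood hlp
    obtain ⟨a, ha, ham⟩ := hcong ℓ hℓ hgood h hlp
    have e : θZ ⟨opT hℓ h, Algebra.subset_adjoin ⟨ℓ, hℓ, h, rfl⟩⟩ = a :=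
      Subtype.ext ((hθc ℓ hℓ h).trans ha.symm)
    rw [RingHom.comp_apply, e, ← map_intCast red]
    exact hredeq _ _ ham
  obtain ⟨a, ha, ham⟩ := hLR
  have hθq : θ ⟨opT hq hqN, Algebra.subset_adjoin ⟨q, hq, hqN, rfl⟩⟩ = red a := by
    rw [RingHom.comp_apply]
    exact congrArg _ (Subtype.ext ((hθc q hq hqN).trans ha.symm))
  obtain ⟨ε, hε, hθε⟩ : ∃ ε : ℤ, ε * ε = 1 ∧
      θ ⟨opT hq hqN, Algebra.subset_adjoin ⟨q, hq, hqN, rfl⟩⟩ = ε * ((q : K) + 1) := by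
    have h : red a ^ 2 = ((q : K) + 1) ^ 2 := by
      rw [← map_natCast red, ← map_one red, ← map_add, ← map_pow, ← map_pow]
      exact hredeq _ _ ham
    rcases sq_eq_sq_iff_eq_or_eq_neg.mp h with h | h
    · exact ⟨1, rfl, by rw [hθq, h, Int.cast_one, one_mul]⟩
    · exact ⟨-1, rfl, by rw [hθq, h]; push_cast; ring⟩
  obtain ⟨χ, Φ, hΦ0, hΦ, htr, htrw, heig, hker⟩ := exists_pairAlg_char (K := K) hp2 hq hN hqN
    (Ne.symm hqp) D (CharP.cast_eq_zero K p) θ hℓ₀ hℓ₀L (hℓ₀1.of_dvd (dvd_mul_right _ _))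
    (W.apOfModel ℓ₀) hℓ₀a
    (hθ ℓ₀ hℓ₀ hℓ₀N hℓ₀g hℓ₀p) ε hε hθε
  -- congruence
  let χZ : pairAlg N q →+* integralClosure ℤ ℂ := χ.codRestrict _ fun x =>
    (isIntegral_pairAlg x).map χ.toIntAlgHom
  obtain ⟨ψ, hψ⟩ := exists_reduction χZ (θ.comp (pairFst N q))
    fun x hx => by
      have h : χ x = 0 := congrArg Subtype.val (RingHom.mem_ker.mp hx)
      exact hker h
  have hψgood : ∀ (ℓ : ℕ) (hℓ : ℓ.Prime) (h1 : ¬ ℓ ∣ N * q), W.IsGoodPrimeFor ℓ → ℓ ≠ p →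
      ψ (χZ ⟨(opT hℓ (fun h => h1 (h.mul_right q)), opT hℓ h1),
        Algebra.subset_adjoin ⟨ℓ, hℓ, _, h1, rfl⟩⟩) = (W.apOfModel ℓ : K) := by
    intro ℓ hℓ h1 hgood hlp
    rw [hψ]
    exact (hθ ℓ hℓ (fun h => h1 (h.mul_right q)) hgood hlp)
  -- an eigenvector of `U_q`
  obtain ⟨ε', Φ', hε', hΦ'0, hΦ', hU, hT⟩ : ∃ (ε' : ℂ) (Φ' : Cusp → Cusp → ℂ), ε' ^ 2 = 1 ∧
      Φ' ≠ 0 ∧ Φ' ∈ Lev ℂ (N * q) ∧ uOp ℂ q Φ' = ε' • Φ' ∧
      ∀ (ℓ : ℕ) (hℓ : ℓ.Prime) (h1 : ¬ ℓ ∣ N * q), tOp ℂ ℓ Φ' =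
        χ ⟨(opT hℓ (fun h => h1 (h.mul_right q)), opT hℓ h1),
          Algebra.subset_adjoin ⟨ℓ, hℓ, _, h1, rfl⟩⟩ • Φ' := by
    have hUU := D.uOp_uOp_of_ker hq hΦ htr htrw
    have hqL : q ∣ N * q := dvd_mul_left q N
    by_cases h : Φ + uOp ℂ q Φ = 0
    · exact ⟨-1, Φ, by norm_num, hΦ0, hΦ, by rw [neg_one_smul]; exact eq_neg_of_add_eq_zero_right h,
        heig⟩
    · refine ⟨1, _, one_pow 2, h, add_mem hΦ (uOp_mem hq hqL hΦ), ?_, fun ℓ hℓ h1 => ?_⟩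
      · rw [map_add, hUU, one_smul, add_comm]
      · rw [map_add, tOp_uOp_comm hℓ hq h1 hqL hΦ, heig ℓ hℓ h1, map_smul, smul_add]
  let b : ℕ → ℂ := fun ℓ => if h : ℓ.Prime ∧ ¬ ℓ ∣ N * q then
    χ ⟨(opT h.1 (fun h' => h.2 (h'.mul_right q)), opT h.1 h.2),
      Algebra.subset_adjoin ⟨ℓ, h.1, _, h.2, rfl⟩⟩ else 0
  obtain ⟨g, hg, hgq, hgℓ⟩ := exists_eigenform_of_symb hq (dvd_mul_left q N) hΦ' hΦ'0 b
    (fun ℓ hℓ h1 => (hT ℓ hℓ h1).trans (by simp only [b, dif_pos (And.intro hℓ h1)])) hU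
    ⟨ℓ₀, hℓ₀, hℓ₀L, hℓ₀1.of_dvd ⟨p * (N * p), by ring⟩, fun hb => by
      simp only [b, dif_pos (And.intro hℓ₀ hℓ₀L)] at hb
      have e : χZ ⟨(opT hℓ₀ (fun h => hℓ₀L (h.mul_right q)), opT hℓ₀ hℓ₀L),
          Algebra.subset_adjoin ⟨ℓ₀, hℓ₀, _, hℓ₀L, rfl⟩⟩ = 1 + (ℓ₀ : integralClosure ℤ ℂ) :=
        Subtype.ext (by push_cast; exact hb)
      have h2 := hψgood ℓ₀ hℓ₀ hℓ₀L hℓ₀g hℓ₀p
      rw [e, map_add, map_one, map_natCast] at h2
      have h3 : (ℓ₀ : K) = 1 := by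
        have h : ℓ₀ ≡ 1 [MOD p] :=
          hℓ₀1.of_dvd (dvd_mul_of_dvd_left ((dvd_mul_left p N).mul_right _) q)
        simpa using (CharP.natCast_eq_natCast K p).mpr h
      rw [h3] at h2
      refine hℓ₀a ((CharP.intCast_eq_zero_iff K p _).mp ?_)
      rw [Int.cast_sub, ← h2]
      norm_num⟩
  refine ⟨g, RingHom.ker ψ, hg, Eigenforms.isMaximal_ker_of_charP hp ψ, ?_,
    fun ℓ hℓ hgood h1 hlp => ?_, ?_⟩
  · rw [RingHom.mem_ker, map_natCast, CharP.cast_eq_zero]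
  · refine ⟨χZ ⟨(opT hℓ (fun h => h1 (h.mul_right q)), opT hℓ h1),
        Algebra.subset_adjoin ⟨ℓ, hℓ, _, h1, rfl⟩⟩, ?_, ?_⟩
    · rw [hgℓ ℓ hℓ h1]
      simp only [b, dif_pos (And.intro hℓ h1)]
      rfl
    · rw [RingHom.mem_ker, map_sub, map_intCast, hψgood ℓ hℓ h1 hgood hlp, sub_self]
  · show ModularFormClass.qCoeff g q ^ 2 = 1
    rw [hgq]; exact hε'

end FLTAgent.LevelRaising
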