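import Mathlib.LinearAlgebra.Matrix.SpecialLinearGroup
import Mathlib.Data.Rat.Lemmas
import Mathlib.Algebra.Ring.Subring.Basic
import Mathlib.Data.Nat.Factorization.Basic
import Mathlib.RingTheory.Coprime.Lemmas
import Mathlib.Tactic.LinearCombination

/-!
# Congruence subgroups of `SL(2, ℤ[1/q])` inside `SL(2, ℚ)`

The ring `qInt q = ℤ[1/q]`, its ideals `qMul q M`, the congruence subgroups `qGamma q M`, their
elementary matrices and their stability under conjugation.  Used for Ihara's lemma.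
-/

set_option autoImplicit false

noncomputable section

open scoped MatrixGroups

namespace FLTAgent.LevelRaising

/-- The ring `ℤ[1/q]` inside `ℚ`. -/
def qInt (q : ℕ) : Subring ℚ where
  carrier := {x | ∃ (k : ℕ) (z : ℤ), x * (q : ℚ) ^ k = z}
  mul_mem' := by
    rintro a b ⟨k, z, h⟩ ⟨l, w, h'⟩
    exact ⟨k + l, z * w, by push_cast; rw [← h, ← h', pow_add]; ring⟩
  one_mem' := ⟨0, 1, by simp⟩
  add_mem' := by
    rintro a b ⟨k, z, h⟩ ⟨l, w, h'⟩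
    exact ⟨k + l, z * (q : ℤ) ^ l + w * (q : ℤ) ^ k, by push_cast; rw [← h, ← h', pow_add]; ring⟩
  zero_mem' := ⟨0, 0, by simp⟩
  neg_mem' := by
    rintro a ⟨k, z, h⟩
    exact ⟨k, -z, by push_cast; rw [← h]; ring⟩

theorem inv_mem_qInt {q : ℕ} (hq : q ≠ 0) : (q : ℚ)⁻¹ ∈ qInt q :=
  ⟨1, 1, by simp [hq]⟩

theorem div_pow_mem_qInt {q : ℕ} (hq : q ≠ 0) (z : ℤ) (k : ℕ) : (z : ℚ) / (q : ℚ) ^ k ∈ qInt q := by
  rw [div_eq_mul_inv, ← inv_pow]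
  exact mul_mem (intCast_mem _ z) (pow_mem (inv_mem_qInt hq) k)

theorem exists_eq_div_of_mem_qInt {q : ℕ} (hq : q ≠ 0) {x : ℚ} (hx : x ∈ qInt q) (n : ℕ) :
    ∃ k, n ≤ k ∧ ∃ z : ℤ, x = (z : ℚ) / (q : ℚ) ^ k := by
  obtain ⟨k, z, h⟩ := hx
  refine ⟨k + n, by omega, z * (q : ℤ) ^ n, ?_⟩
  have : (q : ℚ) ≠ 0 := Nat.cast_ne_zero.mpr hq
  push_cast
  rw [eq_div_iff (pow_ne_zero _ this), pow_add, ← mul_assoc, h]

/-- A common denominator for two elements. -/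
theorem exists_eq_div_pair {q : ℕ} (hq : q ≠ 0) {x y : ℚ} (hx : x ∈ qInt q) (hy : y ∈ qInt q) :
    ∃ (k : ℕ) (a b : ℤ), x = (a : ℚ) / (q : ℚ) ^ k ∧ y = (b : ℚ) / (q : ℚ) ^ k := by
  obtain ⟨k, -, a, ha⟩ := exists_eq_div_of_mem_qInt hq hx 0
  obtain ⟨l, hkl, b, hb⟩ := exists_eq_div_of_mem_qInt hq hy k
  obtain ⟨d, rfl⟩ := Nat.exists_eq_add_of_le hkl
  have : (q : ℚ) ≠ 0 := Nat.cast_ne_zero.mpr hq
  refine ⟨k + d, a * (q : ℤ) ^ d, b, ?_, hb⟩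
  push_cast
  rw [ha, pow_add, mul_div_mul_right _ _ (pow_ne_zero _ this)]

/-- The ideal generated by `M` in `ℤ[1/q]`. -/
def qMul (q M : ℕ) : AddSubgroup ℚ :=
  (qInt q).toAddSubgroup.map (AddMonoidHom.mulLeft (M : ℚ))

section Ideal

variable {q M : ℕ}

theorem mem_qMul {x : ℚ} : x ∈ qMul q M ↔ ∃ y ∈ qInt q, x = (M : ℚ) * y := by
  simp only [qMul, AddSubgroup.mem_map, AddMonoidHom.coe_mulLeft, Subring.mem_toAddSubgroup]
  exact ⟨fun ⟨y, hy, h⟩ => ⟨y, hy, h.symm⟩, fun ⟨y, hy, h⟩ => ⟨y, hy, h.symm⟩⟩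

theorem mul_natCast_mem_qMul {y : ℚ} (hy : y ∈ qInt q) : (M : ℚ) * y ∈ qMul q M :=
  mem_qMul.mpr ⟨y, hy, rfl⟩

theorem natCast_mem_qMul : (M : ℚ) ∈ qMul q M := by
  simpa using mul_natCast_mem_qMul (M := M) (one_mem (qInt q))

theorem mem_qInt_of_mem_qMul {x : ℚ} (hx : x ∈ qMul q M) : x ∈ qInt q := by
  obtain ⟨y, hy, rfl⟩ := mem_qMul.mp hx
  exact mul_mem (natCast_mem _ M) hy

theorem qMul_mul_left {x y : ℚ} (hx : x ∈ qInt q) (hy : y ∈ qMul q M) : x * y ∈ qMul q M := by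
  obtain ⟨z, hz, rfl⟩ := mem_qMul.mp hy
  rw [mul_left_comm]
  exact mul_natCast_mem_qMul (mul_mem hx hz)

theorem qMul_mul_right {x y : ℚ} (hy : y ∈ qMul q M) (hx : x ∈ qInt q) : y * x ∈ qMul q M :=
  mul_comm x y ▸ qMul_mul_left hx hy

theorem qMul_mono {M' : ℕ} (h : M ∣ M') : qMul q M' ≤ qMul q M := by
  obtain ⟨c, rfl⟩ := h
  intro x hx
  obtain ⟨y, hy, rfl⟩ := mem_qMul.mp hx
  rw [Nat.cast_mul, mul_assoc]
  exact mul_natCast_mem_qMul (mul_mem (natCast_mem _ c) hy)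

theorem qMul_mul_qMul {M' : ℕ} {x y : ℚ} (hx : x ∈ qMul q M) (hy : y ∈ qMul q M') :
    x * y ∈ qMul q (M * M') := by
  obtain ⟨a, ha, rfl⟩ := mem_qMul.mp hx
  obtain ⟨b, hb, rfl⟩ := mem_qMul.mp hy
  rw [show (M : ℚ) * a * ((M' : ℚ) * b) = ((M * M' : ℕ) : ℚ) * (a * b) by push_cast; ring]
  exact mul_natCast_mem_qMul (mul_mem ha hb)

theorem qMul_one : qMul q 1 = (qInt q).toAddSubgroup := by
  ext x
  simp [mem_qMul]

theorem qMul_inter {M' : ℕ} (h : M.Coprime M') {x : ℚ} (hx : x ∈ qMul q M) (hx' : x ∈ qMul q M') :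
    x ∈ qMul q (M * M') := by
  obtain ⟨u, v, huv⟩ := h.isCoprime
  have e : x = (u : ℚ) * ((M : ℚ) * x) + (v : ℚ) * ((M' : ℚ) * x) := by
    have h1 : (u : ℚ) * (M : ℚ) + (v : ℚ) * (M' : ℚ) = 1 := by exact_mod_cast huv
    linear_combination (-x) * h1
  rw [e]
  refine add_mem (qMul_mul_left (intCast_mem _ u) (qMul_mul_qMul natCast_mem_qMul hx')) ?_
  refine qMul_mul_left (intCast_mem _ v) ?_
  rw [mul_comm M]
  exact qMul_mul_qMul natCast_mem_qMul hx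

theorem intCast_mem_qMul_iff (h : M.Coprime q) (z : ℤ) :
    (z : ℚ) ∈ qMul q M ↔ (M : ℤ) ∣ z := by
  constructor
  · intro hz
    obtain ⟨y, ⟨k, w, hw⟩, hy⟩ := mem_qMul.mp hz
    have e : z * (q : ℤ) ^ k = M * w := by
      have : (z : ℚ) * (q : ℚ) ^ k = (M : ℚ) * w := by rw [hy, mul_assoc, hw]
      exact_mod_cast this
    exact (Nat.isCoprime_iff_coprime.mpr h).pow_right.dvd_of_dvd_mul_right
      ⟨w, e⟩
  · rintro ⟨c, rfl⟩
    push_cast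
    exact mul_natCast_mem_qMul (intCast_mem _ c)

theorem div_pow_sub_mem_qMul_iff (hq : q ≠ 0) (h : M.Coprime q) (a b : ℤ) (k : ℕ) :
    (a : ℚ) / (q : ℚ) ^ k - (b : ℚ) ∈ qMul q M ↔ (M : ℤ) ∣ a - b * (q : ℤ) ^ k := by
  have hq' : (q : ℚ) ≠ 0 := Nat.cast_ne_zero.mpr hq
  have e : ((a - b * (q : ℤ) ^ k : ℤ) : ℚ) = ((a : ℚ) / (q : ℚ) ^ k - b) * (q : ℚ) ^ k := by
    push_cast; field_simp
  rw [← intCast_mem_qMul_iff h, e]
  refine ⟨fun hm => qMul_mul_right hm (pow_mem (natCast_mem _ q) k), fun hm => ?_⟩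
  have := qMul_mul_right hm (pow_mem (inv_mem_qInt hq) k)
  rwa [mul_assoc, ← mul_pow, mul_inv_cancel₀ hq', one_pow, mul_one] at this

/-- Denominators prime to `q`. -/
theorem exists_den (hq : q.Prime) (x : ℚ) :
    ∃ D : ℕ, 0 < D ∧ D.Coprime q ∧ (D : ℚ) * x ∈ qInt q := by
  obtain ⟨e, D, hD, he⟩ := Nat.exists_eq_pow_mul_and_not_dvd x.den_nz q hq.ne_one
  have hD0 : 0 < D := by
    rcases Nat.eq_zero_or_pos D with h | h
    · simp [h] at hD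
    · exact h
  refine ⟨D, hD0, (hq.coprime_iff_not_dvd.mpr hD).symm, ⟨e, x.num, ?_⟩⟩
  rw [← Rat.mul_den_eq_num, he]
  push_cast
  ring

end Ideal

/-! ### The groups -/

section Groups

variable (q : ℕ)

/-- Upper unipotent matrices. -/
def upper (t : ℚ) : SL(2, ℚ) := ⟨!![1, t; 0, 1], by simp [Matrix.det_fin_two]⟩

/-- Lower unipotent matrices. -/
def lower (t : ℚ) : SL(2, ℚ) := ⟨!![1, 0; t, 1], by simp [Matrix.det_fin_two]⟩

/-- Diagonal matrices (junk value `1` at `0`). -/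
def torus (r : ℚ) : SL(2, ℚ) :=
  if h : r = 0 then 1 else ⟨!![r, 0; 0, r⁻¹], by simp [Matrix.det_fin_two, h]⟩

@[simp] theorem upper_coe (t : ℚ) : (upper t : Matrix (Fin 2) (Fin 2) ℚ) = !![1, t; 0, 1] := rfl

@[simp] theorem lower_coe (t : ℚ) : (lower t : Matrix (Fin 2) (Fin 2) ℚ) = !![1, 0; t, 1] := rfl

theorem torus_coe {r : ℚ} (h : r ≠ 0) :
    (torus r : Matrix (Fin 2) (Fin 2) ℚ) = !![r, 0; 0, r⁻¹] := by
  rw [torus, dif_neg h]

theorem det_eq (g : SL(2, ℚ)) : g 0 0 * g 1 1 - g 0 1 * g 1 0 = 1 := by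
  have := g.det_coe
  rwa [Matrix.det_fin_two] at this

theorem inv_apply (g : SL(2, ℚ)) :
    g⁻¹ 0 0 = g 1 1 ∧ g⁻¹ 0 1 = -g 0 1 ∧ g⁻¹ 1 0 = -g 1 0 ∧ g⁻¹ 1 1 = g 0 0 := by
  simp [Matrix.SpecialLinearGroup.SL2_inv_expl g]

theorem mul_apply_two (g h : SL(2, ℚ)) (i j : Fin 2) :
    (g * h) i j = g i 0 * h 0 j + g i 1 * h 1 j := by
  rw [Matrix.SpecialLinearGroup.coe_mul, Matrix.mul_apply, Fin.sum_univ_two]

theorem ext_two {g h : SL(2, ℚ)} (h00 : g 0 0 = h 0 0) (h01 : g 0 1 = h 0 1)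
    (h10 : g 1 0 = h 1 0) (h11 : g 1 1 = h 1 1) : g = h := by
  ext i j; fin_cases i <;> fin_cases j <;> assumption

/-- The congruence subgroup of level `M` of `SL(2, ℤ[1/q])`. -/
def qGamma (M : ℕ) : Subgroup SL(2, ℚ) where
  carrier := {g | g 0 0 - 1 ∈ qMul q M ∧ g 0 1 ∈ qMul q M ∧ g 1 0 ∈ qMul q M ∧
    g 1 1 - 1 ∈ qMul q M}
  one_mem' := by simp [zero_mem]
  mul_mem' := by
    rintro g h ⟨g00, g01, g10, g11⟩ ⟨h00, h01, h10, h11⟩
    have R00 : h 0 0 ∈ qInt q := by simpa using add_mem (mem_qInt_of_mem_qMul h00) (one_mem _)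
    have R11 : h 1 1 ∈ qInt q := by simpa using add_mem (mem_qInt_of_mem_qMul h11) (one_mem _)
    refine ⟨?_, ?_, ?_, ?_⟩ <;> rw [mul_apply_two]
    · rw [show g 0 0 * h 0 0 + g 0 1 * h 1 0 - 1
        = (g 0 0 - 1) * h 0 0 + g 0 1 * h 1 0 + (h 0 0 - 1) by ring]
      exact add_mem (add_mem (qMul_mul_right g00 R00)
        (qMul_mul_right g01 (mem_qInt_of_mem_qMul h10))) h00
    · rw [show g 0 0 * h 0 1 + g 0 1 * h 1 1 = (g 0 0 - 1) * h 0 1 + g 0 1 * h 1 1 + h 0 1 by ring]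
      exact add_mem (add_mem (qMul_mul_right g00 (mem_qInt_of_mem_qMul h01))
        (qMul_mul_right g01 R11)) h01
    · rw [show g 1 0 * h 0 0 + g 1 1 * h 1 0 = g 1 0 * h 0 0 + (g 1 1 - 1) * h 1 0 + h 1 0 by ring]
      exact add_mem (add_mem (qMul_mul_right g10 R00)
        (qMul_mul_right g11 (mem_qInt_of_mem_qMul h10))) h10
    · rw [show g 1 0 * h 0 1 + g 1 1 * h 1 1 - 1
        = g 1 0 * h 0 1 + (g 1 1 - 1) * h 1 1 + (h 1 1 - 1) by ring]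
      exact add_mem (add_mem (qMul_mul_right g10 (mem_qInt_of_mem_qMul h01))
        (qMul_mul_right g11 R11)) h11
  inv_mem' := by
    rintro g ⟨g00, g01, g10, g11⟩
    obtain ⟨h1, h2, h3, h4⟩ := inv_apply g
    refine ⟨?_, ?_, ?_, ?_⟩
    · rw [h1]; exact g11
    · rw [h2]; exact neg_mem g01
    · rw [h3]; exact neg_mem g10
    · rw [h4]; exact g00

variable {q} {M : ℕ}

theorem mem_qGamma {g : SL(2, ℚ)} : g ∈ qGamma q M ↔ g 0 0 - 1 ∈ qMul q M ∧ g 0 1 ∈ qMul q M ∧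
    g 1 0 ∈ qMul q M ∧ g 1 1 - 1 ∈ qMul q M := Iff.rfl

theorem qGamma_mono {M' : ℕ} (h : M ∣ M') : qGamma q M' ≤ qGamma q M := fun _ ⟨a, b, c, d⟩ =>
  ⟨qMul_mono h a, qMul_mono h b, qMul_mono h c, qMul_mono h d⟩

theorem apply_mem_qInt {g : SL(2, ℚ)} (hg : g ∈ qGamma q M) (i j : Fin 2) : g i j ∈ qInt q := by
  obtain ⟨a, b, c, d⟩ := hg
  fin_cases i <;> fin_cases j
  · simpa using add_mem (mem_qInt_of_mem_qMul a) (one_mem _)
  · exact mem_qInt_of_mem_qMul b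
  · exact mem_qInt_of_mem_qMul c
  · simpa using add_mem (mem_qInt_of_mem_qMul d) (one_mem _)

theorem mem_qGamma_one_iff {g : SL(2, ℚ)} : g ∈ qGamma q 1 ↔ ∀ i j, g i j ∈ qInt q := by
  refine ⟨apply_mem_qInt, fun h => ?_⟩
  simp only [mem_qGamma, qMul_one, Subring.mem_toAddSubgroup]
  exact ⟨sub_mem (h 0 0) (one_mem _), h 0 1, h 1 0, sub_mem (h 1 1) (one_mem _)⟩

/-- Two elements congruent modulo `M` differ by an element of level `M`. -/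
theorem mul_inv_mem_qGamma {g h : SL(2, ℚ)} (hh : h ∈ qGamma q 1)
    (hd : ∀ i j, g i j - h i j ∈ qMul q M) : g * h⁻¹ ∈ qGamma q M := by
  obtain ⟨i1, i2, i3, i4⟩ := inv_apply h
  have hR := apply_mem_qInt hh
  have hdet := det_eq h
  rw [mem_qGamma]
  simp only [mul_apply_two, i1, i2, i3, i4]
  refine ⟨?_, ?_, ?_, ?_⟩
  · rw [show g 0 0 * h 1 1 + g 0 1 * -h 1 0 - 1 = (g 0 0 - h 0 0) * h 1 1
      + (g 0 1 - h 0 1) * -h 1 0 by linear_combination hdet]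
    exact add_mem (qMul_mul_right (hd 0 0) (hR 1 1))
      (qMul_mul_right (hd 0 1) (neg_mem (hR 1 0)))
  · rw [show g 0 0 * -h 0 1 + g 0 1 * h 0 0 = (g 0 0 - h 0 0) * -h 0 1
      + (g 0 1 - h 0 1) * h 0 0 by ring]
    exact add_mem (qMul_mul_right (hd 0 0) (neg_mem (hR 0 1))) (qMul_mul_right (hd 0 1) (hR 0 0))
  · rw [show g 1 0 * h 1 1 + g 1 1 * -h 1 0 = (g 1 0 - h 1 0) * h 1 1
      + (g 1 1 - h 1 1) * -h 1 0 by ring]
    exact add_mem (qMul_mul_right (hd 1 0) (hR 1 1)) (qMul_mul_right (hd 1 1) (neg_mem (hR 1 0)))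
  · rw [show g 1 0 * -h 0 1 + g 1 1 * h 0 0 - 1 = (g 1 0 - h 1 0) * -h 0 1
      + (g 1 1 - h 1 1) * h 0 0 by linear_combination hdet]
    exact add_mem (qMul_mul_right (hd 1 0) (neg_mem (hR 0 1))) (qMul_mul_right (hd 1 1) (hR 0 0))

theorem upper_mem_qGamma {t : ℚ} (ht : t ∈ qMul q M) : upper t ∈ qGamma q M := by
  simp [mem_qGamma, ht, zero_mem]

theorem lower_mem_qGamma {t : ℚ} (ht : t ∈ qMul q M) : lower t ∈ qGamma q M := by
  simp [mem_qGamma, ht, zero_mem]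

theorem conj_apply (x g : SL(2, ℚ)) (i j : Fin 2) :
    (x * g * x⁻¹) i j - (if i = j then 1 else 0) =
      x i 0 * (g 0 0 - 1) * x⁻¹ 0 j + x i 0 * g 0 1 * x⁻¹ 1 j
        + x i 1 * g 1 0 * x⁻¹ 0 j + x i 1 * (g 1 1 - 1) * x⁻¹ 1 j := by
  have h : (x * x⁻¹) i j = if i = j then 1 else 0 := by
    rw [mul_inv_cancel, Matrix.SpecialLinearGroup.coe_one, Matrix.one_apply]
  rw [← h, mul_apply_two, mul_apply_two, mul_apply_two, mul_apply_two]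
  ring

theorem conj_mem_qGamma_of_den {x : SL(2, ℚ)} {D : ℕ} (hD : ∀ i j, (D : ℚ) * x i j ∈ qInt q)
    {g : SL(2, ℚ)} (hg : g ∈ qGamma q (M * (D * D))) : x * g * x⁻¹ ∈ qGamma q M := by
  have hinv : ∀ i j, (D : ℚ) * x⁻¹ i j ∈ qInt q := by
    obtain ⟨i1, i2, i3, i4⟩ := inv_apply x
    intro i j
    fin_cases i <;> fin_cases j
    · show (D : ℚ) * x⁻¹ 0 0 ∈ _; rw [i1]; exact hD 1 1
    · show (D : ℚ) * x⁻¹ 0 1 ∈ _; rw [i2, mul_neg]; exact neg_mem (hD 0 1)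
    · show (D : ℚ) * x⁻¹ 1 0 ∈ _; rw [i3, mul_neg]; exact neg_mem (hD 1 0)
    · show (D : ℚ) * x⁻¹ 1 1 ∈ _; rw [i4]; exact hD 0 0
  have key : ∀ i j k l, ∀ e ∈ qMul q (M * (D * D)), x i k * e * x⁻¹ l j ∈ qMul q M := by
    intro i j k l e he
    obtain ⟨y, hy, rfl⟩ := mem_qMul.mp he
    rw [show x i k * (((M * (D * D) : ℕ) : ℚ) * y) * x⁻¹ l j
      = (M : ℚ) * (((D : ℚ) * x i k) * y * ((D : ℚ) * x⁻¹ l j)) by push_cast; ring]
    exact mul_natCast_mem_qMul (mul_mem (mul_mem (hD i k) hy) (hinv l j))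
  obtain ⟨a, b, c, d⟩ := hg
  have h : ∀ i j, (x * g * x⁻¹) i j - (if i = j then 1 else 0) ∈ qMul q M := fun i j => by
    rw [conj_apply]
    exact add_mem (add_mem (add_mem (key i j 0 0 _ a) (key i j 0 1 _ b)) (key i j 1 0 _ c))
      (key i j 1 1 _ d)
  rw [mem_qGamma]
  exact ⟨by simpa using h 0 0, by simpa using h 0 1, by simpa using h 1 0, by simpa using h 1 1⟩

theorem conj_mem_qGamma {x g : SL(2, ℚ)} (hx : x ∈ qGamma q 1) (hg : g ∈ qGamma q M) :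
    x * g * x⁻¹ ∈ qGamma q M :=
  conj_mem_qGamma_of_den (D := 1) (fun i j => by simpa using apply_mem_qInt hx i j)
    (by simpa using hg)

theorem exists_conj_level (hq : q.Prime) (hM : 0 < M) (hMq : M.Coprime q) (x : SL(2, ℚ)) :
    ∃ M', 0 < M' ∧ M'.Coprime q ∧ M ∣ M' ∧ ∀ g ∈ qGamma q M', x * g * x⁻¹ ∈ qGamma q M := by
  obtain ⟨D00, p00, c00, h00⟩ := exists_den hq (x 0 0)
  obtain ⟨D01, p01, c01, h01⟩ := exists_den hq (x 0 1)
  obtain ⟨D10, p10, c10, h10⟩ := exists_den hq (x 1 0)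
  obtain ⟨D11, p11, c11, h11⟩ := exists_den hq (x 1 1)
  set D := D00 * D01 * D10 * D11 with hDdef
  refine ⟨M * (D * D), by positivity, ?_, dvd_mul_right _ _,
    fun g hg => conj_mem_qGamma_of_den ?_ hg⟩
  · have : D.Coprime q := ((c00.mul_left c01).mul_left c10).mul_left c11
    exact hMq.mul_left (this.mul_left this)
  · intro i j
    have e : ∀ (A B : ℕ) (y : ℚ), (B : ℚ) * y ∈ qInt q → B ∣ A → (A : ℚ) * y ∈ qInt q := by
      rintro A B y hy ⟨c, rfl⟩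
      rw [Nat.cast_mul, mul_comm (B : ℚ), mul_assoc]
      exact mul_mem (natCast_mem _ c) hy
    fin_cases i <;> fin_cases j
    · exact e _ _ _ h00 ⟨D01 * D10 * D11, by rw [hDdef]; ring⟩
    · exact e _ _ _ h01 ⟨D00 * D10 * D11, by rw [hDdef]; ring⟩
    · exact e _ _ _ h10 ⟨D00 * D01 * D11, by rw [hDdef]; ring⟩
    · exact e _ _ _ h11 ⟨D00 * D01 * D10, by rw [hDdef]; ring⟩

end Groups

end FLTAgent.LevelRaising
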