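import Fermat.Agent.LevelRaising.Manin
import Mathlib.Analysis.Complex.UpperHalfPlane.MoebiusAction

/-!
# The side function of a geodesic between two cusps

`side r s z` says on which side of the geodesic from `r` to `s` the point `z` lies. It is invariant
under rational matrices of positive determinant, and between translates of two given points it
changes only finitely often.
-/

set_option autoImplicit false

noncomputable section

open Matrix UpperHalfPlane
open scoped MatrixGroups ComplexConjugate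

namespace FLTAgent.LevelRaising

/-- The numerator of a cusp. -/
def cnum : Cusp → ℝ
  | OnePoint.infty => 1
  | (x : ℚ) => (x : ℝ)

/-- The denominator of a cusp. -/
def cden : Cusp → ℝ
  | OnePoint.infty => 0
  | (_x : ℚ) => 1

@[simp] theorem cnum_infty : cnum OnePoint.infty = 1 := rfl
@[simp] theorem cden_infty : cden OnePoint.infty = 0 := rfl
@[simp] theorem cnum_coe (x : ℚ) : cnum (x : Cusp) = (x : ℝ) := rfl
@[simp] theorem cden_coe (x : ℚ) : cden (x : Cusp) = 1 := rfl

/-- The quadratic expression whose sign is the side. -/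
def sideQ (a c b d : ℝ) (z : ℂ) : ℝ :=
  ((((c : ℂ) * z - a) * conj ((d : ℂ) * z - b))).re * (a * d - b * c)

/-- The side of `z` with respect to the geodesic from `r` to `s`. -/
def side (r s : Cusp) (z : ℍ) : ℤ :=
  (SignType.sign (sideQ (cnum r) (cden r) (cnum s) (cden s) z) : ℤ)

theorem sideQ_scale (a c b d l m : ℝ) (z : ℂ) :
    sideQ (l * a) (l * c) (m * b) (m * d) z = (l * m) ^ 2 * sideQ a c b d z := by
  have h : ((((l * c : ℝ) : ℂ) * z - ((l * a : ℝ) : ℂ)) *
      conj (((m * d : ℝ) : ℂ) * z - ((m * b : ℝ) : ℂ))) =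
      ((l * m : ℝ) : ℂ) * (((c : ℂ) * z - a) * conj ((d : ℂ) * z - b)) := by
    simp only [map_sub, map_mul, Complex.conj_ofReal]
    push_cast
    ring
  unfold sideQ
  rw [h, Complex.re_ofReal_mul]
  ring

theorem sideQ_swap (a c b d : ℝ) (z : ℂ) : sideQ b d a c z = -sideQ a c b d z := by
  have h : (((d : ℂ) * z - b) * conj ((c : ℂ) * z - a)) =
      conj (((c : ℂ) * z - a) * conj ((d : ℂ) * z - b)) := by
    rw [map_mul, Complex.conj_conj, mul_comm]
  unfold sideQ
  rw [h, Complex.conj_re]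
  ring

theorem side_swap (r s : Cusp) (z : ℍ) : side s r z = -side r s z := by
  rw [side, side, sideQ_swap, Left.sign_neg]
  simp

@[simp] theorem side_self (r : Cusp) (z : ℍ) : side r r z = 0 := by
  simp [side, sideQ]

/-- The real points of a rational matrix. -/
def realGL : GL (Fin 2) ℚ →* GL (Fin 2) ℝ := GeneralLinearGroup.map (Rat.castHom ℝ)

theorem realGL_apply (g : GL (Fin 2) ℚ) (i j : Fin 2) : realGL g i j = (g i j : ℝ) := rfl

theorem realGL_glQ_smul (g : SL(2, ℤ)) (z : ℍ) : realGL (glQ g) • z = g • z := by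
  rw [ModularGroup.sl_moeb]
  congr 1
  ext i j
  simp [realGL_apply, glQ_apply]

theorem exists_scale_smul (g : GL (Fin 2) ℚ) (x : Cusp) :
    ∃ l : ℝ, l ≠ 0 ∧ (g 0 0 : ℝ) * cnum x + (g 0 1 : ℝ) * cden x = l * cnum (g • x) ∧
      (g 1 0 : ℝ) * cnum x + (g 1 1 : ℝ) * cden x = l * cden (g • x) := by
  have hdet := g.det_ne_zero
  rw [Matrix.det_fin_two] at hdet
  induction x using OnePoint.rec with
  | infty =>
    rw [OnePoint.smul_infty_eq_ite]
    split_ifs with h
    · refine ⟨g 0 0, ?_, by simp, by simp [h]⟩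
      rw [h, mul_zero, sub_zero] at hdet
      exact_mod_cast (mul_ne_zero_iff.mp hdet).1
    · refine ⟨g 1 0, by exact_mod_cast h, ?_, by simp⟩
      simp only [cnum_infty, cden_infty, cnum_coe, Rat.cast_div]
      field_simp
      ring
  | coe x =>
    rw [OnePoint.smul_some_eq_ite]
    split_ifs with h
    · refine ⟨g 0 0 * x + g 0 1, fun h0 => ?_, by simp, ?_⟩
      · have h0' : g 0 0 * x + g 0 1 = 0 := by exact_mod_cast h0
        exact hdet (by linear_combination g 0 0 * h - g 1 0 * h0')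
      · simpa using congrArg (fun r : ℚ => (r : ℝ)) h
    · refine ⟨g 1 0 * x + g 1 1, by exact_mod_cast h, ?_, by simp⟩
      have h' : (g 1 0 : ℝ) * x + g 1 1 ≠ 0 := by exact_mod_cast h
      simp only [cnum_coe, cden_coe, Rat.cast_div, Rat.cast_add, Rat.cast_mul, mul_one]
      rw [mul_div_cancel₀ _ h']

/-- Invariance of the side function. -/
theorem side_smul (g : GL (Fin 2) ℚ) (hg : 0 < g.det.val) (r s : Cusp) (z : ℍ) :
    side (g • r) (g • s) (realGL g • z) = side r s z := by
  have hgd : 0 < (realGL g).det.val := by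
    have : (realGL g).det.val = ((g.det.val : ℚ) : ℝ) := by
      rw [Matrix.GeneralLinearGroup.val_det_apply, Matrix.GeneralLinearGroup.val_det_apply,
        Matrix.det_fin_two, Matrix.det_fin_two]
      simp [realGL_apply]
    rw [this]
    exact_mod_cast hg
  obtain ⟨l, hl, hl0, hl1⟩ := exists_scale_smul g r
  obtain ⟨m, hm, hm0, hm1⟩ := exists_scale_smul g s
  set Δ : ℝ := (g 0 0 : ℝ) * g 1 1 - g 0 1 * g 1 0 with hΔ
  have hΔpos : 0 < Δ := by
    rw [Matrix.GeneralLinearGroup.val_det_apply, Matrix.det_fin_two] at hg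
    rw [hΔ]
    exact_mod_cast hg
  have hden : denom (realGL g) z ≠ 0 := denom_ne_zero _ _
  have hpos : 0 < Complex.normSq (denom (realGL g) z) := Complex.normSq_pos.mpr hden
  have key : sideQ (l * cnum (g • r)) (l * cden (g • r)) (m * cnum (g • s)) (m * cden (g • s))
      ((realGL g • z : ℍ) : ℂ) =
        Δ ^ 3 / Complex.normSq (denom (realGL g) z) *
          sideQ (cnum r) (cden r) (cnum s) (cden s) z := by
    rw [← hl0, ← hl1, ← hm0, ← hm1]
    have lin : ∀ a c : ℝ,
        ((((g 1 0 : ℝ) * a + (g 1 1 : ℝ) * c : ℝ) : ℂ) * ((realGL g • z : ℍ) : ℂ)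
          - (((g 0 0 : ℝ) * a + (g 0 1 : ℝ) * c : ℝ) : ℂ)) =
        (Δ : ℂ) * ((c : ℂ) * z - a) / denom (realGL g) z := by
      intro a c
      rw [eq_div_iff hden, UpperHalfPlane.coe_smul_of_det_pos hgd, sub_mul, mul_assoc,
        div_mul_cancel₀ _ hden, hΔ]
      simp only [num, denom, realGL_apply]
      push_cast
      ring
    unfold sideQ
    rw [lin, lin, map_div₀, map_mul, Complex.conj_ofReal, div_mul_div_comm, Complex.mul_conj]
    rw [show (Δ : ℂ) * ((cden r : ℂ) * (z : ℂ) - cnum r) *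
        ((Δ : ℂ) * conj ((cden s : ℂ) * (z : ℂ) - cnum s)) /
        ((Complex.normSq (denom (realGL g) z) : ℝ) : ℂ) =
        ((Δ ^ 2 / Complex.normSq (denom (realGL g) z) : ℝ) : ℂ) *
          (((cden r : ℂ) * (z : ℂ) - cnum r) * conj ((cden s : ℂ) * (z : ℂ) - cnum s)) by
      push_cast; ring, Complex.re_ofReal_mul, hΔ]
    ring
  rw [sideQ_scale] at key
  rw [side, side]
  congr 1
  have h1 : SignType.sign ((l * m) ^ 2 : ℝ) = 1 :=
    sign_pos (lt_of_le_of_ne (sq_nonneg _) (pow_ne_zero 2 (mul_ne_zero hl hm)).symm)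
  have h2 : SignType.sign (Δ ^ 3 / Complex.normSq (denom (realGL g) z)) = 1 :=
    sign_pos (by positivity)
  have := congrArg SignType.sign key
  rwa [sign_mul, sign_mul, h1, h2, one_mul, one_mul] at this

theorem glQ_det_pos (g : SL(2, ℤ)) : 0 < (glQ g).det.val := by
  rw [Matrix.GeneralLinearGroup.val_det_apply, Matrix.det_fin_two]
  have h := g.det_coe
  rw [Matrix.det_fin_two] at h
  have h' : ((g 0 0 * g 1 1 - g 0 1 * g 1 0 : ℤ) : ℚ) = 1 := by rw [h]; norm_num
  push_cast at h'
  simp only [glQ_apply]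
  linarith

theorem side_glQ (g : SL(2, ℤ)) (r s : Cusp) (z : ℍ) :
    side (glQ g • r) (glQ g • s) (g • z) = side r s z := by
  rw [← realGL_glQ_smul, side_smul _ (glQ_det_pos g)]

theorem side_glQ_left (g : SL(2, ℤ)) (r s : Cusp) (z : ℍ) :
    side (glQ g • r) (glQ g • s) z = side r s (g⁻¹ • z) := by
  conv_lhs => rw [← smul_inv_smul g z, side_glQ]

theorem side_infty_coe (x : ℚ) (z : ℍ) :
    side OnePoint.infty (x : Cusp) z = (SignType.sign ((x : ℝ) - z.re) : ℤ) := by
  have h : sideQ 1 0 (x : ℝ) 1 z = (x : ℝ) - z.re := by simp [sideQ]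
  rw [side, cnum_infty, cden_infty, cnum_coe, cden_coe, h]

theorem side_coe_coe (u v : ℚ) (z : ℍ) : side (u : Cusp) (v : Cusp) z =
    (SignType.sign (((z.re - u) * (z.re - v) + z.im ^ 2) * ((u : ℝ) - v)) : ℤ) := by
  have h : sideQ (u : ℝ) 1 (v : ℝ) 1 z = ((z.re - u) * (z.re - v) + z.im ^ 2) * ((u : ℝ) - v) := by
    simp [sideQ, pow_two]
  rw [side, cnum_coe, cden_coe, cnum_coe, cden_coe, h]

/-! ### Finiteness -/

theorem im_smul_le (g : SL(2, ℤ)) (z : ℍ) : (g • z).im ≤ z.im + 1 / z.im := by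
  rw [ModularGroup.im_smul_eq_div_normSq, ModularGroup.denom_apply]
  have hy := z.im_pos
  rw [Complex.normSq_apply]
  simp only [Complex.add_re, Complex.mul_re, Complex.intCast_re, Complex.intCast_im, zero_mul,
    sub_zero, Complex.add_im, Complex.mul_im, add_zero, UpperHalfPlane.coe_re,
    UpperHalfPlane.coe_im]
  rcases eq_or_ne (g 1 0) 0 with h | h
  · have hd : g 1 1 * g 0 0 = 1 := by
      have h' := g.det_coe
      rw [Matrix.det_fin_two, h] at h'
      linarith
    have : (g 1 1 : ℝ) * (g 1 1 : ℝ) = 1 := by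
      rcases Int.eq_one_or_neg_one_of_mul_eq_one hd with h' | h' <;> simp [h']
    simp [h, this, hy.le]
  · have hc : (1 : ℝ) ≤ (g 1 0 : ℝ) * (g 1 0 : ℝ) := by
      exact_mod_cast (by nlinarith [mul_self_pos.mpr h] : 1 ≤ g 1 0 * g 1 0)
    have hle : z.im * z.im ≤ ((g 1 0 : ℝ) * z.re + g 1 1) * ((g 1 0 : ℝ) * z.re + g 1 1) +
        (g 1 0 : ℝ) * z.im * ((g 1 0 : ℝ) * z.im) := by
      nlinarith [mul_self_nonneg ((g 1 0 : ℝ) * z.re + g 1 1), mul_pos hy hy]
    calc z.im / _ ≤ z.im / (z.im * z.im) := by gcongr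
      _ = 1 / z.im := by field_simp
      _ ≤ _ := by linarith [hy]

theorem finite_setOf_im_re (z : ℍ) {δ : ℝ} (hδ : 0 < δ) (B : ℝ) :
    {g : SL(2, ℤ) | δ ≤ (g • z).im ∧ |(g • z).re| ≤ B}.Finite := by
  set y := z.im with hy
  have hy0 : 0 < y := z.im_pos
  set E := 1 + y / δ with hE
  set A := (|B| + (y + 1 / y)) * E / y with hA
  set C := (|B| + (y + 1 / y)) * E + A * |z.re| with hC
  set D := E + E / y * |z.re| with hD
  set K : ℤ := ⌈max (max A C) (max (E / y) D)⌉
  have hinj : Function.Injective fun g : SL(2, ℤ) => (g 0 0, g 0 1, g 1 0, g 1 1) := by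
    intro g g' h
    simp only [Prod.mk.injEq] at h
    ext i j
    fin_cases i <;> fin_cases j <;> simp [h.1, h.2.1, h.2.2.1, h.2.2.2]
  refine Set.Finite.subset ((Set.finite_Icc (-K, -K, -K, -K) (K, K, K, K)).preimage
    hinj.injOn) ?_
  rintro g ⟨h1, h2⟩
  set c : ℝ := ((g 1 0 : ℤ) : ℝ)
  set d : ℝ := ((g 1 1 : ℤ) : ℝ)
  have him := ModularGroup.im_smul_eq_div_normSq g z
  have hns : Complex.normSq (denom g z) = (c * z.re + d) ^ 2 + (c * y) ^ 2 := by
    rw [ModularGroup.denom_apply, Complex.normSq_apply]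
    simp [c, d, hy]
    ring
  have hpos : 0 < Complex.normSq (denom g z) :=
    normSq_denom_pos _ (by simpa using z.im_ne_zero)
  have hle : (c * z.re + d) ^ 2 + (c * y) ^ 2 ≤ y / δ := by
    rw [← hns, le_div_iff₀ hδ, mul_comm, ← le_div_iff₀ hpos]
    exact him ▸ h1
  have b1 : |c * y| ≤ E := by
    rw [hE, abs_le]
    constructor <;> nlinarith [sq_nonneg (c * z.re + d), sq_nonneg (c * y - 1),
      sq_nonneg (c * y + 1)]
  have b2 : |c * z.re + d| ≤ E := by
    rw [hE, abs_le]
    constructor <;> nlinarith [sq_nonneg (c * y), sq_nonneg (c * z.re + d - 1),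
      sq_nonneg (c * z.re + d + 1)]
  have hM : |(g • z).im| ≤ y + 1 / y := by
    rw [abs_of_pos (g • z).im_pos]; exact im_smul_le g z
  have e : ((g 0 0 : ℤ) : ℂ) * (z : ℂ) + ((g 0 1 : ℤ) : ℂ) =
      ((g • z : ℍ) : ℂ) * (((g 1 0 : ℤ) : ℂ) * (z : ℂ) + ((g 1 1 : ℤ) : ℂ)) := by
    have hne : denom g z ≠ 0 := denom_ne_zero _ _
    rw [ModularGroup.denom_apply] at hne
    rw [UpperHalfPlane.coe_specialLinearGroup_apply]
    simp only [algebraMap_int_eq, eq_intCast]
    rw [div_mul_eq_mul_div, eq_div_iff]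
    · push_cast; ring
    · simpa using hne
  have eim : ((g 0 0 : ℤ) : ℝ) * y = (g • z).re * (c * y) + (g • z).im * (c * z.re + d) := by
    have h := congrArg Complex.im e
    simp [Complex.mul_im] at h
    exact h
  have ere : ((g 0 0 : ℤ) : ℝ) * z.re + ((g 0 1 : ℤ) : ℝ) =
      (g • z).re * (c * z.re + d) - (g • z).im * (c * y) := by
    have h := congrArg Complex.re e
    simp [Complex.mul_re] at h
    exact h
  have hB : |(g • z).re| ≤ |B| := h2.trans (le_abs_self B)
  have b1' : |(g • z).re * (c * y)| ≤ |B| * E := by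
    rw [abs_mul]; exact mul_le_mul hB b1 (abs_nonneg _) (abs_nonneg _)
  have b1'' : |(g • z).im * (c * y)| ≤ (y + 1 / y) * E := by
    rw [abs_mul]; exact mul_le_mul hM b1 (abs_nonneg _) (by positivity)
  have b2' : |(g • z).re * (c * z.re + d)| ≤ |B| * E := by
    rw [abs_mul]; exact mul_le_mul hB b2 (abs_nonneg _) (abs_nonneg _)
  have b2'' : |(g • z).im * (c * z.re + d)| ≤ (y + 1 / y) * E := by
    rw [abs_mul]; exact mul_le_mul hM b2 (abs_nonneg _) (by positivity)
  have ba : |((g 0 0 : ℤ) : ℝ)| ≤ A := by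
    rw [hA, le_div_iff₀ hy0, ← abs_of_pos hy0, ← abs_mul, abs_of_pos hy0, eim]
    refine (abs_add_le _ _).trans ?_
    rw [add_mul]
    exact add_le_add b1' b2''
  have bb : |((g 0 1 : ℤ) : ℝ)| ≤ C := by
    have hb : ((g 0 1 : ℤ) : ℝ) =
        ((g • z).re * (c * z.re + d) - (g • z).im * (c * y)) - (g 0 0 : ℤ) * z.re := by
      linarith
    rw [hb, hC]
    refine (abs_sub _ _).trans (add_le_add ((abs_sub _ _).trans ?_) ?_)
    · rw [add_mul]
      exact add_le_add b2' b1''
    · rw [abs_mul]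
      exact mul_le_mul_of_nonneg_right ba (abs_nonneg _)
  have bc : |c| ≤ E / y := by
    rw [le_div_iff₀ hy0, ← abs_of_pos hy0, ← abs_mul]; exact b1
  have bd : |d| ≤ D := by
    rw [hD]
    have : d = (c * z.re + d) - c * z.re := by ring
    rw [this]
    refine (abs_sub _ _).trans (add_le_add b2 ?_)
    rw [abs_mul]
    exact mul_le_mul_of_nonneg_right bc (abs_nonneg _)
  have hK : max (max A C) (max (E / y) D) ≤ (K : ℝ) := Int.le_ceil _
  have cast : ∀ n : ℤ, |(n : ℝ)| ≤ max (max A C) (max (E / y) D) → -K ≤ n ∧ n ≤ K := by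
    intro n hn
    have h' : |(n : ℝ)| ≤ (K : ℝ) := hn.trans hK
    rw [abs_le] at h'
    exact ⟨by exact_mod_cast h'.1, by exact_mod_cast h'.2⟩
  have ca := cast _ (ba.trans ((le_max_left _ _).trans (le_max_left _ _)))
  have cb := cast _ (bb.trans ((le_max_right _ _).trans (le_max_left _ _)))
  have cc := cast _ (bc.trans ((le_max_left _ _).trans (le_max_right _ _)))
  have cd := cast _ (bd.trans ((le_max_right _ _).trans (le_max_right _ _)))
  exact ⟨⟨ca.1, cb.1, cc.1, cd.1⟩, ⟨ca.2, cb.2, cc.2, cd.2⟩⟩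

/-- Points high at a rational cusp are bounded away from the real axis. -/
theorem im_le_of_cusp (z : ℍ) (x : ℚ) (g : SL(2, ℤ)) :
    (g • z).im ≤ (z.im + 1 / z.im) * (x.den : ℝ) ^ 2 *
      (((g • z).re - x) ^ 2 + (g • z).im ^ 2) := by
  have hcop : IsCoprime (x.den : ℤ) (-x.num) := by
    rw [IsCoprime.neg_right_iff, Int.isCoprime_iff_gcd_eq_one]
    simpa [Int.gcd, Nat.coprime_comm, Nat.Coprime, Nat.gcd_comm] using x.reduced
  obtain ⟨h, -, hh⟩ := ModularGroup.bottom_row_surj (R := ℤ) (a := ![(x.den : ℤ), -x.num])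
    (by simpa using hcop)
  have h0 : h 1 0 = x.den := congrFun hh 0
  have h1 : h 1 1 = -x.num := congrFun hh 1
  have hle := im_smul_le (h * g) z
  rw [mul_smul, ModularGroup.im_smul_eq_div_normSq, ModularGroup.denom_apply,
    Complex.normSq_apply] at hle
  generalize g • z = w at hle ⊢
  simp [h0, h1] at hle
  have hn : (x.num : ℝ) = x * x.den := by
    have := x.mul_den_eq_num
    exact_mod_cast this.symm
  rw [hn] at hle
  have hd : (0 : ℝ) < x.den := by exact_mod_cast x.pos
  have hwpos := w.im_pos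
  rw [div_le_iff₀ (by nlinarith [mul_pos hd hwpos, sq_nonneg ((x.den : ℝ) * w.re + -(x * x.den))])]
    at hle
  refine hle.trans (le_of_eq ?_)
  rw [one_div]
  ring

/-- The side function of a geodesic changes finitely often between translates. -/
theorem finite_side_ne_infty (x : ℚ) (z w : ℍ) :
    {g : SL(2, ℤ) | side OnePoint.infty (x : Cusp) (g • z) ≠
      side OnePoint.infty (x : Cusp) (g • w)}.Finite := by
  set C := ((z.re - w.re) ^ 2 + (z.im - w.im) ^ 2) / (z.im * w.im) with hC
  have hC0 : 0 ≤ C := by positivity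
  set M := z.im + 1 / z.im with hM
  set M' := w.im + 1 / w.im with hM'
  have hzp := z.im_pos
  have hwp := w.im_pos
  have hMp : 0 < M := by positivity
  have hMp' : 0 < M' := by positivity
  set d : ℝ := (x.den : ℝ) ^ 2 with hd
  have hdp : 0 < d := by have := x.pos; positivity
  refine (finite_setOf_im_re z (δ := 1 / (M * d * (C * (C + 2) + 1))) (by positivity)
    (|(x : ℝ)| + (C * M * M' + 1))).subset ?_
  intro g hg
  simp only [Set.mem_ofPred_eq, side_infty_coe] at hg
  set a := g • z with ha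
  set b := g • w with hb
  have hdist : ((a.re - b.re) ^ 2 + (a.im - b.im) ^ 2) = C * a.im * b.im := by
    have e : (a : ℂ) - b = ((z : ℂ) - w) / (denom g z * denom g w) := by
      have hz : denom g (z : ℂ) ≠ 0 := denom_ne_zero _ _
      have hw : denom g (w : ℂ) ≠ 0 := denom_ne_zero _ _
      rw [ha, hb, ModularGroup.denom_apply, ModularGroup.denom_apply] at *
      rw [UpperHalfPlane.coe_specialLinearGroup_apply, UpperHalfPlane.coe_specialLinearGroup_apply]
      simp only [algebraMap_int_eq, eq_intCast]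
      have hdet : ((g 0 0 : ℤ) : ℂ) * (g 1 1 : ℤ) - (g 0 1 : ℤ) * (g 1 0 : ℤ) = 1 := by
        have h := g.det_coe
        rw [Matrix.det_fin_two] at h
        exact_mod_cast h
      push_cast
      rw [div_sub_div _ _ hz hw]
      congr 1
      linear_combination ((z : ℂ) - w) * hdet
    have e2 := congrArg Complex.normSq e
    rw [Complex.normSq_div, Complex.normSq_mul, Complex.normSq_apply, Complex.normSq_apply] at e2
    simp only [Complex.sub_re, Complex.sub_im, UpperHalfPlane.coe_re, UpperHalfPlane.coe_im] at e2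
    rw [ha, hb] at e2 ⊢
    rw [ModularGroup.im_smul_eq_div_normSq g z, ModularGroup.im_smul_eq_div_normSq g w] at e2 ⊢
    rw [hC]
    field_simp at e2 ⊢
    linear_combination e2
  have hprod : (a.re - x) * (b.re - x) ≤ 0 := by
    by_contra hcon
    push Not at hcon
    apply hg
    rcases pos_and_pos_or_neg_and_neg_of_mul_pos hcon with ⟨h1, h2⟩ | ⟨h1, h2⟩
    · rw [sign_neg (by linarith), sign_neg (by linarith)]
    · rw [sign_pos (by linarith), sign_pos (by linarith)]
  have hre : (a.re - x) ^ 2 ≤ C * a.im * b.im := by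
    nlinarith [sq_nonneg (a.im - b.im), sq_nonneg (b.re - x)]
  have hb2 : b.im ≤ (C + 2) * a.im := by
    have hap := a.im_pos
    have hbp := b.im_pos
    by_contra hcon
    push Not at hcon
    nlinarith [mul_lt_mul_of_pos_left hcon hbp, sq_nonneg (a.re - b.re), sq_nonneg a.im]
  have hiM := im_smul_le g z
  have hiM' := im_smul_le g w
  refine ⟨?_, ?_⟩
  · have h1 := im_le_of_cusp z x g
    rw [← hd, ← hM, ← ha] at h1
    have hap := a.im_pos
    have h2 : (a.re - x) ^ 2 + a.im ^ 2 ≤ a.im ^ 2 * (C * (C + 2) + 1) := by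
      nlinarith [mul_le_mul_of_nonneg_left hb2 (mul_nonneg hC0 hap.le)]
    have h3 : a.im ≤ M * d * (C * (C + 2) + 1) * a.im * a.im := by
      nlinarith [mul_le_mul_of_nonneg_left h2 (mul_nonneg hMp.le hdp.le)]
    rw [div_le_iff₀ (by positivity)]
    nlinarith
  · have h1 : (a.re - x) ^ 2 ≤ C * M * M' := hre.trans
      (mul_le_mul (mul_le_mul_of_nonneg_left hiM hC0) hiM' b.im_pos.le (by positivity))
    have h2 : |a.re - x| ≤ C * M * M' + 1 := by
      nlinarith [sq_nonneg (|a.re - x| - 1), sq_abs (a.re - x), abs_nonneg (a.re - x)]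
    calc |a.re| = |(a.re - x) + x| := by ring_nf
      _ ≤ |a.re - x| + |(x : ℝ)| := abs_add_le _ _
      _ ≤ _ := by linarith

theorem exists_glQ_infty (r : Cusp) : ∃ h : SL(2, ℤ), glQ h • (OnePoint.infty : Cusp) = r := by
  induction r using OnePoint.rec with
  | infty => exact ⟨1, by simp⟩
  | coe x =>
    obtain ⟨u, v, huv⟩ : IsCoprime x.num (x.den : ℤ) := by
      rw [Int.isCoprime_iff_gcd_eq_one]; simpa [Int.gcd] using x.reduced
    obtain ⟨h, hh⟩ : ∃ h : SL(2, ℤ),
        (h : Matrix (Fin 2) (Fin 2) ℤ) = !![x.num, -v; (x.den : ℤ), u] :=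
      ⟨⟨_, by rw [Matrix.det_fin_two_of]; linear_combination huv⟩, rfl⟩
    refine ⟨h, ?_⟩
    rw [OnePoint.smul_infty_eq_ite, glQ_apply, glQ_apply, hh]
    simp [x.den_nz, Rat.num_div_den]

theorem glQ_inv_smul_smul (h : SL(2, ℤ)) (x : Cusp) : glQ h • glQ h⁻¹ • x = x := by
  rw [map_inv, smul_inv_smul]

theorem finite_side_ne (r s : Cusp) (z w : ℍ) :
    {g : SL(2, ℤ) | side r s (g • z) ≠ side r s (g • w)}.Finite := by
  obtain ⟨h, rfl⟩ := exists_glQ_infty r
  obtain ⟨s', rfl⟩ : ∃ s', glQ h • s' = s := ⟨glQ h⁻¹ • s, glQ_inv_smul_smul h s⟩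
  simp only [side_glQ_left h]
  induction s' using OnePoint.rec with
  | infty => simp
  | coe x =>
    refine ((finite_side_ne_infty x z w).preimage (f := fun g : SL(2, ℤ) => h⁻¹ * g)
      fun a _ b _ hab => mul_left_cancel hab).subset fun g hg => ?_
    simpa [mul_smul] using hg

/-- The defect of additivity. -/
def sideTri (r s t : Cusp) (z : ℍ) : ℤ := side r s z + side s t z + side t r z

theorem finite_sideTri_infty {u v : ℚ} (huv : u < v) (z : ℍ) :
    {g : SL(2, ℤ) | sideTri OnePoint.infty (u : Cusp) (v : Cusp) (g • z) ≠ -1}.Finite := by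
  set M := z.im + 1 / z.im with hM
  have hzp := z.im_pos
  have hMp : 0 < M := by positivity
  set du : ℝ := (u.den : ℝ) ^ 2
  set dv : ℝ := (v.den : ℝ) ^ 2
  have hdu : 0 < du := by have := u.pos; positivity
  have hdv : 0 < dv := by have := v.pos; positivity
  set L : ℝ := (v : ℝ) - u
  have hL : 0 < L := sub_pos.mpr (by exact_mod_cast huv)
  set K := M * (du + dv) * (4 * M ^ 2 / L ^ 2 + 1)
  refine (finite_setOf_im_re z (δ := 1 / K) (by positivity) (|(u : ℝ)| + |(v : ℝ)|)).subset ?_
  intro g hg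
  set a := g • z with ha
  have hap := a.im_pos
  have haM : a.im ≤ M := im_smul_le g z
  simp only [Set.mem_ofPred_eq, sideTri, side_infty_coe, side_coe_coe,
    side_swap OnePoint.infty (v : Cusp), ← ha] at hg
  obtain ⟨hu1, hv1⟩ : (u : ℝ) ≤ a.re ∧ a.re ≤ v := by
    constructor
    · by_contra hcon
      push Not at hcon
      have h1 : 0 < (a.re - u) * (a.re - v) + a.im ^ 2 := by nlinarith
      rw [sign_pos (sub_pos.mpr hcon), sign_neg (mul_neg_of_pos_of_neg h1 (by linarith)),
        sign_pos (by linarith : (0 : ℝ) < v - a.re)] at hg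
      simp at hg
    · by_contra hcon
      push Not at hcon
      have h1 : 0 < (a.re - u) * (a.re - v) + a.im ^ 2 := by nlinarith
      rw [sign_neg (by linarith : (u : ℝ) - a.re < 0),
        sign_neg (mul_neg_of_pos_of_neg h1 (by linarith)), sign_neg (sub_neg.mpr hcon)] at hg
      simp at hg
  have hE : (a.re - u) * (v - a.re) ≤ a.im ^ 2 := by
    by_contra hcon
    push Not at hcon
    have h1 : 0 < a.re - u := by
      rcases hu1.lt_or_eq with h | h
      · linarith
      · rw [← h, sub_self, zero_mul] at hcon; nlinarith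
    have h2 : 0 < (v : ℝ) - a.re := by
      rcases hv1.lt_or_eq with h | h
      · linarith
      · rw [← h, sub_self, mul_zero] at hcon; nlinarith
    rw [sign_neg (by linarith : (u : ℝ) - a.re < 0),
      sign_pos (mul_pos_of_neg_of_neg (by nlinarith) (by linarith)), sign_pos h2] at hg
    simp at hg
  refine ⟨?_, abs_le.mpr ⟨?_, ?_⟩⟩
  · have key : ∀ (x : ℚ) (dx : ℝ), dx = (x.den : ℝ) ^ 2 → dx ≤ du + dv →
        (L / 2) * |a.re - x| ≤ a.im ^ 2 → 1 / K ≤ a.im := by
      intro x dx hdx hle hclose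
      have h1 := im_le_of_cusp z x g
      rw [← hdx, ← hM, ← ha] at h1
      have hx0 : 0 < dx := by rw [hdx]; have := x.pos; positivity
      have h2 : (a.re - x) ^ 2 ≤ a.im ^ 2 * (4 * M ^ 2 / L ^ 2) := by
        have h3 : |a.re - x| ≤ 2 * a.im ^ 2 / L := by
          rw [le_div_iff₀ hL]; linarith
        calc (a.re - x) ^ 2 = |a.re - x| ^ 2 := (sq_abs _).symm
          _ ≤ (2 * a.im ^ 2 / L) ^ 2 := by gcongr
          _ = a.im ^ 2 * (4 * a.im ^ 2 / L ^ 2) := by ring_nf
          _ ≤ a.im ^ 2 * (4 * M ^ 2 / L ^ 2) := by gcongr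
      have h3 : a.im ≤ K * a.im * a.im := by
        refine h1.trans ?_
        calc M * dx * ((a.re - x) ^ 2 + a.im ^ 2)
            ≤ M * (du + dv) * (a.im ^ 2 * (4 * M ^ 2 / L ^ 2) + a.im ^ 2) := by gcongr
          _ = K * a.im * a.im := by simp only [K]; ring
      rw [div_le_iff₀ (by positivity)]
      nlinarith
    rcases le_total (a.re - u) (v - a.re) with h | h
    · refine key u du rfl (by linarith) ?_
      rw [abs_of_nonneg (by linarith)]
      have hhalf : L / 2 ≤ v - a.re := by simp only [L]; linarith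
      nlinarith [mul_le_mul_of_nonneg_left hhalf (sub_nonneg.mpr hu1)]
    · refine key v dv rfl (by linarith) ?_
      rw [abs_of_nonpos (by linarith)]
      have hhalf : L / 2 ≤ a.re - u := by simp only [L]; linarith
      nlinarith [mul_le_mul_of_nonneg_right hhalf (sub_nonneg.mpr hv1)]
  · linarith [neg_abs_le (u : ℝ), abs_nonneg (v : ℝ)]
  · linarith [le_abs_self (v : ℝ), abs_nonneg (u : ℝ)]

theorem exists_finite_sideTri (r s t : Cusp) (z : ℍ) :
    ∃ ε : ℤ, {g : SL(2, ℤ) | sideTri r s t (g • z) ≠ ε}.Finite := by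
  obtain ⟨h, rfl⟩ := exists_glQ_infty r
  obtain ⟨s', rfl⟩ : ∃ s', glQ h • s' = s := ⟨glQ h⁻¹ • s, glQ_inv_smul_smul h s⟩
  obtain ⟨t', rfl⟩ : ∃ t', glQ h • t' = t := ⟨glQ h⁻¹ • t, glQ_inv_smul_smul h t⟩
  suffices H : ∃ ε : ℤ, {g : SL(2, ℤ) | sideTri OnePoint.infty s' t' (g • z) ≠ ε}.Finite by
    obtain ⟨ε, hε⟩ := H
    refine ⟨ε, (hε.preimage (f := fun g : SL(2, ℤ) => h⁻¹ * g)
      fun a _ b _ hab => mul_left_cancel hab).subset fun g hg => ?_⟩
    simpa [sideTri, side_glQ_left, mul_smul] using hg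
  induction s' using OnePoint.rec with
  | infty =>
    refine ⟨0, Set.finite_empty.subset fun g hg => hg ?_⟩
    simp [sideTri, side_swap OnePoint.infty t']
  | coe u =>
    induction t' using OnePoint.rec with
    | infty =>
      refine ⟨0, Set.finite_empty.subset fun g hg => hg ?_⟩
      simp [sideTri, side_swap OnePoint.infty (u : Cusp)]
    | coe v =>
      rcases lt_trichotomy u v with h' | rfl | h'
      · exact ⟨-1, finite_sideTri_infty h' z⟩
      · refine ⟨0, Set.finite_empty.subset fun g hg => hg ?_⟩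
        simp [sideTri, side_swap OnePoint.infty (u : Cusp)]
      · refine ⟨1, (finite_sideTri_infty h' z).subset fun g hg h1 => hg ?_⟩
        simp only [sideTri] at h1 ⊢
        rw [side_swap (v : Cusp) (u : Cusp), side_swap OnePoint.infty (v : Cusp)]
        rw [side_swap OnePoint.infty (u : Cusp)] at h1
        linarith

end FLTAgent.LevelRaising
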